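import Fermat.Agent.CFT.Coh.H2

/-!
# Class formations modulo a cohomologically trivial submodule

If the invariants of every subgroup are norms and `H¹` of every subgroup vanishes on `U`, then `H²`
of every `p`-subgroup vanishes on `U`, and the step axioms and class formations pass from `C` to
`C / U`.
-/

set_option autoImplicit false
set_option linter.unusedSectionVars false
set_option linter.style.haveILetI false

noncomputable section

namespace Fermat.Agent.CFT.GW

open groupCohomology Fermat.Agent.CFT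

variable {G U C D : Type*} [Group G] [Finite G] [AddCommGroup U] [DistribMulAction G U]
  [AddCommGroup C] [DistribMulAction G C] [AddCommGroup D] [DistribMulAction G D]
  {p : ℕ} [hp : Fact p.Prime]

/-- The generator of a step normalises the smaller group. -/
theorem step_conj_pow_mem {H K : Subgroup G} {g : G} (hs : IsStep p H K g) {k : G} (hk : k ∈ K)
    (j : ℕ) : (g ^ j)⁻¹ * k * g ^ j ∈ K := by
  obtain ⟨χ, -, hker, -⟩ := hs.exists_char
  let γ : H := ⟨g, hs.mem⟩
  have h0 : (⟨k, hs.le hk⟩ : H) ∈ χ.ker := by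
    rw [hker, Subgroup.mem_subgroupOf]; exact hk
  have h1 := (inferInstance : χ.ker.Normal).conj_mem _ h0 (γ ^ j)⁻¹
  rw [hker, Subgroup.mem_subgroupOf] at h1
  simpa [γ] using h1

/-- Coordinates along a step. -/
theorem bijective_stepMul {H K : Subgroup G} {g : G} (hs : IsStep p H K g) :
    Function.Bijective (fun x : Fin p × K => (⟨g ^ (x.1 : ℕ) * (x.2 : G),
      mul_mem (pow_mem hs.mem _) (hs.le x.2.2)⟩ : H)) := by
  obtain ⟨χ, -, hker, hg⟩ := hs.exists_char
  have key : ∀ (x : Fin p × K), Multiplicative.toAdd (χ (⟨g ^ (x.1 : ℕ) * (x.2 : G),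
      mul_mem (pow_mem hs.mem _) (hs.le x.2.2)⟩ : H)) = ((x.1 : ℕ) : ZMod p) := fun x => by
    rw [show (⟨g ^ (x.1 : ℕ) * (x.2 : G), mul_mem (pow_mem hs.mem _) (hs.le x.2.2)⟩ : H) =
      (⟨g, hs.mem⟩ : H) ^ (x.1 : ℕ) * ⟨(x.2 : G), hs.le x.2.2⟩ from rfl, map_mul, map_pow, hg]
    have h0 : (⟨(x.2 : G), hs.le x.2.2⟩ : H) ∈ χ.ker := by
      rw [hker, Subgroup.mem_subgroupOf]; exact x.2.2
    rw [MonoidHom.mem_ker.1 h0, mul_one, ← ofAdd_nsmul, nsmul_one, toAdd_ofAdd]
  refine ⟨fun x y h => ?_, fun h => ?_⟩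
  · have h1 : x.1 = y.1 := by
      have e := (key x).symm.trans ((congrArg (fun z => Multiplicative.toAdd (χ z)) h).trans (key y))
      rw [ZMod.natCast_eq_natCast_iff', Nat.mod_eq_of_lt x.1.2, Nat.mod_eq_of_lt y.1.2] at e
      exact Fin.ext e
    refine Prod.ext h1 (Subtype.ext ?_)
    have := congrArg Subtype.val h
    simpa [h1] using this
  · set j : ℕ := (Multiplicative.toAdd (χ h)).val
    have hr : ((⟨g, hs.mem⟩ : H) ^ j)⁻¹ * h ∈ χ.ker := by
      rw [MonoidHom.mem_ker, map_mul, map_inv, map_pow, hg, ← ofAdd_nsmul, nsmul_one,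
        ZMod.natCast_zmod_val, ofAdd_toAdd, inv_mul_cancel]
    rw [hker, Subgroup.mem_subgroupOf] at hr
    exact ⟨(⟨j, ZMod.val_lt _⟩, ⟨_, hr⟩), Subtype.ext (by simp)⟩

/-- The norm of a step of a `K`-invariant element is `H`-invariant. -/
theorem smul_stepNorm_eq {H K : Subgroup G} {g : G} (hs : IsStep p H K g) {a : C}
    (ha : ∀ k ∈ K, k • a = a) : ∀ h ∈ H, h • stepNorm p g a = stepNorm p g a := by
  intro h hh
  obtain ⟨⟨j, k⟩, hjk⟩ := (bijective_stepMul hs).2 ⟨h, hh⟩
  have e : h = g ^ (j : ℕ) * (k : G) := (congrArg Subtype.val hjk).symm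
  have hk : (k : G) • stepNorm p g a = stepNorm p g a := by
    simp only [stepNorm, Finset.smul_sum]
    refine Finset.sum_congr rfl fun i _ => ?_
    conv_rhs => rw [← ha _ (step_conj_pow_mem hs k.2 i)]
    simp only [smul_smul, mul_assoc, mul_inv_cancel_left]
  have h1 : g • stepNorm p g a = stepNorm p g a := by
    simp only [stepNorm, Finset.smul_sum, smul_smul, ← pow_succ']
    have e1 := Finset.sum_range_succ' (fun i => g ^ i • a) p
    have e2 := Finset.sum_range_succ (fun i => g ^ i • a) p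
    rw [ha _ hs.pow_mem] at e2
    rw [pow_zero, one_smul, e2] at e1
    exact (add_right_cancel e1).symm
  have hj : ∀ i : ℕ, g ^ i • stepNorm p g a = stepNorm p g a := fun i => by
    induction i with
    | zero => rw [pow_zero, one_smul]
    | succ i ih => rw [pow_succ, mul_smul, h1, ih]
  rw [e, mul_smul, hk, hj]

theorem normSum_eq_stepNorm {H K : Subgroup G} {g : G} (hs : IsStep p H K g) [Fintype H] [Fintype K]
    (a : C) : normSum H C a = stepNorm p g (normSum K C a) := by
  rw [stepNorm, ← Fin.sum_univ_eq_sum_range (fun j => g ^ j • normSum K C a), normSum,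
    ← (Equiv.ofBijective _ (bijective_stepMul hs)).sum_comp, Fintype.sum_prod_type]
  refine Finset.sum_congr rfl fun j _ => ?_
  rw [normSum, Finset.smul_sum]
  exact Finset.sum_congr rfl fun k _ => mul_smul (g ^ (j : ℕ)) (k : G) a

/-- Invariants of the bigger group of a step are step norms. -/
theorem exists_stepNorm_eq {H K : Subgroup G} {g : G} (hs : IsStep p H K g)
    (hN : ∀ (S : Subgroup G) [Fintype S], NormSurj S U) (x : U) (hx : ∀ h ∈ H, h • x = x) :
    ∃ b : U, (∀ k ∈ K, k • b = b) ∧ stepNorm p g b = x := by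
  letI : Fintype H := Fintype.ofFinite _
  letI : Fintype K := Fintype.ofFinite _
  obtain ⟨w, hw⟩ := hN H x fun h => hx h h.2
  refine ⟨normSum K U w, fun k hk => smul_normSum (⟨k, hk⟩ : K) w, ?_⟩
  rw [← normSum_eq_stepNorm hs, hw]

/-- Trivial `H¹` and surjective norms on all subgroups kill `H²` of `p`-subgroups. -/
theorem h2Zero_of_normSurj (h1 : ∀ S : Subgroup G, H1Zero S U)
    (hN : ∀ (S : Subgroup G) [Fintype S], NormSurj S U) (H : Subgroup G) (hH : IsPGroup p H) :
    H2Zero H U := by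
  suffices key : ∀ (n : ℕ) (H : Subgroup G), Nat.card H = n → IsPGroup p H → H2Zero H U from
    key _ H rfl hH
  intro n
  induction n using Nat.strong_induction_on with
  | _ n ih =>
  intro H hn hH c hc
  rcases subsingleton_or_nontrivial H with hs | hs
  · refine ⟨fun _ => c (1, 1), fun a b => ?_⟩
    rw [Subsingleton.elim a 1, Subsingleton.elim b 1, one_smul, mul_one, sub_self, zero_add]
  obtain ⟨K, g, hs⟩ := exists_isStep hH
  obtain ⟨χ, hχ, hker, hg⟩ := hs.exists_char
  have hlt : Nat.card K < n := by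
    rw [← hn, hs.card_eq]; exact lt_mul_left Nat.card_pos hp.out.one_lt
  obtain ⟨x, hx, hcx⟩ := exists_carry_congr hs (h1 K) χ hχ hker hg c hc
    (ih _ hlt K rfl hs.isPGroup_left _ fun a b d =>
      hc ⟨a.1, hs.le a.2⟩ ⟨b.1, hs.le b.2⟩ ⟨d.1, hs.le d.2⟩)
  obtain ⟨b, hb, rfl⟩ := exists_stepNorm_eq hs hN x hx
  show c ∈ cobound₂ H U
  rw [← sub_add_cancel c (carry χ (stepNorm p g b))]
  exact add_mem hcx (carry_stepNorm_mem hs χ hker hg b hb)

variable (i : U →+ C) (f : C →+ D) (hi : Function.Injective i) (hf : Function.Surjective f)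
  (hig : ∀ (g : G) (x : U), i (g • x) = g • i x) (hfg : ∀ (g : G) (x : C), f (g • x) = g • f x)
  (hex : ∀ c, f c = 0 ↔ ∃ x, i x = c)

include hi hig hfg hex in
/-- Invariants of the quotient lift to invariants. -/
theorem exists_fixed_lift (H : Subgroup G) (h1 : H1Zero H U) {c : C}
    (hc : ∀ h ∈ H, f (h • c) = f c) : ∃ c' : C, f c' = f c ∧ ∀ h ∈ H, h • c' = c' := by
  have h : ∀ h : H, ∃ x : U, i x = (h : G) • c - c := fun h =>
    (hex _).1 (by rw [map_sub, hc h h.2, sub_self])
  choose u hu using h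
  obtain ⟨y, hy⟩ := h1 u fun a b => hi (by
    rw [map_add, Subgroup.smul_def, hig, hu, hu, hu, Subgroup.coe_mul, mul_smul, smul_sub]
    abel)
  refine ⟨c - i y, by rw [map_sub, (hex _).2 ⟨y, rfl⟩, sub_zero], fun h hh => ?_⟩
  have e := congrArg i (hy ⟨h, hh⟩)
  rw [map_sub, Subgroup.smul_def, hig, hu] at e
  rw [smul_sub, sub_eq_sub_iff_sub_eq_sub]
  exact e.symm

include hi hf hig hfg hex in
theorem stepAxioms_quotient (h1 : ∀ S : Subgroup G, H1Zero S U)
    (hN : ∀ (S : Subgroup G) [Fintype S], NormSurj S U) (hA : StepAxioms p G C) :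
    StepAxioms p G D := by
  refine ⟨fun H K g hs a ha hn => ?_, fun H K g hs => ?_⟩
  · obtain ⟨c₀, rfl⟩ := hf a
    obtain ⟨c, hc, hcK⟩ := exists_fixed_lift i f hi hig hfg hex K (h1 K) (c := c₀)
      fun k hk => by rw [hfg, ha k hk]
    have h0 : f (stepNorm p g c) = 0 := by
      rw [← hn]
      simp only [stepNorm, map_sum, hfg, hc]
    obtain ⟨u, hu⟩ := (hex _).1 h0
    obtain ⟨b, hbK, hb⟩ := exists_stepNorm_eq hs hN u fun h hh => hi (by
      rw [hig, hu, smul_stepNorm_eq hs hcK h hh])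
    obtain ⟨y, hyK, hy⟩ := hA.h1 H K g hs (c - i b)
      (fun k hk => by rw [smul_sub, hcK k hk, ← hig, hbK k hk]) (by
        rw [sub_eq_zero.2 hu.symm |>.symm, ← hb]
        simp only [stepNorm, map_sum, hig, smul_sub, Finset.sum_sub_distrib])
    refine ⟨f y, fun k hk => by rw [← hfg, hyK k hk], ?_⟩
    rw [← hfg, ← map_sub, hy, map_sub, (hex _).2 ⟨b, rfl⟩, sub_zero, hc]
  · obtain ⟨x₀, hx₀, hgen⟩ := hA.index_le H K g hs
    refine ⟨f x₀, fun h hh => by rw [← hfg, hx₀ h hh], fun x hx => ?_⟩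
    obtain ⟨c₀, rfl⟩ := hf x
    obtain ⟨c, hc, hcH⟩ := exists_fixed_lift i f hi hig hfg hex H (h1 H) (c := c₀)
      fun h hh => by rw [hfg, hx h hh]
    obtain ⟨m, b, hb, e⟩ := hgen c hcH
    refine ⟨m, f b, fun k hk => by rw [← hfg, hb k hk], ?_⟩
    rw [← hc, e, map_add, map_zsmul]
    simp only [stepNorm, map_sum, hfg]

/-- The image of a cocycle. -/
def mapCocycle [Fintype G] (u : NormCocycle G C) : NormCocycle G D where
  toFun gh := f (u.toFun gh)
  isCocycle g h j := by
    rw [← map_add, u.isCocycle g h j, map_add, hfg]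
  one_left g := by rw [u.one_left, map_zero]

include hi hf hig hex in
theorem isClassFormation_quotient [Fintype G] (h1 : ∀ S : Subgroup G, H1Zero S U)
    (hN : ∀ (S : Subgroup G) [Fintype S], NormSurj S U) (hA : StepAxioms p G C)
    {u : NormCocycle G C} (hu : IsClassFormation p u) :
    IsClassFormation p (mapCocycle f hfg u) := by
  refine (stepAxioms_quotient i f hi hf hig hfg hex h1 hN hA).isClassFormation _ fun P k hk => ?_
  obtain ⟨b, hb⟩ := hk
  choose b' hb' using fun x => hf (b x)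
  set w : ↥(P : Subgroup G) × ↥(P : Subgroup G) → C :=
    k • (fun gh : ↥(P : Subgroup G) × ↥(P : Subgroup G) => u.toFun ((gh.1 : G), (gh.2 : G))) - dOne b'
    with hw
  have hwc : IsCocycle₂ w := isCocycle₂_sub
    (isCocycle₂_zsmul (c := fun gh : ↥(P : Subgroup G) × ↥(P : Subgroup G) =>
      u.toFun ((gh.1 : G), (gh.2 : G))) (fun a b d => u.isCocycle (a : G) (b : G) (d : G)) k)
    (isCocycle₂_dOne b')
  have hw0 : ∀ gh, ∃ x : U, i x = w gh := fun gh => (hex _).1 (by
    simp only [hw, Pi.sub_apply, Pi.smul_apply, dOne, map_sub, map_add, map_zsmul,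
      Subgroup.smul_def, hfg, hb']
    rw [sub_eq_zero]
    exact ((hb gh.1 gh.2).symm.trans (by rw [Subgroup.smul_def])))
  choose w' hw' using hw0
  obtain ⟨e, he⟩ := h2Zero_of_normSurj h1 hN (P : Subgroup G) P.isPGroup' w' fun a b d => hi (by
    rw [map_add, map_add, Subgroup.smul_def, hig, hw', hw', hw', hw']
    exact hwc a b d)
  refine hu.order _ P.isPGroup' k ⟨fun x => b' x + i (e x), fun a c => ?_⟩
  have e1 := congrArg i (he a c)
  rw [hw', map_add, map_sub, Subgroup.smul_def, hig] at e1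
  simp only [hw, Pi.sub_apply, Pi.smul_apply, dOne, Subgroup.smul_def] at e1 ⊢
  rw [smul_add]
  linear_combination (norm := abel) e1

end Fermat.Agent.CFT.GW
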