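import Fermat.Agent.CFT.GW.Semilocal
import Fermat.Agent.CFT.GW.TrivialQuot
import Fermat.Agent.CFT.Duality.Units
import Fermat.Agent.CFT.Idele.SecondIneq
import Fermat.Agent.CFT.Euler.ModP

/-!
# The class formation on idele classes modulo unit families, and its finiteness modulo `p`
-/

set_option autoImplicit false
set_option synthInstance.maxHeartbeats 200000
set_option maxHeartbeats 1000000
set_option linter.unusedSectionVars false
set_option linter.style.haveILetI false

noncomputable section

namespace Fermat.Agent.CFT.GW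

open ExtCitation Fermat.Agent.Arith IntermediateField Fermat.Agent.CFT.Local Fermat.Agent.CFT.Idele
open Fermat.Agent.CFT.Duality Fermat.Agent.CFT.Euler

local instance factPrimeGWGlob (q : Nat.Primes) : Fact (q : ℕ).Prime := ⟨q.2⟩

section ModP

variable {p : ℕ} {A B D : Type*} [AddCommGroup A] [AddCommGroup B] [AddCommGroup D]

/-- Finiteness modulo `p` passes to cokernels. -/
theorem modPFinite_coker (i : A →+ B) (q : B →+ D) (hex : ∀ y, q y = 0 → ∃ x, i x = y)
    (hq : Function.Surjective q) (hqi : ∀ x, q (i x) = 0) (hA : ModPFinite p A)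
    (hB : ModPFinite p B) : ModPFinite p D := by
  classical
  refine ⟨?_, hB.of_surjective q hq⟩
  haveI : Finite (nsmulAddMonoidHom p : B →+ B).ker := hB.tors
  haveI : (nsmulAddMonoidHom p : A →+ A).range.FiniteIndex := ⟨hA.quot⟩
  haveI : Finite (A ⧸ (nsmulAddMonoidHom p : A →+ A).range) :=
    AddSubgroup.finite_quotient_of_finiteIndex
  have hlift : ∀ z : (nsmulAddMonoidHom p : D →+ D).ker, ∃ y : B, q y = (z : D) ∧
      ∃ x : A, i x = p • y := fun z => by
    obtain ⟨y, hy⟩ := hq (z : D)
    exact ⟨y, hy, hex _ (by rw [map_nsmul, hy]; exact z.2)⟩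
  choose y hy x hx using hlift
  let cls : (nsmulAddMonoidHom p : D →+ D).ker → A ⧸ (nsmulAddMonoidHom p : A →+ A).range :=
    fun z => QuotientAddGroup.mk (x z)
  let r : A ⧸ (nsmulAddMonoidHom p : A →+ A).range → D := fun c =>
    if h : ∃ z, cls z = c then ((h.choose : (nsmulAddMonoidHom p : D →+ D).ker) : D) else 0
  have key : ∀ z : (nsmulAddMonoidHom p : D →+ D).ker, ∃ b : (nsmulAddMonoidHom p : B →+ B).ker, q (b : B) = (z : D) - r (cls z) := by
    intro z
    have h : ∃ z', cls z' = cls z := ⟨z, rfl⟩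
    obtain ⟨a, ha⟩ := QuotientAddGroup.eq_iff_sub_mem.1 h.choose_spec
    refine ⟨⟨y z - y h.choose + i a, ?_⟩, ?_⟩
    · show p • (y z - y h.choose + i a) = 0
      rw [nsmul_add, nsmul_sub, ← hx, ← hx, ← map_nsmul,
        show p • a = x h.choose - x z from ha, map_sub]
      abel
    · show q (y z - y h.choose + i a) = _
      rw [map_add, map_sub, hy, hy, hqi, add_zero]
      simp only [r, dif_pos h]
  choose b hb using key
  refine Finite.of_injective (fun z => (cls z, b z)) fun z z' h => Subtype.ext ?_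
  simp only [Prod.mk.injEq] at h
  have e := hb z
  rw [h.2, hb z', h.1] at e
  exact (sub_left_inj.1 e).symm

end ModP

variable (L : IntermediateField ℚ QBar) [FiniteDimensional ℚ L] [Normal ℚ L]
  {p : ℕ} [hp : Fact p.Prime]

theorem proj_unitsOff_injective {T : Finset Nat.Primes} (hne : T.Nonempty) :
    Function.Injective ((proj L).comp (unitsOff L (T : Set Nat.Primes)).subtype) := by
  obtain ⟨q, hq⟩ := hne
  refine (injective_iff_map_eq_zero _).2 fun x hx => ?_
  obtain ⟨a, ha⟩ := (proj_eq_zero_iff L).1 hx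
  have h1 : val (prinL L a) q 1 = 1 := by rw [ha]; exact (x.2 q 1).2 hq
  have ha0 : Additive.ofMul a = 0 := eq_zero_of_val_diag L (q := q) (σ := 1) h1
  refine Subtype.ext (Additive.toMul.injective ?_)
  rw [show a = 1 from ha0, map_one] at ha
  exact ha.symm

/-- The image of a class formation on the idele classes is one on the classes modulo unit
families. -/
theorem exists_globClass (hp2 : p ≠ 2) {ζ : L} (hζ : IsPrimitiveRoot ζ p)
    {T : Finset Nat.Primes} (hne : T.Nonempty) (hT : ∀ q ∉ T, inertia (E L q) = ⊥)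
    {u : NormCocycle (L ≃ₐ[ℚ] L) (C L)} (hu : IsClassFormation p u) :
    ∃ v : NormCocycle (L ≃ₐ[ℚ] L) (Glob L (T : Set Nat.Primes)), IsClassFormation p v := by
  refine ⟨mapCocycle Glob.of (fun g x => (Glob.smul_of g x).symm) u, ?_⟩
  refine isClassFormation_quotient ((proj L).comp (unitsOff L (T : Set Nat.Primes)).subtype)
    Glob.of (proj_unitsOff_injective L hne) Glob.of_surjective ?_
    (fun g x => (Glob.smul_of g x).symm) ?_ (fun S => h1Zero_unitsOff hT S)
    (fun S _ => normSurj_unitsOff hT S) (stepAxioms L hp2 hζ) hu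
  · exact fun g x => proj_smul L g (x : J L)
  · intro c
    rw [Glob.of_eq_zero_iff]
    exact ⟨fun ⟨w, hw, e⟩ => ⟨⟨w, hw⟩, e⟩, fun ⟨w, e⟩ => ⟨w, w.2, e⟩⟩

theorem modPFinite_glob {T : Finset Nat.Primes} (hne : T.Nonempty)
    (hgen : Generates L (T : Set Nat.Primes))
    (hU : ModPFinite p (TU L (T : Set Nat.Primes))) (hE : ∀ q, ModPFinite p (Loc L q)) :
    ModPFinite p (Glob L (T : Set Nat.Primes)) := by
  classical
  refine modPFinite_coker (iU L T) (qD L T) (qD_exact L T) (qD_surjective L hgen) (qD_iU L T) hU ?_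
  refine ModPFinite.pi fun i => ?_
  letI : Fintype (L ≃ₐ[ℚ] L) := Fintype.ofFinite _
  letI : Fintype ((L ≃ₐ[ℚ] L) ⧸ decomp L (i : Nat.Primes)) := Fintype.ofFinite _
  exact (ModPFinite.pi fun _ => hE i).congr (CoInd.coords).symm

end Fermat.Agent.CFT.GW
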