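import Fermat.Agent.CFT.GW.ClassAbstract
import Fermat.Agent.CFT.Idele.Incl
import Fermat.Agent.CFT.Idele.SecondIneq
import Fermat.Agent.CFT.Idele.LocalTriv
import Fermat.Agent.CFT.Idele.PsiNorm

/-!
# The fundamental class of a finite level

For an auxiliary prime `q` unramified in `L` with cyclic field `M`, the carry class of a rational
idele class of `psi`-value `1` descends from `L M` to `L`, with order the `p`-part of the degree.
-/

set_option autoImplicit false
set_option synthInstance.maxHeartbeats 200000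
set_option maxHeartbeats 1000000
set_option linter.unusedSectionVars false
set_option linter.style.haveILetI false

noncomputable section

namespace Fermat.Agent.CFT.GW

open ExtCitation Fermat.Agent.Arith IntermediateField Fermat.Agent.CFT.Local Fermat.Agent.CFT.Idele
open groupCohomology

local instance factPrimeGlobalClass (q : Nat.Primes) : Fact (q : ℕ).Prime := ⟨q.2⟩

local instance normalBotGW : Normal ℚ (⊥ : IntermediateField ℚ QBar) :=
  Normal.of_algEquiv (IntermediateField.botEquiv ℚ QBar).symm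

theorem botGal_eq_one (σ : (⊥ : IntermediateField ℚ QBar) ≃ₐ[ℚ] (⊥ : IntermediateField ℚ QBar)) :
    σ = 1 := by
  refine AlgEquiv.ext fun x => ?_
  obtain ⟨r, hr⟩ := IntermediateField.mem_bot.1 x.2
  obtain rfl : x = algebraMap ℚ (⊥ : IntermediateField ℚ QBar) r := Subtype.ext hr.symm
  exact σ.commutes r

section NormBot

variable {F : IntermediateField ℚ QBar} [FiniteDimensional ℚ F] [Normal ℚ F]

theorem smul_inclC_bot (σ : F ≃ₐ[ℚ] F) (z : C (⊥ : IntermediateField ℚ QBar)) :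
    σ • inclC (bot_le : ⊥ ≤ F) z = inclC (bot_le : ⊥ ≤ F) z := by
  rw [inclC_smul, botGal_eq_one (resTo _ σ), one_smul]

theorem exists_normBot (y : C F) :
    ∃ z, inclC (bot_le : ⊥ ≤ F) z = normSum (F ≃ₐ[ℚ] F) (C F) y :=
  exists_inclC_eq _ fun σ _ => smul_normSum σ y

variable (F) in
/-- The norm to the rational idele classes. -/
def normBot : C F →+ C (⊥ : IntermediateField ℚ QBar) :=
  AddMonoidHom.mk' (fun y => (exists_normBot y).choose) fun x y => inclC_injective _ (by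
    rw [map_add, (exists_normBot _).choose_spec, (exists_normBot _).choose_spec,
      (exists_normBot _).choose_spec, normSum_add])

theorem inclC_normBot (y : C F) :
    inclC (bot_le : ⊥ ≤ F) (normBot F y) = normSum (F ≃ₐ[ℚ] F) (C F) y :=
  (exists_normBot y).choose_spec

theorem normBot_inclC (z : C (⊥ : IntermediateField ℚ QBar)) :
    normBot F (inclC bot_le z) = Nat.card (F ≃ₐ[ℚ] F) • z := by
  refine inclC_injective (bot_le : ⊥ ≤ F) ?_
  rw [inclC_normBot, map_nsmul, normSum, Finset.sum_congr rfl fun σ _ => smul_inclC_bot σ z,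
    Finset.sum_const, Finset.card_univ, Nat.card_eq_fintype_card]

theorem inclC_trans {K F' : IntermediateField ℚ QBar} [FiniteDimensional ℚ K] [Normal ℚ K]
    [FiniteDimensional ℚ F'] [Normal ℚ F'] (h : K ≤ F) (h' : F ≤ F') (y : C K) :
    inclC h' (inclC h y) = inclC (h.trans h') y := by
  obtain ⟨f, hf⟩ := QuotientGroup.mk_surjective y.toMul
  obtain rfl : Additive.ofMul (QuotientGroup.mk f : ClassGrp K) = y := congrArg Additive.ofMul hf
  rfl

/-- The class of an idele whose norm is `P`. -/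
theorem normBot_mk (f : idl F) (P : idl (⊥ : IntermediateField ℚ QBar))
    (hP : (P : PreIdele) = ((∏ σ : F ≃ₐ[ℚ] F, σ • f : idl F) : PreIdele)) :
    normBot F (Additive.ofMul (QuotientGroup.mk f : ClassGrp F)) =
      Additive.ofMul (QuotientGroup.mk P : ClassGrp (⊥ : IntermediateField ℚ QBar)) := by
  refine inclC_injective (bot_le : ⊥ ≤ F) ?_
  rw [inclC_normBot]
  show ∑ σ : F ≃ₐ[ℚ] F, σ • proj F (Additive.ofMul f) =
    proj F (Additive.ofMul (inclIdl (bot_le : ⊥ ≤ F) P))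
  rw [show inclIdl (bot_le : ⊥ ≤ F) P = ∏ σ : F ≃ₐ[ℚ] F, σ • f from Subtype.ext hP, ofMul_prod,
    map_sum]
  exact Finset.sum_congr rfl fun σ _ => (proj_smul F σ _).symm

theorem exists_idl_norm (f : idl F) :
    ∃ P : idl (⊥ : IntermediateField ℚ QBar),
      (P : PreIdele) = ((∏ σ : F ≃ₐ[ℚ] F, σ • f : idl F) : PreIdele) := by
  refine ⟨⟨_, mem_idl_of_fixed (bot_le : ⊥ ≤ F) (f := ∏ σ : F ≃ₐ[ℚ] F, σ • f) fun τ _ => ?_⟩, rfl⟩
  rw [Finset.smul_prod']
  exact Fintype.prod_equiv (Equiv.mulLeft τ) _ _ fun σ => smul_smul τ σ f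

theorem algebraMap_botVal_norm (f : idl F) (P : idl (⊥ : IntermediateField ℚ QBar))
    (hP : (P : PreIdele) = ((∏ σ : F ≃ₐ[ℚ] F, σ • f : idl F) : PreIdele)) (l : Nat.Primes) :
    algebraMap ℚ_[(l : ℕ)] (E F l) (botVal l P : ℚ_[(l : ℕ)]) =
      ∏ σ : F ≃ₐ[ℚ] F, ((val f l σ : (E F l)ˣ) : E F l) := by
  rw [← Units.coe_prod]
  have h : val (∏ σ : F ≃ₐ[ℚ] F, σ • f) l 1 = ∏ σ : F ≃ₐ[ℚ] F, val f l σ := by
    rw [val_prod]
    exact Finset.prod_congr rfl fun σ _ => by rw [val_smul, one_mul]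
  rw [← h]
  refine Subtype.ext ?_
  rw [coe_val _ l (map_one (res F)), ← hP]
  exact botVal_spec l P 1

end NormBot

section Psi

variable {n : ℕ} (a : Aux n) (hn : Odd n)

/-- The character on rational idele classes. -/
def psiC : C (⊥ : IntermediateField ℚ QBar) →+ ZMod n :=
  AddMonoidHom.mk' (fun z => Multiplicative.toAdd (QuotientGroup.lift _ (psi a) (by
    rintro _ ⟨x, rfl⟩
    exact psi_prin a hn _) z.toMul)) fun x y => by rw [toMul_add, map_mul, toAdd_mul]

theorem psiC_mk (P : idl (⊥ : IntermediateField ℚ QBar)) :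
    psiC a hn (Additive.ofMul (QuotientGroup.mk P : ClassGrp (⊥ : IntermediateField ℚ QBar))) =
      Multiplicative.toAdd (psi a P) := rfl

theorem psiC_normBot_fixedChi (z : C a.fixedChi) : psiC a hn (normBot a.fixedChi z) = 0 := by
  obtain ⟨f, hf⟩ := QuotientGroup.mk_surjective z.toMul
  obtain rfl : Additive.ofMul (QuotientGroup.mk f : ClassGrp a.fixedChi) = z :=
    congrArg Additive.ofMul hf
  obtain ⟨P, hP⟩ := exists_idl_norm f
  rw [normBot_mk f P hP, psiC_mk, psi_norm a f P hP, toAdd_one]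

end Psi

theorem exists_resUnit_eq {q : ℕ} [Fact q.Prime] (r : (ZMod q)ˣ) :
    ∃ x : ℚ_[q]ˣ, ‖(x : ℚ_[q])‖ = 1 ∧ resUnit x = r := by
  obtain ⟨z, hz⟩ := ZMod.ringHom_surjective (PadicInt.toZMod : ℤ_[q] →+* ZMod q) (r : ZMod q)
  have hzu : IsUnit z := by
    by_contra hnu
    refine r.ne_zero ?_
    rw [← hz, ← RingHom.mem_ker, PadicInt.ker_toZMod]
    exact (IsLocalRing.mem_maximalIdeal z).2 hnu
  refine ⟨Units.map PadicInt.Coe.ringHom.toMonoidHom hzu.unit, PadicInt.isUnit_iff.1 hzu,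
    (resUnit_eq (j := 0) (u := hzu.unit) ?_).trans (Units.ext hz)⟩
  rw [zpow_zero, one_mul]
  rfl

theorem exists_unit_algebraMap {q : ℕ} [Fact q.Prime]
    (E : IntermediateField ℚ_[q] (PadicAlgCl q)) [FiniteDimensional ℚ_[q] E] (x : ℚ_[q]ˣ)
    (hx : ‖(x : ℚ_[q])‖ = 1) :
    ∃ u : Eˣ, u ∈ unitGroup E ∧ (u : E) = algebraMap ℚ_[q] E x :=
  ⟨Units.map (algebraMap ℚ_[q] E).toMonoidHom x,
    (mem_unitGroup _).2 ((norm_algebraMap' E (x : ℚ_[q])).trans hx), rfl⟩

/-- Norms reach every value of the character when `q` is unramified. -/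
theorem exists_psiC_normBot (L : IntermediateField ℚ QBar) [FiniteDimensional ℚ L] [Normal ℚ L]
    {n : ℕ} (a : Aux n) (hn : Odd n) (hq : inertia (E L a.q) = ⊥) (c : ZMod n) :
    ∃ y : C L, psiC a hn (normBot L y) = c := by
  classical
  obtain ⟨r, hr⟩ := a.surj (Multiplicative.ofAdd c)
  obtain ⟨x, hx1, hxr⟩ := exists_resUnit_eq r
  haveI : IsGalois ℚ_[(a.q : ℕ)] (E L a.q) := ⟨⟩
  set H : Subgroup (E L a.q ≃ₐ[ℚ_[(a.q : ℕ)]] E L a.q) := ⊤
  obtain ⟨u, hu, huval⟩ := exists_unit_algebraMap (E L a.q) x hx1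
  obtain ⟨y, hy⟩ := normSurj_unitGroup H (by rw [hq, inf_bot_eq]) (Additive.ofMul ⟨u, hu⟩)
    fun h => Additive.toMul.injective (Subtype.ext (Units.ext
      (show (h : E L a.q ≃ₐ[ℚ_[(a.q : ℕ)]] E L a.q) (u : E L a.q) = (u : E L a.q) by
        rw [huval]; exact AlgEquiv.commutes _ _)))
  set f : idl L := locIdl a.q ((y.toMul : unitGroup (E L a.q)) : (E L a.q)ˣ)
  refine ⟨Additive.ofMul (QuotientGroup.mk f : ClassGrp L), ?_⟩
  obtain ⟨P, hP⟩ := exists_idl_norm f
  have hval : botVal a.q P = x := by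
    refine Units.ext ((algebraMap ℚ_[(a.q : ℕ)] (E L a.q)).injective ?_)
    rw [algebraMap_botVal_norm f P hP, ← Units.coe_prod]
    refine (congrArg Units.val ?_).trans huval
    have e := (normSum_unitGroup_coe H y).symm.trans
      (congrArg (fun b : Additive (unitGroup (E L a.q)) =>
        ((b.toMul : unitGroup (E L a.q)) : (E L a.q)ˣ)) hy)
    refine Eq.trans ?_ e
    let e₁ : H → (L ≃ₐ[ℚ] L) := fun t => toGlobal (a.q : ℕ) L (t : E L a.q ≃ₐ[ℚ_[(a.q : ℕ)]] E L a.q)
    have hinj : Function.Injective e₁ := fun s t h =>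
      Subtype.ext (toGlobal_injective (a.q : ℕ) L h)
    symm
    refine Fintype.prod_of_injective e₁ hinj _ _ (fun σ hσ => ?_) fun t => ?_
    · exact val_locIdl_of_notMem a.q _ fun ⟨t, ht⟩ => hσ ⟨⟨t, Subgroup.mem_top t⟩, ht⟩
    · exact (val_locIdl_self a.q _ _).symm
  have hother : ∀ l, l ≠ a.q → ‖(botVal l P : ℚ_[(l : ℕ)])‖ = 1 := fun l hl => by
    rw [← norm_algebraMap' (E L l), algebraMap_botVal_norm f P hP,
      Finset.prod_eq_one fun σ _ => by rw [val_locIdl_of_ne a.q _ hl, Units.val_one], norm_one]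
  rw [normBot_mk f P hP, psiC_mk, psi_of_units a hother,
    hval, hxr, hr, toAdd_ofAdd]

section Compositum

variable {L L' : IntermediateField ℚ QBar} [FiniteDimensional ℚ L] [Normal ℚ L]
  [FiniteDimensional ℚ L'] [Normal ℚ L'] {p : ℕ} [hp : Fact p.Prime]

/-- The class on `L`, from a compositum with the cyclic field of an auxiliary prime. -/
theorem exists_fundClass_of_aux {m : ℕ} [NeZero (p ^ m)] (hA' : CFT.StepAxioms p (L' ≃ₐ[ℚ] L') (C L'))
    (hA : CFT.StepAxioms p (L ≃ₐ[ℚ] L) (C L)) (a : Aux (p ^ m)) (hodd : Odd (p ^ m))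
    (hq : inertia (E L a.q) = ⊥) (hL : L ≤ L') (hM : a.fixedChi ≤ L')
    (hsup : L' ≤ L ⊔ a.fixedChi)
    (hn : ∀ P : Sylow p (L ≃ₐ[ℚ] L), Nat.card (P : Subgroup (L ≃ₐ[ℚ] L)) = p ^ m) :
    ∃ u : NormCocycle (L ≃ₐ[ℚ] L) (C L), IsClassFormation p u := by
  classical
  set π := resTo hL with hπdef
  set χ : (L' ≃ₐ[ℚ] L') →* Multiplicative (ZMod (p ^ m)) :=
    a.galEquiv.toMonoidHom.comp (resTo hM) with hχdef
  have hπ : Function.Surjective π := resTo_surjective hL
  have hχres : ∀ g : GQ, χ (res L' g) = a.chi g := fun g => by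
    show a.galEquiv (resTo hM (res L' g)) = _
    rw [resTo_res, a.galEquiv_res]
  have hχker : χ.ker = (resTo hM).ker := MonoidHom.ker_mulEquiv_comp _ a.galEquiv
  have hinj : ∀ g, π g = 1 → χ g = 1 → g = 1 := fun g h1 h2 => by
    obtain ⟨s, rfl⟩ := AlgEquiv.restrictNormalHom_surjective (K₁ := L') QBar g
    rw [hπdef, resTo_res, res_eq_one_iff] at h1
    rw [hχres, ← MonoidHom.mem_ker, ← a.fixingSubgroup_fixedChi] at h2
    refine (res_eq_one_iff L').2 (IntermediateField.fixingSubgroup_antitone hsup ?_)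
    rw [IntermediateField.fixingSubgroup_sup]
    exact ⟨h1, h2⟩
  -- inertia at `q`
  have hNsur : ∀ c, ∃ g ∈ π.ker, χ g = c := fun c => by
    obtain ⟨s, hs, hc⟩ := a.exists_inertia c
    refine ⟨res L' s, ?_, (hχres s).trans hc⟩
    rw [MonoidHom.mem_ker, hπdef, resTo_res, res_eq_one_iff, IntermediateField.mem_fixingSubgroup_iff]
    exact fun x hx => (inertia_eq_bot_iff (a.q : ℕ) L).1 hq s hs ⟨x, hx⟩
  have hχ : Function.Surjective χ := fun c => let ⟨g, _, hg⟩ := hNsur c; ⟨g, hg⟩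
  obtain ⟨η, hηN, hη⟩ := hNsur (Multiplicative.ofAdd 1)
  -- the norm from `L M` to `M` of the cyclic part
  have hsum : ∀ γ, χ γ = Multiplicative.ofAdd 1 → ∀ z : C a.fixedChi,
      ∑ i ∈ Finset.range (p ^ m), γ ^ i • inclC hM z =
        inclC (bot_le : ⊥ ≤ L') (normBot a.fixedChi z) := fun γ hγ z => by
    rw [← inclC_trans (bot_le : ⊥ ≤ a.fixedChi) hM, inclC_normBot, normSum, map_sum,
      ← Fin.sum_univ_eq_sum_range (fun i => γ ^ i • inclC hM z)]
    refine Fintype.sum_equiv (Equiv.ofBijective (fun i : Fin (p ^ m) => resTo hM (γ ^ (i : ℕ)))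
      ?_) _ _ fun i => inclC_smul hM _ z
    refine (Nat.bijective_iff_injective_and_card _).mpr ⟨fun i j h => ?_, ?_⟩
    · have h' : χ (γ ^ (i : ℕ)) = χ (γ ^ (j : ℕ)) := congrArg a.galEquiv h
      have h'' := congrArg (fun c => (Multiplicative.toAdd c).val) h'
      exact Fin.ext ((chiVal_pow hγ i.2).symm.trans (h''.trans (chiVal_pow hγ j.2)))
    · rw [Nat.card_fin, Nat.card_congr a.galEquiv.toEquiv, Nat.card_congr Multiplicative.toAdd,
        Nat.card_zmod]
  have hηord : orderOf η = p ^ m := by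
    have hinjN : ∀ j, χ (η ^ j) = 1 → η ^ j = 1 := fun j h =>
      hinj _ (MonoidHom.mem_ker.1 (pow_mem hηN j)) h
    rw [orderOf_eq_iff (NeZero.pos _)]
    refine ⟨hinjN _ (MonoidHom.mem_ker.1 (pow_mem_ker hη)), fun j hj hj0 h => ?_⟩
    have := chiVal_pow hη hj
    rw [h, chiVal_of_mem_ker χ (one_mem _)] at this
    omega
  have hηι : ∀ y, η • inclC hL y = inclC hL y := fun y => by
    rw [inclC_smul, ← hπdef, MonoidHom.mem_ker.1 hηN, one_smul]
  -- the character kills norms from `L M`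
  set Φ : C L →+ ZMod (p ^ m) := (psiC a hodd).comp (normBot L) with hΦdef
  have hΦ : ∀ y w, inclC hL y = ∑ i ∈ Finset.range (p ^ m), η ^ i • w → Φ y = 0 := by
    intro y w hyw
    letI : Fintype χ.ker := Fintype.ofFinite _
    set v := normSum χ.ker (C L') w with hvdef
    obtain ⟨z, hz⟩ := exists_inclC_eq hM (x := v) fun g hg =>
      smul_normSum (⟨g, hχker ▸ hg⟩ : χ.ker) w
    have e1 : inclC (bot_le : ⊥ ≤ L') (normBot L y) =
        ∑ h : χ.ker, (h : L' ≃ₐ[ℚ] L') • inclC hL y := by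
      rw [← inclC_trans (bot_le : ⊥ ≤ L) hL, inclC_normBot, normSum, map_sum]
      symm
      refine Fintype.sum_equiv (Equiv.ofBijective (fun h : χ.ker => π (h : L' ≃ₐ[ℚ] L'))
        ⟨fun g g' h => ?_, fun σ => ?_⟩) _ _ fun h => inclC_smul hL _ y
      · refine Subtype.ext (inv_mul_eq_one.1 (hinj _ ?_ ?_))
        · rw [map_mul, map_inv, show π g = π g' from h, inv_mul_cancel]
        · exact MonoidHom.mem_ker.1 (mul_mem (inv_mem g.2) g'.2)
      · obtain ⟨g, rfl⟩ := hπ σ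
        obtain ⟨t, ht, htg⟩ := hNsur (χ g)⁻¹
        exact ⟨⟨g * t, by rw [MonoidHom.mem_ker, map_mul, htg, mul_inv_cancel]⟩,
          by simp [MonoidHom.mem_ker.1 ht]⟩
    have hcomm : ∀ (h : χ.ker) (i : ℕ), (h : L' ≃ₐ[ℚ] L') * η ^ i = η ^ i * h := fun h i => by
      refine inv_mul_eq_one.1 (hinj _ ?_ ?_)
      · simp [MonoidHom.mem_ker.1 hηN]
      · simp [MonoidHom.mem_ker.1 h.2]
    have e2 : inclC (bot_le : ⊥ ≤ L') (normBot L y) =
        inclC (bot_le : ⊥ ≤ L') (normBot a.fixedChi z) := by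
      rw [e1, ← hsum η hη z, hz, hvdef, normSum]
      simp only [hyw, Finset.smul_sum, Subgroup.smul_def, smul_smul, hcomm]
      exact Finset.sum_comm
    rw [hΦdef, AddMonoidHom.comp_apply, inclC_injective _ e2, psiC_normBot_fixedChi]
  -- the rational class
  obtain ⟨y₁, hy₁⟩ := exists_psiC_normBot L a hodd hq 1
  set x₀ := normBot L y₁ with hx₀
  have h₀ : Φ (inclC (bot_le : ⊥ ≤ L) x₀) = 0 := by
    have hdvd : p ^ m ∣ Nat.card (L ≃ₐ[ℚ] L) :=
      hn (default : Sylow p _) ▸ Subgroup.card_subgroup_dvd_card _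
    rw [hΦdef, AddMonoidHom.comp_apply, normBot_inclC, map_nsmul, nsmul_eq_mul,
      (ZMod.natCast_eq_zero_iff _ _).mpr hdvd, zero_mul]
  obtain ⟨w, hw⟩ : ∃ w, inclC hL (inclC (bot_le : ⊥ ≤ L) x₀) =
      ∑ i ∈ Finset.range (p ^ m), η ^ i • w := by
    refine exists_norm_of_count (C := C L) (A := ZMod (p ^ m)) hA' hηord (inclC hL) hηι Φ hΦ ?_ h₀
    rw [AddMonoidHom.range_eq_top.mpr (fun c => exists_psiC_normBot L a hodd hq c),
      Nat.card_congr AddSubgroup.topEquiv.toEquiv, Nat.card_zmod]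
  refine exists_isClassFormation_of_carry hA' hA π hπ χ hχ hinj (inclC hL) (inclC_injective hL)
    (fun g b => inclC_smul hL g b) (fun b hb => exists_inclC_eq hL fun g hg => hb ⟨g, hg⟩) hn
    (x := inclC hL (inclC (bot_le : ⊥ ≤ L) x₀))
    (fun g => by rw [inclC_smul, smul_inclC_bot]) (carryN_subgroup_mem
      (fun g hg hg' => hinj g hg hg') hηN hη w hw) fun γ hγ k v hv hk => ?_
  obtain ⟨z, rfl⟩ := exists_inclC_eq hM (x := v) fun g hg => hv g (hχker ▸ hg)
  rw [hsum γ hγ, inclC_trans] at hk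
  have hk' : k • x₀ = normBot a.fixedChi z :=
    inclC_injective (bot_le : ⊥ ≤ L') ((map_zsmul (inclC (bot_le : ⊥ ≤ L')) k x₀).trans hk)
  have h := ((map_zsmul (psiC a hodd) k x₀).symm.trans (congrArg (psiC a hodd) hk'))
  rw [psiC_normBot_fixedChi, hy₁, zsmul_one] at h
  exact (ZMod.intCast_zmod_eq_zero_iff_dvd _ _).mp h

end Compositum

variable (L : IntermediateField ℚ QBar) [FiniteDimensional ℚ L] [Normal ℚ L]
  {p : ℕ} [hp : Fact p.Prime]

/-- **The fundamental class.** -/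
theorem exists_fundClass (hp2 : p ≠ 2) {ζ : L} (hζ : IsPrimitiveRoot ζ p) :
    ∃ u : NormCocycle (L ≃ₐ[ℚ] L) (C L), IsClassFormation p u := by
  classical
  obtain ⟨T, hT⟩ := exists_finset_unramified L
  set m := (Nat.card (L ≃ₐ[ℚ] L)).factorization p
  haveI : NeZero (p ^ m) := ⟨pow_ne_zero _ hp.out.ne_zero⟩
  obtain ⟨a, ha⟩ := exists_aux (p ^ m) T
  haveI hLn : Normal ℚ L := inferInstance
  haveI hMn : Normal ℚ a.fixedChi := IsGalois.to_normal (F := ℚ) (E := a.fixedChi)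
  haveI : Normal ℚ (L ⊔ a.fixedChi : IntermediateField ℚ QBar) :=
    @IntermediateField.normal_sup ℚ QBar _ _ _ L a.fixedChi hLn hMn
  have hL : L ≤ L ⊔ a.fixedChi := le_sup_left
  refine exists_fundClass_of_aux (L' := L ⊔ a.fixedChi)
    (stepAxioms _ hp2 (ζ := IntermediateField.inclusion hL ζ) ?_) (stepAxioms L hp2 hζ) a
    (hp.out.odd_of_ne_two hp2).pow (hT _ ha) hL le_sup_right le_rfl
    fun P => P.card_eq_multiplicity
  exact hζ.map_of_injective (f := IntermediateField.inclusion hL)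
    (IntermediateField.inclusion hL).injective

end Fermat.Agent.CFT.GW
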