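import Fermat.Agent.CFT.TWPrimes.Main
import Fermat.Agent.CFT.Tangent.LocalPlace
import Fermat.Agent.CFT.PT.Arith.Roots
import Fermat.Agent.CFT.Idele.SUnits
import Fermat.Agent.CFT.Duality.Units

/-!
# Classes in the twisted adjoint module: finiteness and the primes killing them

Characters of order `p` of a number field containing the `p`-th roots of unity, unramified outside a
finite set of primes, are Kummer characters of `T`-units; hence the twisted adjoint cocycles
unramified outside a finite set form a finite set, and Taylor–Wiles primes detect all of them.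
-/

set_option autoImplicit false
set_option synthInstance.maxHeartbeats 200000
set_option linter.style.haveILetI false

noncomputable section

namespace Fermat.Agent.CFT.GW

open ExtCitation Fermat.Agent.Arith IntermediateField Fermat.Agent.CFT.Local Fermat.Agent.CFT.Idele
open Fermat.Agent.Deform Fermat.Agent.CFT.Tangent Module
open Fermat.Agent.Arith.Density Fermat.Agent.Arith.Chebotarev
open scoped Pointwise

local instance factPrimeKilling (q : Nat.Primes) : Fact (q : ℕ).Prime := ⟨q.2⟩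

variable {p : ℕ} [hp : Fact p.Prime]

section Kummer

variable {K : IntermediateField ℚ QBar} [FiniteDimensional ℚ K] [Normal ℚ K] {ζ : QBar}

omit [FiniteDimensional ℚ K] [Normal ℚ K] in
/-- A Kummer generator of a character of finite level. -/
theorem exists_kummer_root (hζ : IsPrimitiveRoot ζ p) (hζK : ζ ∈ K)
    (f : K.fixingSubgroup → ZMod p) (hf : ∀ s t, f (s * t) = f s + f t)
    (L : IntermediateField ℚ QBar) [FiniteDimensional ℚ L] [Normal ℚ L]
    (hlev : ∀ s : K.fixingSubgroup, (s : GQ) ∈ L.fixingSubgroup → f s = 0) :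
    ∃ β : QBarˣ, ∀ s : K.fixingSubgroup, (s : GQ) (β : QBar) = ζ ^ (f s).val * β := by
  classical
  haveI : IsGalois ℚ L := ⟨⟩
  set Hm : Subgroup (L ≃ₐ[ℚ] L) := K.fixingSubgroup.map (AlgEquiv.restrictNormalHom L)
  have hlift : ∀ g : Hm, ∃ s : K.fixingSubgroup,
      AlgEquiv.restrictNormalHom L (s : GQ) = (g : L ≃ₐ[ℚ] L) := fun g => by
    obtain ⟨s, hs, e⟩ := Subgroup.mem_map.mp g.2
    exact ⟨⟨s, hs⟩, e⟩
  choose lf hlf using hlift
  have hcongr : ∀ s t : K.fixingSubgroup,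
      AlgEquiv.restrictNormalHom L (s : GQ) = AlgEquiv.restrictNormalHom L (t : GQ) → f s = f t :=
    fun s t e => by
    have h0 : ((t⁻¹ * s : K.fixingSubgroup) : GQ) ∈ L.fixingSubgroup := by
      rw [IntermediateField.mem_fixingSubgroup_iff]
      refine (restrictNormalHom_eq_one_iff L).mp ?_
      rw [Subgroup.coe_mul, Subgroup.coe_inv, map_mul, map_inv, e, inv_mul_cancel]
    conv_lhs => rw [← mul_inv_cancel_left t s, hf, hlev _ h0, add_zero]
  haveI : Fintype Hm := Fintype.ofFinite _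
  let emL : L →* QBar := (L.val.toRingHom : L →* QBar)
  let ch : Hm → (L →* QBar) := fun g => emL.comp ((g : L ≃ₐ[ℚ] L) : L →* L)
  have hch : Function.Injective ch := fun g g' e => Subtype.ext (AlgEquiv.ext fun x =>
    Subtype.ext (DFunLike.congr_fun e x))
  have hli := (linearIndependent_monoidHom L QBar).comp ch hch
  obtain ⟨x, hx⟩ : ∃ x : L, ∑ g : Hm, ζ ^ (-f (lf g)).val * ch g x ≠ 0 := by
    by_contra hne
    push Not at hne
    refine pow_ne_zero _ (hζ.ne_zero hp.out.ne_zero) (Fintype.linearIndependent_iff.mp hli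
      (fun g => ζ ^ (-f (lf g)).val) (funext fun x => ?_) 1)
    simpa [Finset.sum_apply] using hne x
  refine ⟨Units.mk0 _ hx, fun s => ?_⟩
  have hsζ : (s : GQ) ζ = ζ := (IntermediateField.mem_fixingSubgroup_iff _ _).mp s.2 ζ hζK
  have hmem : AlgEquiv.restrictNormalHom L (s : GQ) ∈ Hm := Subgroup.mem_map_of_mem _ s.2
  rw [Units.val_mk0, map_sum, Finset.mul_sum]
  refine Fintype.sum_equiv (Equiv.mulLeft (⟨_, hmem⟩ : Hm)) _ _ fun g => ?_
  have h1 : f (lf (⟨_, hmem⟩ * g)) = f s + f (lf g) := by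
    rw [← hf]
    exact hcongr _ _ (by rw [hlf, Subgroup.coe_mul, Subgroup.coe_mul, map_mul, hlf])
  have h2 : ch (⟨_, hmem⟩ * g) x = (s : GQ) (ch g x) :=
    AlgEquiv.restrictNormal_commutes (s : GQ) L ((g : L ≃ₐ[ℚ] L) x)
  rw [map_mul, map_pow, hsζ, Equiv.coe_mulLeft, h1, h2, ← mul_assoc, ← pow_add]
  congr 1
  rw [← zeta_pow_val hζ ((f s).val + _), Nat.cast_add, ZMod.natCast_zmod_val,
    ZMod.natCast_zmod_val]
  congr 2
  ring

open Classical in
/-- The `n` with `x = q ^ (p n)`. -/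
def rootExp (p : ℕ) (q : Nat.Primes) (x : ℝ) : ℤ :=
  if h : ∃ n : ℤ, x = ((q : ℕ) : ℝ) ^ ((p : ℤ) * n) then h.choose else 0

omit hp in
theorem rootExp_spec (q : Nat.Primes) {x : ℝ}
    (h : ∃ n : ℤ, x = ((q : ℕ) : ℝ) ^ ((p : ℤ) * n)) :
    x = ((q : ℕ) : ℝ) ^ ((p : ℤ) * rootExp p q x) := by
  rw [rootExp, dif_pos h]
  exact h.choose_spec

theorem rootExp_one (q : Nat.Primes) : rootExp p q (1 : ℝ) = 0 := by
  have h := rootExp_spec (p := p) q (x := (1 : ℝ)) ⟨0, by simp⟩
  have h2 : (p : ℤ) * rootExp p q (1 : ℝ) = 0 :=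
    (Local.zpow_inj_q (h.symm.trans (zpow_zero _).symm))
  exact (mul_eq_zero.mp h2).resolve_left (Int.natCast_ne_zero.mpr hp.out.ne_zero)

omit [FiniteDimensional ℚ K] [Normal ℚ K] in
/-- An element with orders divisible by `p` outside a generating `T` is a `T`-unit times a
`p`-th power. -/
theorem exists_sUnit_of_dvd {T : Finset Nat.Primes}
    (hgen : ∀ f ∈ idl K, ∃ c ∈ unitsOf K, f * prin c ∈ Idele.unitsOutside T K) {a : QBarˣ}
    (ha : a ∈ unitsOf K) (hdiv : ∀ q ∉ T, ∀ g : GQ,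
      ∃ n : ℤ, ‖emb q (g (a : QBar))‖ = ((q : ℕ) : ℝ) ^ ((p : ℤ) * n)) :
    ∃ c ∈ unitsOf K, a * (c ^ p)⁻¹ ∈ sUnits T K := by
  classical
  let E : Nat.Primes → GQ → ℤ := fun q g =>
    if q ∈ T then 0 else rootExp p q ‖emb q (g (a : QBar))‖
  let nq : ∀ q : Nat.Primes, (Ω q)ˣ := fun q => Units.mk0 (((q : ℕ) : Ω q))
    (by exact_mod_cast q.2.ne_zero)
  let f : PreIdele := fun q g => nq q ^ E q g
  have hnq : ∀ q, ‖((nq q : (Ω q)ˣ) : Ω q)‖ = (((q : ℕ) : ℝ))⁻¹ := fun q => by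
    show ‖((q : ℕ) : Ω q)‖ = _
    rw [← map_natCast (algebraMap ℚ_[(q : ℕ)] (Ω q)), norm_algebraMap', Padic.norm_p]
  have hfn : ∀ q g, ‖((f q g : (Ω q)ˣ) : Ω q)‖ = ((q : ℕ) : ℝ) ^ (-E q g) := fun q g => by
    simp only [f, Units.val_zpow_eq_zpow_val, norm_zpow, hnq, inv_zpow', ]
  have hf : f ∈ idl K := by
    refine mem_idl.mpr ⟨fun q τ g => ?_, ?_, fun s hs => ?_⟩
    · have e : E q (loc q τ * g) = E q g := by
        simp only [E, AlgEquiv.mul_apply, emb_loc, norm_algEquiv_Ω]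
      simp only [f, e, Units.val_zpow_eq_zpow_val, nq, Units.val_mk0, map_zpow₀, map_natCast]
    · obtain ⟨T₁, hT₁⟩ := prin_mem_restricted a
      refine ⟨T₁, fun q hq g => ?_⟩
      have h1 : ‖emb q (g (a : QBar))‖ = 1 := hT₁ q hq g
      have hE : E q g = 0 := by
        simp only [E, h1, rootExp_one, ite_self]
      rw [hfn, hE, neg_zero, zpow_zero]
    · funext q g
      have e : s (a : QBar) = a := (IntermediateField.mem_fixingSubgroup_iff _ _).mp hs _ ha
      simp only [transl_apply, f, E, AlgEquiv.mul_apply, e]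
  obtain ⟨c, hc, hcT⟩ := hgen f hf
  refine ⟨c, hc, mem_sUnits.mpr ⟨mul_mem ha (inv_mem (pow_mem hc p)), fun q hq g => ?_⟩⟩
  have h1 : ‖((f q g : (Ω q)ˣ) : Ω q)‖ * ‖emb q (g (c : QBar))‖ = 1 := by
    have h := hcT.2 q hq g
    rwa [Pi.mul_apply, Pi.mul_apply, Units.val_mul, norm_mul, prin_val] at h
  rw [hfn, zpow_neg, inv_mul_eq_one₀ (zpow_ne_zero _ (Nat.cast_ne_zero.mpr q.2.ne_zero))] at h1
  have hEq : E q g = rootExp p q ‖emb q (g (a : QBar))‖ := if_neg hq
  rw [Units.val_mul, Units.val_inv_eq_inv_val, Units.val_pow_eq_pow_val, map_mul, map_inv₀,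
    map_pow, map_mul, map_inv₀, map_pow, norm_mul, norm_inv, norm_pow, ← h1, hEq,
    ← zpow_natCast, ← zpow_mul, mul_comm _ (p : ℤ), ← rootExp_spec q (hdiv q hq g)]
  exact mul_inv_cancel₀ (norm_ne_zero_iff.mpr (by simp))

variable (p K) in
/-- Characters of finite level of the absolute Galois group of `K`, unramified outside `T`. -/
def kumChars (T : Finset Nat.Primes) : Set (K.fixingSubgroup → ZMod p) :=
  {f | (∀ s t, f (s * t) = f s + f t) ∧
    (∃ L : IntermediateField ℚ QBar, FiniteDimensional ℚ L ∧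
      ∀ s : K.fixingSubgroup, (s : GQ) ∈ L.fixingSubgroup → f s = 0) ∧
    ∀ q : Nat.Primes, q ∉ T → ∀ A : ValuationSubring QBar, A.LiesOverPrime (q : ℕ) →
      ∀ s : K.fixingSubgroup, (s : GQ) ∈ A.inertiaSubgroupIn ℚ → f s = 0}

omit [Normal ℚ K] in
/-- There are finitely many characters of order `p` unramified outside a finite set. -/
theorem finite_kumChars (hp2 : p ≠ 2) (hζ : IsPrimitiveRoot ζ p) (hζK : ζ ∈ K)
    {T : Finset Nat.Primes} (hK : K.IsUnramifiedOutside T) : (kumChars p K T).Finite := by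
  classical
  obtain ⟨S, hTS, hS⟩ := exists_goodSet (p := p) hp2 hζ hζK T
  haveI : Finite (ModP p (sUnits S K)) := Nat.finite_of_card_ne_zero hS.card
  let κ : ModP p (sUnits S K) → K.fixingSubgroup → ZMod p := fun v s =>
    kumFun hζ hζK (sUnits_le S K) s v
  refine (Set.finite_range κ).subset fun f hf => ?_
  obtain ⟨hf, ⟨L₀, hL₀, hlev⟩, hur⟩ := hf
  let M : IntermediateField ℚ QBar := K ⊔ L₀
  haveI : FiniteDimensional ℚ M := IntermediateField.finiteDimensional_sup _ _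
  let L : IntermediateField ℚ QBar := IntermediateField.normalClosure ℚ M QBar
  haveI : Normal ℚ L := PT.normal_normalClosure M
  haveI : FiniteDimensional ℚ L := normalClosure.is_finiteDimensional ℚ M QBar
  have hL₀L : L₀ ≤ L := (le_sup_right : L₀ ≤ M).trans M.le_normalClosure
  obtain ⟨β, hβ⟩ := exists_kummer_root hζ hζK f hf L fun s hs =>
    hlev s (IntermediateField.fixingSubgroup_antitone hL₀L hs)
  have haK : β ^ p ∈ unitsOf K := by
    show ((β ^ p : QBarˣ) : QBar) ∈ K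
    rw [← InfiniteGalois.fixedField_fixingSubgroup K, IntermediateField.mem_fixedField_iff]
    intro s hs
    rw [Units.val_pow_eq_pow_val, map_pow, hβ ⟨s, hs⟩, mul_pow, pow_right_comm,
      hζ.pow_eq_one, one_pow, one_mul]
  -- the field of the root is unramified outside `S`
  haveI : FiniteDimensional ℚ (IntermediateField.adjoin ℚ ({(β : QBar)} : Set QBar)) :=
    IntermediateField.adjoin.finiteDimensional (Algebra.IsIntegral.isIntegral _)
  have hK' := hK.mono hTS
  have hF : (K ⊔ IntermediateField.adjoin ℚ {(β : QBar)}).IsUnramifiedOutside S :=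
    ⟨IntermediateField.finiteDimensional_sup _ _, fun q hq =>
      PT.InertiaFixes.sup (PT.inertiaFixes_of_ur hK' hq) (PT.inertiaFixes_adjoin (by
        rintro y rfl A hA g hg
        have hgK : g ∈ K.fixingSubgroup := PT.inertiaFixes_of_ur hK' hq A hA hg
        rw [hβ ⟨g, hgK⟩, hur q (fun h => hq (hTS h)) A hA ⟨g, hgK⟩ hg, ZMod.val_zero, pow_zero,
          one_mul]))⟩
  obtain ⟨L₂, _, _, hL₂, hle⟩ := PT.exists_normal_ur_ge hF
  have hβL : (β : QBar) ∈ L₂ :=
    hle ((le_sup_right (a := K)) (IntermediateField.subset_adjoin _ _ rfl))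
  have hdiv : ∀ q ∉ S, ∀ g : GQ, ∃ n : ℤ,
      ‖emb q (g ((β ^ p : QBarˣ) : QBar))‖ = ((q : ℕ) : ℝ) ^ ((p : ℤ) * n) := fun q hq g => by
    have hne : localEmb (q : ℕ) L₂ (res L₂ g ⟨_, hβL⟩) ≠ 0 := by
      rw [map_ne_zero, map_ne_zero]
      exact fun h => β.ne_zero (congrArg Subtype.val h)
    obtain ⟨n, hn⟩ := PT.exists_norm_eq_zpow_of_ur L₂ hL₂ hq (Units.mk0 _ hne)
    refine ⟨n, ?_⟩
    rw [Units.val_mk0, PT.norm_localEmb_res] at hn
    rw [Units.val_pow_eq_pow_val, map_pow, map_pow, norm_pow, hn, ← zpow_natCast, ← zpow_mul,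
      mul_comm n]
  obtain ⟨c, hc, hu⟩ := exists_sUnit_of_dvd hS.gen haK hdiv
  refine ⟨modClass p ⟨_, hu⟩, funext fun s => ?_⟩
  show kumFun hζ hζK (sUnits_le S K) s (modClass p ⟨_, hu⟩) = f s
  have hb : ((β * c⁻¹ : QBarˣ) : QBar) ^ p = ((β ^ p * (c ^ p)⁻¹ : QBarˣ) : QBar) := by
    rw [← Units.val_pow_eq_pow_val, mul_pow, inv_pow]
  rw [kumFun_modClass, kum_eq hζ hζK s.2 (sUnits_le S K hu) (Units.ne_zero _) hb
    (i := (f s).val) ?_, ZMod.natCast_zmod_val]
  rw [Units.val_mul, map_mul, hβ s, (IntermediateField.mem_fixingSubgroup_iff _ _).mp s.2 _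
    (show ((c⁻¹ : QBarˣ) : QBar) ∈ K from inv_mem hc), mul_assoc]

end Kummer

section Classes

variable {k : Type} [Field k] {r : Gal →* M2 k}

/-- The cocycles of finite level unramified outside `Smin`. -/
def twClasses (r : Gal →* M2 k) (Smin : Finset ℕ) : Submodule k (Gal → M2 k) where
  carrier := {b | TWPrimes.IsCocycle r b ∧ IsFiniteLevel b ∧
    ∀ (v : ℕ) [Fact v.Prime], v ∉ Smin → ∀ τ ∈ (padicPlace v).inertiaSubgroupIn ℚ, b τ = 0}
  zero_mem' := ⟨⟨fun g => by simp, fun g h => by simp⟩,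
    ⟨⊥, inferInstance, fun _ _ => rfl⟩, fun v _ _ τ _ => rfl⟩
  add_mem' := by
    rintro a b ⟨ha, ⟨La, hLa, hla⟩, hua⟩ ⟨hb, ⟨Lb, hLb, hlb⟩, hub⟩
    refine ⟨⟨fun g => ?_, fun g h => ?_⟩, ⟨La ⊔ Lb, ?_, fun σ hσ => ?_⟩, fun v _ hv τ hτ => ?_⟩
    · rw [Pi.add_apply, Matrix.trace_add, ha.trace, hb.trace, add_zero]
    · simp only [Pi.add_apply, ha.map_mul, hb.map_mul, map_add]
      abel
    · exact IntermediateField.finiteDimensional_sup _ _
    · rw [Pi.add_apply, hla σ fun x hx => hσ x (le_sup_left (a := La) hx),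
        hlb σ fun x hx => hσ x (le_sup_right (a := La) hx), add_zero]
    · rw [Pi.add_apply, hua v hv τ hτ, hub v hv τ hτ, add_zero]
  smul_mem' := by
    rintro c b ⟨hb, ⟨Lb, hLb, hlb⟩, hub⟩
    refine ⟨⟨fun g => ?_, fun g h => ?_⟩, ⟨Lb, hLb, fun σ hσ => ?_⟩, fun v _ hv τ hτ => ?_⟩
    · rw [Pi.smul_apply, Matrix.trace_smul, hb.trace, smul_zero]
    · simp only [Pi.smul_apply, hb.map_mul, map_smul, smul_add]
    · rw [Pi.smul_apply, hlb σ hσ, smul_zero]
    · rw [Pi.smul_apply, hub v hv τ hτ, smul_zero]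

/-- The coboundaries of trace zero matrices. -/
def twCobd (r : Gal →* M2 k) : Submodule k (Gal → M2 k) where
  carrier := {b | ∃ X : M2 k, X.trace = 0 ∧ ∀ g, b g = TWPrimes.cobd r X g}
  zero_mem' := ⟨0, by simp, fun g => by simp [TWPrimes.cobd]⟩
  add_mem' := by
    rintro a b ⟨X, hX, ha⟩ ⟨Y, hY, hb⟩
    refine ⟨X + Y, by rw [Matrix.trace_add, hX, hY, add_zero], fun g => ?_⟩
    simp only [Pi.add_apply, ha g, hb g, TWPrimes.cobd, map_add]
    abel
  smul_mem' := by
    rintro c b ⟨X, hX, hb⟩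
    refine ⟨c • X, by rw [Matrix.trace_smul, hX, smul_zero], fun g => ?_⟩
    simp only [Pi.smul_apply, hb g, TWPrimes.cobd, map_smul, smul_sub]

variable [Finite k] [CharP k p]

omit [Finite k] in
/-- A cocycle vanishing at an inertia group vanishes at its conjugates acting trivially. -/
theorem twCocycle_conj_eq_zero {b : Gal → M2 k} (hb : TWPrimes.IsCocycle r b) (g : Gal) {t : Gal}
    (ht : r t = 1) (hbt : b t = 0) : b (g * t * g⁻¹) = 0 := by
  have hr1 : r (g * t) = r g := by rw [map_mul, ht, mul_one]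
  rw [hb.map_mul, hb.map_mul, hbt, map_zero, zero_add, hb.map_inv,
    TWPrimes.ad_congr hr1, map_neg, ← TWPrimes.ad_mul, mul_inv_cancel, TWPrimes.ad_one,
    neg_add_cancel]

/-- There are finitely many cocycles of finite level unramified outside `Smin`. -/
theorem finite_twClasses (hp2 : p ≠ 2) (hfin : GaloisFactorsThroughFiniteLevel r)
    (Smin : Finset ℕ) : (twClasses r Smin : Set (Gal → M2 k)).Finite := by
  classical
  haveI : NeZero p := ⟨hp.out.ne_zero⟩
  obtain ⟨ζ, hζ⟩ := HasEnoughRootsOfUnity.exists_primitiveRoot QBar p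
  obtain ⟨Lr, hLr, hLr'⟩ := hfin
  haveI : FiniteDimensional ℚ (IntermediateField.adjoin ℚ {ζ}) :=
    IntermediateField.adjoin.finiteDimensional (Algebra.IsIntegral.isIntegral ζ)
  let M : IntermediateField ℚ QBar := Lr ⊔ IntermediateField.adjoin ℚ {ζ}
  haveI : FiniteDimensional ℚ M := IntermediateField.finiteDimensional_sup _ _
  let K : IntermediateField ℚ QBar := IntermediateField.normalClosure ℚ M QBar
  haveI : Normal ℚ K := PT.normal_normalClosure M
  haveI : FiniteDimensional ℚ K := normalClosure.is_finiteDimensional ℚ M QBar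
  haveI : IsGalois ℚ K := ⟨⟩
  have hζK : ζ ∈ K := M.le_normalClosure ((le_sup_right (a := Lr))
    (IntermediateField.mem_adjoin_simple_self ℚ ζ))
  have hrK : ∀ σ ∈ K.fixingSubgroup, r σ = 1 := fun σ hσ => hLr' σ fun x hx =>
    (IntermediateField.mem_fixingSubgroup_iff _ _).mp hσ x
      (M.le_normalClosure ((le_sup_left (a := Lr)) hx))
  obtain ⟨B, hB⟩ := exists_bound_good K
  let T : Finset Nat.Primes := (Finset.range (B + 1) ∪ Smin).subtype Nat.Prime
  have hT : ∀ q : Nat.Primes, q ∉ T → B < q ∧ (q : ℕ) ∉ Smin := fun q hq => by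
    refine ⟨not_le.mp fun h => hq ?_, fun h => hq ?_⟩
    · exact Finset.mem_subtype.mpr (Finset.mem_union_left _ (Finset.mem_range.mpr (Nat.lt_succ_of_le h)))
    · exact Finset.mem_subtype.mpr (Finset.mem_union_right _ h)
  have hK : K.IsUnramifiedOutside T := ⟨inferInstance, fun q hq A hA σ hσ => by
    rw [IntermediateField.mem_fixingSubgroup_iff]
    exact (restrictNormalHom_eq_one_iff K).mp
      (inertia_fixes_of_good K q.2 (hB _ q.2 (hT q hq).1) hA hσ)⟩
  haveI := (finite_kumChars (p := p) hp2 hζ hζK hK).to_subtype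
  letI : Algebra (ZMod p) k := ZMod.algebra k p
  let W := M2 k →ₗ[ZMod p] ZMod p
  haveI : Finite W := Finite.of_injective (DFunLike.coe : W → M2 k → ZMod p) DFunLike.coe_injective
  have hmem : ∀ b ∈ twClasses r Smin, ∀ l : W,
      (fun s : K.fixingSubgroup => l (b (s : GQ))) ∈ kumChars p K T := by
    rintro b ⟨hb, ⟨L, hL, hlev⟩, hur⟩ l
    refine ⟨fun s t => ?_, ⟨L, hL, fun s hs => ?_⟩, fun q hq A hA s hs => ?_⟩
    · simp only [Subgroup.coe_mul, hb.map_mul, TWPrimes.ad_of_eq_one (hrK _ s.2)]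
      rw [map_add, add_comm]
    · show l (b (s : GQ)) = 0
      rw [hlev _ ((IntermediateField.mem_fixingSubgroup_iff _ _).mp hs), map_zero]
    · obtain ⟨g, rfl⟩ := exists_smul_eq (padicPlace_liesOverPrime (q : ℕ)) hA q.2
      have h1 : g⁻¹ * (s : GQ) * g ∈ (padicPlace (q : ℕ)).inertiaSubgroupIn ℚ := by
        have := (mem_inertia_smul_iff (g := g⁻¹) (σ := (s : GQ))
          (A := g • padicPlace (q : ℕ))).mpr hs
        rwa [inv_inv, inv_smul_smul] at this
      have h2 : r (g⁻¹ * (s : GQ) * g) = 1 := hrK _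
        (PT.inertiaFixes_of_ur hK hq _ (padicPlace_liesOverPrime (q : ℕ)) h1)
      have h3 := twCocycle_conj_eq_zero hb g h2 (hur (q : ℕ) (hT q hq).2 _ h1)
      rw [show g * (g⁻¹ * (s : GQ) * g) * g⁻¹ = (s : GQ) by group] at h3
      show l (b (s : GQ)) = 0
      rw [h3, map_zero]
  let Θ : twClasses r Smin → (((K ≃ₐ[ℚ] K) → M2 k) × (W → kumChars p K T)) := fun b =>
    (fun c => (b : Gal → M2 k) (Function.surjInv (AlgEquiv.restrictNormalHom_surjective QBar) c),
      fun l => ⟨_, hmem b b.2 l⟩)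
  have hΘ : Function.Injective Θ := fun b b' e => by
    rw [Prod.mk.injEq] at e
    refine Subtype.ext (funext fun σ => ?_)
    set σ₀ := Function.surjInv (AlgEquiv.restrictNormalHom_surjective (K₁ := K) QBar)
      (AlgEquiv.restrictNormalHom K σ) with hσ₀
    have h0 : (b : Gal → M2 k) σ₀ = (b' : Gal → M2 k) σ₀ := congrFun e.1 _
    have hker : σ₀⁻¹ * σ ∈ K.fixingSubgroup := by
      rw [IntermediateField.mem_fixingSubgroup_iff]
      refine (restrictNormalHom_eq_one_iff K).mp ?_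
      rw [map_mul, map_inv, hσ₀,
        Function.surjInv_eq (AlgEquiv.restrictNormalHom_surjective (K₁ := K) QBar), inv_mul_cancel]
    have h1 : (b : Gal → M2 k) (σ₀⁻¹ * σ) = (b' : Gal → M2 k) (σ₀⁻¹ * σ) :=
      (Module.forall_dual_apply_eq_zero_iff (ZMod p) _).mp (fun l => by
        rw [map_sub, sub_eq_zero]
        exact congrFun (congrArg Subtype.val (congrFun e.2 l)) ⟨_, hker⟩) |> sub_eq_zero.mp
    rw [← mul_inv_cancel_left σ₀ σ, b.2.1.map_mul, b'.2.1.map_mul, h0, h1]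
  exact Set.finite_coe_iff.mp (Finite.of_injective Θ hΘ)

/-- Taylor–Wiles primes killing all twisted adjoint classes unramified outside `Smin`. -/
theorem exists_killing_primes (hp2 : p ≠ 2) (hr : TWPrimes.TWHyp r)
    (hfin : GaloisFactorsThroughFiniteLevel r)
    (hcyc : ∀ (σ : Gal) (n : ℕ), (∀ μ : QBar, μ ^ p = 1 → σ μ = μ ^ n) → (r σ).det = (n : k))
    (Smin : Finset ℕ) (_hpS : p ∈ Smin) (_hSp : ∀ v ∈ Smin, v.Prime)
    (_hunr : ∀ (v : ℕ) [Fact v.Prime], v ∉ Smin →
      ∀ τ ∈ (padicPlace v).inertiaSubgroupIn ℚ, r τ = 1) :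
    ∃ m : ℕ, ∀ (S : Finset ℕ) (n : ℕ), ∃ q : Fin m → ℕ, Function.Injective q ∧
      (∀ i, (q i).Prime ∧ q i ∉ S ∧ q i ∉ Smin ∧ p ^ (n + 1) ∣ q i - 1) ∧
      (∀ i, ∀ P : ValuationSubring QBar, P.LiesOverPrime (q i) →
        (∀ τ ∈ P.inertiaSubgroupIn ℚ, r τ = 1) ∧
        ∀ φ : Gal, P.IsFrobeniusAt φ (q i) → (r φ).det = 1 ∧ (r φ).trace ^ 2 ≠ 4 ∧
          ∃ α β : k, α ≠ β ∧ (r φ).charpoly =
            (Polynomial.X - Polynomial.C α) * (Polynomial.X - Polynomial.C β)) ∧
      ∀ b : Gal → M2 k, TWPrimes.IsCocycle r b → IsFiniteLevel b →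
        (∀ (v : ℕ) [Fact v.Prime], v ∉ Smin → (∀ i, v ≠ q i) →
          ∀ τ ∈ (padicPlace v).inertiaSubgroupIn ℚ, b τ = 0) →
        (∀ i, ∀ [Fact (q i).Prime], ∃ X : M2 k, X.trace = 0 ∧
          ∀ s ∈ (padicPlace (q i)).decompositionSubgroup ℚ, b s = TWPrimes.cobd r X s) →
        ∃ X : M2 k, X.trace = 0 ∧ ∀ g, b g = TWPrimes.cobd r X g := by
  haveI : Finite (twClasses r Smin) := (finite_twClasses (p := p) hp2 hfin Smin).to_subtype
  haveI : Module.Finite k (twClasses r Smin) := Module.Finite.of_finite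
  let B₀ : Submodule k (twClasses r Smin) := (twCobd r).comap (twClasses r Smin).subtype
  let e := Module.finBasis k (twClasses r Smin ⧸ B₀)
  choose bl hbl using fun i => B₀.mkQ_surjective (e i)
  have hind : ∀ c : Fin _ → k, ∀ X : M2 k, X.trace = 0 →
      (∀ g, ∑ i, c i • (bl i : Gal → M2 k) g = TWPrimes.cobd r X g) → c = 0 := by
    intro c X hX h
    have h1 : ∑ i, c i • bl i ∈ B₀ := ⟨X, hX, fun g => by
      rw [← h g]
      simp [Finset.sum_apply]⟩
    rw [← Submodule.Quotient.mk_eq_zero, ← Submodule.mkQ_apply, map_sum] at h1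
    simp only [map_smul, hbl] at h1
    exact funext (Fintype.linearIndependent_iff.mp e.linearIndependent c h1)
  refine ⟨finrank k (twClasses r Smin ⧸ B₀), fun S n => ?_⟩
  obtain ⟨q, hinj, hq, hine, hfrob, hdet⟩ := TWPrimes.exists_taylorWilesPrimes p r hr hfin hcyc
    (fun i => (bl i : Gal → M2 k)) (fun i => (bl i).2.1) (fun i => (bl i).2.2.1) hind (S ∪ Smin) n
  refine ⟨q, hinj, fun i => ⟨(hq i).1, fun h => (hq i).2.1 (Finset.mem_union_left _ h),
      fun h => (hq i).2.1 (Finset.mem_union_right _ h), (hq i).2.2.2⟩,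
    fun i P hP => ⟨fun τ hτ => (hine i P hP τ hτ).1, fun φ hφ => hfrob i P hP φ hφ⟩, ?_⟩
  intro b hb hlev hur hloc
  have hfact : ∀ i, Fact (q i).Prime := fun i => ⟨(hq i).1⟩
  have hmem : b ∈ twClasses r Smin := ⟨hb, hlev, fun v _ hv τ hτ => by
    by_cases h : ∃ i, v = q i
    · obtain ⟨i, rfl⟩ := h
      obtain ⟨X, -, hbX⟩ := hloc i
      rw [hbX τ (mem_inertia_iff_forall_mem.mp hτ).1, TWPrimes.cobd,
        TWPrimes.ad_of_eq_one (hine i _ (padicPlace_liesOverPrime (q i)) τ hτ).1, sub_self]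
    · push Not at h
      exact hur v hv h τ hτ⟩
  set x : twClasses r Smin := ⟨b, hmem⟩ with hx
  have hdiff : x - ∑ i, e.repr (B₀.mkQ x) i • bl i ∈ B₀ := by
    rw [← Submodule.Quotient.mk_eq_zero, ← Submodule.mkQ_apply, map_sub, map_sum, sub_eq_zero]
    simp only [map_smul, hbl]
    exact (e.sum_repr _).symm
  obtain ⟨Y, hY, hbY⟩ := hdiff
  choose φ hφ using fun i => haveI := hfact i
    exists_isFrobeniusAt (padicPlace_liesOverPrime (q i)) (hq i).1
  have hc : (fun i => e.repr (B₀.mkQ x) i) = 0 := by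
    refine hdet (fun i => @padicPlace (q i) (hfact i)) φ
      (fun i => @padicPlace_liesOverPrime (q i) (hfact i)) hφ _ fun i => ?_
    haveI := hfact i
    obtain ⟨X, -, hbX⟩ := hloc i
    have hd : (r (φ i)).det = 1 := (hfrob i _ (padicPlace_liesOverPrime (q i)) _ (hφ i)).1
    have h0 : TWPrimes.phi r b (φ i) = 0 := by
      rw [TWPrimes.phi, hbX _ (isFrobeniusAt_iff_forall_mem.mp (hφ i)).1]
      exact TWPrimes.phi_cobd hd
    have h1 := hbY (φ i)
    simp only [Submodule.subtype_apply, AddSubgroupClass.coe_sub, Submodule.coe_sum,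
      Submodule.coe_smul, Pi.sub_apply, Finset.sum_apply, Pi.smul_apply, x, sub_eq_iff_eq_add] at h1
    rw [TWPrimes.phi, h1, add_mul, Matrix.trace_add, Finset.sum_mul, Matrix.trace_sum] at h0
    rw [show (TWPrimes.cobd r Y (φ i) * r (φ i)).trace = 0 from TWPrimes.phi_cobd hd,
      zero_add] at h0
    simpa only [smul_mul_assoc, Matrix.trace_smul, smul_eq_mul, TWPrimes.phi] using h0
  refine ⟨Y, hY, fun g => ?_⟩
  have h1 := hbY g
  simp only [congrFun hc, Pi.zero_apply, zero_smul, Finset.sum_const_zero, sub_zero] at h1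
  exact h1

omit [Finite k] in
theorem eq_zero_of_ad_fixed (hr : TWPrimes.TWHyp r) {X : M2 k} (hX : X.trace = 0)
    (h : ∀ g, r g * X * r g⁻¹ = X) : X = 0 := by
  by_contra hne
  refine hr.no_adjoint_line hne hX fun g => ⟨1, ?_⟩
  conv_rhs => rw [one_smul, ← h g]
  rw [mul_assoc, TWPrimes.rinv_mul, mul_one]

omit [Finite k] in
theorem finrank_centraliser_le {g : Gal} (h2 : (2 : k) ≠ 0) (ht : (r g).trace ^ 2 ≠ 4)
    (hd : (r g).det = 1) (W : Submodule k (M2 k))
    (hW : ∀ X ∈ W, X.trace = 0 ∧ r g * X * r g⁻¹ = X) : finrank k W ≤ 1 := by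
  set Z : M2 k := r g - ((r g).trace / 2) • 1 with hZ
  have hZt : Z.trace = 0 := by
    rw [hZ, Matrix.trace_sub, Matrix.trace_smul, Matrix.trace_one, Fintype.card_fin, smul_eq_mul]
    push_cast
    field_simp
    ring
  have hZ0 : Z ≠ 0 := fun e => ht (by
    rw [hZ, sub_eq_zero] at e
    rw [e, Matrix.det_smul, Matrix.det_one, mul_one, Fintype.card_fin, div_pow,
      div_eq_one_iff_eq (pow_ne_zero 2 h2)] at hd
    rw [hd]; norm_num)
  have hle : W ≤ Submodule.span k {Z} := fun X hX => by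
    obtain ⟨hXt, hXf⟩ := hW X hX
    have hcomm : X * r g = r g * X := by
      conv_lhs => rw [← hXf]
      rw [mul_assoc, TWPrimes.rinv_mul, mul_one]
    obtain ⟨c, hc⟩ := TWPrimes.exists_smul_of_commute h2 hXt hZt hZ0 (by
      rw [hZ, mul_sub, sub_mul, hcomm, mul_smul_comm, smul_mul_assoc, mul_one, one_mul])
    exact Submodule.mem_span_singleton.mpr ⟨c, hc.symm⟩
  exact (Submodule.finrank_mono hle).trans_eq (finrank_span_singleton hZ0)

end Classes

end Fermat.Agent.CFT.GW
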