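import Fermat.Agent.CFT.GW.DualClass
import Fermat.Agent.CFT.GW.Killing

/-!
# Classes and local terms at a finite level

Translation between the decomposition groups inside `Gal(ℚ̄/ℚ)` and inside `Gal(L/ℚ)`, and the
local terms of the Greenberg–Wiles count for the adjoint module.
-/

set_option autoImplicit false
set_option synthInstance.maxHeartbeats 200000
set_option maxHeartbeats 1000000
set_option linter.unusedSectionVars false
set_option linter.unusedVariables false
set_option linter.style.haveILetI false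

noncomputable section

namespace Fermat.Agent.CFT.GW

open ExtCitation Fermat.Agent.Arith IntermediateField Fermat.Agent.CFT.Local Fermat.Agent.CFT.Idele
open Fermat.Agent.CFT.Duality Fermat.Agent.CFT.Euler Module Fermat.Agent.Deform Fermat.Agent.CFT.Tangent

local instance factPrimeLevel (q : Nat.Primes) : Fact (q : ℕ).Prime := ⟨q.2⟩

variable {p : ℕ} [hp : Fact p.Prime] {k : Type} [Field k] [Finite k] [CharP k p]
  {L : IntermediateField ℚ QBar} [FiniteDimensional ℚ L] [Normal ℚ L] [Fintype (L ≃ₐ[ℚ] L)]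
  {rG : (L ≃ₐ[ℚ] L) →* M2 k}

omit [Fintype (L ≃ₐ[ℚ] L)] in
theorem res_mem_decomp (q : Nat.Primes) {σ : GQ}
    (hσ : σ ∈ (padicPlace (q : ℕ)).decompositionSubgroup ℚ) : res L σ ∈ decomp L q :=
  (Local.mem_range_toGlobal_iff (q : ℕ) L (res L σ)).mpr fun x hx => by
    rw [res_apply]; exact map_mem_of_mem_decomposition hσ hx

omit [Fintype (L ≃ₐ[ℚ] L)] in
theorem exists_mem_decomposition_res (q : Nat.Primes) {g : L ≃ₐ[ℚ] L} (hg : g ∈ decomp L q) :
    ∃ σ ∈ (padicPlace (q : ℕ)).decompositionSubgroup ℚ, res L σ = g := by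
  obtain ⟨t, rfl⟩ := hg
  obtain ⟨τ, rfl⟩ := AlgEquiv.restrictNormalHom_surjective (K₁ := E L q) (Ω q) t
  exact ⟨localGaloisToGlobal (q : ℕ) τ, localGaloisToGlobal_mem_decompositionSubgroup (q : ℕ) _,
    (Local.toGlobal_restrict (q : ℕ) L τ).symm⟩

theorem exists_descend {r : Gal →* M2 k} (h : ∀ σ : Gal, res L σ = 1 → r σ = 1) :
    ∃ rG : (L ≃ₐ[ℚ] L) →* M2 k, rQ rG = r := by
  have key : ∀ σ τ : Gal, res L σ = res L τ → r σ = r τ := fun σ τ e => by
    have h1 := h (σ⁻¹ * τ) (by rw [map_mul, map_inv, e, inv_mul_cancel])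
    rw [← mul_inv_cancel_left σ τ, map_mul r σ, h1, mul_one]
  refine ⟨{ toFun := fun g => r (lift L g), map_one' := ?_, map_mul' := fun g g' => ?_ },
    MonoidHom.ext fun σ => key _ _ (res_lift L _)⟩
  · exact (key _ 1 (by rw [res_lift, map_one])).trans (map_one r)
  · rw [← map_mul]; exact key _ _ (by rw [map_mul, res_lift, res_lift, res_lift])

theorem exists_classAdj (V : Submodule k (Gal → M2 k)) (hcoc : ∀ b ∈ V, IsAdCocycle (rQ rG) b)
    (htr : ∀ b ∈ V, ∀ σ, (b σ).trace = 0) (hlev : ∀ b ∈ V, ∀ σ, res L σ = 1 → b σ = 0) :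
    ∃ β : V →+ ((L ≃ₐ[ℚ] L) → Adj rG),
      (∀ (b : V) (σ : Gal), Adj.mat (β b (res L σ)) = (b : Gal → M2 k) σ) ∧
      ∀ (b : V) (g h : L ≃ₐ[ℚ] L), β b (g * h) = g • β b h + β b g := by
  have key : ∀ (b : V) (σ τ : Gal), res L σ = res L τ →
      (b : Gal → M2 k) σ = (b : Gal → M2 k) τ := fun b σ τ e => by
    have h0 := hlev b b.2 (σ⁻¹ * τ) (by rw [map_mul, map_inv, e, inv_mul_cancel])
    rw [← mul_inv_cancel_left σ τ, hcoc b b.2, h0, mul_zero, zero_mul, zero_add]
  refine ⟨AddMonoidHom.mk' (fun b g => Adj.mk ((b : Gal → M2 k) (lift L g)) (htr b b.2 _))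
    fun b c => funext fun g => Adj.mat_injective ?_, fun b σ => ?_, fun b g h => Adj.mat_injective ?_⟩
  · rw [Pi.add_apply, map_add Adj.mat, Adj.mat_mk, Adj.mat_mk, Adj.mat_mk]
    rfl
  · exact key b _ _ (res_lift L _)
  · show (b : Gal → M2 k) (lift L (g * h)) = _
    rw [key b _ (lift L g * lift L h) (by rw [map_mul, res_lift, res_lift, res_lift]),
      hcoc b b.2, map_add, Adj.mat_smul]
    simp only [MonoidHom.comp_apply, map_inv, res_lift]
    rfl

omit [Finite k] in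
theorem classAdj_cobd_decomp (q : Nat.Primes) {b : Gal → M2 k} {β : (L ≃ₐ[ℚ] L) → Adj rG}
    (hβ : ∀ σ, Adj.mat (β (res L σ)) = b σ)
    (hb : b ∈ cobdOn (rQ rG) ((padicPlace (q : ℕ)).decompositionSubgroup ℚ)) :
    ∃ x : Adj rG, ∀ g ∈ decomp L q, β g = g • x - x := by
  obtain ⟨Z, hZt, hZ⟩ := hb
  refine ⟨Adj.mk Z hZt, fun g hg => Adj.mat_injective ?_⟩
  obtain ⟨σ, hσ, rfl⟩ := exists_mem_decomposition_res q hg
  rw [hβ, hZ σ hσ, map_sub, Adj.mat_smul, Adj.mat_mk]
  simp only [MonoidHom.comp_apply, map_inv]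

theorem lpN_card_eq_finrank (W : Type) [AddCommGroup W] [Module k W] [Finite W] :
    lpN p (Nat.card W) = lpN p (Nat.card k) * (finrank k W : ℤ) := by
  haveI : Module.Finite k W := Module.Finite.of_finite
  rw [Module.natCard_eq_pow_finrank (K := k), lpN, lpN, padicValNat.pow]
  push_cast
  ring

theorem lpN_card_pos : 0 < lpN p (Nat.card k) := by
  have hd : p ∣ Nat.card k := by
    have h := addOrderOf_dvd_natCard (G := k) 1
    haveI := CharP.addOrderOf_one k
    rwa [CharP.eq k ‹CharP k (addOrderOf (1 : k))› ‹CharP k p›] at h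
  have := one_le_padicValNat_of_dvd Nat.card_pos.ne' hd
  exact Int.natCast_pos.mpr this

/-- The fixed points of a decomposition group. -/
def fixPtsEquiv (q : Nat.Primes) :
    fixPts (decomp L q) (Adj rG) ≃
      fixedOn (rQ rG) ((padicPlace (q : ℕ)).decompositionSubgroup ℚ) where
  toFun a := ⟨Adj.mat a.1, Adj.trace_mat _, fun s hs => by
    show rG (res L s) * Adj.mat a.1 * rG (res L s⁻¹) = Adj.mat a.1
    rw [map_inv, ← Adj.mat_smul]
    exact congrArg Adj.mat (a.2 ⟨_, res_mem_decomp q hs⟩)⟩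
  invFun X := ⟨Adj.mk X.1 X.2.1, fun g => Adj.mat_injective (by
    obtain ⟨σ, hσ, e⟩ := exists_mem_decomposition_res q g.2
    rw [Subgroup.smul_def, Adj.mat_smul, Adj.mat_mk, ← e, ← map_inv]
    exact X.2.2 σ hσ)⟩
  left_inv _ := Subtype.ext (Adj.mat_injective rfl)
  right_inv _ := rfl

theorem lpN_fixPts_decomp (q : Nat.Primes) :
    lpN p (Nat.card (fixPts (decomp L q) (Adj rG))) = lpN p (Nat.card k) *
      (finrank k (fixedOn (rQ rG) ((padicPlace (q : ℕ)).decompositionSubgroup ℚ)) : ℤ) := by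
  rw [Nat.card_congr (fixPtsEquiv q)]
  exact lpN_card_eq_finrank (fixedOn (rQ rG) ((padicPlace (q : ℕ)).decompositionSubgroup ℚ))

omit [Fintype (L ≃ₐ[ℚ] L)] [Normal ℚ L] [FiniteDimensional ℚ L] in
theorem traceFun_smul_smul {G : Type} [Group G] {r : G →* M2 k} (g : G) (C Y : Adj r) :
    traceFun p r (g • C) (g • Y) = traceFun p r C Y := by
  rw [traceFun_apply, traceFun_apply, Adj.mat_smul, Adj.mat_smul]
  congr 1
  rw [show r g * Adj.mat C * r g⁻¹ * (r g * Adj.mat Y * r g⁻¹) =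
    r g * (Adj.mat C * Adj.mat Y) * r g⁻¹ by
      simp only [mul_assoc]
      rw [← mul_assoc (r g⁻¹) (r g), ← map_mul r, inv_mul_cancel, map_one, one_mul]]
  exact Tangent.trace_conj_map (r := r) _ _

theorem lpN_fixDual_conj (hp2 : p ≠ 2)
    (hcyc : ∀ (σ : Gal) (n : ℕ), (∀ μ : QBar, μ ^ p = 1 → σ μ = μ ^ n) →
      (rQ rG σ).det = (n : k))
    {c : Gal} (hc : c * c = 1) (hcμ : ∀ μ : QBar, ∀ n : ℕ, 0 < n → μ ^ n = 1 → c μ = μ⁻¹)
    [Fintype (Subgroup.zpowers (res L c))] :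
    lpN p (Nat.card k) ≤
      lpN p (Nat.card (fixDual p (Subgroup.zpowers (res L c)) (Adj rG))) := by
  have h2 : (2 : k) ≠ 0 := two_ne_zero_of_char p hp2
  set g := res L c with hg
  have hgg : rG g * rG g = 1 := by rw [← map_mul, ← map_mul, hc, map_one, map_one]
  have hdet : (rG g).det = -1 := by
    have h := hcyc c (p - 1) fun μ hμ => by
      rw [hcμ μ p hp.out.pos hμ, inv_eq_of_mul_eq_one_right]
      rw [← pow_succ', Nat.sub_add_cancel hp.out.one_le, hμ]
    rw [Nat.cast_sub hp.out.one_le, CharP.cast_eq_zero, Nat.cast_one, zero_sub] at h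
    exact h
  have htr : (rG g).trace = 0 := by
    have h := TWPrimes.mul_self_eq (rG g)
    rw [hgg, hdet, neg_one_smul, sub_neg_eq_add] at h
    replace h : (rG g).trace • rG g = 0 := right_eq_add.mp h
    refine (smul_eq_zero.mp h).resolve_right fun h0 => ?_
    rw [h0, Matrix.det_zero] at hdet
    exact one_ne_zero (neg_eq_zero.mp hdet.symm)
  let M : Adj rG := Adj.mk (rG g) htr
  have hM : ∀ h : Subgroup.zpowers g, (h : L ≃ₐ[ℚ] L) • M = M := fun h => by
    have h1 : g ∈ MulAction.stabilizer (L ≃ₐ[ℚ] L) M := Adj.mat_injective (by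
      show rG g * rG g * rG g⁻¹ = rG g
      rw [mul_assoc, ← map_mul rG g, mul_inv_cancel, map_one, mul_one])
    exact Subgroup.zpowers_le.mpr h1 h.2
  let Φ : k →+ fixDual p (Subgroup.zpowers g) (Adj rG) :=
    AddMonoidHom.mk' (fun t => ⟨traceFun p rG (t • M), fun h a => by
      rw [Subgroup.smul_def]
      conv_rhs => rw [← traceFun_smul_smul (h : L ≃ₐ[ℚ] L)]
      congr 2
      refine Adj.mat_injective ?_
      conv_lhs => rw [← hM h]
      rw [map_smul, Adj.mat_smul, Adj.mat_smul, map_smul, mul_smul_comm, smul_mul_assoc]⟩)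
      fun s t => Subtype.ext (by
        show traceFun p rG ((s + t) • M) = traceFun p rG (s • M) + traceFun p rG (t • M)
        rw [add_smul, map_add])
  have hΦ : Function.Injective Φ := fun s t h => by
    have h1 := congrArg Adj.mat (traceFun_injective p h2 (congrArg Subtype.val h))
    rw [map_smul, map_smul] at h1
    refine smul_left_injective k (fun h0 => ?_) h1
    change rG g = 0 at h0
    rw [h0, Matrix.det_zero] at hdet
    exact one_ne_zero (neg_eq_zero.mp hdet.symm)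
  haveI := finite_dual (A := Adj rG) (p := p)
  exact lpN_mono p (AddSubgroup.card_dvd_of_injective Φ hΦ) Nat.card_pos.ne'

/-- A root of unity in the completion, as a homomorphism. -/
theorem exists_rootHom (q : Nat.Primes) {ζ : L} (hζ : IsPrimitiveRoot ζ p) :
    ∃ z : ZMod p →+ Loc L q, Function.Injective z ∧ (∀ x, p • x = 0 → ∃ a, z a = x) ∧
      ∀ h : decomp L q, (h : L ≃ₐ[ℚ] L) ζ = ζ → ∀ a, h • z a = z a := by
  haveI : NeZero p := ⟨hp.out.ne_zero⟩
  let u : Lˣ := (hζ.isUnit hp.out.ne_zero).unit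
  let uE : (E L q)ˣ := Units.map (localEmb (q : ℕ) L).toMonoidHom u
  have huE : IsPrimitiveRoot ((uE : (E L q)ˣ) : E L q) p :=
    hζ.map_of_injective (localEmb (q : ℕ) L).injective
  have huE' : IsPrimitiveRoot uE p := IsPrimitiveRoot.coe_units_iff.mp huE
  let z : ZMod p →+ Loc L q := ZMod.lift p ⟨zmultiplesHom _ (Loc.of (Additive.ofMul uE)), by
    show (p : ℤ) • Loc.of (Additive.ofMul uE) = 0
    rw [natCast_zsmul, ← map_nsmul, ← ofMul_pow, huE'.pow_eq_one, ofMul_one, map_zero]⟩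
  have hz : ∀ n : ℕ, z (n : ZMod p) = Loc.of (Additive.ofMul (uE ^ n)) := fun n => by
    rw [ofMul_pow, map_nsmul, ← nsmul_one n, map_nsmul]
    congr 1
    rw [← Int.cast_one, ZMod.lift_coe]
    exact one_zsmul _
  refine ⟨z, (injective_iff_map_eq_zero _).mpr fun a ha => ?_, fun x hx => ?_, fun h hh a => ?_⟩
  · rw [← ZMod.natCast_zmod_val a, hz] at ha
    have h1 : uE ^ a.val = 1 := congrArg (fun w : Loc L q => Loc.val' w) ha
    rw [← ZMod.natCast_zmod_val a,
      (ZMod.natCast_eq_zero_iff _ _).mpr (huE'.dvd_of_pow_eq_one _ h1)]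
  · have h1 : Loc.val' x ^ p = 1 := congrArg (fun w : Loc L q => Loc.val' w) hx
    obtain ⟨i, -, hi⟩ := huE.eq_pow_of_pow_eq_one (ξ := ((Loc.val' x : (E L q)ˣ) : E L q))
      (by rw [← Units.val_pow_eq_pow_val, h1, Units.val_one])
    refine ⟨(i : ZMod p), ?_⟩
    rw [hz, show uE ^ i = Loc.val' x from Units.ext (by rw [Units.val_pow_eq_pow_val]; exact hi)]
    rfl
  · obtain ⟨t, rfl⟩ := (decompEquiv L q).surjective h
    rw [← ZMod.natCast_zmod_val a, hz, Loc.smul_of]
    rw [coe_decompEquiv] at hh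
    refine congrArg Loc.of (congrArg Additive.ofMul (Units.ext ?_))
    show t (((uE ^ a.val : (E L q)ˣ)) : E L q) = _
    rw [Units.val_pow_eq_pow_val, map_pow]
    congr 1
    show t (localEmb (q : ℕ) L ζ) = localEmb (q : ℕ) L ζ
    rw [← localEmb_toGlobal, hh]

theorem exists_trace_of_vanish (h2 : (2 : k) ≠ 0) {X : Pres p (L ≃ₐ[ℚ] L) (Adj rG)}
    (hfull : ∀ x : X.P, x ∈ X.K) {M : Type} [AddCommGroup M] (z : ZMod p →+ M)
    (hzinj : Function.Injective z) (hzsurj : ∀ x, p • x = 0 → ∃ a, z a = x) (f : X.P →+ M)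
    (hS : ∀ s ∈ X.S, f s = 0) : ∃ C : Adj rG, ∀ x, z (traceFun p rG C (piH hfull x)) = f x := by
  choose a ha using fun x => hzsurj (f x) (by rw [← map_nsmul]; exact hS _ (X.level x))
  let aHom : X.P →+ ZMod p := AddMonoidHom.mk' a fun x y => hzinj (by
    rw [map_add z, ha, ha, ha, map_add])
  obtain ⟨C, hC⟩ := exists_traceFun_piH hfull h2 aHom fun s => hzinj (by
    rw [map_zero z]
    show z (a s) = 0
    rw [ha]; exact hS s s.2)
  exact ⟨C, fun x => by rw [hC]; exact ha x⟩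

/-- An equivariant functional has a matrix fixed by the element. -/
theorem smul_eq_of_equivariant (h2 : (2 : k) ≠ 0) {X : Pres p (L ≃ₐ[ℚ] L) (Adj rG)}
    (hfull : ∀ x : X.P, x ∈ X.K) {M : Type} [AddCommGroup M] (z : ZMod p →+ M)
    (hzinj : Function.Injective z) (f : X.P →+ M) (g : L ≃ₐ[ℚ] L)
    (hg : ∀ x, f (g • x) = f x) {C : Adj rG}
    (hC : ∀ x, z (traceFun p rG C (piH hfull x)) = f x) : g • C = C := by
  refine traceFun_piH_ext hfull h2 fun x => hzinj ?_
  have e : piH hfull x = g • piH hfull (g⁻¹ • x) := by rw [← piH_smul, smul_inv_smul]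
  rw [e, traceFun_smul_smul, ← e, hC, hC, ← hg, smul_inv_smul]

omit [Finite k] in
theorem res_fixes_root {φ : Gal} {ζ : L} (hζ : IsPrimitiveRoot ζ p)
    (hcyc : ∀ (σ : Gal) (n : ℕ), (∀ μ : QBar, μ ^ p = 1 → σ μ = μ ^ n) →
      (rQ rG σ).det = (n : k))
    (hd : (rQ rG φ).det = 1) : res L φ ζ = ζ := by
  haveI : NeZero p := ⟨hp.out.ne_zero⟩
  obtain ⟨n, hn⟩ := Tangent.exists_pow_eq_on_roots p φ
  have hn1 : (n : k) = ((1 : ℕ) : k) := by rw [Nat.cast_one, ← hcyc φ n hn, hd]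
  refine Subtype.ext ((res_apply L φ ζ).trans ?_)
  have hζQ : IsPrimitiveRoot (ζ : QBar) p := hζ.map_of_injective L.val.injective
  rw [hn _ hζQ.pow_eq_one]
  conv_rhs => rw [← pow_one (ζ : QBar)]
  exact pow_eq_pow_of_modEq ((CharP.natCast_eq_natCast k p).mp hn1) hζQ.pow_eq_one

/-- Functionals invariant under a regular element form at most a line. -/
theorem lpN_card_le_of_functionals (hp2 : p ≠ 2) (X : Pres p (L ≃ₐ[ℚ] L) (Adj rG))
    (hfull : ∀ x : X.P, x ∈ X.K) {φ : Gal}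
    (hd : (rQ rG φ).det = 1) (ht : (rQ rG φ).trace ^ 2 ≠ 4)
    {M : Type} [AddCommGroup M] (z : ZMod p →+ M)
    (hzinj : Function.Injective z) (hzsurj : ∀ x, p • x = 0 → ∃ a, z a = x)
    {F : Type} [AddCommGroup F] (toP : F →+ (X.P →+ M)) (hinj : Function.Injective toP)
    (hvan : ∀ (f : F), ∀ s ∈ X.S, toP f s = 0)
    (hinv : ∀ (f : F) (x : X.P), toP f (res L φ • x) = toP f x) :
    lpN p (Nat.card F) ≤ lpN p (Nat.card k) := by
  have h2 : (2 : k) ≠ 0 := two_ne_zero_of_char p hp2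
  let W := fixedOn (rQ rG) (Subgroup.zpowers φ)
  choose C hC using fun f : F => exists_trace_of_vanish h2 hfull z hzinj hzsurj (toP f) (hvan f)
  have hfix : ∀ f, ∀ s ∈ Subgroup.zpowers φ, res L s • C f = C f := fun f s hs => by
    have h1 : φ ∈ (MulAction.stabilizer (L ≃ₐ[ℚ] L) (C f)).comap (res L) :=
      smul_eq_of_equivariant h2 hfull z hzinj (toP f) (res L φ) (hinv f) (hC f)
    exact Subgroup.zpowers_le.mpr h1 hs
  let Φ : F →+ W := AddMonoidHom.mk' (fun f => ⟨Adj.mat (C f), Adj.trace_mat _, fun s hs => by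
      show rG (res L s) * Adj.mat (C f) * rG (res L s⁻¹) = Adj.mat (C f)
      rw [map_inv, ← Adj.mat_smul, hfix f s hs]⟩) fun f f' => Subtype.ext (by
      show Adj.mat (C (f + f')) = Adj.mat (C f) + Adj.mat (C f')
      rw [← map_add Adj.mat]
      refine congrArg Adj.mat (traceFun_piH_ext hfull h2 fun x => hzinj ?_)
      rw [map_add (traceFun p rG), AddMonoidHom.add_apply, map_add z, hC, hC, hC, map_add toP]
      rfl)
  have hΦ : Function.Injective Φ := fun f f' h => by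
    have h1 : C f = C f' := Adj.mat_injective (congrArg (fun w : W => (w : M2 k)) h)
    exact hinj (AddMonoidHom.ext fun x => by rw [← hC, h1, hC])
  have hW : finrank k W ≤ 1 := finrank_centraliser_le h2 ht hd W fun Y hY =>
    ⟨hY.1, hY.2 φ (Subgroup.mem_zpowers φ)⟩
  calc lpN p (Nat.card F) ≤ lpN p (Nat.card W) :=
        lpN_mono p (AddSubgroup.card_dvd_of_injective Φ hΦ) Nat.card_pos.ne'
    _ = lpN p (Nat.card k) * (finrank k W : ℤ) := lpN_card_eq_finrank W
    _ ≤ lpN p (Nat.card k) * 1 :=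
        mul_le_mul_of_nonneg_left (by exact_mod_cast hW) (Int.natCast_nonneg _)
    _ = _ := mul_one _

omit [Finite k] in
/-- An element of the kernel of a restriction, as a map on the lattice. -/
def kerToP {G : Type} [Group G] [Fintype G] {A : Type} [AddCommGroup A] [DistribMulAction G A]
    (X : Pres p G A) (hfull : ∀ x : X.P, x ∈ X.K) (M : Type) [AddCommGroup M]
    [DistribMulAction G M] : (X.res M).ker →+ (X.P →+ M) where
  toFun f := AddMonoidHom.mk' (fun x => f.1.1 ⟨x, hfull x⟩) fun x y =>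
    map_add f.1.1 ⟨x, hfull x⟩ ⟨y, hfull y⟩
  map_zero' := rfl
  map_add' _ _ := rfl

theorem kerToP_injective {G : Type} [Group G] [Fintype G] {A : Type} [AddCommGroup A]
    [DistribMulAction G A] (X : Pres p G A) (hfull : ∀ x : X.P, x ∈ X.K) (M : Type)
    [AddCommGroup M] [DistribMulAction G M] : Function.Injective (kerToP X hfull M) :=
  fun _ _ h => Subtype.ext (Subtype.ext (AddMonoidHom.ext fun x => DFunLike.congr_fun h x.1))

theorem kerToP_vanish {G : Type} [Group G] [Fintype G] {A : Type} [AddCommGroup A]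
    [DistribMulAction G A] (X : Pres p G A) (hfull : ∀ x : X.P, x ∈ X.K) (M : Type)
    [AddCommGroup M] [DistribMulAction G M] (f : (X.res M).ker) (s : X.P) (hs : s ∈ X.S) :
    kerToP X hfull M f s = 0 :=
  (resHom_eq_zero_iff _ _ _ f.1).mp f.2 ⟨s, hfull s⟩ hs

theorem kerToP_smul_of_fixed {G : Type} [Group G] [Fintype G] {A : Type} [AddCommGroup A]
    [DistribMulAction G A] (X : Pres p G A) (hfull : ∀ x : X.P, x ∈ X.K) (M : Type)
    [AddCommGroup M] [DistribMulAction G M] (z : ZMod p →+ M)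
    (hzsurj : ∀ x, p • x = 0 → ∃ a, z a = x) {g : G} (hg : ∀ a, g • z a = z a)
    (f : (X.res M).ker) (x : X.P) : kerToP X hfull M f (g • x) = kerToP X hfull M f x := by
  obtain ⟨a, ha⟩ := hzsurj (kerToP X hfull M f x) (by
    rw [← map_nsmul]; exact kerToP_vanish X hfull M f _ (X.level x))
  have h3 : kerToP X hfull M f (g • x) = g • kerToP X hfull M f x := f.1.2 g ⟨x, hfull x⟩
  rw [h3, ← ha, hg]

/-- Kernels of restrictions in a module with `p` torsion `𝔽_p`, at a regular element. -/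
theorem lpN_ker_res_le_aux (hp2 : p ≠ 2) (X : Pres p (L ≃ₐ[ℚ] L) (Adj rG))
    (hfull : ∀ x : X.P, x ∈ X.K) (H : Subgroup (L ≃ₐ[ℚ] L)) [Fintype H] {φ : Gal}
    (hφH : res L φ ∈ H) (hd : (rQ rG φ).det = 1) (ht : (rQ rG φ).trace ^ 2 ≠ 4)
    {M : Type} [AddCommGroup M] [DistribMulAction H M] (z : ZMod p →+ M)
    (hzinj : Function.Injective z) (hzsurj : ∀ x, p • x = 0 → ∃ a, z a = x)
    (hzfix : ∀ a, (⟨res L φ, hφH⟩ : H) • z a = z a) :
    lpN p (Nat.card ((X.restrict H).res M).ker) ≤ lpN p (Nat.card k) :=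
  lpN_card_le_of_functionals hp2 X hfull hd ht z hzinj hzsurj (kerToP (X.restrict H) hfull M)
    (kerToP_injective (X.restrict H) hfull M) (kerToP_vanish (X.restrict H) hfull M)
    (kerToP_smul_of_fixed (X.restrict H) hfull M z hzsurj hzfix)

theorem lpN_ker_res_le (hp2 : p ≠ 2) {ζ : L} (hζ : IsPrimitiveRoot ζ p)
    (hcyc : ∀ (σ : Gal) (n : ℕ), (∀ μ : QBar, μ ^ p = 1 → σ μ = μ ^ n) →
      (rQ rG σ).det = (n : k))
    (q : Nat.Primes) (hqp : (q : ℕ) ≠ p)
    (hfrob : ∀ φ : Gal, (padicPlace (q : ℕ)).IsFrobeniusAt φ (q : ℕ) →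
      (rQ rG φ).det = 1 ∧ (rQ rG φ).trace ^ 2 ≠ 4)
    (X : Pres p (L ≃ₐ[ℚ] L) (Adj rG)) (hfull : ∀ x : X.P, x ∈ X.K)
    [Fintype (decomp L q)] :
    lpN p (Nat.card ((X.restrict (decomp L q)).res (Loc L q)).ker) ≤ lpN p (Nat.card k) :=
  Exists.elim (exists_isFrobeniusAt (padicPlace_liesOverPrime (q : ℕ)) q.2) fun φ hφ =>
    Exists.elim (exists_rootHom q hζ) fun z hz =>
      lpN_ker_res_le_aux hp2 X hfull (decomp L q)
        (res_mem_decomp q (isFrobeniusAt_iff_forall_mem.mp hφ).1) (hfrob φ hφ).1 (hfrob φ hφ).2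
        z hz.1 hz.2.1 fun a => hz.2.2 _ (res_fixes_root hζ hcyc (hfrob φ hφ).1) a

end Fermat.Agent.CFT.GW
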