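import Fermat.Agent.CFT.GW.LocalStep

/-!
# The class formation of a local field

The fundamental class of a finite normal extension of `ℚ_[q]` is descended from the carry cocycle
of `q` for an unramified extension of the same degree; transported to the decomposition groups.
-/

set_option autoImplicit false
set_option synthInstance.maxHeartbeats 200000
set_option maxHeartbeats 1000000
set_option linter.unusedSectionVars false
set_option linter.unusedVariables false
set_option linter.style.haveILetI false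

noncomputable section

namespace Fermat.Agent.CFT.GW

open groupCohomology Fermat.Agent.CFT.Local Fermat.Agent.CFT.GW.LocalCyclo

variable {p : ℕ} [hp : Fact p.Prime] {q : ℕ} [Fact q.Prime]
  {E : IntermediateField ℚ_[q] (PadicAlgCl q)} [FiniteDimensional ℚ_[q] E] [Normal ℚ_[q] E]

/-- A class whose order is the degree. -/
theorem exists_local_fund : ∃ u : NormCocycle (E ≃ₐ[ℚ_[q]] E) (Additive Eˣ), ∀ k : ℤ,
    IsCoboundary₂ (k • u.toFun) → (Nat.card (E ≃ₐ[ℚ_[q]] E) : ℤ) ∣ k := by
  classical
  set n := Nat.card (E ≃ₐ[ℚ_[q]] E) with hn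
  rcases Nat.lt_or_ge 1 n with hn1 | hn1
  swap
  · refine ⟨⟨0, fun g h j => by simp, fun g => rfl⟩, fun k _ => ?_⟩
    have : 0 < n := Nat.card_pos
    rw [show n = 1 by omega]
    exact one_dvd _
  haveI : NeZero n := ⟨by omega⟩
  obtain ⟨U, hUf, hUn, hUI, hUc, hUcard⟩ :=
    exists_unramified (q := q) (n := n) Nat.card_pos
  letI := hUf; letI := hUn; letI := hUc
  set E' := E ⊔ U with hE'
  haveI : FiniteDimensional ℚ_[q] E' := IntermediateField.finiteDimensional_sup E U
  haveI : Normal ℚ_[q] E' := IntermediateField.normal_sup ℚ_[q] (PadicAlgCl q) E U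
  set π := locRes (show E ≤ E' from le_sup_left)
  set ρ := locRes (show U ≤ E' from le_sup_right)
  let iso : (U ≃ₐ[ℚ_[q]] U) ≃* Multiplicative (ZMod n) := mulEquivOfCyclicCardEq (by
    rw [Nat.card_congr Multiplicative.toAdd, Nat.card_zmod, hUcard])
  set χ : (E' ≃ₐ[ℚ_[q]] E') →* Multiplicative (ZMod n) := iso.toMonoidHom.comp ρ
  have hχker : χ.ker = ρ.ker := by
    ext σ
    simp [χ, MonoidHom.mem_ker]
  obtain ⟨γ, hγ⟩ : ∃ γ, χ γ = Multiplicative.ofAdd 1 :=
    (iso.surjective.comp (locRes_surjective _)) _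
  have hIN : inertia E' ≤ ρ.ker := fun σ hσ => by
    have h := locRes_mem_inertia (show U ≤ E' from le_sup_right) hσ
    rwa [hUI, Subgroup.mem_bot] at h
  have hNN : π.ker ⊓ ρ.ker = ⊥ := eq_bot_iff.mpr fun σ hσ => by
    rw [Subgroup.mem_bot]
    have h1 := (locRes_eq_one_iff (show E ≤ E' from le_sup_left) σ).mp hσ.1
    have h2 := (locRes_eq_one_iff (show U ≤ E' from le_sup_right) σ).mp hσ.2
    have hc : ∀ y : E', σ.liftNormal (PadicAlgCl q) (y : PadicAlgCl q) =
        ((σ y : E') : PadicAlgCl q) := fun y =>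
      AlgEquiv.liftNormal_commutes σ (PadicAlgCl q) y
    have hle : E' ≤ IntermediateField.fixedField
        (Subgroup.zpowers (σ.liftNormal (PadicAlgCl q))) := by
      refine sup_le ?_ ?_ <;> intro y hy <;> rw [IntermediateField.mem_fixedField_iff] <;>
        intro g hg
      · exact (Subgroup.zpowers_le (H := MulAction.stabilizer _ y)).mpr
          ((hc ⟨y, le_sup_left (b := U) hy⟩).trans (congrArg Subtype.val (h1 _ hy))) hg
      · exact (Subgroup.zpowers_le (H := MulAction.stabilizer _ y)).mpr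
          ((hc ⟨y, le_sup_right (a := E) hy⟩).trans (congrArg Subtype.val (h2 _ hy))) hg
    refine AlgEquiv.ext fun y => Subtype.ext ?_
    rw [← hc, AlgEquiv.one_apply]
    exact (IntermediateField.mem_fixedField_iff _ _).mp (hle y.2) _ (Subgroup.mem_zpowers _)
  haveI : Fintype π.ker := Fintype.ofFinite _
  obtain ⟨y, hy⟩ := exists_normHom_eq_of_base_change (⊤ : Subgroup (E' ≃ₐ[ℚ_[q]] E')) π.ker ρ.ker
    le_top (n := n)
    (fun g _ => by rw [MonoidHom.mem_ker, map_pow, hn, pow_card_eq_one'])
    (fun g _ => by rw [MonoidHom.mem_ker, map_pow, ← hUcard, pow_card_eq_one']) hNN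
    (le_trans inf_le_right hIN)
    (by
      rw [Subgroup.card_top, ← π.ker.card_mul_index, Subgroup.index_ker,
        MonoidHom.range_eq_top.mpr (locRes_surjective _), Subgroup.card_top])
    (x := qUnit E') (fun h => smul_qUnit E' _)
  set x : Additive E'ˣ := Additive.ofMul (qUnit E')
  have hxfix : ∀ σ : E' ≃ₐ[ℚ_[q]] E', σ • x = x := fun σ =>
    congrArg Additive.ofMul (smul_qUnit E' σ)
  have hres := carryN_subgroup_mem_of_norm χ π.ker (Additive.ofMul y) x (by
    refine Additive.toMul.injective ?_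
    rw [toMul_sum]
    exact hy)
  let ι : Additive Eˣ →+ Additive E'ˣ := MonoidHom.toAdditive
    (Units.map (IntermediateField.inclusion (show E ≤ E' from le_sup_left)).toRingHom.toMonoidHom)
  have hι : Function.Injective ι := fun a b h => Additive.toMul.injective
    (Units.map_injective (IntermediateField.inclusion_injective _) (congrArg Additive.toMul h))
  have hinv : ∀ (σ : E' ≃ₐ[ℚ_[q]] E') (b : Additive Eˣ), σ • ι b = ι (π σ • b) := fun σ b =>
    Additive.toMul.injective (Units.ext (Subtype.ext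
      (coe_locRes (show E ≤ E' from le_sup_left) σ ((b.toMul : Eˣ) : E)).symm))
  have hfix : ∀ a : Additive E'ˣ, (∀ s : π.ker, (s : E' ≃ₐ[ℚ_[q]] E') • a = a) →
      ∃ b, ι b = a := fun a ha => by
    have hmem := mem_of_fixed_ker (show E ≤ E' from le_sup_left) (y := ((a.toMul : E'ˣ) : E'))
      fun σ hσ => congrArg (fun b : Additive E'ˣ => ((b.toMul : E'ˣ) : E')) (ha ⟨σ, hσ⟩)
    refine ⟨Additive.ofMul (Units.mk0 ⟨_, hmem⟩ fun h => a.toMul.ne_zero (Subtype.ext ?_)),
      Additive.toMul.injective (Units.ext (Subtype.ext rfl))⟩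
    simpa using congrArg Subtype.val h
  obtain ⟨c₀, hc₀, hdiff⟩ := exists_descend₂ π (locRes_surjective _) ι hι hinv hfix
    (h1Zero_units π.ker) (Idele.carryN χ x) (Idele.isCocycle₂_carryN hxfix) hres
  obtain ⟨u, hu⟩ := exists_normCocycle hc₀
  refine ⟨u, fun k hk => ?_⟩
  have hkc₀ : k • c₀ ∈ cobound₂ (E ≃ₐ[ℚ_[q]] E) (Additive Eˣ) := by
    rw [show k • c₀ = k • (c₀ - u.toFun) + k • u.toFun by
      rw [zsmul_sub, sub_add_cancel]]
    exact add_mem (AddSubgroup.zsmul_mem _ hu k) hk
  have hcarry : Idele.carryN χ (k • x) ∈ cobound₂ (E' ≃ₐ[ℚ_[q]] E') (Additive E'ˣ) := by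
    rw [← Idele.zsmul_carryN]
    have h1 : (k • fun gh : (E' ≃ₐ[ℚ_[q]] E') × (E' ≃ₐ[ℚ_[q]] E') => ι (c₀ (π gh.1, π gh.2))) ∈
        cobound₂ (E' ≃ₐ[ℚ_[q]] E') (Additive E'ˣ) := by
      have h := isCoboundary₂_pullback π ι hinv hkc₀
      rw [show (k • fun gh : (E' ≃ₐ[ℚ_[q]] E') × (E' ≃ₐ[ℚ_[q]] E') => ι (c₀ (π gh.1, π gh.2))) =
        fun gh => ι ((k • c₀) (π gh.1, π gh.2)) from funext fun gh => (map_zsmul ι k _).symm]
      exact h
    have h2 := AddSubgroup.zsmul_mem _ hdiff k
    rw [zsmul_sub] at h2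
    have h3 := add_mem h2 h1
    rwa [sub_add_cancel] at h3
  obtain ⟨w, hw, hkx⟩ := Idele.exists_eq_norm_of_carryN hn1 hγ
    (h1Zero_units χ.ker) hcarry
  have hdvd : (Nat.card (inertia E') : ℤ) ∣ ordZ E' w.toMul := by
    have h := card_inf_inertia_dvd_ordZ χ.ker (x := w.toMul)
      fun σ => congrArg Additive.toMul (hw σ σ.2)
    rwa [inf_eq_right.mpr (hχker ▸ hIN)] at h
  have hsum : ∀ s : Finset ℕ, ordZ E' (∑ i ∈ s, γ ^ i • w).toMul = s.card * ordZ E' w.toMul := by
    intro s
    induction s using Finset.induction with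
    | empty => simp [ordZ_one]
    | insert i s hi ih =>
      rw [Finset.sum_insert hi, toMul_add, ordZ_mul, ih, Finset.card_insert_of_notMem hi]
      rw [show ordZ E' (γ ^ i • w).toMul = ordZ E' w.toMul from
        congrArg Multiplicative.toAdd (ord_smul_unit (γ ^ i) w.toMul)]
      push_cast
      ring
  have hval := congrArg (fun z : Additive E'ˣ => ordZ E' z.toMul) hkx
  simp only [hsum, toMul_zsmul] at hval
  rw [show x.toMul = qUnit E' from rfl, ordZ_zpow, ordZ_qUnit, Finset.card_range] at hval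
  obtain ⟨j, hj⟩ := hdvd
  rw [hj, mul_left_comm] at hval
  refine ⟨j, mul_right_cancel₀ (Int.natCast_ne_zero.mpr
    (Nat.card_pos (α := inertia E')).ne') ?_⟩
  rw [hval]
  ring

/-- A local field carries a class formation. -/
theorem exists_localClass [Fintype (E ≃ₐ[ℚ_[q]] E)] :
    ∃ u : NormCocycle (E ≃ₐ[ℚ_[q]] E) (Additive Eˣ), IsClassFormation p u := by
  obtain ⟨u, hu⟩ := exists_local_fund (E := E)
  refine ⟨u, stepAxioms_localUnits.isClassFormation u fun P k hk => ?_⟩
  have h := index_nsmul_isCoboundary₂ (P : Subgroup (E ≃ₐ[ℚ_[q]] E)) (k • u.toFun)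
    (isCocycle₂_zsmul u.isCocycle k) hk
  rw [← natCast_zsmul (k • u.toFun), smul_smul] at h
  have h2 := hu _ h
  rw [← (P : Subgroup (E ≃ₐ[ℚ_[q]] E)).card_mul_index, Nat.cast_mul,
    mul_comm (Nat.card (P : Subgroup (E ≃ₐ[ℚ_[q]] E)) : ℤ)] at h2
  exact Int.dvd_of_mul_dvd_mul_left
    (Int.natCast_ne_zero.mpr Subgroup.index_ne_zero_of_finite) h2

end Fermat.Agent.CFT.GW

namespace Fermat.Agent.CFT.GW

open groupCohomology ExtCitation Fermat.Agent.Arith IntermediateField Fermat.Agent.CFT.Local
open Fermat.Agent.CFT.Idele Fermat.Agent.CFT.Duality Fermat.Agent.CFT.Euler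

section Transport

variable {G G' A A' : Type*} [Group G] [AddCommGroup A] [DistribMulAction G A] [Group G']
  [AddCommGroup A'] [DistribMulAction G' A'] (e : G ≃* G') (φ : A ≃+ A')
  (hφ : ∀ g a, φ (g • a) = e g • φ a)

include hφ in
theorem isClassFormation_congr [Fintype G] [Fintype G'] {p : ℕ} {u : NormCocycle G A}
    (h : IsClassFormation p u) : ∃ v : NormCocycle G' A', IsClassFormation p v := by
  have hinv : ∀ (g' : G') (a : A), φ (e.symm g' • a) = g' • φ a := fun g' a => by
    rw [hφ, e.apply_symm_apply]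
  have hinv' : ∀ (g' : G') (a' : A'), φ.symm (g' • a') = e.symm g' • φ.symm a' := fun g' a' =>
    φ.injective (by rw [hinv, φ.apply_symm_apply, φ.apply_symm_apply])
  let v : NormCocycle G' A' :=
    { toFun := fun gh => φ (u.toFun (e.symm gh.1, e.symm gh.2))
      isCocycle := fun a b c => by
        show φ _ + φ _ = a • φ _ + φ _
        rw [← hinv, ← map_add, ← map_add, map_mul, map_mul, u.isCocycle]
      one_left := fun g => by rw [map_one, u.one_left, map_zero] }
  have hcard : ∀ H : Subgroup G', Nat.card (H.comap e.toMonoidHom) = Nat.card H := fun H =>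
    Nat.card_congr (e.toEquiv.subtypeEquiv fun g => Iff.rfl)
  refine ⟨v, fun H hH c hc => ?_, fun H hH c hc => ?_, fun H hH k hk => ?_⟩
  · let η : H.comap e.toMonoidHom →* H := (e.toMonoidHom.comp (Subgroup.subtype _)).codRestrict H
      fun x => x.2
    obtain ⟨y, hy⟩ := h.h1 _ (hH.comap_of_injective _ e.injective)
      (fun x => φ.symm (c (η x))) fun a b => by
        show φ.symm (c (η (a * b))) = (a : G) • φ.symm (c (η b)) + φ.symm (c (η a))
        rw [map_mul, hc, map_add, Subgroup.smul_def, hinv']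
        rw [show e.symm ((η a : H) : G') = (a : G) from e.symm_apply_apply _]
    refine ⟨φ y, fun g => φ.symm.injective ?_⟩
    have := hy ⟨e.symm g, show e (e.symm (g : G')) ∈ H by rw [e.apply_symm_apply]; exact g.2⟩
    rw [Subgroup.smul_def] at this
    rw [map_sub, Subgroup.smul_def, hinv', φ.symm_apply_apply, this]
    refine congrArg (fun z => φ.symm (c z)) ?_
    exact Subtype.ext (e.apply_symm_apply (g : G'))
  · let η : H.comap e.toMonoidHom →* H := (e.toMonoidHom.comp (Subgroup.subtype _)).codRestrict H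
      fun x => x.2
    obtain ⟨k, b, hb⟩ := h.generates _ (hH.comap_of_injective _ e.injective)
      (fun x => φ.symm (c (η x.1, η x.2))) fun a b d => by
        show φ.symm _ + φ.symm _ = (a : G) • φ.symm _ + φ.symm _
        rw [← map_add, map_mul, map_mul, hc, map_add, Subgroup.smul_def, hinv']
        rw [show e.symm ((η a : H) : G') = (a : G) from e.symm_apply_apply _]
    let η' : H → H.comap e.toMonoidHom := fun g =>
      ⟨e.symm g, show e (e.symm (g : G')) ∈ H by rw [e.apply_symm_apply]; exact g.2⟩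
    have hηη : ∀ g, η (η' g) = g := fun g => Subtype.ext (e.apply_symm_apply _)
    refine ⟨k, fun g => φ (b (η' g)), fun g g' => ?_⟩
    have := congrArg φ (hb (η' g) (η' g'))
    rw [map_add, map_sub, map_sub, map_zsmul, φ.apply_symm_apply, hηη, hηη,
      Subgroup.smul_def, hinv] at this
    show (g : G') • φ (b (η' g')) - φ (b (η' (g * g'))) + φ (b (η' g)) =
      c (g, g') - k • φ (u.toFun (e.symm g, e.symm g'))
    rw [show η' (g * g') = η' g * η' g' from Subtype.ext (map_mul e.symm _ _)]
    exact this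
  · rw [← hcard H]
    obtain ⟨b, hb⟩ := hk
    refine h.order _ (hH.comap_of_injective _ e.injective) k
      ⟨fun x => φ.symm (b ⟨e x.1, x.2⟩), fun a a' => φ.injective ?_⟩
    show φ ((a : G) • φ.symm (b _) - φ.symm (b _) + φ.symm (b _)) = φ (k • _)
    rw [map_add, map_sub, hφ, φ.apply_symm_apply, φ.apply_symm_apply, φ.apply_symm_apply,
      map_zsmul]
    have h' := hb ⟨e a.1, a.2⟩ ⟨e a'.1, a'.2⟩
    simp only [v, e.symm_apply_apply] at h'
    rw [← h']
    congr 3
    exact Subtype.ext (map_mul e (a : G) (a' : G))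

end Transport

local instance factPrimeLocClass (q : Nat.Primes) : Fact (q : ℕ).Prime := ⟨q.2⟩

variable (L : IntermediateField ℚ QBar) [FiniteDimensional ℚ L] [Normal ℚ L]
  {p : ℕ} [hp : Fact p.Prime]

/-- The completion at the distinguished place over `q` carries a class formation. -/
theorem exists_locClass (hp2 : p ≠ 2) {ζ : L} (hζ : IsPrimitiveRoot ζ p) (q : Nat.Primes)
    [Fintype (decomp L q)] :
    ∃ u : NormCocycle (decomp L q) (Loc L q), IsClassFormation p u := by
  letI : Fintype (E L q ≃ₐ[ℚ_[(q : ℕ)]] E L q) := Fintype.ofFinite _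
  obtain ⟨u, hu⟩ := exists_localClass (p := p) (E := E L q)
  exact isClassFormation_congr (decompEquiv L q) Loc.of (fun t x => (Loc.smul_of t x).symm) hu

/-- The completion has finite `p`-torsion and finite cokernel of multiplication by `p`. -/
theorem modPFinite_loc (hp2 : p ≠ 2) (q : Nat.Primes) : ModPFinite p (Loc L q) := by
  haveI : NeZero p := ⟨hp.out.ne_zero⟩
  refine ModPFinite.congr Loc.of ⟨?_, ?_⟩
  · haveI : Finite (powMonoidHom p : (E L q)ˣ →* _).ker :=
      inferInstanceAs (Finite (rootsOfUnity p (E L q)))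
    exact Finite.of_injective
      (fun x => (⟨x.1.toMul, congrArg Additive.toMul x.2⟩ : (powMonoidHom p : (E L q)ˣ →* _).ker))
      fun _ _ h => Subtype.ext (Additive.toMul.injective (congrArg Subtype.val h))
  · have h := index_range_pow (p := p) (E := E L q) hp2
    have hne : (powMonoidHom p : (E L q)ˣ →* _).range.index ≠ 0 := by
      rw [h]
      haveI : Finite (powMonoidHom p : (E L q)ˣ →* _).ker :=
        inferInstanceAs (Finite (rootsOfUnity p (E L q)))
      refine mul_ne_zero (mul_ne_zero hp.out.ne_zero Nat.card_pos.ne') ?_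
      split_ifs
      · exact pow_ne_zero _ hp.out.ne_zero
      · exact one_ne_zero
    rw [show (nsmulAddMonoidHom p : Additive (E L q)ˣ →+ _).range =
      (powMonoidHom p : (E L q)ˣ →* _).range.toAddSubgroup from AddSubgroup.ext fun x => Iff.rfl,
      Subgroup.index_toAddSubgroup]
    exact hne

end Fermat.Agent.CFT.GW
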