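import Fermat.Agent.CFT.GW.LocalClass
import Fermat.Agent.CFT.Euler.Count

/-!
# The Euler index of a completion away from `p`

For `q ≠ p` the index with coefficients in `E_qˣ` is the logarithm of the number of invariants.
The splitting module has the index of the regular lattice, as the units are cohomologically
negligible; the functionals hit by the connecting map are those killing the invariants.
-/

set_option autoImplicit false
set_option synthInstance.maxHeartbeats 200000
set_option maxHeartbeats 1000000
set_option linter.unusedSectionVars false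
set_option linter.unusedVariables false
set_option linter.style.haveILetI false

noncomputable section

namespace Fermat.Agent.CFT.GW

open Fermat.Agent.CFT.Euler

section Generic

variable {p : ℕ} [hp : Fact p.Prime] {G : Type} [Group G] [Fintype G] {A : Type} [AddCommGroup A]
  [DistribMulAction G A] (X : Pres p G A)

/-- Coefficients on which `p` is bijective have index zero. -/
theorem index_eq_zero_of_bijective {M : Type} [AddCommGroup M] [DistribMulAction G M]
    (hM : Function.Bijective fun m : M => p • m) : X.index M = 0 := by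
  let e : M ≃+ M := AddEquiv.ofBijective (nsmulAddMonoidHom p : M →+ M) hM
  have he : ∀ (g : G) (x : M), e.symm (g • x) = g • e.symm x := fun g x => e.injective (by
    rw [e.apply_symm_apply]
    show g • x = p • g • e.symm x
    rw [smul_comm p g]
    exact congrArg (g • ·) (e.apply_symm_apply x).symm)
  have hsurj : Function.Surjective (X.res M) := fun f => by
    let m : X.K →+ X.S := (mulP X.level).comp X.K.subtype
    refine ⟨⟨e.symm.toAddMonoidHom.comp (f.1.comp m), fun g x => ?_⟩,
      Subtype.ext (AddMonoidHom.ext fun s => e.injective ?_)⟩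
    · show e.symm (f.1 (m _)) = g • e.symm (f.1 (m x))
      rw [show m (smulS X.hK g x) = smulS X.hS g (m x) from
        Subtype.ext (smul_comm g p (x : X.P)).symm, f.2, he]
    · show e (e.symm (f.1 (mulP X.level (s : X.P)))) = p • f.1 s
      rw [e.apply_symm_apply, mulP_coe, map_nsmul]
  have hker : (X.res M).ker = ⊥ := by
    refine (AddSubgroup.eq_bot_iff_forall _).mpr fun f hf => Subtype.ext
      (AddMonoidHom.ext fun x => hM.1 ?_)
    show p • f.1 x = p • (0 : X.K →+ M) x
    rw [← map_nsmul, (resHom_eq_zero_iff X.hK X.hS X.le f).mp hf (p • x) (X.level x),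
      AddMonoidHom.zero_apply, smul_zero]
  rw [Pres.index, lpIndex, AddMonoidHom.range_eq_top.mpr hsurj, AddSubgroup.index_top, hker,
    AddSubgroup.card_bot, sub_self]

/-- The index with coefficients in the regular lattice. -/
theorem index_funG [Finite A] (hA : ∀ a : A, p • a = 0) :
    X.index (FunG G) = lpN p (Nat.card A) := by
  classical
  haveI : Fintype (⊥ : Subgroup G) := Fintype.ofFinite _
  have hbot : Nat.Coprime p (Nat.card (⊥ : Subgroup G)) := by
    rw [Subgroup.card_bot]
    exact Nat.coprime_one_right p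
  rw [← X.index_congr (FunG.coIndEquiv ⊥) (FunG.coIndEquiv_smul ⊥), CoInd.index_eq X]
  have e1 := (X.restrict (⊥ : Subgroup G)).index_add (Aug.incl (G := (⊥ : Subgroup G)))
    (FunG.total (G := (⊥ : Subgroup G))) Aug.incl_smul FunG.total_smul Aug.incl_injective
    Aug.exists_incl_eq Aug.total_incl FunG.total_surjective (good_of_coprime p _ _ hbot)
    Aug.modPFinite TrivZ.modPFinite
  have e2 : (X.restrict (⊥ : Subgroup G)).index (Aug (⊥ : Subgroup G)) = 0 := by
    haveI : Subsingleton (Aug (⊥ : Subgroup G)) := by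
      refine ⟨fun x y => Aug.incl_injective (funext fun b => ?_)⟩
      have hsub : ∀ z : Aug (⊥ : Subgroup G), Aug.incl z b = 0 := fun z => by
        have h := Aug.total_incl z
        change TrivZ.of (∑ x : (⊥ : Subgroup G), Aug.incl z x) = 0 at h
        exact (Fintype.sum_subsingleton (fun x => Aug.incl z x) b).symm.trans
          (TrivZ.of.injective (h.trans (map_zero _).symm))
      rw [hsub, hsub]
    exact Pres.index_eq_zero_of_finite _ hbot
  rw [e1, e2, zero_add, (X.restrict (⊥ : Subgroup G)).index_trivZ hbot, lpN_fixDual_bot hA]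

/-- The connecting map of a class formation hits exactly the functionals killing the invariants. -/
theorem index_split_local [Finite A] {C : Type} [AddCommGroup C] [DistribMulAction G C]
    {u : NormCocycle G C} (hfull : ∀ x : X.P, x ∈ X.K) (hC : ModPFinite p C)
    (hu : IsClassFormation p u) (hA : ∀ a : A, p • a = 0) :
    X.index (Split u) + lpN p (Nat.card (fixPts G A)) = X.index C + lpN p (Nat.card A) := by
  classical
  letI : Module (ZMod p) A := AddCommGroup.zmodModule hA
  haveI := finite_dual (A := A) (p := p)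
  haveI := finite_dual (A := fixPts G A) (p := p)
  let res : (A →+ ZMod p) →+ (fixPts G A →+ ZMod p) :=
    AddMonoidHom.mk' (fun ν => ν.comp (fixPts G A).subtype) fun _ _ => rfl
  have hres : Function.Surjective res := fun ν => by
    obtain ⟨L, hL⟩ := exists_extend_zmod (p := p) (fixPts G A) ν
    exact ⟨L, AddMonoidHom.ext hL⟩
  have heq : (splitHom (u := u) X).range = res.ker := by
    refine le_antisymm ?_ fun ν hν => ?_
    · rintro _ ⟨f, rfl⟩
      exact AddMonoidHom.ext fun a => splitHom_apply_fixPts X hu f a.2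
    let Ψ : A →+ (G → A) := AddMonoidHom.mk' (fun a g => g • a - a) fun a b => funext fun g => by
      show g • (a + b) - (a + b) = (g • a - a) + (g • b - b)
      rw [smul_add]
      abel
    have hker : Ψ.rangeRestrict.ker ≤ ν.ker := fun a ha => by
      have hfix : a ∈ fixPts G A := fun g =>
        sub_eq_zero.mp (congrFun (congrArg Subtype.val (AddMonoidHom.mem_ker.mp ha)) g)
      exact DFunLike.congr_fun hν (⟨a, hfix⟩ : fixPts G A)
    obtain ⟨L, hL⟩ := exists_extend_zmod (p := p) Ψ.range
      (AddMonoidHom.liftOfSurjective Ψ.rangeRestrict Ψ.rangeRestrict_surjective ⟨ν, hker⟩)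
    have hν' : ν = ∑ g : G, ((L.comp (AddMonoidHom.single (fun _ : G => A) g)).comp
        (DistribSMul.toAddMonoidHom A g) - L.comp (AddMonoidHom.single (fun _ : G => A) g)) :=
      AddMonoidHom.ext fun a => by
        have h1 : L (Ψ a) = ν a :=
          (hL ⟨Ψ a, a, rfl⟩).trans (AddMonoidHom.liftOfRightInverse_comp_apply Ψ.rangeRestrict _ _
            (⟨ν, hker⟩ : { g : A →+ ZMod p // Ψ.rangeRestrict.ker ≤ g.ker }) a)
        rw [← h1, AddMonoidHom.finsetSum_apply]
        conv_lhs => rw [← Finset.univ_sum_single (Ψ a), map_sum]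
        refine Finset.sum_congr rfl fun g _ => ?_
        show L (Pi.single g (g • a - a)) = L (Pi.single g (g • a)) - L (Pi.single g a)
        rw [← map_sub, ← Pi.single_sub]
    rw [hν']
    exact AddSubgroup.sum_mem _ fun g _ => coboundary_mem_range_splitHom X hfull g _
  have hcard : Nat.card A = Nat.card res.ker * Nat.card (fixPts G A) := by
    rw [← card_dual (p := p) hA,
      ← card_dual (p := p) (A := fixPts G A) fun a => Subtype.ext (hA a.1),
      ← res.ker.card_mul_index, AddSubgroup.index_ker, AddMonoidHom.range_eq_top.mpr hres,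
      AddSubgroup.card_top]
  rw [index_split_eq X hfull hC, heq, hcard, lpN_mul p Nat.card_pos.ne' Nat.card_pos.ne']
  ring

/-- For a unit subgroup of index zero the splitting module has the index of the regular lattice,
at subgroups of order prime to `p`. -/
theorem index_split_sub_funG {C : Type} [AddCommGroup C] [DistribMulAction G C]
    {u : NormCocycle G C} (hC : ModPFinite p C) (ord : C →+ TrivZ G)
    (hord : ∀ (g : G) (x : C), ord (g • x) = ord x) (hsurj : Function.Surjective ord)
    (V : AddSubgroup C) (hV : IsStable G V) (hVle : V ≤ ord.ker)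
    (hVidx : V.relIndex ord.ker ≠ 0) (hVbij : Function.Bijective fun v : V => p • v)
    {H : Subgroup G} [Fintype H] (hH : Nat.Coprime p (Nat.card H)) {B : Type} [AddCommGroup B]
    [DistribMulAction H B] (Y : Pres p H B) :
    Y.index (Split u) = Y.index (FunG G) := by
  have good : ∀ (M : Type) [AddCommGroup M] [DistribMulAction H M], Good p H M := fun M _ _ =>
    good_of_coprime p H M hH
  have sker : IsStable H ord.ker := fun g x hx => by
    show ord ((g : G) • x) = 0
    rw [hord]; exact hx
  letI := stableAction sker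
  letI := stableAction (IsStable.restrict hV H)
  have hVfin : ModPFinite p V := by
    refine ⟨?_, ?_⟩
    · haveI : Subsingleton (nsmulAddMonoidHom p : V →+ V).ker :=
        ⟨fun x y => Subtype.ext (hVbij.1 (x.2.trans y.2.symm))⟩
      infer_instance
    · rw [AddMonoidHom.range_eq_top.mpr hVbij.2, AddSubgroup.index_top]
      exact one_ne_zero
  have hkfin : ModPFinite p ord.ker := by
    refine ⟨hC.of_injective ord.ker.subtype Subtype.val_injective, fun h0 => hVidx ?_⟩
    refine Nat.eq_zero_of_zero_dvd (h0 ▸ AddSubgroup.index_dvd_of_le ?_)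
    intro x hx
    obtain ⟨v, hv⟩ := hVbij.2 ⟨(x : C), hx⟩
    refine ⟨AddSubgroup.inclusion hVle v, Subtype.ext ?_⟩
    exact (congrArg Subtype.val hv : ((p • v : V) : C) = (x : C))
  have e1 := Y.index_add (Split.inl (u := u)) (Aug.ofSplit (u := u))
    (fun g x => (Split.smul_inl (g : G) x).symm) (fun g z => Aug.ofSplit_smul (g : G) z)
    (fun _ _ h => congrArg Split.fstHom h) Aug.exists_inl_eq Aug.ofSplit_inl
    Aug.ofSplit_surjective (good _) hC Aug.modPFinite
  have e2 := Y.index_add (Aug.incl (G := G)) (FunG.total (G := G))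
    (fun g z => Aug.incl_smul (g : G) z) (fun g z => FunG.total_smul (g : G) z)
    Aug.incl_injective Aug.exists_incl_eq Aug.total_incl FunG.total_surjective (good _)
    Aug.modPFinite TrivZ.modPFinite
  have e3 : Y.index C = Y.index ord.ker + Y.index (TrivZ G) :=
    Y.index_add ord.ker.subtype ord (fun _ _ => rfl) (fun g x => hord (g : G) x)
      Subtype.val_injective (fun y hy => ⟨⟨y, hy⟩, rfl⟩) (fun x => x.2) hsurj (good _) hkfin
      TrivZ.modPFinite
  have e4 : Y.index ord.ker = 0 := by
    haveI : Finite (AddSubgroup.inclusion hVle).ker := by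
      haveI : Subsingleton (AddSubgroup.inclusion hVle).ker :=
        ⟨fun x y => Subtype.ext (AddSubgroup.inclusion_injective _ (x.2.trans y.2.symm))⟩
      infer_instance
    rw [← Y.index_eq_of_finiteIndex hH (AddSubgroup.inclusion hVle) (fun _ _ => rfl) (by
      rw [show (AddSubgroup.inclusion hVle).range = V.addSubgroupOf ord.ker by
        ext x
        exact ⟨fun ⟨y, hy⟩ => hy ▸ y.2, fun h => ⟨⟨x.1, h⟩, Subtype.ext rfl⟩⟩]
      exact hVidx) hVfin hkfin]
    exact index_eq_zero_of_bijective Y hVbij
  omega

/-- The index of a local class formation away from `p`. -/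
theorem index_eq_fixPts [Finite A] {C : Type} [AddCommGroup C] [DistribMulAction G C]
    {u : NormCocycle G C} (hfull : ∀ x : X.P, x ∈ X.K) (hC : ModPFinite p C)
    (hu : IsClassFormation p u) (hA : ∀ a : A, p • a = 0) (ord : C →+ TrivZ G)
    (hord : ∀ (g : G) (x : C), ord (g • x) = ord x) (hsurj : Function.Surjective ord)
    (V : AddSubgroup C) (hV : IsStable G V) (hVle : V ≤ ord.ker)
    (hVidx : V.relIndex ord.ker ≠ 0) (hVbij : Function.Bijective fun v : V => p • v) :
    X.index C = lpN p (Nat.card (fixPts G A)) := by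
  classical
  have g1 : Good p G (Split u) := good_split hu
  have g2 : Good p G (FunG G) := good_funG
  have a1 := isAdditive_eMod p g1 (Aug.split_modPFinite hC)
  have a2 := isAdditive_eMod p g2 FunG.modPFinite
  let ψ : ModInvariant G p := fun B _ _ _ hB =>
    eMod p (G := G) (Split u) hB - eMod p (G := G) (FunG G) hB
  have hadd : IsAdditive ψ := by
    intro B₁ B₂ B₃ _ _ _ _ _ _ _ _ _ h₁ h₂ h₃ f g hf hg hfi hfg hgs
    have e1 := a1 B₁ B₂ B₃ h₁ h₂ h₃ f g hf hg hfi hfg hgs
    have e2 := a2 B₁ B₂ B₃ h₁ h₂ h₃ f g hf hg hfi hfg hgs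
    show _ - _ = (_ - _) + (_ - _)
    simp only at e1 e2
    rw [e1, e2]
    ring
  have hcyc : VanishesOnCyclic ψ := by
    intro H _ hH B _ _ _ hB
    haveI : Fintype H := Fintype.ofFinite _
    show _ - _ = 0
    rw [eMod_coindQ H g1 hB (canonPres p (G := G) hB),
      eMod_coindQ H g2 hB (canonPres p (G := G) hB),
      index_split_sub_funG hC ord hord hsurj V hV hVle hVidx hVbij hH, sub_self]
  have h := eq_zero_of_vanishesOnCyclic ψ hadd hcyc A hA
  change eMod p (G := G) (Split u) hA - eMod p (G := G) (FunG G) hA = 0 at h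
  rw [eMod_eq_index p g1 hA X, eMod_eq_index p g2 hA X, index_funG X hA] at h
  have := index_split_local X hfull hC hu hA
  omega

end Generic

end Fermat.Agent.CFT.GW

namespace Fermat.Agent.CFT.GW

open ExtCitation Fermat.Agent.Arith IntermediateField Fermat.Agent.CFT.Local Fermat.Agent.CFT.Idele
open Fermat.Agent.CFT.Duality Fermat.Agent.CFT.Euler

local instance factPrimeLocEuler (q : Nat.Primes) : Fact (q : ℕ).Prime := ⟨q.2⟩

variable (L : IntermediateField ℚ QBar) [FiniteDimensional ℚ L] [Normal ℚ L]
  {p : ℕ} [hp : Fact p.Prime]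

/-- Away from `p` the local index is the number of invariants. -/
theorem index_loc_eq (hp2 : p ≠ 2) {ζ : L} (hζ : IsPrimitiveRoot ζ p) (q : Nat.Primes)
    (hqp : (q : ℕ) ≠ p) [Fintype (decomp L q)] {A : Type} [AddCommGroup A]
    [DistribMulAction (decomp L q) A] [Finite A] (hA : ∀ a : A, p • a = 0)
    (X : Pres p (decomp L q) A) (hfull : ∀ x : X.P, x ∈ X.K) :
    X.index (Loc L q) = lpN p (Nat.card (fixPts (decomp L q) A)) := by
  classical
  obtain ⟨u, hu⟩ := exists_locClass L hp2 hζ q
  obtain ⟨Λ⟩ := exists_normalLattice (E := E L q)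
  let ord' : Loc L q →+ TrivZ (decomp L q) :=
    AddMonoidHom.mk' (fun x => TrivZ.of (ordZ (E L q) (Loc.val' x))) fun x y => by
      rw [← map_add, ← ordZ_mul]
      rfl
  have hzero : ∀ x : Loc L q, x ∈ ord'.ker ↔ Loc.val' x ∈ unitGroup (E L q) := fun x => by
    rw [← ord_eq_one_iff, AddMonoidHom.mem_ker]
    constructor
    · exact fun h => Multiplicative.toAdd.injective (TrivZ.of.injective (h.trans (map_zero _).symm))
    · intro h
      show TrivZ.of (ordZ (E L q) (Loc.val' x)) = 0
      rw [ordZ, h, toAdd_one, map_zero]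
  let V : AddSubgroup (Loc L q) :=
    (deepUnits Λ.good 0).toAddSubgroup.map Loc.of.toAddMonoidHom
  have hVmem : ∀ x : Loc L q, x ∈ V ↔ Loc.val' x ∈ deepUnits Λ.good 0 := fun x =>
    ⟨by rintro ⟨y, hy, rfl⟩; exact hy, fun h => ⟨Additive.ofMul (Loc.val' x), h, rfl⟩⟩
  refine index_eq_fixPts X hfull (modPFinite_loc L hp2 q) hu hA ord' (fun g x => ?_) (fun m => ?_)
    V (fun g x hx => ?_) (fun x hx => (hzero x).mpr (deepUnits_le_unitGroup _ ((hVmem x).mp hx)))
    (fun h0 => ?_) ⟨fun v w hvw => ?_, fun v => ?_⟩
  · obtain ⟨t, rfl⟩ := (decompEquiv L q).surjective g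
    obtain ⟨y, rfl⟩ := Loc.of.surjective x
    rw [Loc.smul_of]
    exact congrArg TrivZ.of (congrArg Multiplicative.toAdd (ord_smul_unit t y.toMul))
  · obtain ⟨y, hy⟩ := ord_surjective (E L q) (Multiplicative.ofAdd (TrivZ.of.symm m))
    refine ⟨Loc.of (Additive.ofMul y), ?_⟩
    show TrivZ.of (ordZ (E L q) y) = m
    rw [ordZ, hy, toAdd_ofAdd, AddEquiv.apply_symm_apply]
  · rw [hVmem] at hx ⊢
    obtain ⟨t, rfl⟩ := (decompEquiv L q).surjective g
    obtain ⟨y, rfl⟩ := Loc.of.surjective x
    rw [Loc.smul_of]
    exact Λ.smul_mem_deepUnits hx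
  · refine relIndex_deepUnits_ne_zero Λ.good 0 ?_
    rw [← Subgroup.relIndex_toAddSubgroup,
      ← AddSubgroup.relIndex_map_map_of_injective _ _
        (show Function.Injective (Loc.of (L := L) (q := q)).toAddMonoidHom from Loc.of.injective)]
    rw [show ord'.ker = (unitGroup (E L q)).toAddSubgroup.map Loc.of.toAddMonoidHom from
      AddSubgroup.ext fun x => (hzero x).trans
        ⟨fun h => ⟨Additive.ofMul (Loc.val' x), h, rfl⟩, by rintro ⟨y, hy, rfl⟩; exact hy⟩] at h0
    exact h0
  · have hk := Λ.good.deepUnits_inf_ker_pow hp2 (p := p)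
    have hmem : Loc.val' ((v : Loc L q) - (w : Loc L q)) ∈
        deepUnits Λ.good 0 ⊓ (powMonoidHom p : (E L q)ˣ →* _).ker := by
      refine ⟨(hVmem _).mp (sub_mem v.2 w.2), ?_⟩
      have h : p • ((v : Loc L q) - (w : Loc L q)) = 0 := by
        rw [smul_sub]
        exact sub_eq_zero.mpr (congrArg Subtype.val hvw)
      exact congrArg Loc.val' h
    rw [hk, Subgroup.mem_bot] at hmem
    exact Subtype.ext (sub_eq_zero.mp (congrArg (fun z => Loc.of (Additive.ofMul z)) hmem))
  · have hm := Λ.good.map_pow_deepUnits hp2 (p := p)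
    rw [powShift, if_neg hqp] at hm
    obtain ⟨w, hw, hwv⟩ := hm.symm.le ((hVmem _).mp v.2)
    exact ⟨⟨Loc.of (Additive.ofMul w), (hVmem _).mpr hw⟩,
      Subtype.ext (congrArg (fun z => Loc.of (Additive.ofMul z)) hwv)⟩

end Fermat.Agent.CFT.GW
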