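import Fermat.Agent.CFT.GW.Defs
import Fermat.Agent.CFT.Euler.EMod
import Fermat.Agent.CFT.Euler.SplitCompare
import Fermat.Agent.CFT.Local.Units
import Fermat.Agent.CFT.Local.Residue

/-!
# Equivariant maps with unit values at an unramified prime

Modulo maps with unit values and restrictions, equivariant maps into the local multiplicative
group are detected by the valuation, a functional fixed by the cyclic decomposition group.
-/

set_option autoImplicit false
set_option synthInstance.maxHeartbeats 200000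
set_option maxHeartbeats 400000
set_option linter.unusedSectionVars false
set_option linter.style.haveILetI false

noncomputable section

namespace Fermat.Agent.CFT.GW

open ExtCitation Fermat.Agent.Arith IntermediateField Fermat.Agent.CFT.Local Fermat.Agent.CFT.Idele
open Fermat.Agent.CFT.Euler Fermat.Agent.CFT.Duality

local instance factPrimeLocalUnits (q : Nat.Primes) : Fact (q : ℕ).Prime := ⟨q.2⟩

/-- For an endomorphism of a finite group killed by `p`, the functionals killing its image are as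
many as the elements of its kernel. -/
theorem card_functionals_killing_range {p : ℕ} [Fact p.Prime] {A : Type} [AddCommGroup A]
    [Finite A] (hA : ∀ a : A, p • a = 0) (T : A →+ A) :
    Nat.card {φ : A →+ ZMod p // ∀ a, φ (T a) = 0} = Nat.card T.ker := by
  have hQ : ∀ x : A ⧸ T.range, p • x = 0 := fun x => by
    obtain ⟨a, rfl⟩ := QuotientAddGroup.mk'_surjective T.range x
    rw [← map_nsmul, hA, map_zero]
  have e1 : Nat.card {φ : A →+ ZMod p // ∀ a, φ (T a) = 0} =
      Nat.card ((A ⧸ T.range) →+ ZMod p) := by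
    refine (Nat.card_congr (Equiv.ofBijective
      (fun φ : (A ⧸ T.range) →+ ZMod p =>
        (⟨φ.comp (QuotientAddGroup.mk' T.range), fun a => by
          rw [AddMonoidHom.comp_apply, show QuotientAddGroup.mk' T.range (T a) = 0 from
            (QuotientAddGroup.eq_zero_iff _).mpr ⟨a, rfl⟩, map_zero]⟩ :
          {φ : A →+ ZMod p // ∀ a, φ (T a) = 0})) ⟨fun φ ψ h => ?_, fun φ => ?_⟩)).symm
    · exact QuotientAddGroup.addMonoidHom_ext _ (congrArg Subtype.val h)
    · exact ⟨QuotientAddGroup.lift T.range φ.1 (by rintro _ ⟨a, rfl⟩; exact φ.2 a),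
        Subtype.ext (AddMonoidHom.ext fun a => rfl)⟩
  rw [e1, card_dual hQ, ← AddSubgroup.index_eq_card]
  have h1 := T.range.card_mul_index
  have h2 := T.ker.card_mul_index
  rw [AddSubgroup.index_ker] at h2
  refine Nat.eq_of_mul_eq_mul_left (Nat.card_pos (α := T.range)) ?_
  rw [h1, ← h2, mul_comm]

/-- Modulo maps with values of valuation zero and restrictions, equivariant maps are detected by
an invariant functional. -/
theorem lpN_index_sup_res_le {p : ℕ} [hp : Fact p.Prime] {G : Type} [Group G] [Fintype G]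
    [IsCyclic G] {M : Type} [AddCommGroup M] [DistribMulAction G M] {A : Type} [AddCommGroup A]
    [DistribMulAction G A] [Finite A] (hA : ∀ a : A, p • a = 0) (X : Pres p G A)
    (hfull : ∀ x : X.P, x ∈ X.K) (o : M →+ ℤ) (hoG : ∀ (g : G) (x : M), o (g • x) = o x)
    (hos : Function.Surjective o) (U' : AddSubgroup (equivHom (C := M) X.hS))
    (hU : ∀ f : equivHom (C := M) X.hS, (∀ s, o (f.1 s) = 0) → f ∈ U') :
    lpN p (U' ⊔ (X.res M).range).index ≤ lpN p (Nat.card (fixPts G A)) := by
  classical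
  obtain ⟨σ, hσ⟩ := IsCyclic.exists_generator (α := G)
  -- the valuation functional
  let ψ (f : equivHom (C := M) X.hS) : X.K →+ ZMod p :=
    (Int.castAddHom (ZMod p)).comp (o.comp (f.1.comp ((mulP X.level).comp X.K.subtype)))
  have hψ : ∀ f, X.π.ker ≤ (ψ f).ker := fun f x hx => by
    show ((o (f.1 ⟨p • (x : X.P), _⟩) : ℤ) : ZMod p) = 0
    rw [show (⟨p • (x : X.P), _⟩ : X.S) = p • ⟨x, (X.ker x).mp hx⟩ from rfl, map_nsmul,
      map_nsmul, nsmul_eq_mul, Int.cast_mul, Int.cast_natCast, ZMod.natCast_self, zero_mul]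
  let Φf (f : equivHom (C := M) X.hS) : A →+ ZMod p :=
    AddMonoidHom.liftOfSurjective X.π X.surj ⟨ψ f, hψ f⟩
  have hΦ : ∀ f (x : X.K), Φf f (X.π x) = (o (f.1 (mulP X.level (x : X.P))) : ZMod p) :=
    fun f x => AddMonoidHom.liftOfRightInverse_comp_apply X.π _ _
      (⟨ψ f, hψ f⟩ : { g : X.K →+ ZMod p // X.π.ker ≤ g.ker }) x
  let Φ : equivHom (C := M) X.hS →+ (A →+ ZMod p) :=
    AddMonoidHom.mk' Φf fun f f' => AddMonoidHom.ext fun a => by
      obtain ⟨x, rfl⟩ := X.surj a
      show Φf (f + f') (X.π x) = Φf f (X.π x) + Φf f' (X.π x)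
      rw [hΦ, hΦ, hΦ, ← Int.cast_add, ← map_add]
      rfl
  let T : A →+ A := AddMonoidHom.mk' (fun a => σ • a - a) fun a b => by
    rw [smul_add]; abel
  have hrange : ∀ f (a : A), Φ f (T a) = 0 := fun f a => by
    show Φf f (σ • a - a) = 0
    obtain ⟨x, rfl⟩ := X.surj a
    rw [map_sub, ← X.equi, hΦ, hΦ, coe_smulS, ← smulS_mulP X.hS X.level, f.2, hoG,
      sub_self]
  have hker : Φ.ker ≤ U' ⊔ (X.res M).range := by
    intro f hf
    have hdiv : ∀ x : X.P, (p : ℤ) ∣ o (f.1 (mulP X.level x)) := fun x => by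
      have h := hΦ f ⟨x, hfull x⟩
      rw [show Φf f = 0 from AddMonoidHom.mem_ker.mp hf, AddMonoidHom.zero_apply] at h
      exact (ZMod.intCast_zmod_eq_zero_iff_dvd _ _).mp h.symm
    choose w hw using hdiv
    have hp0 : (p : ℤ) ≠ 0 := Int.natCast_ne_zero.mpr hp.out.ne_zero
    let wh : X.P →+ ℤ := AddMonoidHom.mk' w fun x y => mul_left_cancel₀ hp0 (by
      rw [mul_add, ← hw, ← hw, ← hw, map_add, map_add, map_add])
    have hwG : ∀ (g : G) (x : X.P), wh (g • x) = wh x := fun g x =>
      mul_left_cancel₀ hp0 (by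
        show (p : ℤ) * w (g • x) = p * w x
        rw [← hw, ← hw, ← smulS_mulP X.hS X.level, f.2, hoG])
    have hwS : ∀ s : X.S, wh (s : X.P) = o (f.1 s) := fun s =>
      mul_left_cancel₀ hp0 (by
        show (p : ℤ) * w (s : X.P) = p * o (f.1 s)
        rw [← hw, show mulP X.level (s : X.P) = p • s from Subtype.ext rfl, map_nsmul, map_nsmul,
          nsmul_eq_mul])
    obtain ⟨T₀, hT₀⟩ := X.induced
    obtain ⟨π₁, hπ₁⟩ := hos 1
    let g₀ : X.P →+ M := (zmultiplesHom (M) π₁).comp (wh.comp T₀)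
    let g : X.P →+ M := ∑ h : G,
      (DistribSMul.toAddMonoidHom (M) h).comp
        (g₀.comp (DistribSMul.toAddMonoidHom X.P h⁻¹))
    have hg : ∀ x, g x = ∑ h : G, h • g₀ (h⁻¹ • x) := fun x => by
      simp [g]
    have hgG : ∀ (u : G) x, g (u • x) = u • g x := fun u x => by
      rw [hg, hg, Finset.smul_sum]
      refine Fintype.sum_equiv (Equiv.mulLeft u⁻¹) _ _ fun h => ?_
      show h • g₀ (h⁻¹ • u • x) = u • (u⁻¹ * h) • g₀ ((u⁻¹ * h)⁻¹ • x)
      rw [smul_smul u, mul_inv_cancel_left, mul_inv_rev, inv_inv, mul_smul]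
    have hog : ∀ x, o (g x) = wh x := fun x => by
      rw [hg, map_sum]
      conv_rhs => rw [← hT₀ x, map_sum]
      refine Finset.sum_congr rfl fun h _ => ?_
      rw [hoG, hwG]
      show o (wh (T₀ (h⁻¹ • x)) • π₁) = _
      rw [map_zsmul, hπ₁, smul_eq_mul, mul_one]
    let gK : equivHom (C := M) X.hK :=
      ⟨g.comp X.K.subtype, fun u x => hgG u x⟩
    refine AddSubgroup.mem_sup.mpr ⟨f - X.res M gK, hU _ fun s => ?_, X.res M gK,
      ⟨gK, rfl⟩, sub_add_cancel _ _⟩
    refine ?_
    show o (f.1 s - g (s : X.P)) = 0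
    rw [map_sub, hog, hwS, sub_self]
  have hcard : Nat.card Φ.range ≤ Nat.card T.ker := by
    rw [← card_functionals_killing_range hA T]
    haveI : Finite (A →+ ZMod p) := finite_dual
    refine Nat.card_le_card_of_injective
      (fun φ : Φ.range => (⟨φ.1, fun a => by
        obtain ⟨f, hf⟩ := φ.2
        rw [← hf]; exact hrange f a⟩ : {φ : A →+ ZMod p // ∀ a, φ (T a) = 0}))
      fun φ φ' h => Subtype.ext (Subtype.mk.inj h)
  have hfix : Nat.card T.ker = Nat.card (fixPts (G) A) := by
    refine Nat.card_congr (Equiv.subtypeEquivRight fun a => ?_)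
    refine ⟨fun h g => ?_, fun h => ?_⟩
    · have hσa : σ • a = a := sub_eq_zero.mp h
      obtain ⟨n, rfl⟩ := Submonoid.mem_powers_iff _ _ |>.mp (mem_powers_iff_mem_zpowers.mpr (hσ g))
      induction n with
      | zero => rw [pow_zero, one_smul]
      | succ n ih => rw [pow_succ, mul_smul, hσa, ih]
    · show σ • a - a = 0
      rw [h σ, sub_self]
  haveI : Finite (A →+ ZMod p) := finite_dual
  have hidx : (U' ⊔ (X.res M).range).index ∣ Nat.card Φ.range := by
    rw [← AddSubgroup.index_ker]
    exact AddSubgroup.index_dvd_of_le hker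
  refine (lpN_mono p hidx Nat.card_pos.ne').trans ?_
  rw [← hfix]
  obtain ⟨a, ha⟩ := (IsPGroup.iff_card (p := p) (G := Multiplicative Φ.range)).mp (fun φ =>
    ⟨1, by
      rw [pow_one]
      apply Multiplicative.toAdd.injective
      rw [toAdd_pow, toAdd_one]
      exact Subtype.ext (AddMonoidHom.ext fun a => by
        simp [nsmul_eq_mul])⟩)
  obtain ⟨b, hb⟩ := (IsPGroup.iff_card (p := p) (G := Multiplicative T.ker)).mp (fun x =>
    ⟨1, by
      rw [pow_one]
      apply Multiplicative.toAdd.injective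
      rw [toAdd_pow, toAdd_one]
      exact Subtype.ext (by simp [hA])⟩)
  have ha' : Nat.card Φ.range = p ^ a := ha
  have hb' : Nat.card T.ker = p ^ b := hb
  rw [ha', hb', lpN_pow, lpN_pow]
  rw [ha', hb'] at hcard
  exact_mod_cast (Nat.pow_le_pow_iff_right hp.out.one_lt).mp hcard

variable (L : IntermediateField ℚ QBar) [FiniteDimensional ℚ L] [Normal ℚ L]
  {p : ℕ} [hp : Fact p.Prime]

/-- The equivariant maps with unit values. -/
def unitHom {q : Nat.Primes} [Fintype (decomp L q)] {A : Type} [AddCommGroup A]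
    [DistribMulAction (decomp L q) A] (X : Pres p (decomp L q) A) :
    AddSubgroup (equivHom (C := Loc L q) X.hS) where
  carrier := {f | ∀ s, f.1 s ∈ Loc.units q}
  zero_mem' s := by simp [zero_mem]
  add_mem' {f g} hf hg s := add_mem (hf s) (hg s)
  neg_mem' {f} hf s := neg_mem (hf s)

/-- The normalised valuation on `Loc`. -/
def locOrd (q : Nat.Primes) : Loc L q →+ ℤ :=
  (MonoidHom.toAdditiveLeft (ord (E L q))).comp Loc.of.symm.toAddMonoidHom

theorem locOrd_smul (q : Nat.Primes) (h : decomp L q) (x : Loc L q) :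
    locOrd L q (h • x) = locOrd L q x := by
  obtain ⟨t, rfl⟩ := (decompEquiv L q).surjective h
  obtain ⟨y, rfl⟩ := (Loc.of (L := L) (q := q)).surjective x
  rw [Loc.smul_of]
  exact congrArg Multiplicative.toAdd (ord_smul_unit t y.toMul)

theorem mem_units_of_locOrd_eq_zero {q : Nat.Primes} {x : Loc L q} (h : locOrd L q x = 0) :
    x ∈ Loc.units q :=
  Loc.mem_units.mpr ((ord_eq_one_iff (E L q)).mp (Multiplicative.toAdd.injective h))

theorem locOrd_surjective (q : Nat.Primes) : Function.Surjective (locOrd L q) := fun n => by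
  obtain ⟨x, hx⟩ := ord_surjective (E L q) (Multiplicative.ofAdd n)
  exact ⟨Loc.of (Additive.ofMul x), congrArg Multiplicative.toAdd hx⟩

theorem isCyclic_decomp_of_unramified (q : Nat.Primes) (hur : inertia (E L q) = ⊥) :
    IsCyclic (decomp L q) := by
  haveI : IsCyclic (⊤ : Subgroup (E L q ≃ₐ[ℚ_[(q : ℕ)]] E L q)) :=
    isCyclic_of_inf_inertia_eq_bot ⊤ (by rw [hur, inf_bot_eq])
  exact ((Subgroup.topEquiv).trans (decompEquiv L q)).isCyclic.mp inferInstance

/-- Modulo unit values and restrictions there are at most `#A^D` equivariant maps. -/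
theorem lpN_unitHom_index_le (q : Nat.Primes) (_hqp : (q : ℕ) ≠ p)
    (hur : inertia (E L q) = ⊥) [Fintype (decomp L q)] {A : Type} [AddCommGroup A]
    [DistribMulAction (decomp L q) A] [Finite A] (hA : ∀ a : A, p • a = 0)
    (X : Pres p (decomp L q) A) (hfull : ∀ x : X.P, x ∈ X.K) :
    lpN p (unitHom L X ⊔ (X.res (Loc L q)).range).index ≤
      lpN p (Nat.card (fixPts (decomp L q) A)) := by
  haveI := isCyclic_decomp_of_unramified L q hur
  exact lpN_index_sup_res_le hA X hfull (locOrd L q) (locOrd_smul L q) (locOrd_surjective L q)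
    (unitHom L X) fun f h s => mem_units_of_locOrd_eq_zero L (h s)

end Fermat.Agent.CFT.GW
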