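import Fermat.Agent.CFT.GW.Count
import Fermat.Agent.CFT.Coh.Transfer

/-!
# Pairing equivariant maps into a class formation with a space of classes

For a space `V` of classes with values in `A`, the functional `Θ f : v ↦ ⟨f, v⟩` is surjective
when `V` meets no coboundary, kills restrictions and norms, and a semilocal map at one place
pairs to zero with the classes which are trivial there.
-/

set_option autoImplicit false
set_option linter.unusedSectionVars false
set_option linter.style.haveILetI false

noncomputable section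

namespace Fermat.Agent.CFT.GW

open Fermat.Agent.CFT Fermat.Agent.CFT.Euler

variable {p : ℕ} [hp : Fact p.Prime] {G : Type} [Group G] [Fintype G]
  {A : Type} [AddCommGroup A] [DistribMulAction G A] [Finite A]
  (X : Pres p G A) (hfull : ∀ x : X.P, x ∈ X.K)
  {D : Type} [AddCommGroup D] [DistribMulAction G D] {uD : NormCocycle G D}
  (hD : IsClassFormation p uD)
  {V : Type} [AddCommGroup V] (β : V →+ G → A)
  (hβ : ∀ (v : V) (g h : G), β v (g * h) = g • β v h + β v g)

/-- The projection of a full presentation. -/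
def projFull : X.P →+ A :=
  X.π.comp (AddMonoidHom.mk' (fun x => (⟨x, hfull x⟩ : X.K)) fun _ _ => rfl)

theorem projFull_smul (g : G) (x : X.P) : projFull X hfull (g • x) = g • projFull X hfull x :=
  X.equi g ⟨x, hfull x⟩

theorem projFull_eq_zero_iff (x : X.P) : projFull X hfull x = 0 ↔ x ∈ X.S :=
  X.ker ⟨x, hfull x⟩

theorem projFull_surjective : Function.Surjective (projFull X hfull) := fun a => by
  obtain ⟨x, hx⟩ := X.surj a
  exact ⟨x, hx⟩

/-- A lift of a value. -/
def secFull (a : A) : X.P := (projFull_surjective X hfull a).choose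

theorem projFull_secFull (a : A) : projFull X hfull (secFull X hfull a) = a :=
  (projFull_surjective X hfull a).choose_spec

/-- The cochain lifting a class. -/
def liftCls (v : V) : cocycleMod (G := G) (S := X.S) :=
  ⟨fun g => secFull X hfull (β v g), fun g h => by
    rw [← projFull_eq_zero_iff X hfull, map_add, map_sub, projFull_smul, projFull_secFull,
      projFull_secFull, projFull_secFull, hβ]
    abel⟩

theorem liftCls_add (v w : V) :
    ((liftCls X hfull β hβ (v + w) - (liftCls X hfull β hβ v + liftCls X hfull β hβ w) :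
        cocycleMod (G := G) (S := X.S)) : G → X.P) ∈ coboundaryMod (S := X.S) := by
  refine ⟨0, fun g => ?_⟩
  rw [smul_zero, sub_zero, sub_zero, ← projFull_eq_zero_iff X hfull]
  show projFull X hfull (secFull X hfull (β (v + w) g) -
    (secFull X hfull (β v g) + secFull X hfull (β w g))) = 0
  rw [map_sub, map_add (projFull X hfull), projFull_secFull, projFull_secFull, projFull_secFull,
    map_add β, Pi.add_apply, sub_self]

/-- The pairing with the classes of `V`. -/
def theta : equivHom (C := D) X.hS →+ (V →+ ZMod p) :=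
  AddMonoidHom.mk' (fun f => AddMonoidHom.mk'
      (fun v => pair X.hS X.level hD X.induced f (liftCls X hfull β hβ v)) fun v w => by
        rw [← sub_eq_zero, ← map_add, ← map_sub]
        exact pair_coboundary X.hS X.level hD X.induced f _ (liftCls_add X hfull β hβ v w))
    fun f f' => AddMonoidHom.ext fun v => by
      show pair X.hS X.level hD X.induced (f + f') _ = _
      rw [map_add]
      rfl

theorem theta_apply (f : equivHom (C := D) X.hS) (v : V) :
    theta X hfull hD β hβ f v = pair X.hS X.level hD X.induced f (liftCls X hfull β hβ v) := rfl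

theorem theta_surjective (hV : ∀ v : V, p • v = 0)
    (hcob : ∀ v : V, (∃ x : A, ∀ g : G, β v g = g • x - x) → v = 0) :
    Function.Surjective (theta X hfull hD β hβ) := fun μ₀ => by
  classical
  let B : AddSubgroup (cocycleMod (G := G) (S := X.S)) :=
    (coboundaryMod (G := G) (S := X.S)).addSubgroupOf (cocycleMod (G := G) (S := X.S))
  letI : Module (ZMod p) V := AddCommGroup.zmodModule hV
  letI : Module (ZMod p) (cocycleMod (G := G) (S := X.S) ⧸ B) := AddCommGroup.zmodModule (n := p) fun x => by
    obtain ⟨x, rfl⟩ := QuotientAddGroup.mk_surjective x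
    rw [← QuotientAddGroup.mk_nsmul, QuotientAddGroup.eq_zero_iff]
    exact ⟨0, fun g => by
      rw [smul_zero, sub_zero, sub_zero]
      exact X.level ((x : G → X.P) g)⟩
  let j₀ : V →+ (cocycleMod (G := G) (S := X.S) ⧸ B) := AddMonoidHom.mk'
    (fun v => QuotientAddGroup.mk (s := B) (liftCls X hfull β hβ v)) fun v w => by
      rw [← QuotientAddGroup.mk_add]
      refine (QuotientAddGroup.eq_iff_sub_mem).mpr ?_
      exact liftCls_add X hfull β hβ v w
  let j : V →ₗ[ZMod p] (cocycleMod (G := G) (S := X.S) ⧸ B) := AddMonoidHom.toZModLinearMap p j₀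
  have hj : ∀ v : V, j₀ v = 0 → v = 0 := fun v hv => hcob v (by
    obtain ⟨x, hx⟩ := (QuotientAddGroup.eq_zero_iff _).mp hv
    refine ⟨projFull X hfull x, fun g => ?_⟩
    have h0 := (projFull_eq_zero_iff X hfull _).mpr (hx g)
    rw [map_sub, map_sub, projFull_smul] at h0
    exact sub_eq_zero.mp ((congrArg (· - (g • projFull X hfull x - projFull X hfull x))
      (projFull_secFull X hfull (β v g)).symm).trans h0))
  obtain ⟨ret, hret⟩ := j.exists_leftInverse_of_injective (LinearMap.ker_eq_bot'.mpr hj)
  let μ : cocycleMod (G := G) (S := X.S) →+ ZMod p :=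
    (μ₀.comp ret.toAddMonoidHom).comp (QuotientAddGroup.mk' B)
  obtain ⟨f, hf⟩ := exists_pair_eq X.hS X.level hD X.induced μ fun a ha => by
    show μ₀ (ret (QuotientAddGroup.mk a)) = 0
    rw [(QuotientAddGroup.eq_zero_iff a).mpr ha, map_zero, map_zero]
  refine ⟨f, AddMonoidHom.ext fun v => ?_⟩
  rw [theta_apply, hf]
  show μ₀ (ret (j₀ v)) = μ₀ v
  rw [show ret (j₀ v) = v from LinearMap.congr_fun hret v]

theorem theta_normOn (f : equivHom (C := D) X.hS) (φ : X.S →+ D) (hφ : normOn X.hS φ = f.1) :
    theta X hfull hD β hβ f = 0 := AddMonoidHom.ext fun v => by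
  rw [theta_apply, show f = ⟨normOn X.hS φ, isEquivariantOn_normOn X.hS φ⟩ from
    Subtype.ext hφ.symm, pair_normOn]
  rfl

theorem theta_res (F : equivHom (C := D) X.hK) :
    theta X hfull hD β hβ (X.res D F) = 0 := by
  obtain ⟨T, hT⟩ := X.induced
  let F' : X.P →+ D := F.1.comp (AddMonoidHom.mk' (fun x => ⟨x, hfull x⟩) fun _ _ => rfl)
  refine theta_normOn X hfull hD β hβ _ ((F'.comp T).comp X.S.subtype) ?_
  rw [normOn_comp_of_equivariant X.hS hT F' fun g x => F.2 g ⟨x, hfull x⟩]
  rfl

variable {ι : Type} [Fintype ι] [DecidableEq ι] {H : ι → Subgroup G} [∀ i, Fintype (H i)]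
  {E : ι → Type} [∀ i, AddCommGroup (E i)] [∀ i, DistribMulAction (H i) (E i)]
  (qD : (∀ i, CoInd (H i) (E i)) →+ D)
  (hqD : ∀ (g : G) (x : ∀ i, CoInd (H i) (E i)), qD (g • x) = g • qD x)

theorem coInd_smul_single (i : ι) (h : H i) (n : E i) :
    (h : G) • CoInd.single (H := H i) n = CoInd.single (h • n) := CoInd.ext fun x => by
  rw [CoInd.fn_smul]
  by_cases hx : x ∈ H i
  · rw [CoInd.fn_single_mem _ (mul_mem hx h.2), CoInd.fn_single_mem _ hx, smul_smul]
    rfl
  · rw [CoInd.fn_single_notMem _ fun h' => hx ((Subgroup.mul_mem_cancel_right _ h.2).mp h'),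
      CoInd.fn_single_notMem _ hx]

theorem pi_smul_single (i : ι) (g : G) (F : CoInd (H i) (E i)) :
    g • (Pi.single i F : ∀ j, CoInd (H j) (E j)) = Pi.single i (g • F) := funext fun j => by
  by_cases hj : j = i
  · subst hj
    rw [Pi.smul_apply, Pi.single_eq_same, Pi.single_eq_same]
  · rw [Pi.smul_apply, Pi.single_eq_of_ne hj, Pi.single_eq_of_ne hj, smul_zero]

/-- A local map pushed into `D`. -/
def localToD (i : ι) (z : equivHom (C := E i) (IsStable.restrict X.hS (H i))) :
    equivHom (C := D) (IsStable.restrict X.hS (H i)) :=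
  ⟨(qD.comp ((AddMonoidHom.single (fun j => CoInd (H j) (E j)) i).comp CoInd.single)).comp z.1,
    fun h s => by
      show qD (Pi.single i (CoInd.single (z.1 (smulS _ h s)))) =
        (h : G) • qD (Pi.single i (CoInd.single (z.1 s)))
      rw [z.2, ← coInd_smul_single, ← pi_smul_single, hqD]⟩

theorem semiHom_single {R : AddSubgroup X.P} (hR : IsStable G R) (i : ι)
    (z : equivHom (C := E i) (IsStable.restrict hR (H i))) (s : R) :
    (semiHom hR (Pi.single i z)).1 s =
      (Pi.single i ((coHom hR i z).1 s) : ∀ j, CoInd (H j) (E j)) := funext fun j => by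
  show (coHom hR j
    ((Pi.single i z : ∀ k, equivHom (C := E k) (IsStable.restrict hR (H k))) j)).1 s = _
  by_cases hj : j = i
  · subst hj; rw [Pi.single_eq_same, Pi.single_eq_same]
  · rw [Pi.single_eq_of_ne hj, Pi.single_eq_of_ne hj, map_zero]
    rfl

theorem trMap_single (i : ι) [Fintype (G ⧸ H i)]
    (z : equivHom (C := E i) (IsStable.restrict X.hS (H i))) :
    trMap X qD hqD (Pi.single i z) =
      trEquiv X.hS (SplitHom.refl (H i) uD) (localToD X qD hqD i z) := by
  refine Subtype.ext (AddMonoidHom.ext fun s => ?_)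
  show qD ((semiHom X.hS (Pi.single i z)).1 s) =
    trHom X.hS (H i) ((AddMonoidHom.id D).comp (localToD X qD hqD i z).1) s
  rw [AddMonoidHom.id_comp, trHom_apply, AddMonoidHom.finsetSum_apply]
  rw [semiHom_single X X.hS i z s, CoInd.eq_sum ((coHom X.hS i z).1 s),
    show ∀ F, (Pi.single i F : ∀ j, CoInd (H j) (E j)) =
      AddMonoidHom.single (fun j => CoInd (H j) (E j)) i F from fun F => rfl,
    map_sum, map_sum]
  refine Finset.sum_congr rfl fun q _ => ?_
  rw [fn_coHom, conjOn_apply]
  show qD (Pi.single i (q.out • CoInd.single (z.1 (smulS X.hS q.out⁻¹ s)))) = _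
  rw [← pi_smul_single, hqD]
  rfl

theorem theta_trMap_single (i : ι) (z : equivHom (C := E i) (IsStable.restrict X.hS (H i)))
    (v : V) (hv : ∃ x : A, ∀ h ∈ H i, β v h = h • x - x) :
    theta X hfull hD β hβ (trMap X qD hqD (Pi.single i z)) v = 0 := by
  classical
  letI : Fintype (G ⧸ H i) := Fintype.ofFinite _
  rw [theta_apply, trMap_single (uD := uD) X qD hqD i z,
    pair_trEquiv X.hS X.level hD X.induced (hD.restrict (H i)),
    pair_coboundary, mul_zero]
  obtain ⟨x, hx⟩ := hv
  obtain ⟨y, rfl⟩ := projFull_surjective X hfull x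
  refine ⟨y, fun h => ?_⟩
  rw [← projFull_eq_zero_iff X hfull, resMod_apply]
  show projFull X hfull (secFull X hfull (β v h) - ((h : G) • y - y)) = 0
  rw [map_sub, map_sub, projFull_smul, projFull_secFull, hx _ h.2, sub_self]

/-- The local maps at one place which die in `V^*`. -/
def thetaKer (i : ι) : AddSubgroup (equivHom (C := E i) (IsStable.restrict X.hS (H i))) :=
  (((theta X hfull hD β hβ).comp (trMap X qD hqD)).comp
    (AddMonoidHom.single (fun j => equivHom (C := E j) (IsStable.restrict X.hS (H j))) i)).ker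

theorem mem_thetaKer {i : ι} {z : equivHom (C := E i) (IsStable.restrict X.hS (H i))} :
    z ∈ thetaKer X hfull hD β hβ qD hqD i ↔
      theta X hfull hD β hβ (trMap X qD hqD (Pi.single i z)) = 0 := Iff.rfl

theorem res_le_thetaKer (i : ι) :
    ((X.restrict (H i)).res (E i)).range ≤ thetaKer X hfull hD β hβ qD hqD i := by
  rintro _ ⟨F, rfl⟩
  refine (mem_thetaKer X hfull hD β hβ qD hqD).mpr ?_
  have e : trMap X qD hqD (Pi.single i ((X.restrict (H i)).res (E i) F)) =
      X.res D (postHom X.hK qD hqD (semiHom X.hK (Pi.single i F))) := by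
    refine Subtype.ext (AddMonoidHom.ext fun s => ?_)
    show qD ((semiHom X.hS _).1 s) =
      qD ((semiHom X.hK (Pi.single i F)).1 (AddSubgroup.inclusion X.le s))
    exact congrArg qD ((semiHom_single X X.hS i _ s).trans
      (semiHom_single X X.hK i F (AddSubgroup.inclusion X.le s)).symm)
  rw [e, theta_res]

theorem theta_trMap_eq_zero (z : ∀ i, equivHom (C := E i) (IsStable.restrict X.hS (H i)))
    (hz : ∀ i, z i ∈ thetaKer X hfull hD β hβ qD hqD i) :
    theta X hfull hD β hβ (trMap X qD hqD z) = 0 := by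
  rw [← Finset.univ_sum_single z, map_sum, map_sum]
  exact Finset.sum_eq_zero fun i _ => hz i

/-- The index of the dying local maps is bounded by the classes not trivial at the place. -/
theorem lpN_thetaKer_index_le [Finite V] (hV : ∀ v : V, p • v = 0) (i : ι) (W : AddSubgroup V)
    (hW : ∀ w ∈ W, ∃ x : A, ∀ h ∈ H i, β w h = h • x - x) :
    lpN p (thetaKer X hfull hD β hβ qD hqD i).index ≤
      lpN p (Nat.card V) - lpN p (Nat.card W) := by
  classical
  set Φ := ((theta X hfull hD β hβ).comp (trMap X qD hqD)).comp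
    (AddMonoidHom.single (fun j => equivHom (C := E j) (IsStable.restrict X.hS (H j))) i)
  have hV' : ∀ v : V ⧸ W, p • v = 0 := fun v => by
    obtain ⟨v, rfl⟩ := QuotientAddGroup.mk_surjective v
    rw [← QuotientAddGroup.mk_nsmul, hV]
    rfl
  let pre : (V ⧸ W →+ ZMod p) →+ (V →+ ZMod p) :=
    AddMonoidHom.mk' (fun μ => μ.comp (QuotientAddGroup.mk' W)) fun μ μ' => rfl
  have hle : Φ.range ≤ pre.range := by
    rintro _ ⟨z, rfl⟩
    refine ⟨QuotientAddGroup.lift W (Φ z) fun w hw => AddMonoidHom.mem_ker.mpr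
      (theta_trMap_single X hfull hD β hβ qD hqD i z w (hW w hw)), ?_⟩
    exact AddMonoidHom.ext fun v => rfl
  haveI := finite_dual (A := V ⧸ W) (p := p)
  have hdvd : Nat.card Φ.range ∣ Nat.card (V ⧸ W) := by
    rw [← card_dual hV']
    exact (AddSubgroup.card_dvd_of_le hle).trans (AddSubgroup.card_range_dvd pre)
  have hidx : (thetaKer X hfull hD β hβ qD hqD i).index = Nat.card Φ.range :=
    AddSubgroup.index_ker Φ
  have h1 : lpN p (thetaKer X hfull hD β hβ qD hqD i).index ≤ lpN p (Nat.card (V ⧸ W)) := by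
    rw [hidx]
    exact lpN_mono p hdvd Nat.card_pos.ne'
  rw [AddSubgroup.card_eq_card_quotient_mul_card_addSubgroup W,
    lpN_mul p Nat.card_pos.ne' Nat.card_pos.ne']
  linarith

end Fermat.Agent.CFT.GW
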