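import Fermat.Agent.CFT.GW.Defs
import Fermat.Agent.CFT.Euler.UnitChar
import Fermat.Agent.CFT.Idele.FirstInequality
import Fermat.Prelude.Def_GaloisRep_ComplexConjugation
import Mathlib.NumberTheory.NumberField.Units.DirichletTheorem
import Mathlib.RingTheory.Norm.Transitivity

/-!
# The character of the `T`-units of a level

The orders at `T` have finite coindex by the finiteness of the class group; the units contain,
with finite index, the lattice of `G / c` modulo constants spanned by the conjugates of a unit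
small at all places but one.
-/

set_option autoImplicit false
set_option synthInstance.maxHeartbeats 200000
set_option maxHeartbeats 1000000
set_option linter.unusedSectionVars false
set_option linter.style.haveILetI false

noncomputable section

namespace Fermat.Agent.CFT.GW

open ExtCitation Fermat.Agent.Arith IntermediateField Fermat.Agent.CFT.Local Fermat.Agent.CFT.Idele
open Fermat.Agent.CFT.Duality Fermat.Agent.CFT.Euler Module
open scoped NumberField

local instance factPrimeUnitChar (q : Nat.Primes) : Fact (q : ℕ).Prime := ⟨q.2⟩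

section Lattices

variable {p : ℕ} [hp : Fact p.Prime]

theorem modPFinite_of_module_finite (M : Type*) [AddCommGroup M] [Module.Finite ℤ M] :
    ModPFinite p M := by
  let μ : M →ₗ[ℤ] M := (nsmulAddMonoidHom p : M →+ M).toIntLinearMap
  refine ⟨?_, ?_⟩
  · haveI : Finite (LinearMap.ker μ) := Module.finite_of_fg_torsion (LinearMap.ker μ) fun {x} =>
      ⟨⟨(p : ℤ), mem_nonZeroDivisors_of_ne_zero (Int.natCast_ne_zero.mpr hp.out.ne_zero)⟩,
        Subtype.ext (by
          show (p : ℤ) • (x : M) = 0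
          rw [natCast_zsmul]
          exact LinearMap.mem_ker.mp x.2)⟩
    exact Finite.of_injective
      (fun x => (⟨x.1, LinearMap.mem_ker.mpr (show p • x.1 = 0 from x.2)⟩ : LinearMap.ker μ))
      fun x y h => Subtype.ext (congrArg (fun z : LinearMap.ker μ => (z : M)) h)
  · haveI : Finite (M ⧸ LinearMap.range μ) := Module.finite_of_fg_torsion (M ⧸ LinearMap.range μ) fun {x} => by
      obtain ⟨x, rfl⟩ := Submodule.mkQ_surjective _ x
      refine ⟨⟨(p : ℤ), mem_nonZeroDivisors_of_ne_zero (Int.natCast_ne_zero.mpr hp.out.ne_zero)⟩,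
        ?_⟩
      show (p : ℤ) • Submodule.mkQ (LinearMap.range μ) x = 0
      rw [← map_smul, Submodule.mkQ_apply, Submodule.Quotient.mk_eq_zero, natCast_zsmul]
      exact ⟨x, rfl⟩
    exact AddSubgroup.index_ne_zero_iff_finite.mpr
      (inferInstanceAs (Finite (M ⧸ LinearMap.range μ)))

theorem index_ne_zero_of_nsmul_mem {M : Type*} [AddCommGroup M] [Module.Finite ℤ M]
    (N : AddSubgroup M) {m : ℕ} (hm : m ≠ 0) (h : ∀ x, m • x ∈ N) : N.index ≠ 0 := by
  haveI : Finite (M ⧸ AddSubgroup.toIntSubmodule N) := Module.finite_of_fg_torsion _ fun {x} => by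
    obtain ⟨x, rfl⟩ := Submodule.mkQ_surjective _ x
    refine ⟨⟨(m : ℤ), mem_nonZeroDivisors_of_ne_zero (Int.natCast_ne_zero.mpr hm)⟩, ?_⟩
    show (m : ℤ) • Submodule.mkQ (AddSubgroup.toIntSubmodule N) x = 0
    rw [← map_smul, Submodule.mkQ_apply, Submodule.Quotient.mk_eq_zero, natCast_zsmul]
    exact h x
  exact AddSubgroup.index_ne_zero_iff_finite.mpr
    (inferInstanceAs (Finite (M ⧸ AddSubgroup.toIntSubmodule N)))

theorem index_ne_zero_of_finrank_eq {M : Type*} [AddCommGroup M] [Module.Finite ℤ M]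
    (N : Submodule ℤ M) (h : finrank ℤ N = finrank ℤ M) : N.toAddSubgroup.index ≠ 0 := by
  have h0 : finrank ℤ (M ⧸ N) = 0 := by
    have := N.finrank_quotient_add_finrank
    omega
  have htors : Module.IsTorsion ℤ (M ⧸ N) := Module.finrank_eq_zero_iff_isTorsion.mp h0
  haveI : Finite (M ⧸ N) := Module.finite_of_fg_torsion _ htors
  exact AddSubgroup.index_ne_zero_iff_finite.mpr (inferInstanceAs (Finite (M ⧸ N)))

variable {G : Type} [Group G] [Fintype G]

theorem module_finite_coInd_trivZ (H : Subgroup G) :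
    Module.Finite ℤ (CoInd H (TrivZ H)) := by
  letI : Fintype (G ⧸ H) := Fintype.ofFinite _
  exact Module.Finite.equiv
    ((CoInd.coords (H := H) (N := TrivZ H)).trans
      (AddEquiv.piCongrRight fun _ : G ⧸ H => TrivZ.of.symm)).symm.toIntLinearEquiv

theorem finrank_coInd_trivZ (H : Subgroup G) :
    finrank ℤ (CoInd H (TrivZ H)) = H.index := by
  letI : Fintype (G ⧸ H) := Fintype.ofFinite _
  rw [((CoInd.coords (H := H) (N := TrivZ H)).trans
      (AddEquiv.piCongrRight fun _ : G ⧸ H => TrivZ.of.symm)).toIntLinearEquiv.finrank_eq,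
    Module.finrank_pi, ← Nat.card_eq_fintype_card]
  rfl

end Lattices

variable (L : IntermediateField ℚ QBar) [FiniteDimensional ℚ L] [Normal ℚ L]

/-- The order at the distinguished place over `q`. -/
def ordLoc (q : Nat.Primes) : Loc L q →+ TrivZ (decomp L q) :=
  AddMonoidHom.mk' (fun x => TrivZ.of (Multiplicative.toAdd (ord (E L q) (Loc.val' x))))
    fun x y => by
      show TrivZ.of (Multiplicative.toAdd (ord (E L q) (Loc.val' x * Loc.val' y))) = _
      rw [map_mul, toAdd_mul, map_add]

theorem ordLoc_smul (q : Nat.Primes) (h : decomp L q) (x : Loc L q) :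
    ordLoc L q (h • x) = h • ordLoc L q x := by
  obtain ⟨t, rfl⟩ := (decompEquiv L q).surjective h
  rw [TrivZ.smul_eq, show x = Loc.of (Loc.of.symm x) from rfl, Loc.smul_of]
  show TrivZ.of (Multiplicative.toAdd (ord (E L q) (t • Loc.val' x))) =
    TrivZ.of (Multiplicative.toAdd (ord (E L q) (Loc.val' x)))
  exact congrArg (fun z => TrivZ.of (Multiplicative.toAdd z)) (ord_algEquiv (E L q) t _)

theorem ordLoc_surjective (q : Nat.Primes) : Function.Surjective (ordLoc L q) := fun n => by
  obtain ⟨y, hy⟩ := ord_surjective (E L q) (Multiplicative.ofAdd (TrivZ.of.symm n))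
  refine ⟨Loc.of (Additive.ofMul y), ?_⟩
  show TrivZ.of (Multiplicative.toAdd (ord (E L q) y)) = n
  rw [hy, toAdd_ofAdd, AddEquiv.apply_symm_apply]

/-- The orders of the `T`-units at the places of `T`. -/
def ordT (T : Finset Nat.Primes) :
    TU L (T : Set Nat.Primes) →+ ∀ i : T, CoInd (decomp L i) (TrivZ (decomp L i)) :=
  (AddMonoidHom.pi fun i : T => (CoInd.map (ordLoc L i) (ordLoc_smul L i)).comp
    (Pi.evalAddMonoidHom (fun j : T => CoInd (decomp L j) (Loc L j)) i)).comp (iU L T)

theorem ordT_apply (T : Finset Nat.Primes) (x : TU L (T : Set Nat.Primes)) (i : T) :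
    ordT L T x i = CoInd.map (ordLoc L i) (ordLoc_smul L i)
      (iLoc L (T : Set Nat.Primes) i x) := rfl

theorem fn_ordT (T : Finset Nat.Primes) (x : TU L (T : Set Nat.Primes)) (i : T)
    (g : L ≃ₐ[ℚ] L) : CoInd.fn (ordT L T x i) g =
      TrivZ.of (Multiplicative.toAdd (ord (E L (i : Nat.Primes))
        (val (diag L (TU.incl x)).toMul (i : Nat.Primes) g))) := rfl

theorem ordT_smul (T : Finset Nat.Primes) (g : L ≃ₐ[ℚ] L) (x : TU L (T : Set Nat.Primes)) :
    ordT L T (g • x) = g • ordT L T x := funext fun i => by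
  rw [ordT_apply, iLoc_smul]
  rfl

theorem ordT_eq_zero_iff (T : Finset Nat.Primes) (x : TU L (T : Set Nat.Primes)) :
    ordT L T x = 0 ↔ (TU.incl x).toMul ∈ unitsL L := by
  constructor
  · intro h q g
    by_cases hq : q ∈ T
    · have h1 := congrArg (fun F : CoInd (decomp L q) (TrivZ (decomp L q)) => CoInd.fn F g)
        (congrFun h ⟨q, hq⟩)
      simp only [Pi.zero_apply, map_zero] at h1
      exact (ord_eq_one_iff _).mp (Multiplicative.toAdd.injective
        (TrivZ.of.injective (h1.trans (map_zero TrivZ.of).symm)))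
    · exact TU.incl_mem x q (by simpa using hq) g
  · intro h
    funext i
    refine CoInd.ext fun g => ?_
    show TrivZ.of (Multiplicative.toAdd (ord (E L (i : Nat.Primes))
      (val (prinL L (TU.incl x).toMul) i g))) = TrivZ.of 0
    rw [(ord_eq_one_iff _).mpr (h i g)]
    rfl

theorem index_range_ordT (T : Finset Nat.Primes) : (ordT L T).range.index ≠ 0 := by
  classical
  haveI := fun i : T => module_finite_coInd_trivZ (decomp L i)
  haveI : Finite (idl L ⧸ (unitIdl L ⊔ (prinL L).range)) := finite_classes_mod_units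
  set m := Nat.card (idl L ⧸ (unitIdl L ⊔ (prinL L).range)) with hm
  refine index_ne_zero_of_nsmul_mem _ (m := m) Nat.card_pos.ne' fun F => ?_
  choose F' hF' using fun i : T =>
    CoInd.map_surjective (ordLoc L i) (ordLoc_smul L i) (ordLoc_surjective L i) (F i)
  set f : J L := ∑ i : T, qLoc L i (F' i) with hf
  have hfm : f.toMul ^ m ∈ unitIdl L ⊔ (prinL L).range := by
    rw [← QuotientGroup.eq_one_iff, QuotientGroup.mk_pow, hm]
    exact pow_card_eq_one'
  obtain ⟨u, hu, _, ⟨a, rfl⟩, hua⟩ := Subgroup.mem_sup.1 hfm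
  have hval : ∀ q g, val f.toMul q g ^ m = val u q g * val (prinL L a) q g := fun q g => by
    have h1 := congrArg (valHom q g) hua
    rw [map_mul, map_pow] at h1
    exact h1.symm
  have hsum : ∀ q g, val f.toMul q g = ∏ i : T, val (qLoc L i (F' i)).toMul q g := fun q g => by
    rw [hf, toMul_sum, val_prod]
  have hout : ∀ q, q ∉ (T : Set Nat.Primes) → ∀ g, val f.toMul q g = 1 := fun q hq g => by
    rw [hsum]
    exact Finset.prod_eq_one fun i _ =>
      val_qLoc_of_ne L (fun h => hq (by rw [h]; exact Finset.mem_coe.mpr i.2)) _ g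
  have hin : ∀ (i : T) g, val f.toMul i g = Loc.val' (CoInd.fn (F' i) g) := fun i g => by
    rw [hsum, Finset.prod_eq_single i
      (fun j _ hj => val_qLoc_of_ne L (fun h => hj (Subtype.ext h).symm) _ g)
      (fun h => absurd (Finset.mem_univ _) h), val_qLoc_self]
  refine ⟨TU.mk (Additive.ofMul a) fun q hq g => ?_, funext fun i => CoInd.ext fun g => ?_⟩
  · have h1 := hval q g
    rw [hout q hq, one_pow] at h1
    show val (prinL L a) q g ∈ unitGroup (E L q)
    rw [eq_inv_of_mul_eq_one_right h1.symm]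
    exact inv_mem (hu q g)
  · rw [Pi.smul_apply, map_nsmul, Pi.smul_apply, ← hF' i, CoInd.fn_map]
    show TrivZ.of (Multiplicative.toAdd (ord (E L (i : Nat.Primes)) (val (prinL L a) _ g))) =
      m • TrivZ.of (Multiplicative.toAdd (ord (E L (i : Nat.Primes)) (Loc.val' _)))
    rw [← map_nsmul, ← toAdd_pow, ← map_pow, ← hin, hval, map_mul,
      (ord_eq_one_iff _).mpr (hu _ g), one_mul]

/-- The kernel of the orders, as units. -/
def kerOrdEquiv (T : Finset Nat.Primes) : (ordT L T).ker ≃+ Additive (unitsL L) where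
  toFun x := Additive.ofMul
    ⟨(TU.incl x.1).toMul, (ordT_eq_zero_iff L T x.1).mp x.2⟩
  invFun y := ⟨TU.mk (Additive.ofMul (y.toMul : Lˣ)) fun q _ g => y.toMul.2 q g,
    (ordT_eq_zero_iff L T _).mpr y.toMul.2⟩
  left_inv _ := Subtype.ext (TU.incl_injective rfl)
  right_inv _ := rfl
  map_add' x y := Additive.toMul.injective (Subtype.ext
    (congrArg Additive.toMul (map_add TU.incl x.1 y.1)))

theorem module_finite_unitsL : Module.Finite ℤ (Additive (unitsL L)) := by
  haveI : AddGroup.FG (Additive (unitsL L)) := AddGroup.fg_of_group_fg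
  exact Module.Finite.iff_addGroup_fg.mpr inferInstance

theorem module_finite_ker_ordT (T : Finset Nat.Primes) : Module.Finite ℤ (ordT L T).ker := by
  haveI := module_finite_unitsL L
  exact Module.Finite.equiv (kerOrdEquiv L T).symm.toIntLinearEquiv

variable {p : ℕ} [hp : Fact p.Prime]

theorem modPFinite_tUnits (T : Finset Nat.Primes) :
    ModPFinite p (TU L (T : Set Nat.Primes)) := by
  classical
  haveI := module_finite_ker_ordT L T
  haveI := fun i : T => module_finite_coInd_trivZ (decomp L i)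
  haveI : Module.Finite ℤ (ordT L T).range :=
    inferInstanceAs (Module.Finite ℤ (AddSubgroup.toIntSubmodule (ordT L T).range))
  exact ModPFinite.ses (ordT L T).ker.subtype (ordT L T).rangeRestrict Subtype.val_injective
    (fun y hy => ⟨⟨y, congrArg Subtype.val hy⟩, rfl⟩) (ordT L T).rangeRestrict_surjective
    (fun x => Subtype.ext x.2) (modPFinite_of_module_finite _) (modPFinite_of_module_finite _)

section Conj

theorem complexConjugation_rootOfUnity (μ : QBar) (n : ℕ) (hn : 0 < n) (hμ : μ ^ n = 1) :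
    complexConjugation μ = μ⁻¹ := by
  refine complexEmbedding.injective ?_
  show complexEmbedding (complexConjugation μ) = complexEmbedding μ⁻¹
  rw [complexEmbedding_complexConjugation, map_inv₀]
  refine (Complex.inv_eq_conj ?_).symm
  exact Complex.norm_eq_one_of_pow_eq_one (by rw [← map_pow, hμ, map_one]) hn.ne'

theorem card_zpowers_conj (hp2 : p ≠ 2) {ζ : L} (hζ : IsPrimitiveRoot ζ p) :
    Nat.card (Subgroup.zpowers (res L complexConjugation)) = 2 := by
  rw [Nat.card_zpowers]
  refine orderOf_eq_prime ?_ fun h => ?_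
  · rw [sq, ← map_mul, complexConjugation_mul_self, map_one]
  · have h1 := (res_apply L complexConjugation ζ).symm
    have hζQ : IsPrimitiveRoot (ζ : QBar) p := hζ.map_of_injective L.val.injective
    rw [complexConjugation_rootOfUnity _ p hp.out.pos hζQ.pow_eq_one, h] at h1
    have h2 : (ζ : QBar) * ζ = 1 := by
      nth_rewrite 1 [show (ζ : QBar) = ((1 : L ≃ₐ[ℚ] L) ζ : L) from rfl]
      rw [← h1, inv_mul_cancel₀ (hζQ.ne_zero hp.out.ne_zero)]
    have h3 := Nat.le_of_dvd two_pos ((hζQ.pow_eq_one_iff_dvd 2).mp (by rw [sq]; exact h2))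
    exact hp2 (le_antisymm h3 hp.out.two_le)

/-- The embedding into `ℂ` that defines complex conjugation. -/
def embC : L →+* ℂ := complexEmbedding.toRingHom.comp L.val.toRingHom

theorem conjugate_embC (x : L) :
    starRingEnd ℂ (embC L x) = embC L (res L complexConjugation x) := by
  show starRingEnd ℂ (complexEmbedding (x : QBar)) =
    complexEmbedding (res L complexConjugation x : L)
  rw [res_apply, complexEmbedding_complexConjugation]

/-- The logarithm of the absolute value at the place of `g`. -/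
def logAbs (T : Set Nat.Primes) (g : L ≃ₐ[ℚ] L) : TU L T →+ ℝ :=
  AddMonoidHom.mk' (fun x => Real.log ‖embC L (g (((TU.incl x).toMul : Lˣ) : L))‖) fun x y => by
    rw [map_add, toMul_add, Units.val_mul, map_mul, map_mul, norm_mul, Real.log_mul]
    all_goals
      rw [norm_ne_zero_iff, map_ne_zero, map_ne_zero]
      exact Units.ne_zero _

theorem logAbs_smul (T : Set Nat.Primes) (g h : L ≃ₐ[ℚ] L) (x : TU L T) :
    logAbs L T g (h • x) = logAbs L T (g * h) x := rfl

/-- A `T`-unit of norm one, small away from the place of complex conjugation. -/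
theorem exists_small_unit (T : Finset Nat.Primes) :
    ∃ e : TU L (T : Set Nat.Primes), ordT L T e = 0 ∧ ∑ g : L ≃ₐ[ℚ] L, g • e = 0 ∧
      ∀ g ∉ Subgroup.zpowers (res L complexConjugation),
        logAbs L (T : Set Nat.Primes) g e < 0 := by
  classical
  haveI : NumberField L := {}
  haveI : IsGalois ℚ L := ⟨⟩
  obtain ⟨u, hu⟩ :=
    NumberField.Units.dirichletUnitTheorem.exists_unit L (NumberField.InfinitePlace.mk (embC L))
  set x : Lˣ := Units.map (algebraMap (𝓞 L) L).toMonoidHom (u ^ 2) with hx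
  have hxu : x ∈ unitsL L := by rw [unitsL_eq_range]; exact ⟨_, rfl⟩
  refine ⟨TU.mk (Additive.ofMul x) fun q _ g => hxu q g, (ordT_eq_zero_iff L T _).mpr hxu,
    TU.incl_injective (Additive.toMul.injective (Units.ext ?_)), fun g hg => ?_⟩
  · rw [map_sum, toMul_sum, map_zero, toMul_zero, Units.val_one, Units.coe_prod]
    show ∏ g : L ≃ₐ[ℚ] L, g (x : L) = 1
    rw [← Algebra.norm_eq_prod_automorphisms]
    have h1 : |Algebra.norm ℚ ((u : 𝓞 L) : L)| = 1 := NumberField.Units.norm L u
    rw [hx, map_pow, Units.val_pow_eq_pow_val, map_pow, ← sq_abs]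
    show algebraMap ℚ L (|Algebra.norm ℚ ((u : 𝓞 L) : L)| ^ 2) = 1
    rw [h1, one_pow, map_one]
  · have hw : NumberField.InfinitePlace.mk ((embC L).comp g.toRingEquiv.toRingHom) ≠
        NumberField.InfinitePlace.mk (embC L) := by
      intro h
      rcases NumberField.InfinitePlace.mk_eq_iff.mp h with h1 | h1
      · refine hg (?_ : g ∈ _)
        rw [show g = 1 from AlgEquiv.ext fun y => (embC L).injective (RingHom.congr_fun h1 y)]
        exact one_mem _
      · have h2 : res L complexConjugation * g = 1 := AlgEquiv.ext fun y => by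
          refine (embC L).injective ?_
          show embC L (res L complexConjugation (g y)) = embC L y
          rw [← conjugate_embC]
          exact RingHom.congr_fun h1 y
        rw [eq_inv_of_mul_eq_one_right h2] at hg
        exact hg (inv_mem (Subgroup.mem_zpowers _))
    have h1 := hu _ hw
    rw [NumberField.InfinitePlace.apply] at h1
    show Real.log ‖embC L (g (x : L))‖ < 0
    rw [hx, map_pow, Units.val_pow_eq_pow_val, map_pow, map_pow, norm_pow, Real.log_pow]
    exact mul_neg_of_pos_of_neg (by norm_num) h1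

theorem index_unitsL (hp2 : p ≠ 2) {ζ : L} (hζ : IsPrimitiveRoot ζ p) :
    finrank ℤ (Additive (unitsL L)) + 1 =
      (Subgroup.zpowers (res L complexConjugation)).index := by
  have h2 : 2 < p := lt_of_le_of_ne hp.out.two_le hp2.symm
  have h := finrank_unitsFixed (⊥ : Subgroup (L ≃ₐ[ℚ] L)) h2 hζ fun s hs => by
    rw [Subgroup.mem_bot.mp hs]; rfl
  have htop : fixedBy (⊥ : Subgroup (L ≃ₐ[ℚ] L)) Lˣ ⊓ unitsL L = unitsL L :=
    inf_eq_right.mpr fun x _ s hs => by rw [Subgroup.mem_bot.mp hs, one_smul]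
  rw [(MulEquiv.subgroupCongr htop).toAdditive.toIntLinearEquiv.finrank_eq, Subgroup.index_bot,
    ← (Subgroup.zpowers (res L complexConjugation)).index_mul_card,
    card_zpowers_conj L hp2 hζ] at h
  omega

variable [Fintype (L ≃ₐ[ℚ] L)]

/-- The lattice spanned by the conjugates of a unit. -/
def unitLatt (T : Set Nat.Primes) (c : Subgroup (L ≃ₐ[ℚ] L)) (e : TU L T) :
    CoInd c (TrivZ c) →+ TU L T :=
  AddMonoidHom.mk' (fun F => ∑ g, (TrivZ.of.symm (CoInd.fn F g)) • (g⁻¹ • e)) fun F F' => by
    simp only [map_add, Pi.add_apply, add_smul, Finset.sum_add_distrib]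

theorem unitLatt_apply (T : Set Nat.Primes) (c : Subgroup (L ≃ₐ[ℚ] L)) (e : TU L T)
    (F : CoInd c (TrivZ c)) :
    unitLatt L T c e F = ∑ g, (TrivZ.of.symm (CoInd.fn F g)) • (g⁻¹ • e) := rfl

theorem unitLatt_smul (T : Set Nat.Primes) (c : Subgroup (L ≃ₐ[ℚ] L)) (e : TU L T)
    (σ : L ≃ₐ[ℚ] L) (F : CoInd c (TrivZ c)) :
    unitLatt L T c e (σ • F) = σ • unitLatt L T c e F := by
  rw [unitLatt_apply, unitLatt_apply, Finset.smul_sum]
  refine Fintype.sum_equiv (Equiv.mulRight σ) _ _ fun g => ?_
  rw [CoInd.fn_smul, Equiv.coe_mulRight, smul_comm σ, smul_smul, mul_inv_rev,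
    mul_inv_cancel_left]

theorem unitLatt_ker (T : Set Nat.Primes) (c : Subgroup (L ≃ₐ[ℚ] L)) [Fintype c] (e : TU L T)
    (hsum : ∑ g : L ≃ₐ[ℚ] L, g • e = 0) (hneg : ∀ g ∉ c, logAbs L T g e < 0) :
    (unitLatt L T c e).ker = (constCoInd c).range := by
  refine le_antisymm (fun F hF => ?_) ?_
  · obtain ⟨h, hmax⟩ := Finite.exists_max fun g => TrivZ.of.symm (CoInd.fn F g)
    set a := TrivZ.of.symm (CoInd.fn F h) with ha
    have hrow : ∀ k, ∑ g, logAbs L T (k * g⁻¹) e = 0 := fun k => by
      rw [Fintype.sum_equiv ((Equiv.inv _).trans (Equiv.mulLeft k))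
        (fun g => logAbs L T (k * g⁻¹) e) (fun g => logAbs L T g e) fun g => rfl,
        show (fun g => logAbs L T g e) = fun g => logAbs L T 1 (g • e) from funext fun g => by
          rw [logAbs_smul, one_mul],
        ← map_sum, hsum, map_zero]
    have h0 : ∑ g, ((TrivZ.of.symm (CoInd.fn F g) - a : ℤ) : ℝ) * logAbs L T (h * g⁻¹) e = 0 := by
      have h1 := congrArg (logAbs L T h) (AddMonoidHom.mem_ker.mp hF)
      rw [unitLatt_apply, map_sum, map_zero] at h1
      simp only [map_zsmul, logAbs_smul, zsmul_eq_mul] at h1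
      simp only [Int.cast_sub, sub_mul, Finset.sum_sub_distrib, ← Finset.mul_sum, hrow, mul_zero,
        sub_zero]
      exact h1
    have hterm : ∀ g, (h * g⁻¹ ∈ c → TrivZ.of.symm (CoInd.fn F g) = a) := fun g hg => by
      have h1 := CoInd.fn_equi F ⟨h * g⁻¹, hg⟩ g
      rw [TrivZ.smul_eq] at h1
      rw [ha, ← h1]
      simp
    have hnn : ∀ g ∈ (Finset.univ : Finset (L ≃ₐ[ℚ] L)),
        0 ≤ ((TrivZ.of.symm (CoInd.fn F g) - a : ℤ) : ℝ) * logAbs L T (h * g⁻¹) e := fun g _ => by
      by_cases hg : h * g⁻¹ ∈ c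
      · rw [hterm g hg, sub_self, Int.cast_zero, zero_mul]
      · exact mul_nonneg_of_nonpos_of_nonpos
          (Int.cast_nonpos.mpr (sub_nonpos.mpr (hmax g))) (hneg _ hg).le
    refine ⟨TrivZ.of a, CoInd.ext fun g => ?_⟩
    rw [fn_constCoInd, AddEquiv.symm_apply_apply]
    refine (AddEquiv.symm_apply_eq _).mp (?_ : TrivZ.of.symm (CoInd.fn F g) = a) |>.symm
    by_cases hg : h * g⁻¹ ∈ c
    · exact hterm g hg
    · have h2 := (Finset.sum_eq_zero_iff_of_nonneg hnn).mp h0 g (Finset.mem_univ g)
      exact sub_eq_zero.mp (Int.cast_eq_zero.mp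
        ((mul_eq_zero.mp h2).resolve_right (hneg _ hg).ne))
  · rintro _ ⟨n, rfl⟩
    show unitLatt L T c e (constCoInd c n) = 0
    simp only [unitLatt_apply, fn_constCoInd, AddEquiv.symm_apply_apply, ← Finset.smul_sum]
    rw [Fintype.sum_equiv (Equiv.inv _) (fun g : L ≃ₐ[ℚ] L => g⁻¹ • e) (fun g => g • e)
      fun g => rfl, hsum, smul_zero]

theorem exists_conj_unitChar (hp2 : p ≠ 2) {ζ : L} (hζ : IsPrimitiveRoot ζ p)
    (T : Finset Nat.Primes) [∀ i : T, Fintype (decomp L i)] :
    ∃ c : GQ, c * c = 1 ∧ (∀ μ : QBar, ∀ n : ℕ, 0 < n → μ ^ n = 1 → c μ = μ⁻¹) ∧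
      Nat.card (Subgroup.zpowers (res L c)) = 2 ∧
      ∀ [Fintype (Subgroup.zpowers (res L c))],
        UnitChar p (fun i : T => decomp L i) (Subgroup.zpowers (res L c))
          (TU L (T : Set Nat.Primes)) := by
  classical
  refine ⟨complexConjugation, complexConjugation_mul_self, complexConjugation_rootOfUnity,
    card_zpowers_conj L hp2 hζ, ?_⟩
  intro hc
  set c := Subgroup.zpowers (res L complexConjugation)
  obtain ⟨e, he0, hsum, hneg⟩ := exists_small_unit L T
  have hker := unitLatt_ker L (T : Set Nat.Primes) c e (by convert hsum using 3) hneg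
  have hord : ∀ F, ordT L T (unitLatt L (T : Set Nat.Primes) c e F) = 0 := fun F => by
    rw [unitLatt_apply, map_sum]
    exact Finset.sum_eq_zero fun g _ => by rw [map_zsmul, ordT_smul, he0, smul_zero, smul_zero]
  refine unitChar_of_maps _ c (modPFinite_tUnits L T) (ordT L T) (ordT_smul L T)
    (index_range_ordT L T) (unitLatt L (T : Set Nat.Primes) c e) (unitLatt_smul L _ c e) hker
    hord ?_
  haveI := module_finite_ker_ordT L T
  haveI := module_finite_coInd_trivZ c
  let ψ : CoInd c (TrivZ c) →+ (ordT L T).ker :=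
    (unitLatt L (T : Set Nat.Primes) c e).codRestrict _ hord
  have hψ : (unitLatt L (T : Set Nat.Primes) c e).range.addSubgroupOf (ordT L T).ker =
      (LinearMap.range ψ.toIntLinearMap).toAddSubgroup := by
    ext x
    exact ⟨fun ⟨F, hF⟩ => ⟨F, Subtype.ext hF⟩, fun ⟨F, hF⟩ => ⟨F, congrArg Subtype.val hF⟩⟩
  rw [AddSubgroup.relIndex, hψ]
  refine index_ne_zero_of_finrank_eq _ ?_
  have h1 : finrank ℤ (LinearMap.ker ψ.toIntLinearMap) = 1 := by
    let k : TrivZ (L ≃ₐ[ℚ] L) →+ LinearMap.ker ψ.toIntLinearMap :=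
      AddMonoidHom.mk' (fun n => ⟨constCoInd c n, LinearMap.mem_ker.mpr (Subtype.ext (by
        have h : constCoInd c n ∈ (unitLatt L (T : Set Nat.Primes) c e).ker := by
          rw [hker]; exact ⟨n, rfl⟩
        exact h))⟩) fun a b => Subtype.ext (map_add _ a b)
    have hk : Function.Bijective k :=
      ⟨fun a b h => constCoInd_injective c (congrArg Subtype.val h), fun y => by
        have h : y.1 ∈ (unitLatt L (T : Set Nat.Primes) c e).ker :=
          congrArg Subtype.val (LinearMap.mem_ker.mp y.2)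
        rw [hker] at h
        obtain ⟨n, hn⟩ := h
        exact ⟨n, Subtype.ext hn⟩⟩
    rw [← ((TrivZ.of).trans (AddEquiv.ofBijective k hk)).toIntLinearEquiv.finrank_eq,
      Module.finrank_self]
  have h2 := (LinearMap.ker ψ.toIntLinearMap).finrank_quotient_add_finrank
  rw [h1, ψ.toIntLinearMap.quotKerEquivRange.finrank_eq, finrank_coInd_trivZ,
    ← index_unitsL L hp2 hζ, ← (kerOrdEquiv L T).toIntLinearEquiv.finrank_eq] at h2
  omega

end Conj

end Fermat.Agent.CFT.GW
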