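import Fermat.Agent.CFT.GW.DualClass
import Fermat.Agent.CFT.GW.Theta
import Fermat.Agent.CFT.GW.GlobClass
import Fermat.Agent.CFT.GW.UnitChar
import Fermat.Agent.CFT.GW.Killing
import Fermat.Agent.CFT.GW.GlobalClass
import Fermat.Agent.CFT.GW.Level
import Fermat.Agent.CFT.GW.LocalClass
import Fermat.Agent.CFT.GW.LocalEuler
import Fermat.Agent.CFT.GW.LocalUnits
import Fermat.Agent.CFT.Tangent.LocalBounds

/-!
# The bound on a space of tangent classes

The Greenberg–Wiles inequality at one finite level: if Taylor–Wiles primes kill the twisted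
adjoint classes, a space of adjoint classes with local bounds `d v` has dimension at most
`m - 1 + ∑ d v`.
-/

set_option autoImplicit false
set_option synthInstance.maxHeartbeats 200000
set_option maxHeartbeats 1000000
set_option linter.unusedSectionVars false
set_option linter.style.haveILetI false

noncomputable section

namespace Fermat.Agent.CFT.GW

open ExtCitation Fermat.Agent.Arith IntermediateField Fermat.Agent.CFT.Local Fermat.Agent.CFT.Idele
open Fermat.Agent.CFT.Duality Fermat.Agent.CFT.Euler Module Fermat.Agent.Deform Fermat.Agent.CFT.Tangent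

local instance factPrimeGWBound (q : Nat.Primes) : Fact (q : ℕ).Prime := ⟨q.2⟩

section Level

variable {p : ℕ} [hp : Fact p.Prime] {k : Type} [Field k] [Finite k] [CharP k p]
  {L : IntermediateField ℚ QBar} [FiniteDimensional ℚ L] [Normal ℚ L]
  {rG : (L ≃ₐ[ℚ] L) →* M2 k} {T : Finset Nat.Primes} [DecidableEq T]
  [∀ i : T, Fintype (decomp L i)]
  (X : Pres p (L ≃ₐ[ℚ] L) (Adj rG)) (hfull : ∀ x : X.P, x ∈ X.K)
  {uD : NormCocycle (L ≃ₐ[ℚ] L) (Glob L (T : Set Nat.Primes))} (hD : IsClassFormation p uD)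
  {V : Type} [AddCommGroup V] (β : V →+ (L ≃ₐ[ℚ] L) → Adj rG)
  (hβ : ∀ (v : V) (g h : L ≃ₐ[ℚ] L), β v (g * h) = g • β v h + β v g)

theorem qD_single (i : T) (F : CoInd (decomp L i) (Loc L i)) :
    qD L T (Pi.single i F) = Glob.of (proj L (qLoc L i F)) := by
  rw [qD_apply, Finset.sum_eq_single i]
  · rw [Pi.single_eq_same]
  · intro j _ hj
    rw [Pi.single_eq_of_ne hj, map_zero, map_zero, map_zero]
  · exact fun h => absurd (Finset.mem_univ i) h

theorem trMap_single_apply {i : T}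
    (z : equivHom (C := Loc L i) (IsStable.restrict X.hS (decomp L i))) (s : X.S) :
    (trMap X (qD L T) (qD_smul L T) (Pi.single i z)).1 s =
      Glob.of (proj L (qLoc L i
        ((coHom (H := fun j : T => decomp L j) (E := fun j : T => Loc L j) X.hS i z).1 s))) :=
  (congrArg (qD L T) (semiHom_single (H := fun j : T => decomp L j)
    (E := fun j : T => Loc L j) X X.hS i z s)).trans (qD_single i _)

/-- Maps lifting to unit families pair to zero. -/
theorem theta_unitsOff {T' : Set Nat.Primes} (hT' : ∀ q ∉ T', inertia (E L q) = ⊥)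
    (f : equivHom (C := Glob L (T : Set Nat.Primes)) X.hS) (w : X.S →+ J L)
    (hw : IsEquivariantOn X.hS w) (hwu : ∀ s, w s ∈ unitsOff L T')
    (hf : ∀ s, f.1 s = Glob.of (proj L (w s))) : theta X hfull hD β hβ f = 0 := by
  have h := exists_normOn_eq_of_unitsOff (p := p) (L := L) (T := T') (P := X.P) (S := X.S) hT' X.hS
    X.induced X.level w hw hwu
  obtain ⟨φ, hφ⟩ := h
  refine theta_normOn X hfull hD β hβ f ((Glob.of.comp (proj L)).comp φ)
    (AddMonoidHom.ext fun s => ?_)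
  rw [hf, ← hφ, normOn_apply, normOn_apply, map_sum, map_sum]
  refine Finset.sum_congr rfl fun g _ => ?_
  show g • Glob.of (proj L (φ _)) = Glob.of (proj L (g • φ _))
  rw [proj_smul, Glob.smul_of]

/-- Local maps with unit values at an unramified place die in `V^*`. -/
theorem mem_thetaKer_of_units {i : T} (hi : inertia (E L i) = ⊥)
    (z : equivHom (C := Loc L i) (IsStable.restrict X.hS (decomp L i)))
    (hz : ∀ s, z.1 s ∈ Loc.units (i : Nat.Primes)) :
    z ∈ thetaKer X hfull hD β hβ (qD L T) (qD_smul L T) i := by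
  rw [mem_thetaKer]
  let co := coHom (H := fun j : T => decomp L j) (E := fun j : T => Loc L j) X.hS i z
  let w : X.S →+ J L := (qLoc L (i : Nat.Primes)).comp co.1
  have hw : IsEquivariantOn X.hS w := fun g s => by
    show qLoc L _ (co.1 (smulS X.hS g s)) = g • qLoc L _ (co.1 s)
    rw [co.2, qLoc_smul]
  let T' : Set Nat.Primes := {q | q ≠ (i : Nat.Primes)}
  have hT' : ∀ q ∉ T', inertia (E L q) = ⊥ := fun q hq => by
    rw [not_not.mp hq]
    exact hi
  have hwu : ∀ s, w s ∈ unitsOff L T' := fun s q σ => by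
    show val (qLoc L (i : Nat.Primes) (co.1 s)).toMul q σ ∈ unitGroup (E L q) ∧
      (q ∈ T' → val (qLoc L (i : Nat.Primes) (co.1 s)).toMul q σ = 1)
    by_cases hq : q = (i : Nat.Primes)
    · subst hq
      refine ⟨?_, fun h => absurd rfl h⟩
      rw [val_qLoc_self]
      exact Loc.mem_units.mp (hz (smulS X.hS σ s))
    · rw [val_qLoc_of_ne L hq]
      exact ⟨one_mem _, fun _ => rfl⟩
  exact theta_unitsOff X hfull hD β hβ hT' _ w hw hwu fun s => trMap_single_apply X z s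

theorem unitHom_le_thetaKer {i : T} (hi : inertia (E L i) = ⊥) :
    unitHom L (X.restrict (decomp L i)) ≤ thetaKer X hfull hD β hβ (qD L T) (qD_smul L T) i :=
  fun z hz => mem_thetaKer_of_units X hfull hD β hβ hi z hz

end Level

section Kill

variable {p : ℕ} [hp : Fact p.Prime] {k : Type} [Field k] [Finite k] [CharP k p]
  {L : IntermediateField ℚ QBar} [FiniteDimensional ℚ L] [Normal ℚ L]
  {rG : (L ≃ₐ[ℚ] L) →* M2 k} {T : Finset Nat.Primes}
  [∀ i : T, Fintype (decomp L i)]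
  (X : Pres p (L ≃ₐ[ℚ] L) (Adj rG)) (hfull : ∀ x : X.P, x ∈ X.K)

include hfull in
/-- A `T`-unit map satisfying the local conditions is a restriction. -/
theorem exists_res_of_conditions (hp2 : p ≠ 2) {ζ : L} (hζ : IsPrimitiveRoot ζ p)
    (hcyc : ∀ (σ : Gal) (n : ℕ), (∀ μ : QBar, μ ^ p = 1 → σ μ = μ ^ n) →
      (rQ rG σ).det = (n : k))
    (S0 Q : Finset Nat.Primes) (hsub : S0 ∪ Q ⊆ T) (hp0 : ∀ v ∉ S0, (v : ℕ) ≠ p)
    (hLur : ∀ v, v ∉ S0 → v ∉ Q → inertia (E L v) = ⊥)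
    (hkill : ∀ b : GQ → M2 k, TWPrimes.IsCocycle (rQ rG) b → IsFiniteLevel b →
      (∀ v : Nat.Primes, v ∉ S0 → v ∉ Q →
        ∀ τ ∈ (padicPlace (v : ℕ)).inertiaSubgroupIn ℚ, b τ = 0) →
      (∀ v ∈ Q, ∃ Z : M2 k, Z.trace = 0 ∧
        ∀ s ∈ (padicPlace (v : ℕ)).decompositionSubgroup ℚ, b s = TWPrimes.cobd (rQ rG) Z s) →
      ∃ Z : M2 k, Z.trace = 0 ∧ ∀ g, b g = TWPrimes.cobd (rQ rG) Z g)
    (w : equivHom (C := TU L (T : Set Nat.Primes)) X.hS)
    (hwQ : ∀ i : T, (i : Nat.Primes) ∈ Q →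
      compHom X.hS (postHom X.hS (iU L T) (iU_smul L T) w) i ∈
        ((X.restrict (decomp L i)).res (Loc L i)).range)
    (hwT : ∀ i : T, (i : Nat.Primes) ∉ Q → (i : Nat.Primes) ∉ S0 →
      compHom X.hS (postHom X.hS (iU L T) (iU_smul L T) w) i ∈
        unitHom L (X.restrict (decomp L i)) ⊔ ((X.restrict (decomp L i)).res (Loc L i)).range) :
    ∃ ψ, X.res (TU L (T : Set Nat.Primes)) ψ = w := by
  refine exists_res_eq_of_killing hfull w hp2
    (hζ.map_of_injective (f := L.val) L.val.injective) ζ.2 hcyc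
    {v | v ∉ S0 ∧ v ∉ Q} (Q : Set Nat.Primes) (fun v hv => hp0 v hv.1)
    (fun v hv => hLur v hv.1 hv.2) ?_ ?_
    (fun b hb hl hu' hs => hkill b hb hl (fun v h1 h2 => hu' v ⟨h1, h2⟩) hs)
  · intro v hv
    by_cases hvT : v ∈ T
    · have h := hwT ⟨v, hvT⟩ hv.2 hv.1
      obtain ⟨a, ha, b, ⟨F, hF⟩, hab⟩ := AddSubgroup.mem_sup.mp h
      refine ⟨F, fun s => ?_⟩
      have e := DFunLike.congr_fun (congrArg Subtype.val hab) s
      have eb := DFunLike.congr_fun (congrArg Subtype.val hF) s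
      have hs : CoInd.ev (iLoc L (T : Set Nat.Primes) v (w.1 s)) -
          F.1 (AddSubgroup.inclusion X.le s) = a.1 s :=
        sub_eq_iff_eq_add.mpr (e.symm.trans (congrArg (a.1 s + ·) eb.symm))
      exact Eq.mp (congrArg (· ∈ Loc.units v) hs.symm) (ha s)
    · refine ⟨0, fun s => ?_⟩
      rw [AddSubgroup.coe_zero, AddMonoidHom.zero_apply, sub_zero, Loc.mem_units]
      exact TU.incl_mem (w.1 s) v hvT 1
  · intro v hv
    have hvT : v ∈ T := hsub (Finset.mem_union_right _ hv)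
    have h := hwQ ⟨v, hvT⟩ (Finset.mem_coe.mp hv)
    obtain ⟨F, hF⟩ := h
    exact ⟨F, fun s => (DFunLike.congr_fun (congrArg Subtype.val hF) s).symm⟩

end Kill

section Count

variable {p : ℕ} [hp : Fact p.Prime] {k : Type} [Field k] [Finite k] [CharP k p]
  {L : IntermediateField ℚ QBar} [FiniteDimensional ℚ L] [Normal ℚ L]
  {rG : (L ≃ₐ[ℚ] L) →* M2 k} {T : Finset Nat.Primes} [DecidableEq T]
  [∀ i : T, Fintype (decomp L i)]
  (X : Pres p (L ≃ₐ[ℚ] L) (Adj rG)) (hfull : ∀ x : X.P, x ∈ X.K)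
  {uD : NormCocycle (L ≃ₐ[ℚ] L) (Glob L (T : Set Nat.Primes))} (hD : IsClassFormation p uD)

/-- At a place with restrictions as local condition. -/
theorem lpN_range_index_le (hp2 : p ≠ 2) {ζ : L} (hζ : IsPrimitiveRoot ζ p)
    (hcyc : ∀ (σ : Gal) (n : ℕ), (∀ μ : QBar, μ ^ p = 1 → σ μ = μ ^ n) →
      (rQ rG σ).det = (n : k))
    (i : T) (hqp : ((i : Nat.Primes) : ℕ) ≠ p)
    (hfrob : ∀ φ : Gal, (padicPlace ((i : Nat.Primes) : ℕ)).IsFrobeniusAt φ ((i : Nat.Primes) : ℕ) →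
      (rQ rG φ).det = 1 ∧ (rQ rG φ).trace ^ 2 ≠ 4) (hfull : ∀ x : X.P, x ∈ X.K) :
    lpN p ((X.restrict (decomp L i)).res (Loc L i)).range.index ≤
      lpN p (Nat.card (fixPts (decomp L i) (Adj rG))) + lpN p (Nat.card k) := by
  have hA : ∀ a : Adj rG, p • a = 0 := fun a => Adj.nsmul_eq_zero p a
  have h1 := index_loc_eq L hp2 hζ (i : Nat.Primes) hqp hA (X.restrict (decomp L i)) hfull
  have h2 := lpN_ker_res_le hp2 hζ hcyc (i : Nat.Primes) hqp hfrob X hfull
  simp only [Pres.index, lpIndex] at h1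
  linarith

variable {V : Submodule k (Gal → M2 k)} [Module.Finite k V]
  (β : V →+ (L ≃ₐ[ℚ] L) → Adj rG)
  (hβ : ∀ (v : V) (g h : L ≃ₐ[ℚ] L), β v (g * h) = g • β v h + β v g)

theorem nsmul_submodule_eq_zero (v : V) : p • v = 0 := by
  rw [← Nat.cast_smul_eq_nsmul k, CharP.cast_eq_zero, zero_smul]

/-- At a place of `S₀`. -/
theorem lpN_thetaKer_index_le_of_loc
    (hβm : ∀ (b : V) (σ : Gal), Adj.mat (β b (res L σ)) = (b : Gal → M2 k) σ)
    (i : T) (d : ℤ)
    (hloc : (finrank k V : ℤ) ≤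
      finrank k (V ⊓ cobdOn (rQ rG) ((padicPlace ((i : Nat.Primes) : ℕ)).decompositionSubgroup ℚ) :
          Submodule k (Gal → M2 k)) +
        finrank k (fixedOn (rQ rG) ((padicPlace ((i : Nat.Primes) : ℕ)).decompositionSubgroup ℚ)) + d) :
    lpN p (thetaKer X hfull hD β hβ (qD L T) (qD_smul L T) i).index ≤
      lpN p (Nat.card (fixPts (decomp L i) (Adj rG))) + lpN p (Nat.card k) * d := by
  haveI : Finite V := Module.finite_of_finite k
  let C := cobdOn (rQ rG) ((padicPlace ((i : Nat.Primes) : ℕ)).decompositionSubgroup ℚ)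
  let W : Submodule k V := C.comap V.subtype
  have h1 := lpN_thetaKer_index_le X hfull hD β hβ (qD L T) (qD_smul L T)
    (nsmul_submodule_eq_zero (p := p)) i
    W.toAddSubgroup fun w hw => classAdj_cobd_decomp (i : Nat.Primes) (hβm w) hw
  have hW : finrank k W = finrank k (V ⊓ C : Submodule k (Gal → M2 k)) :=
    (Submodule.equivMapOfInjective V.subtype V.injective_subtype W).finrank_eq.trans (by
      rw [Submodule.map_comap_subtype])
  have h2 : lpN p (Nat.card V) = lpN p (Nat.card k) * (finrank k V : ℤ) := lpN_card_eq_finrank V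
  have h3 : lpN p (Nat.card W.toAddSubgroup) = lpN p (Nat.card k) * (finrank k W : ℤ) :=
    lpN_card_eq_finrank W
  have h5 := mul_le_mul_of_nonneg_left hloc (lpN_card_pos (p := p) (k := k)).le
  rw [mul_add, mul_add] at h5
  rw [hW] at h3
  rw [h2, h3] at h1
  rw [lpN_fixPts_decomp (i : Nat.Primes)]
  linarith

/-- The Greenberg–Wiles inequality combined with the Euler count. -/
theorem lpN_card_add_le (hp2 : p ≠ 2) {ζ : L} (hζ : IsPrimitiveRoot ζ p)
    (hgen : Generates L (T : Set Nat.Primes)) (hTne : T.Nonempty)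
    (hfixed : ∀ Y : M2 k, Y.trace = 0 →
      (∀ σ : Gal, rQ rG σ * Y * rQ rG σ⁻¹ = Y) → Y = 0)
    (hcyc : ∀ (σ : Gal) (n : ℕ), (∀ μ : QBar, μ ^ p = 1 → σ μ = μ ^ n) →
      (rQ rG σ).det = (n : k))
    (hβm : ∀ (b : V) (σ : Gal), Adj.mat (β b (res L σ)) = (b : Gal → M2 k) σ)
    (hinj : ∀ b ∈ V, ∀ Y : M2 k, b = cobdLin (rQ rG) Y → b = 0)
    (N : ∀ i : T, AddSubgroup (equivHom (C := Loc L i) (IsStable.restrict X.hS (decomp L i))))
    (hNres : ∀ i : T, ((X.restrict (decomp L i)).res (Loc L i)).range ≤ N i)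
    (hNK : ∀ i : T, N i ≤ thetaKer X hfull hD β hβ (qD L T) (qD_smul L T) i)
    (hkill' : ∀ w : equivHom (C := TU L (T : Set Nat.Primes)) X.hS,
      (∀ i, compHom X.hS (postHom X.hS (iU L T) (iU_smul L T) w) i ∈ N i) →
        ∃ ψ, X.res (TU L (T : Set Nat.Primes)) ψ = w) :
    lpN p (Nat.card V) + lpN p (Nat.card k) +
        ∑ i : T, lpN p (Nat.card (fixPts (decomp L i) (Adj rG))) ≤
      ∑ i : T, lpN p (N i).index := by
  haveI : Finite V := Module.finite_of_finite k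
  choose uE hE using fun i : T => exists_locClass L hp2 hζ (i : Nat.Primes)
  have hU := modPFinite_tUnits L (p := p) T
  have hEfin : ∀ i : T, ModPFinite p (Loc L i) := fun i => modPFinite_loc L hp2 _
  have hDfin := modPFinite_glob L hTne hgen hU fun q => modPFinite_loc L hp2 q
  obtain ⟨c, hcc, hcμ, hc2, hchar⟩ := exists_conj_unitChar L hp2 hζ T
  letI : Fintype (Subgroup.zpowers (res L c)) := Fintype.ofFinite _
  have hA : ∀ a : Adj rG, p • a = 0 := fun a => Adj.nsmul_eq_zero p a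
  have hVp := nsmul_submodule_eq_zero (p := p) (V := V)
  have hfix : fixPts (L ≃ₐ[ℚ] L) (Adj rG) = ⊥ := by
    refine eq_bot_iff.mpr fun a ha => AddSubgroup.mem_bot.mpr (Adj.mat_injective ?_)
    rw [map_zero]
    refine hfixed _ (Adj.trace_mat a) fun σ => ?_
    show rG (res L σ) * Adj.mat a * rG (res L σ⁻¹) = Adj.mat a
    rw [map_inv (res L), ← Adj.mat_smul, ha]
  have hcob : ∀ v : V, (∃ x : Adj rG, ∀ g, β v g = g • x - x) → v = 0 := by
    rintro v ⟨x, hx⟩
    refine Subtype.ext (hinj _ v.2 (Adj.mat x) (funext fun σ => ?_))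
    rw [← hβm, hx, map_sub, Adj.mat_smul, cobdLin_apply]
    simp only [MonoidHom.comp_apply, map_inv]
  have hcount := lpN_card_le X (iU L T) (iU_smul L T) (qD L T) (qD_smul L T) hfull hDfin hEfin
    (V := V) hVp (theta X hfull hD β hβ) (theta_surjective X hfull hD β hβ hVp hcob)
    (theta_res X hfull hD β hβ) N hNres
    (fun z hz => theta_trMap_eq_zero X hfull hD β hβ (qD L T) (qD_smul L T) z
      fun i => hNK i (hz i))
    hkill' (iU_injective L hTne) (qD_exact L T) (qD_iU L T) (qD_surjective L hgen)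
  have hc' : Nat.Coprime p (Nat.card (Subgroup.zpowers (res L c))) := by
    rw [hc2]
    exact (Nat.coprime_primes hp.out Nat.prime_two).mpr hp2
  have heuler := euler_count hA X hfull hfix hE hEfin hD hDfin hU hc'
    (iU L T) (iU_smul L T) (qD L T) (qD_smul L T) (iU_injective L hTne) (qD_exact L T)
    (qD_iU L T) (qD_surjective L hgen) hchar
  have hlow : lpN p (Nat.card k) ≤
      lpN p (Nat.card (fixDual p (Subgroup.zpowers (res L c)) (Adj rG))) :=
    lpN_fixDual_conj hp2 hcyc hcc hcμ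
  linarith

end Count

section Final

variable {p : ℕ} [hp : Fact p.Prime] {k : Type} [Field k] [Finite k] [CharP k p]
  {L : IntermediateField ℚ QBar} [FiniteDimensional ℚ L] [Normal ℚ L]
  {rG : (L ≃ₐ[ℚ] L) →* M2 k}

/-- The inequality at a level. -/
theorem finrank_le_of_level (hp2 : p ≠ 2) {ζ : L} (hζ : IsPrimitiveRoot ζ p)
    (hfixed : ∀ Y : M2 k, Y.trace = 0 →
      (∀ σ : Gal, rQ rG σ * Y * rQ rG σ⁻¹ = Y) → Y = 0)
    (hcyc : ∀ (σ : Gal) (n : ℕ), (∀ μ : QBar, μ ^ p = 1 → σ μ = μ ^ n) →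
      (rQ rG σ).det = (n : k))
    (S0 Q : Finset Nat.Primes) (hne : S0.Nonempty) (hdisj : ∀ v ∈ Q, v ∉ S0)
    (hp0 : ∀ v ∉ S0, (v : ℕ) ≠ p)
    (hLur : ∀ v, v ∉ S0 → v ∉ Q → inertia (E L v) = ⊥)
    (hfrob : ∀ v ∈ Q, ∀ φ : Gal, (padicPlace (v : ℕ)).IsFrobeniusAt φ (v : ℕ) →
      (rQ rG φ).det = 1 ∧ (rQ rG φ).trace ^ 2 ≠ 4)
    (hkill : ∀ b : GQ → M2 k, TWPrimes.IsCocycle (rQ rG) b → IsFiniteLevel b →
      (∀ v : Nat.Primes, v ∉ S0 → v ∉ Q →
        ∀ τ ∈ (padicPlace (v : ℕ)).inertiaSubgroupIn ℚ, b τ = 0) →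
      (∀ v ∈ Q, ∃ Z : M2 k, Z.trace = 0 ∧
        ∀ s ∈ (padicPlace (v : ℕ)).decompositionSubgroup ℚ, b s = TWPrimes.cobd (rQ rG) Z s) →
      ∃ Z : M2 k, Z.trace = 0 ∧ ∀ g, b g = TWPrimes.cobd (rQ rG) Z g)
    (V : Submodule k (Gal → M2 k)) [Module.Finite k V]
    (hcoc : ∀ b ∈ V, IsAdCocycle (rQ rG) b) (htr : ∀ b ∈ V, ∀ σ, (b σ).trace = 0)
    (hlev : ∀ b ∈ V, ∀ σ, res L σ = 1 → b σ = 0)
    (hinj : ∀ b ∈ V, ∀ Y : M2 k, b = cobdLin (rQ rG) Y → b = 0)
    (d : Nat.Primes → ℤ)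
    (hloc : ∀ v ∈ S0, (finrank k V : ℤ) ≤
      finrank k (V ⊓ cobdOn (rQ rG) ((padicPlace (v : ℕ)).decompositionSubgroup ℚ) :
          Submodule k (Gal → M2 k)) +
        finrank k (fixedOn (rQ rG) ((padicPlace (v : ℕ)).decompositionSubgroup ℚ)) + d v) :
    (finrank k V : ℤ) ≤ (Q.card : ℤ) - 1 + ∑ v ∈ S0, d v := by
  classical
  haveI : Finite V := Module.finite_of_finite k
  obtain ⟨T, hsub, hgen⟩ := exists_generates L (S0 ∪ Q)
  have hTne : T.Nonempty := hne.mono (Finset.subset_union_left.trans hsub)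
  letI hfin : ∀ i : T, Fintype (decomp L i) := fun i => Fintype.ofFinite _
  have hTur : ∀ q ∉ T, inertia (E L q) = ⊥ := fun q hq => hLur q
    (fun h => hq (hsub (Finset.mem_union_left _ h))) fun h => hq (hsub (Finset.mem_union_right _ h))
  obtain ⟨u, hu⟩ := exists_fundClass L hp2 hζ
  obtain ⟨uD, hD⟩ := exists_globClass L hp2 hζ hTne hTur hu
  have hA : ∀ a : Adj rG, p • a = 0 := fun a => Adj.nsmul_eq_zero p a
  let X : Pres p (L ≃ₐ[ℚ] L) (Adj rG) := canonPres p hA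
  have hfull : ∀ x : X.P, x ∈ X.K := fun _ => trivial
  obtain ⟨β, hβm, hβ⟩ := exists_classAdj V hcoc htr hlev
  let K := thetaKer X hfull hD β hβ (qD L T) (qD_smul L T)
  let R := fun i : T => ((X.restrict (decomp L i)).res (Loc L i)).range
  let N : ∀ i : T, AddSubgroup (equivHom (C := Loc L i) (IsStable.restrict X.hS (decomp L i))) :=
    fun i => if (i : Nat.Primes) ∈ Q then R i else if (i : Nat.Primes) ∈ S0 then K i
      else unitHom L (X.restrict (decomp L i)) ⊔ R i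
  have hRK : ∀ i, R i ≤ K i := fun i => res_le_thetaKer X hfull hD β hβ (qD L T) (qD_smul L T) i
  have hNQ : ∀ i : T, (i : Nat.Primes) ∈ Q → N i = R i := fun i hQ => if_pos hQ
  have hNS : ∀ i : T, (i : Nat.Primes) ∉ Q → (i : Nat.Primes) ∈ S0 → N i = K i :=
    fun i hQ hS => (if_neg hQ).trans (if_pos hS)
  have hNT : ∀ i : T, (i : Nat.Primes) ∉ Q → (i : Nat.Primes) ∉ S0 →
      N i = unitHom L (X.restrict (decomp L i)) ⊔ R i :=
    fun i hQ hS => (if_neg hQ).trans (if_neg hS)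
  have hNres : ∀ i, R i ≤ N i := fun i => by
    by_cases hQ : (i : Nat.Primes) ∈ Q
    · exact (hNQ i hQ).ge
    by_cases hS : (i : Nat.Primes) ∈ S0
    · exact (hRK i).trans (hNS i hQ hS).ge
    · exact le_sup_right.trans (hNT i hQ hS).ge
  have hNK : ∀ i, N i ≤ K i := fun i => by
    by_cases hQ : (i : Nat.Primes) ∈ Q
    · exact (hNQ i hQ).le.trans (hRK i)
    by_cases hS : (i : Nat.Primes) ∈ S0
    · exact (hNS i hQ hS).le
    · exact (hNT i hQ hS).le.trans
        (sup_le (unitHom_le_thetaKer X hfull hD β hβ (hLur _ hS hQ)) (hRK i))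
  have hmain := lpN_card_add_le X hfull hD β hβ hp2 hζ hgen hTne hfixed hcyc hβm hinj N hNres hNK
    fun w hw => exists_res_of_conditions X hfull hp2 hζ hcyc S0 Q hsub hp0 hLur hkill w
      (fun i hQ => (hNQ i hQ).le (hw i)) (fun i hQ hS => (hNT i hQ hS).le (hw i))
  obtain ⟨f, hf⟩ : ∃ f, lpN p (Nat.card k) = f := ⟨_, rfl⟩
  let e : Nat.Primes → ℤ := fun v => if v ∈ Q then f else if v ∈ S0 then f * d v else 0
  have hNle : ∀ i : T,
      lpN p (N i).index ≤ lpN p (Nat.card (fixPts (decomp L i) (Adj rG))) + e i := by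
    intro i
    by_cases hQ : (i : Nat.Primes) ∈ Q
    · have h := lpN_range_index_le X hp2 hζ hcyc i (hp0 _ (hdisj _ hQ)) (hfrob _ hQ) hfull
      refine (congrArg (fun G => lpN p (AddSubgroup.index G)) (hNQ i hQ)).le.trans (h.trans ?_)
      exact add_le_add le_rfl ((hf.trans (if_pos hQ).symm).le)
    by_cases hS : (i : Nat.Primes) ∈ S0
    · have h := lpN_thetaKer_index_le_of_loc X hfull hD β hβ hβm i (d i) (hloc _ hS)
      refine (congrArg (fun G => lpN p (AddSubgroup.index G)) (hNS i hQ hS)).le.trans (h.trans ?_)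
      exact add_le_add le_rfl ((congrArg (· * d (i : Nat.Primes)) hf).trans
        ((if_neg hQ).trans (if_pos hS)).symm).le
    · have h := lpN_unitHom_index_le L (i : Nat.Primes) (hp0 _ hS) (hLur _ hS hQ) hA
        (X.restrict (decomp L i)) hfull
      refine (congrArg (fun G => lpN p (AddSubgroup.index G)) (hNT i hQ hS)).le.trans (h.trans ?_)
      exact le_add_of_nonneg_right ((if_neg hQ).trans (if_neg hS)).ge
  have hsum := Finset.sum_le_sum (s := (Finset.univ : Finset T)) fun i _ => hNle i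
  rw [Finset.sum_add_distrib] at hsum
  have hesum : ∑ i : T, e i = f * ((Q.card : ℤ) + ∑ v ∈ S0, d v) := by
    rw [Finset.sum_coe_sort T e, ← Finset.sum_subset hsub fun v _ hv => by
        simp only [Finset.mem_union, not_or] at hv
        simp only [e, if_neg hv.2, if_neg hv.1],
      Finset.sum_union (Finset.disjoint_right.mpr hdisj), mul_add, Finset.mul_sum,
      add_comm]
    congr 1
    · rw [Finset.sum_congr rfl fun v hv => (if_pos hv : e v = f), Finset.sum_const, nsmul_eq_mul,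
        mul_comm]
    · exact Finset.sum_congr rfl fun v hv =>
        (if_neg fun h => hdisj v h hv).trans (if_pos hv)
  have hV2 : lpN p (Nat.card V) = f * (finrank k V : ℤ) := by
    rw [← hf]; exact lpN_card_eq_finrank V
  have hfinal : f * ((finrank k V : ℤ) + 1) ≤ f * ((Q.card : ℤ) + ∑ v ∈ S0, d v) := by
    linarith
  have := le_of_mul_le_mul_left hfinal (hf ▸ lpN_card_pos (p := p) (k := k))
  linarith

end Final

section Main

variable {p : ℕ} [hp : Fact p.Prime] {k : Type} [Field k] [Finite k] [CharP k p]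

/-- A level at which the classes live, unramified away from their bad places. -/
theorem exists_tangent_level {r : Gal →* M2 k} (hfin : GaloisFactorsThroughFiniteLevel r)
    {ζ : QBar} (hζ : IsPrimitiveRoot ζ p) (V : Submodule k (Gal → M2 k)) [Module.Finite k V]
    (hcoc : ∀ b ∈ V, IsAdCocycle r b) (hlev : ∀ b ∈ V, IsFiniteLevel b) :
    ∃ (L : IntermediateField ℚ QBar) (_ : FiniteDimensional ℚ L) (_ : Normal ℚ L), ζ ∈ L ∧
      (∀ σ : Gal, res L σ = 1 → r σ = 1 ∧ ∀ b ∈ V, b σ = 0) ∧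
      ∀ v : Nat.Primes, (v : ℕ) ≠ p →
        (∀ τ ∈ (padicPlace (v : ℕ)).inertiaSubgroupIn ℚ, r τ = 1 ∧ ∀ b ∈ V, b τ = 0) →
          inertia (E L v) = ⊥ := by
  obtain ⟨L₀, hL₀f, hL₀n, hL₀⟩ := exists_common_level hfin V hlev
  haveI : FiniteDimensional ℚ (IntermediateField.adjoin ℚ ({ζ} : Set QBar)) :=
    IntermediateField.adjoin.finiteDimensional (Algebra.IsIntegral.isIntegral ζ)
  let L₁ : IntermediateField ℚ QBar := L₀ ⊔ IntermediateField.adjoin ℚ {ζ}
  haveI : FiniteDimensional ℚ L₁ := IntermediateField.finiteDimensional_sup _ _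
  let K : Subgroup Gal :=
    { carrier := {σ | r σ = 1 ∧ (∀ b ∈ V, b σ = 0) ∧ σ ζ = ζ}
      one_mem' := ⟨map_one r, fun b hb => (hcoc b hb).one, rfl⟩
      mul_mem' := fun {a c} ha hc => ⟨by rw [map_mul, ha.1, hc.1, one_mul], fun b hb => by
        rw [hcoc b hb, hc.2.1 b hb, ha.2.1 b hb]; simp, by
        show a (c ζ) = ζ
        rw [hc.2.2, ha.2.2]⟩
      inv_mem' := fun {a} ha => by
        have h1 : r a⁻¹ = 1 := by have h := Tangent.map_inv_mul r a; rwa [ha.1, mul_one] at h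
        refine ⟨h1, fun b hb => ?_, ?_⟩
        · have h := hcoc b hb a⁻¹ a
          rw [inv_mul_cancel, (hcoc b hb).one, ha.2.1 b hb, mul_zero, zero_mul, zero_add] at h
          exact h.symm
        · show a.symm ζ = ζ
          rw [AlgEquiv.symm_apply_eq, ha.2.2] }
  haveI hKn : K.Normal := ⟨fun σ hσ g => by
    have h1 : r (g * σ * g⁻¹) = 1 := by rw [map_mul, map_mul, hσ.1, mul_one, Tangent.map_mul_inv]
    have h1' : r (g * σ * g⁻¹)⁻¹ = 1 := by
      have h := Tangent.map_inv_mul r (g * σ * g⁻¹); rwa [h1, mul_one] at h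
    refine ⟨h1, fun b hb => ?_, ?_⟩
    · rw [(hcoc b hb).conj, hσ.2.1 b hb, h1, h1', mul_zero, zero_mul, zero_add, one_mul, mul_one,
        sub_self]
    · haveI : NeZero p := ⟨hp.out.ne_zero⟩
      have h0 : (g.symm ζ) ^ p = 1 := by rw [← map_pow, hζ.pow_eq_one, map_one]
      obtain ⟨i, -, hi⟩ := hζ.eq_pow_of_pow_eq_one h0
      show g (σ (g.symm ζ)) = ζ
      rw [← hi, map_pow, hσ.2.2, hi, AlgEquiv.apply_symm_apply]⟩
  let L : IntermediateField ℚ QBar := IntermediateField.fixedField K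
  haveI : Normal ℚ QBar := IsAlgClosure.normal ℚ QBar
  haveI : IsGalois ℚ QBar := ⟨⟩
  have hKL : L₁.fixingSubgroup ≤ K := fun σ hσ => by
    have hσ' := (IntermediateField.mem_fixingSubgroup_iff L₁ σ).mp hσ
    have h := hL₀ σ fun x hx => hσ' x (le_sup_left (a := L₀) hx)
    exact ⟨h.1, h.2, hσ' ζ (le_sup_right (a := L₀) (IntermediateField.mem_adjoin_simple_self ℚ ζ))⟩
  have hKopen : IsOpen (K : Set Gal) := Subgroup.isOpen_mono hKL L₁.fixingSubgroup_isOpen
  have hfixK : L.fixingSubgroup = K :=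
    InfiniteGalois.fixingSubgroup_fixedField ⟨K, Subgroup.isClosed_of_isOpen K hKopen⟩
  haveI : FiniteDimensional ℚ L := by
    have : L ≤ L₁ := by
      intro x hx
      rw [← InfiniteGalois.fixedField_fixingSubgroup L₁, IntermediateField.mem_fixedField_iff]
      exact fun g hg => (IntermediateField.mem_fixedField_iff K x).mp hx g (hKL hg)
    exact FiniteDimensional.of_injective (IntermediateField.inclusion this).toLinearMap
      (IntermediateField.inclusion this).injective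
  haveI : IsGalois ℚ L := (InfiniteGalois.normal_iff_isGalois L).mp (hfixK ▸ hKn)
  refine ⟨L, inferInstance, IsGalois.to_normal, ?_, fun σ hσ => ?_, fun v hvp hv => ?_⟩
  · exact (IntermediateField.mem_fixedField_iff K ζ).mpr fun σ hσ => hσ.2.2
  · have h : σ ∈ K := hfixK ▸ (res_eq_one_iff L).mp hσ
    exact ⟨h.1, h.2.1⟩
  · refine (PT.inertia_eq_bot_iff_inertiaFixes L _).mpr
      ((PT.inertiaFixes_iff_padicPlace L (v : ℕ)).mpr fun τ hτ x =>
        (IntermediateField.mem_fixedField_iff K (x : QBar)).mp x.2 τ ⟨(hv τ hτ).1, (hv τ hτ).2, ?_⟩)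
    refine PT.inertia_fix_root hτ (m := p) (fun hd => hvp
      ((Nat.prime_dvd_prime_iff_eq v.2 hp.out).mp hd)) (n := 0) ?_ ?_
    · rw [hζ.pow_eq_one, map_one]
    · rw [zpow_zero]
      exact (pow_eq_one_iff_of_nonneg (norm_nonneg _) hp.out.ne_zero).mp (by
        rw [← norm_pow, ← map_pow, hζ.pow_eq_one, map_one, norm_one])

/-- **The bound on tangent classes.** -/
theorem finrank_tangent_le {r : Gal →* M2 k} (hp2 : p ≠ 2) (hr : TWPrimes.TWHyp r)
    (hfin : GaloisFactorsThroughFiniteLevel r)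
    (hcyc : ∀ (σ : Gal) (n : ℕ), (∀ μ : QBar, μ ^ p = 1 → σ μ = μ ^ n) → (r σ).det = (n : k))
    (S0 : Finset ℕ) (hpS : p ∈ S0) (hSp : ∀ v ∈ S0, v.Prime)
    (hunr : ∀ (v : ℕ) [Fact v.Prime], v ∉ S0 →
      ∀ τ ∈ (padicPlace v).inertiaSubgroupIn ℚ, r τ = 1)
    {m : ℕ} (q : Fin m → ℕ) (hq : ∀ i, (q i).Prime ∧ q i ∉ S0)
    (hfrob : ∀ i, ∀ [Fact (q i).Prime], ∀ φ : Gal, (padicPlace (q i)).IsFrobeniusAt φ (q i) →
      (r φ).det = 1 ∧ (r φ).trace ^ 2 ≠ 4)
    (hkill : ∀ b : Gal → M2 k, TWPrimes.IsCocycle r b → IsFiniteLevel b →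
      (∀ (v : ℕ) [Fact v.Prime], v ∉ S0 → (∀ i, v ≠ q i) →
        ∀ τ ∈ (padicPlace v).inertiaSubgroupIn ℚ, b τ = 0) →
      (∀ i, ∀ [Fact (q i).Prime], ∃ X : M2 k, X.trace = 0 ∧
        ∀ s ∈ (padicPlace (q i)).decompositionSubgroup ℚ, b s = TWPrimes.cobd r X s) →
      ∃ X : M2 k, X.trace = 0 ∧ ∀ g, b g = TWPrimes.cobd r X g)
    (V : Submodule k (Gal → M2 k)) [Module.Finite k V]
    (hcoc : ∀ b ∈ V, IsAdCocycle r b) (hlev : ∀ b ∈ V, IsFiniteLevel b)
    (htr : ∀ b ∈ V, ∀ σ, (b σ).trace = 0)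
    (hur : ∀ b ∈ V, ∀ (v : ℕ) [Fact v.Prime], v ∉ S0 → (∀ i, v ≠ q i) →
      ∀ τ ∈ (padicPlace v).inertiaSubgroupIn ℚ, b τ = 0)
    (hinj : ∀ b ∈ V, ∀ X : M2 k, b = cobdLin r X → b = 0)
    (d : ℕ → ℤ)
    (hloc : ∀ v ∈ S0, ∀ [Fact v.Prime], (finrank k V : ℤ) ≤
      finrank k (V ⊓ cobdOn r ((padicPlace v).decompositionSubgroup ℚ) :
          Submodule k (Gal → M2 k)) +
        finrank k (fixedOn r ((padicPlace v).decompositionSubgroup ℚ)) + d v) :
    (finrank k V : ℤ) ≤ m - 1 + ∑ v ∈ S0, d v := by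
  classical
  haveI : NeZero p := ⟨hp.out.ne_zero⟩
  haveI : NeZero (p : QBar) := ⟨Nat.cast_ne_zero.mpr hp.out.ne_zero⟩
  obtain ⟨ζ, hζ⟩ := HasEnoughRootsOfUnity.exists_primitiveRoot QBar p
  obtain ⟨L, hLf, hLn, hζL, hLK, hLu⟩ := exists_tangent_level hfin hζ V hcoc hlev
  haveI := hLf
  haveI := hLn
  obtain ⟨rG, rfl⟩ := exists_descend (L := L) fun σ hσ => (hLK σ hσ).1
  have hζ' : IsPrimitiveRoot (⟨ζ, hζL⟩ : L) p :=
    IsPrimitiveRoot.of_map_of_injective (f := L.val) hζ L.val.injective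
  let S0' : Finset Nat.Primes := S0.subtype Nat.Prime
  let Q' : Finset Nat.Primes := Finset.univ.image fun i => (⟨q i, (hq i).1⟩ : Nat.Primes)
  have hS0' : ∀ v : Nat.Primes, v ∈ S0' ↔ (v : ℕ) ∈ S0 := fun v => Finset.mem_subtype
  have hQ' : ∀ v : Nat.Primes, v ∈ Q' ↔ ∃ i, q i = (v : ℕ) := fun v => by
    refine Finset.mem_image.trans ⟨?_, ?_⟩
    · rintro ⟨i, -, rfl⟩; exact ⟨i, rfl⟩
    · rintro ⟨i, hi⟩; exact ⟨i, Finset.mem_univ _, Subtype.ext hi⟩
  have houtQ : ∀ v : Nat.Primes, v ∉ Q' → ∀ i, (v : ℕ) ≠ q i := fun v hv i h =>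
    hv ((hQ' v).mpr ⟨i, h.symm⟩)
  have hmain := finrank_le_of_level hp2 hζ' (fun Y hY h => eq_zero_of_ad_fixed hr hY h) hcyc S0' Q'
    ⟨⟨p, hp.out⟩, (hS0' _).mpr hpS⟩
    (fun v hv h => by
      obtain ⟨i, hi⟩ := (hQ' v).mp hv
      exact (hq i).2 (hi ▸ (hS0' v).mp h))
    (fun v hv h => hv ((hS0' v).mpr (h ▸ hpS)))
    (fun v h1 h2 => hLu v (fun h => h1 ((hS0' v).mpr (h ▸ hpS))) fun τ hτ =>
      ⟨hunr (v : ℕ) (fun h => h1 ((hS0' v).mpr h)) τ hτ,
        fun b hb => hur b hb (v : ℕ) (fun h => h1 ((hS0' v).mpr h)) (houtQ v h2) τ hτ⟩)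
    (fun v hv φ hφ => by
      obtain ⟨v, hvp⟩ := v
      obtain ⟨i, hi⟩ := (hQ' _).mp hv
      change q i = v at hi
      subst hi
      haveI : Fact (q i).Prime := ⟨hvp⟩
      exact hfrob i φ hφ)
    (fun b hb hl hu hs => hkill b hb hl
      (fun v hvf hv hvq τ hτ => hu ⟨v, hvf.out⟩ (fun h => hv ((hS0' _).mp h))
        (fun h => by obtain ⟨i, hi⟩ := (hQ' _).mp h; exact hvq i hi.symm) τ hτ)
      (fun i => hs ⟨q i, (hq i).1⟩ ((hQ' _).mpr ⟨i, rfl⟩)))
    V hcoc htr (fun b hb σ hσ => (hLK σ hσ).2 b hb) hinj (fun v => d v)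
    (fun v hv => hloc (v : ℕ) ((hS0' v).mp hv))
  have hsum : ∑ v ∈ S0', d (v : ℕ) = ∑ v ∈ S0, d v :=
    Finset.sum_subtype_of_mem _ hSp
  have hcard : (Q'.card : ℤ) ≤ m := by
    exact_mod_cast Finset.card_image_le.trans_eq (Finset.card_fin m)
  linarith

end Main

end Fermat.Agent.CFT.GW
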