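import Fermat.Agent.CFT.Coh.H2
import Fermat.Agent.CFT.Idele.Carry

/-!
# Fundamental classes by descent of carry cocycles

`G'` surjects on `G`, and a character `χ : G' → ℤ/n` (`n` the `p`-part of `|G|`) is injective on the
kernel. If the carry cocycle of an invariant `x` is trivial on the kernel it descends to `G`; if
moreover a multiple of `x` is a norm of the cyclic extension only when the multiplier is divisible
by `n`, the descended cocycle has full order on the Sylow subgroups, hence is a fundamental class.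
-/

set_option autoImplicit false
set_option linter.unusedSectionVars false
set_option linter.style.haveILetI false

noncomputable section

namespace Fermat.Agent.CFT.GW

open groupCohomology Fermat.Agent.CFT.Idele

section Count

variable {G' C' C A : Type*} [Group G'] [Finite G'] [AddCommGroup C'] [DistribMulAction G' C']
  [AddCommGroup C] [AddCommGroup A] {p : ℕ} [hp : Fact p.Prime]

/-- If a homomorphism killing the norms of a cyclic extension has at least `p ^ k` values, then
its kernel consists of norms. -/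
theorem exists_norm_of_count (hA : CFT.StepAxioms p G' C') {k : ℕ} {η : G'}
    (hη : orderOf η = p ^ k) (ι : C →+ C') (hι : ∀ y, η • ι y = ι y) (Φ : C →+ A)
    (hΦ : ∀ y w, ι y = ∑ i ∈ Finset.range (p ^ k), η ^ i • w → Φ y = 0)
    [Finite A] (hcard : p ^ k ≤ Nat.card Φ.range) {y₀ : C} (h₀ : Φ y₀ = 0) :
    ∃ w, ι y₀ = ∑ i ∈ Finset.range (p ^ k), η ^ i • w := by
  obtain ⟨R, hR⟩ := exists_reps_cyclic hA k η hη
  choose j w hjw using fun y : C => hR (ι y) (hι y)
  have key : ∀ y y', j y = j y' →
      ι (y - y') = ∑ i ∈ Finset.range (p ^ k), η ^ i • (w y - w y') := fun y y' e => by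
    rw [map_sub, hjw y, hjw y', e]
    simp only [smul_sub, Finset.sum_sub_distrib]
    abel
  have hsur : ∀ a : Φ.range, ∃ y, Φ y = (a : A) := fun a => a.2
  choose y hy using hsur
  have hinj : Function.Injective fun a : Φ.range => j (y a) := fun a b e => by
    have h := hΦ _ _ (key _ _ e)
    rw [map_sub, hy, hy, sub_eq_zero] at h
    exact Subtype.ext h
  have hbij : Function.Bijective fun a : Φ.range => j (y a) :=
    (Nat.bijective_iff_injective_and_card _).mpr ⟨hinj, le_antisymm
      ((Nat.card_le_card_of_injective _ hinj))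
      ((Nat.card_fin _).trans_le hcard)⟩
  have hker : ∀ z, Φ z = 0 → j z = j (y 0) := fun z hz => by
    obtain ⟨a, ha⟩ := hbij.2 (j z)
    have h := hΦ _ _ (key _ _ ha)
    rw [map_sub, hy, hz, sub_zero] at h
    rw [← ha, show a = 0 from Subtype.ext h]
  exact ⟨w y₀ - w 0, by
    conv_lhs => rw [← sub_zero y₀]
    exact key _ _ ((hker _ h₀).trans (hker 0 (map_zero Φ)).symm)⟩

end Count

section Carry

variable {G' C' : Type*} [Group G'] [AddCommGroup C'] [DistribMulAction G' C'] {n : ℕ} [NeZero n]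
  {χ : G' →* Multiplicative (ZMod n)}

/-- On a subgroup which `χ` maps isomorphically onto `ℤ/n`, the carry cocycle of a norm is
trivial. -/
theorem carryN_subgroup_mem {N : Subgroup G'} (hN : ∀ g ∈ N, χ g = 1 → g = 1) {η : G'}
    (hηN : η ∈ N) (hη : χ η = Multiplicative.ofAdd 1) (w : C') {x : C'}
    (hx : x = ∑ i ∈ Finset.range n, η ^ i • w) :
    IsCoboundary₂ fun ab : N × N => carryN χ x ((ab.1 : G'), (ab.2 : G')) := by
  subst hx
  exact carryN_norm_mem (χ := χ.comp N.subtype) (γ := ⟨η, hηN⟩) hη w fun k hk => by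
    rw [show k = 1 from Subtype.ext (hN k k.2 hk), one_smul]

end Carry

variable {G' G C' C : Type*} [Group G'] [Fintype G'] [Group G] [Fintype G] [AddCommGroup C']
  [DistribMulAction G' C'] [AddCommGroup C] [DistribMulAction G C] {p : ℕ} [hp : Fact p.Prime]
  {n : ℕ} [NeZero n]

/-- A multiple of `x` whose carry class is trivial over a Sylow subgroup is, up to an index prime
to `p`, a norm of the cyclic extension. -/
theorem exists_norm_of_carry_sylow (hA' : CFT.StepAxioms p G' C') (π : G' →* G)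
    (hπ : Function.Surjective π) (χ : G' →* Multiplicative (ZMod n)) (hχ : Function.Surjective χ)
    (hinj : ∀ g, π g = 1 → χ g = 1 → g = 1) (P : Sylow p G) (hn : Nat.card (P : Subgroup G) = n)
    (hn1 : 1 < n) {y : C'} (hy : ∀ g : G', g • y = y)
    (h : IsCoboundary₂ fun ab : ((P : Subgroup G).comap π) × ((P : Subgroup G).comap π) =>
      carryN χ y ((ab.1 : G'), (ab.2 : G'))) :
    ∃ γ, χ γ = Multiplicative.ofAdd 1 ∧ ∃ v : C', (∀ g ∈ χ.ker, g • v = v) ∧
      ((P : Subgroup G).index : ℤ) • y = ∑ i ∈ Finset.range n, γ ^ i • v := by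
  classical
  set P' := (P : Subgroup G).comap π with hP'
  obtain ⟨m, hm⟩ := IsPGroup.iff_card.mp P.isPGroup'
  rw [hn] at hm
  have hcardM : Nat.card (Multiplicative (ZMod n)) = p ^ m := by
    rw [Nat.card_congr Multiplicative.toAdd, Nat.card_zmod, hm]
  have hMp : IsPGroup p (Multiplicative (ZMod n)) := IsPGroup.of_card hcardM
  have hker : IsPGroup p π.ker :=
    hMp.of_injective (χ.comp π.ker.subtype) (by
      rw [injective_iff_map_eq_one]
      exact fun g hg => Subtype.ext (hinj g g.2 hg))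
  have hP'p : IsPGroup p P' := P.isPGroup'.comap_of_ker_isPGroup π hker
  have hidx : P'.index = (P : Subgroup G).index := Subgroup.index_comap_of_surjective _ hπ
  have htop : P'.map χ = ⊤ := by
    rw [← Subgroup.index_eq_one]
    have hcop : Nat.Coprime (P : Subgroup G).index (p ^ m) :=
      ((hp.out.coprime_iff_not_dvd.mpr P.not_dvd_index).symm).pow_right m
    refine Nat.eq_one_of_dvd_coprimes hcop (hidx ▸ Subgroup.index_map_dvd _ hχ) ?_
    rw [← hcardM]
    exact Subgroup.index_dvd_card _
  have hsur : ∀ c, ∃ g ∈ P', χ g = c := fun c => Subgroup.mem_map.mp (htop ▸ Subgroup.mem_top c)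
  obtain ⟨γ, hγP, hγ⟩ := hsur (Multiplicative.ofAdd 1)
  refine ⟨γ, hγ, ?_⟩
  let χ' : P' →* Multiplicative (ZMod n) := χ.comp P'.subtype
  have h1 : H1Zero χ'.ker C' :=
    (hA'.h1Zero (χ'.ker.map P'.subtype) (hP'p.to_le (Subgroup.map_subtype_le _))).of_equiv
      (χ'.ker.equivMapOfInjective P'.subtype P'.subtype_injective) fun _ _ => rfl
  obtain ⟨w, hw, hyw⟩ := exists_eq_norm_of_carryN (χ := χ') (γ := ⟨γ, hγP⟩) hn1 hγ h1 (x := y) h
  have hwK : ∀ g ∈ P', g ∈ χ.ker → g • w = w := fun g hg hgχ => hw ⟨g, hg⟩ hgχ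
  have hrep : ∀ c : G' ⧸ P', ∃ r, χ r = 1 ∧ (r : G' ⧸ P') = c := fun c => by
    obtain ⟨g, hg, hge⟩ := hsur (χ c.out)⁻¹
    exact ⟨c.out * g, by rw [map_mul, hge, mul_inv_cancel],
      (QuotientGroup.mk_mul_of_mem c.out hg).trans c.out_eq'⟩
  choose r hr1 hr2 using hrep
  letI : Fintype (G' ⧸ P') := Fintype.ofFinite _
  -- moving a group element across the representatives
  have move : ∀ (s : G') (t : G'), t ∈ P' → χ t = χ s → ∀ c : G' ⧸ P',
      s • r c • w = r (s • c) • t • w := fun s t ht hts c => by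
    have hmem : (r (s • c))⁻¹ * (s * r c) ∈ P' := QuotientGroup.eq.mp
      ((hr2 _).trans (by
        conv_lhs => rw [← hr2 c]
        exact MulAction.Quotient.smul_mk P' s (r c)))
    have hK : t⁻¹ * ((r (s • c))⁻¹ * (s * r c)) ∈ χ.ker := by
      simp [MonoidHom.mem_ker, hr1, hts]
    conv_rhs => rw [← hwK _ (mul_mem (inv_mem ht) hmem) hK]
    simp only [smul_smul]
    congr 1
    group
  refine ⟨∑ c, r c • w, fun g hg => ?_, ?_⟩
  · rw [Finset.smul_sum]
    refine Fintype.sum_equiv (MulAction.toPerm g) _ _ fun c => ?_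
    rw [MulAction.toPerm_apply, move g 1 (one_mem _) (by rw [map_one, MonoidHom.mem_ker.mp hg]) c,
      one_smul]
  · have hyfix : ∀ c, r c • y = ∑ i ∈ Finset.range n, r c • γ ^ i • w := fun c => by
      rw [hyw, Finset.smul_sum]
      rfl
    calc ((P : Subgroup G).index : ℤ) • y
        = ∑ c : G' ⧸ P', r c • y := by
          rw [Finset.sum_congr rfl fun c _ => hy (r c), Finset.sum_const, Finset.card_univ,
            ← Nat.card_eq_fintype_card, natCast_zsmul, ← hidx, Subgroup.index]
      _ = _ := by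
          rw [Finset.sum_congr rfl fun c _ => hyfix c, Finset.sum_comm]
          refine Finset.sum_congr rfl fun i _ => ?_
          rw [Finset.smul_sum]
          symm
          refine Fintype.sum_equiv (MulAction.toPerm (γ ^ i)) _ _ fun c => ?_
          rw [MulAction.toPerm_apply]
          exact move _ _ (pow_mem hγP i) rfl c

/-- **Descent of a carry class to a fundamental class.** -/
theorem exists_isClassFormation_of_carry (hA' : CFT.StepAxioms p G' C')
    (hA : CFT.StepAxioms p G C) (π : G' →* G) (hπ : Function.Surjective π)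
    (χ : G' →* Multiplicative (ZMod n)) (hχ : Function.Surjective χ)
    (hinj : ∀ g, π g = 1 → χ g = 1 → g = 1) (ι : C →+ C') (hι : Function.Injective ι)
    (hinv : ∀ (g : G') (a : C), g • ι a = ι (π g • a))
    (hfix : ∀ a : C', (∀ g : π.ker, (g : G') • a = a) → ∃ b, ι b = a)
    (hn : ∀ P : Sylow p G, Nat.card (P : Subgroup G) = n)
    {x : C'} (hx : ∀ g : G', g • x = x)
    (hres : IsCoboundary₂ fun ab : π.ker × π.ker => carryN χ x ((ab.1 : G'), (ab.2 : G')))
    (hord : ∀ γ, χ γ = Multiplicative.ofAdd 1 → ∀ (k : ℤ) (v : C'), (∀ g ∈ χ.ker, g • v = v) →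
      k • x = ∑ i ∈ Finset.range n, γ ^ i • v → (n : ℤ) ∣ k) :
    ∃ u : NormCocycle G C, IsClassFormation p u := by
  classical
  obtain ⟨m, hm⟩ := IsPGroup.iff_card.mp (default : Sylow p G).isPGroup'
  rw [hn] at hm
  have hker : IsPGroup p π.ker :=
    (IsPGroup.of_card (G := Multiplicative (ZMod n)) (n := m)
      (by rw [Nat.card_congr Multiplicative.toAdd, Nat.card_zmod, hm])).of_injective
      (χ.comp π.ker.subtype) (by
        rw [injective_iff_map_eq_one]
        exact fun g hg => Subtype.ext (hinj g g.2 hg))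
  obtain ⟨c₀, hc₀, hcob⟩ := exists_descend₂ π hπ ι hι hinv hfix (hA'.h1Zero _ hker)
    (carryN χ x) (isCocycle₂_carryN hx) hres
  have hone : ∀ g, (c₀ - dOne fun _ : G => c₀ (1, 1)) (1, g) = 0 := fun g => by
    simp [dOne, map_one_fst_of_isCocycle₂ hc₀ g]
  refine ⟨⟨c₀ - dOne fun _ : G => c₀ (1, 1), isCocycle₂_sub hc₀ (isCocycle₂_dOne _), hone⟩,
    hA.isClassFormation _ fun P k hk => ?_⟩
  rw [hn]
  rcases Nat.lt_or_ge 1 n with hn1 | hn1
  swap
  · rw [show n = 1 by have := NeZero.pos n; omega]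
    exact one_dvd _
  obtain ⟨b, hb⟩ := hk
  obtain ⟨d, hd⟩ := hcob
  set P' := (P : Subgroup G).comap π
  have hco : IsCoboundary₂ fun ab : P' × P' => carryN χ (k • x) ((ab.1 : G'), (ab.2 : G')) := by
    let q : P' → (P : Subgroup G) := fun g => ⟨π g, g.2⟩
    have hq : ∀ g h, q (g * h) = q g * q h := fun g h => Subtype.ext (map_mul π _ _)
    refine ⟨fun g => k • d (g : G') + k • ι (c₀ (1, 1)) + ι (b (q g)), fun g h => ?_⟩
    have e1 : (g : G') • ι (b (q h)) - ι (b (q (g * h))) + ι (b (q g)) =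
        k • (ι (c₀ (π g, π h)) - (g : G') • ι (c₀ (1, 1))) := by
      rw [hinv, hinv, hq, ← map_sub, ← map_sub, ← map_add, ← map_zsmul]
      refine congrArg ι ((hb (q g) (q h)).trans ?_)
      simp [dOne, q]
    have e2 := hd (g : G') (h : G')
    simp only [Pi.sub_apply] at e2
    show (g : G') • (k • d (h : G') + k • ι (c₀ (1, 1)) + ι (b (q h))) -
      (k • d ((g : G') * h) + k • ι (c₀ (1, 1)) + ι (b (q (g * h)))) +
      (k • d (g : G') + k • ι (c₀ (1, 1)) + ι (b (q g))) = carryN χ (k • x) ((g : G'), (h : G'))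
    rw [← zsmul_carryN, Pi.smul_apply, eq_add_of_sub_eq e2.symm]
    simp only [smul_add, smul_sub, smul_comm (g : G') k]
    rw [← sub_eq_zero] at e1 ⊢
    rw [← e1]
    simp only [smul_sub]
    abel
  obtain ⟨γ, hγ, v, hv, he⟩ := exists_norm_of_carry_sylow hA' π hπ χ hχ hinj P (hn P) hn1
    (fun g => by rw [smul_comm, hx]) hco
  rw [smul_smul] at he
  have hdvd := hord γ hγ _ v hv he
  refine IsCoprime.dvd_of_dvd_mul_left ?_ hdvd
  have hco : Nat.Coprime n (P : Subgroup G).index := by
    rw [hm]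
    exact (hp.out.coprime_iff_not_dvd.mpr P.not_dvd_index).pow_left m
  exact Int.isCoprime_iff_nat_coprime.mpr (by simpa using hco)

end Fermat.Agent.CFT.GW
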