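import Fermat.Agent.CFT.Euler.Count

/-!
# The Greenberg–Wiles count

For a presentation `X` of `A`, an exact semilocal sequence `U → ⊕ CoInd E → D → 0`, local
conditions `N i` which die in `V^*` and which detect the extensions by `U`, the size of `V` is
bounded by the indices of the local conditions and the global index.
-/

set_option autoImplicit false
set_option linter.unusedSectionVars false
set_option linter.style.haveILetI false

noncomputable section

namespace Fermat.Agent.CFT.GW

open Fermat.Agent.CFT Fermat.Agent.CFT.Euler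

/-- The index of a product of subgroups inside another. -/
theorem relIndex_piFamily {ι : Type} [Fintype ι] {M : ι → Type*} [∀ i, AddCommGroup (M i)]
    (R N : ∀ i, AddSubgroup (M i)) :
    (AddSubgroup.pi Set.univ R).relIndex (AddSubgroup.pi Set.univ N) =
      ∏ i, (R i).relIndex (N i) := by
  let ψ : (AddSubgroup.pi Set.univ N : AddSubgroup (∀ i, M i)) →+
      ∀ i, N i ⧸ (R i).addSubgroupOf (N i) :=
    AddMonoidHom.mk' (fun x i => QuotientAddGroup.mk ⟨x.1 i, x.2 i (Set.mem_univ i)⟩)
      fun x y => funext fun i => rfl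
  have hker : ψ.ker = (AddSubgroup.pi Set.univ R).addSubgroupOf (AddSubgroup.pi Set.univ N) := by
    ext x
    refine ⟨fun h i _ => ?_, fun h => funext fun i => ?_⟩
    · exact (QuotientAddGroup.eq_zero_iff (N := (R i).addSubgroupOf (N i))
        ⟨x.1 i, x.2 i (Set.mem_univ i)⟩).mp (congrFun h i)
    · exact (QuotientAddGroup.eq_zero_iff (N := (R i).addSubgroupOf (N i))
        ⟨x.1 i, x.2 i (Set.mem_univ i)⟩).mpr (h i (Set.mem_univ i))
  have hsurj : Function.Surjective ψ := fun y => by
    refine ⟨⟨fun i => ((y i).out : N i).1, fun i _ => ((y i).out : N i).2⟩, funext fun i => ?_⟩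
    exact QuotientAddGroup.out_eq' (y i)
  show ((AddSubgroup.pi Set.univ R).addSubgroupOf (AddSubgroup.pi Set.univ N)).index = _
  rw [← hker, AddSubgroup.index_ker, AddMonoidHom.range_eq_top.mpr hsurj, AddSubgroup.card_top,
    Nat.card_pi]
  rfl

theorem lpN_prod {p : ℕ} [Fact p.Prime] {ι : Type*} (s : Finset ι) (f : ι → ℕ)
    (h : ∀ i ∈ s, f i ≠ 0) : lpN p (∏ i ∈ s, f i) = ∑ i ∈ s, lpN p (f i) := by
  induction s using Finset.cons_induction with
  | empty => simp
  | cons a s ha ih =>
    rw [Finset.prod_cons, Finset.sum_cons,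
      lpN_mul p (h a (Finset.mem_cons_self a s))
        (Finset.prod_ne_zero_iff.mpr fun i hi => h i (Finset.mem_cons_of_mem hi)),
      ih fun i hi => h i (Finset.mem_cons_of_mem hi)]

variable {p : ℕ} [hp : Fact p.Prime] {G : Type} [Group G] [Fintype G]
  {A : Type} [AddCommGroup A] [DistribMulAction G A]
  {ι : Type} [Fintype ι] {H : ι → Subgroup G} [∀ i, Fintype (H i)]
  {E : ι → Type} [∀ i, AddCommGroup (E i)] [∀ i, DistribMulAction (H i) (E i)]

section Hom

variable {P : Type} [AddCommGroup P] [DistribMulAction G P] {R : AddSubgroup P}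
  (hR : IsStable G R)

/-- A local equivariant map, coinduced. -/
def coHom (i : ι) :
    equivHom (C := E i) (IsStable.restrict hR (H i)) →+ equivHom (C := CoInd (H i) (E i)) hR :=
  AddMonoidHom.mk' (fun f => ⟨AddMonoidHom.mk'
      (fun s => CoInd.mk (fun x => f.1 (smulS hR x s)) fun h x => by
        show f.1 (smulS hR ((h : G) * x) s) = h • f.1 (smulS hR x s)
        rw [← smulS_smulS]
        exact f.2 h _)
      fun s t => CoInd.ext fun x => by
        show f.1 (smulS hR x (s + t)) = f.1 (smulS hR x s) + f.1 (smulS hR x t)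
        rw [smulS_add, map_add],
    fun g s => CoInd.ext fun x => by
      show f.1 (smulS hR x (smulS hR g s)) = f.1 (smulS hR (x * g) s)
      rw [smulS_smulS]⟩)
    fun f f' => Subtype.ext (AddMonoidHom.ext fun s => CoInd.ext fun x => rfl)

theorem fn_coHom (i : ι) (f : equivHom (C := E i) (IsStable.restrict hR (H i))) (s : R) (x : G) :
    CoInd.fn ((coHom hR i f).1 s) x = f.1 (smulS hR x s) := rfl

/-- A family of local equivariant maps, as a semilocal one. -/
def semiHom : (∀ i, equivHom (C := E i) (IsStable.restrict hR (H i))) →+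
    equivHom (C := ∀ i, CoInd (H i) (E i)) hR :=
  AddMonoidHom.mk'
    (fun z => ⟨AddMonoidHom.pi fun i => (coHom hR i (z i)).1,
      fun g s => funext fun i => (coHom hR i (z i)).2 g s⟩)
    fun z z' => Subtype.ext (AddMonoidHom.ext fun s => funext fun i => by
      show (coHom hR i (z i + z' i)).1 s = _
      rw [map_add]
      rfl)

/-- The local components of a semilocal map. -/
def compHom : equivHom (C := ∀ i, CoInd (H i) (E i)) hR →+
    ∀ i, equivHom (C := E i) (IsStable.restrict hR (H i)) :=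
  AddMonoidHom.mk'
    (fun f i => ⟨(CoInd.ev.comp (Pi.evalAddMonoidHom (fun j => CoInd (H j) (E j)) i)).comp f.1,
      fun h s => by
        show CoInd.ev (f.1 (smulS hR (h : G) s) i) = h • CoInd.ev (f.1 s i)
        rw [f.2, Pi.smul_apply, CoInd.ev_smul_mem]⟩)
    fun f f' => funext fun i => Subtype.ext (AddMonoidHom.ext fun s => by
      show CoInd.ev ((f.1 s + f'.1 s) i) = _
      rw [Pi.add_apply, map_add]
      rfl)

theorem compHom_semiHom (z : ∀ i, equivHom (C := E i) (IsStable.restrict hR (H i))) :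
    compHom hR (semiHom hR z) = z :=
  funext fun i => Subtype.ext (AddMonoidHom.ext fun s => by
    show (z i).1 (smulS hR 1 s) = (z i).1 s
    exact congrArg (z i).1 (Subtype.ext (one_smul G (s : P))))

theorem semiHom_compHom (f : equivHom (C := ∀ i, CoInd (H i) (E i)) hR) :
    semiHom hR (compHom hR f) = f :=
  Subtype.ext (AddMonoidHom.ext fun s => funext fun i => CoInd.ext fun x => by
    show CoInd.ev (f.1 (smulS hR x s) i) = CoInd.fn (f.1 s i) x
    rw [f.2, Pi.smul_apply, CoInd.ev_smul])

end Hom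

variable [Finite A] (X : Pres p G A)
  {D : Type} [AddCommGroup D] [DistribMulAction G D]
  {U : Type} [AddCommGroup U] [DistribMulAction G U]
  (iU : U →+ ∀ i, CoInd (H i) (E i)) (hiU : ∀ (g : G) (x : U), iU (g • x) = g • iU x)
  (qD : (∀ i, CoInd (H i) (E i)) →+ D)
  (hqD : ∀ (g : G) (x : ∀ i, CoInd (H i) (E i)), qD (g • x) = g • qD x)

/-- The trace of a family of local maps, into `D`. -/
def trMap : (∀ i, equivHom (C := E i) (IsStable.restrict X.hS (H i))) →+
    equivHom (C := D) X.hS :=
  (postHom X.hS qD hqD).comp (semiHom X.hS)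

theorem trMap_apply (z : ∀ i, equivHom (C := E i) (IsStable.restrict X.hS (H i))) (s : X.S) :
    (trMap X qD hqD z).1 s = qD ((semiHom X.hS z).1 s) := rfl

/-- Equivariant maps on the lattice lift through a surjection. -/
theorem exists_lift_equivHom (hfull : ∀ x : X.P, x ∈ X.K) (hqs : Function.Surjective qD)
    (F : equivHom (C := D) X.hK) :
    ∃ F' : equivHom (C := ∀ i, CoInd (H i) (E i)) X.hK, postHom X.hK qD hqD F' = F := by
  classical
  let b := Module.Free.chooseBasis ℤ X.P
  let e : X.P →+ X.K := AddMonoidHom.mk' (fun x => ⟨x, hfull x⟩) fun _ _ => rfl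
  choose y hy using fun j => hqs (F.1 (e (b j)))
  let ψ : X.P →+ ∀ i, CoInd (H i) (E i) := (b.constr ℤ y).toAddMonoidHom
  have hψ : ∀ x, qD (ψ x) = F.1 (e x) := by
    have h : (qD.comp ψ).toIntLinearMap = (F.1.comp e).toIntLinearMap := b.ext fun j => by
      show qD (b.constr ℤ y (b j)) = F.1 (e (b j))
      rw [Module.Basis.constr_basis, hy]
    exact fun x => LinearMap.congr_fun h x
  obtain ⟨T, hT⟩ := X.induced
  refine ⟨⟨normOn X.hK ((ψ.comp T).comp X.K.subtype), isEquivariantOn_normOn _ _⟩,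
    Subtype.ext (AddMonoidHom.ext fun x => ?_)⟩
  show qD (normOn X.hK ((ψ.comp T).comp X.K.subtype) x) = F.1 x
  rw [normOn_apply, map_sum]
  have h1 : ∀ g : G, qD (g • ((ψ.comp T).comp X.K.subtype) (smulS X.hK g⁻¹ x)) =
      F.1 (e (g • T (g⁻¹ • (x : X.P)))) := fun g => by
    rw [hqD]
    show g • qD (ψ (T (g⁻¹ • (x : X.P)))) = _
    rw [hψ, ← F.2]
    rfl
  rw [Finset.sum_congr rfl fun g _ => h1 g, ← map_sum, ← map_sum, hT]
  rfl



theorem exists_postU {R : AddSubgroup X.P} (hR : IsStable G R)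
    (hex : ∀ y, qD y = 0 → ∃ x, iU x = y) (hinj : Function.Injective iU)
    (f : equivHom (C := ∀ i, CoInd (H i) (E i)) hR) (hf : ∀ s, qD (f.1 s) = 0) :
    ∃ u : equivHom (C := U) hR, postHom hR iU hiU u = f :=
  exists_postHom_eq hR iU hiU hinj f fun s => hex _ (hf s)

/-- **The Greenberg–Wiles inequality** at a finite level. -/
theorem lpN_card_le (hfull : ∀ x : X.P, x ∈ X.K) (hDfin : ModPFinite p D)
    (hEfin : ∀ i, ModPFinite p (E i))
    {V : Type} [AddCommGroup V] [Finite V] (hV : ∀ v : V, p • v = 0)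
    (Θ : equivHom (C := D) X.hS →+ (V →+ ZMod p)) (hΘs : Function.Surjective Θ)
    (hΘr : ∀ F, Θ (X.res D F) = 0)
    (N : ∀ i, AddSubgroup (equivHom (C := E i) (IsStable.restrict X.hS (H i))))
    (hNres : ∀ i, ((X.restrict (H i)).res (E i)).range ≤ N i)
    (hΘN : ∀ z, (∀ i, z i ∈ N i) → Θ (trMap X qD hqD z) = 0)
    (hkill : ∀ u : equivHom (C := U) X.hS,
      (∀ i, compHom X.hS (postHom X.hS iU hiU u) i ∈ N i) → ∃ ψ, X.res U ψ = u)
    (hiU' : Function.Injective iU) (hex' : ∀ y, qD y = 0 → ∃ x, iU x = y)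
    (hqi' : ∀ x, qD (iU x) = 0) (hqs' : Function.Surjective qD) :
    lpN p (Nat.card V) + ∑ i, (X.restrict (H i)).index (E i) ≤
      X.index D + ∑ i, lpN p (N i).index := by
  classical
  let R : ∀ i, AddSubgroup (equivHom (C := E i) (IsStable.restrict X.hS (H i))) :=
    fun i => ((X.restrict (H i)).res (E i)).range
  let RD : AddSubgroup (equivHom (C := D) X.hS) := (X.res D).range
  let NP : AddSubgroup (∀ i, equivHom (C := E i) (IsStable.restrict X.hS (H i))) :=
    AddSubgroup.pi Set.univ N
  let RP : AddSubgroup (∀ i, equivHom (C := E i) (IsStable.restrict X.hS (H i))) :=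
    AddSubgroup.pi Set.univ R
  let Φ := trMap X qD hqD
  have hfinD := X.finiteIndexHom hDfin
  have hfinE := fun i => (X.restrict (H i)).finiteIndexHom (hEfin i)
  -- restriction commutes with the components
  have hres : ∀ (F : equivHom (C := ∀ i, CoInd (H i) (E i)) X.hK) (i : ι),
      compHom X.hS (X.res _ F) i = (X.restrict (H i)).res (E i) (compHom X.hK F i) :=
    fun F i => rfl
  have hUres : ∀ ψ : equivHom (C := U) X.hK,
      postHom X.hS iU hiU (X.res U ψ) = X.res _ (postHom X.hK iU hiU ψ) := fun ψ => rfl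
  -- the local conditions meet the global ones in the restrictions
  have hcap : RD.comap Φ ⊓ NP = RP := by
    refine le_antisymm ?_ ?_
    · rintro z ⟨⟨F, hF⟩, hz⟩ i -
      obtain ⟨F', hF'⟩ := exists_lift_equivHom X qD hqD hfull hqs' F
      obtain ⟨u, hu⟩ := exists_postU X iU hiU qD X.hS hex' hiU'
        (semiHom X.hS z - X.res _ F') fun s => by
        have e1 := DFunLike.congr_fun (congrArg Subtype.val hF) s
        have e2 := DFunLike.congr_fun (congrArg Subtype.val hF') (AddSubgroup.inclusion X.le s)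
        show qD ((semiHom X.hS z).1 s - F'.1 (AddSubgroup.inclusion X.le s)) = 0
        rw [map_sub, sub_eq_zero]
        exact e1.symm.trans e2.symm
      have hN : ∀ j, compHom X.hS (postHom X.hS iU hiU u) j ∈ N j := fun j => by
        rw [hu, map_sub, compHom_semiHom]
        exact (N j).sub_mem (hz j (Set.mem_univ j)) (hNres j ⟨_, (hres F' j).symm⟩)
      obtain ⟨ψ, rfl⟩ := hkill u hN
      rw [hUres, eq_sub_iff_add_eq] at hu
      have hz' : z = compHom X.hS (semiHom X.hS z) := (compHom_semiHom X.hS z).symm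
      rw [hz', ← hu, map_add]
      exact (R i).add_mem ⟨_, (hres _ i).symm⟩ ⟨_, (hres _ i).symm⟩
    · intro z hz
      refine ⟨?_, fun i _ => hNres i (hz i (Set.mem_univ i))⟩
      choose F hF using fun i => hz i (Set.mem_univ i)
      refine ⟨postHom X.hK qD hqD (semiHom X.hK F), Subtype.ext (AddMonoidHom.ext fun s => ?_)⟩
      show qD ((semiHom X.hK F).1 (AddSubgroup.inclusion X.le s)) = qD ((semiHom X.hS z).1 s)
      refine congrArg qD (funext fun i => CoInd.ext fun x => ?_)
      exact DFunLike.congr_fun (congrArg Subtype.val (hF i)) (smulS X.hS x s)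
  -- `V` is dual to a quotient of the cokernel
  have hsup : RD ⊔ NP.map Φ ≤ Θ.ker := by
    refine sup_le ?_ ?_
    · rintro _ ⟨F, rfl⟩
      exact hΘr F
    · rintro _ ⟨z, hz, rfl⟩
      exact hΘN z fun i => hz i (Set.mem_univ i)
  have hVdvd : Nat.card V ∣ (RD ⊔ NP.map Φ).index := by
    refine dvd_trans (dvd_of_eq ?_) (AddSubgroup.index_dvd_of_le hsup)
    rw [AddSubgroup.index_ker, AddMonoidHom.range_eq_top.mpr hΘs, AddSubgroup.card_top,
      card_dual hV]
  have hidx : RD.index = (∏ i, (R i).relIndex (N i)) * (RD ⊔ NP.map Φ).index := by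
    rw [← AddSubgroup.relIndex_mul_index (le_sup_left : RD ≤ RD ⊔ NP.map Φ),
      AddSubgroup.relIndex_sup_left, ← AddSubgroup.relIndex_comap,
      ← AddSubgroup.inf_relIndex_right, hcap, relIndex_piFamily]
  have hRD : RD.index ≠ 0 := hfinD.index
  have hRi : ∀ i, (R i).index ≠ 0 := fun i => (hfinE i).index
  have hrel : ∀ i, (R i).relIndex (N i) * (N i).index = (R i).index := fun i =>
    AddSubgroup.relIndex_mul_index (hNres i)
  have hNi : ∀ i, (N i).index ≠ 0 := fun i h => hRi i (by rw [← hrel, h, mul_zero])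
  have hreli : ∀ i, (R i).relIndex (N i) ≠ 0 := fun i h => hRi i (by rw [← hrel, h, zero_mul])
  have hsupne : (RD ⊔ NP.map Φ).index ≠ 0 := fun h => hRD (by rw [hidx, h, mul_zero])
  have e1 : lpN p RD.index = (∑ i, lpN p ((R i).relIndex (N i))) +
      lpN p (RD ⊔ NP.map Φ).index := by
    rw [hidx, lpN_mul p (Finset.prod_ne_zero_iff.mpr fun i _ => hreli i) hsupne,
      lpN_prod Finset.univ _ fun i _ => hreli i]
  have e2 : lpN p (Nat.card V) ≤ lpN p (RD ⊔ NP.map Φ).index := lpN_mono p hVdvd hsupne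
  have e3 : ∀ i, lpN p ((R i).relIndex (N i)) = lpN p (R i).index - lpN p (N i).index := fun i => by
    rw [← hrel i, lpN_mul p (hreli i) (hNi i), add_sub_cancel_right]
  -- the kernel of the global restriction is the sum of the local ones
  let KD := (X.res D).ker
  let KP : AddSubgroup (∀ i, equivHom (C := E i) (IsStable.restrict X.hK (H i))) :=
    AddSubgroup.pi Set.univ fun i => ((X.restrict (H i)).res (E i)).ker
  let τ : KP →+ equivHom (C := D) X.hK :=
    ((postHom X.hK qD hqD).comp (semiHom X.hK)).comp KP.subtype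
  have hτ : KD ≤ τ.range := by
    intro h hh
    obtain ⟨F', rfl⟩ := exists_lift_equivHom X qD hqD hfull hqs' h
    obtain ⟨u, hu⟩ := exists_postU X iU hiU qD X.hS hex' hiU' (X.res _ F') fun s =>
      DFunLike.congr_fun (congrArg Subtype.val hh) s
    obtain ⟨ψ, rfl⟩ := hkill u fun j => hNres j (by rw [hu]; exact ⟨_, (hres F' j).symm⟩)
    rw [hUres, eq_comm, ← sub_eq_zero, ← map_sub] at hu
    refine ⟨⟨compHom X.hK (F' - postHom X.hK iU hiU ψ), fun i _ => ?_⟩, ?_⟩
    · show (X.restrict (H i)).res (E i) _ = 0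
      rw [← hres, hu, map_zero]
      rfl
    · show postHom X.hK qD hqD (semiHom X.hK (compHom X.hK (F' - postHom X.hK iU hiU ψ))) = _
      rw [semiHom_compHom, map_sub]
      refine sub_eq_self.mpr (Subtype.ext (AddMonoidHom.ext fun x => ?_))
      exact hqi' _
  haveI : ∀ i, Finite ((X.restrict (H i)).res (E i)).ker := fun i => (hfinE i).ker
  have hKPcard : Nat.card KP = ∏ i, Nat.card ((X.restrict (H i)).res (E i)).ker := by
    rw [← Nat.card_pi]
    exact Nat.card_congr
      ⟨fun z i => ⟨z.1 i, z.2 i (Set.mem_univ i)⟩, fun z => ⟨fun i => (z i).1, fun i _ => (z i).2⟩,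
        fun _ => rfl, fun _ => rfl⟩
  have hKcard : ∀ i, Nat.card ((X.restrict (H i)).res (E i)).ker ≠ 0 := fun i => Nat.card_pos.ne'
  have hKP0 : Nat.card KP ≠ 0 := by
    rw [hKPcard]; exact Finset.prod_ne_zero_iff.mpr fun i _ => hKcard i
  have e4 : lpN p (Nat.card KD) ≤ ∑ i, lpN p (Nat.card ((X.restrict (H i)).res (E i)).ker) := by
    rw [← lpN_prod Finset.univ _ fun i _ => hKcard i, ← hKPcard]
    exact lpN_mono p ((AddSubgroup.card_dvd_of_le hτ).trans (AddSubgroup.card_range_dvd τ)) hKP0
  have eD : X.index D = lpN p RD.index - lpN p (Nat.card KD) := rfl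
  have eE : ∀ i, (X.restrict (H i)).index (E i) =
      lpN p (R i).index - lpN p (Nat.card ((X.restrict (H i)).res (E i)).ker) := fun i => rfl
  rw [eD, e1, Finset.sum_congr rfl fun i _ => e3 i, Finset.sum_congr rfl fun i _ => eE i,
    Finset.sum_sub_distrib, Finset.sum_sub_distrib]
  linarith

end Fermat.Agent.CFT.GW
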