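import Fermat.Agent.CFT.Duality.Semilocal
import Fermat.Agent.CFT.Local.Units
import Fermat.Agent.CFT.Euler.CoInd
import Fermat.Agent.CFT.Tangent.LocalBasic

/-!
# The semilocal sequence `U → ⊕ CoInd E_q → D` of a level, and the adjoint module: definitions
-/

set_option autoImplicit false
set_option synthInstance.maxHeartbeats 200000
set_option maxHeartbeats 1000000
set_option linter.unusedSectionVars false
set_option linter.style.haveILetI false

noncomputable section

namespace Fermat.Agent.CFT.GW

open ExtCitation Fermat.Agent.Arith IntermediateField Fermat.Agent.CFT.Local Fermat.Agent.CFT.Idele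
open Fermat.Agent.CFT.Duality Fermat.Agent.CFT.Euler

local instance factPrimeGWDefs (q : Nat.Primes) : Fact (q : ℕ).Prime := ⟨q.2⟩

variable (L : IntermediateField ℚ QBar) [FiniteDimensional ℚ L] [Normal ℚ L]

/-- The decomposition group, as the local Galois group. -/
def decompEquiv (q : Nat.Primes) :
    (E L q ≃ₐ[ℚ_[(q : ℕ)]] E L q) ≃* decomp L q :=
  MonoidHom.ofInjective (Local.toGlobal_injective (q : ℕ) L)

theorem coe_decompEquiv (q : Nat.Primes) (t : E L q ≃ₐ[ℚ_[(q : ℕ)]] E L q) :
    ((decompEquiv L q t : decomp L q) : L ≃ₐ[ℚ] L) = toGlobal (q : ℕ) L t := rfl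

/-- The multiplicative group of the completion at the distinguished place over `q`. -/
def Loc (q : Nat.Primes) : Type := Additive (E L q)ˣ

namespace Loc

variable {L} {q : Nat.Primes}

instance : AddCommGroup (Loc L q) := inferInstanceAs (AddCommGroup (Additive (E L q)ˣ))

/-- Read a local unit as an element of `Loc`. -/
def of : Additive (E L q)ˣ ≃+ Loc L q := AddEquiv.refl _

/-- The underlying local unit. -/
def val' (x : Loc L q) : (E L q)ˣ := (Loc.of.symm x).toMul

instance : DistribMulAction (decomp L q) (Loc L q) where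
  smul h x := Loc.of ((decompEquiv L q).symm h • Loc.of.symm x)
  one_smul x := by
    show Loc.of ((decompEquiv L q).symm 1 • Loc.of.symm x) = x
    rw [map_one, one_smul]
    rfl
  mul_smul a b x := by
    show Loc.of ((decompEquiv L q).symm (a * b) • Loc.of.symm x) =
      Loc.of ((decompEquiv L q).symm a • (decompEquiv L q).symm b • Loc.of.symm x)
    rw [map_mul, mul_smul]
  smul_zero h := congrArg Loc.of (smul_zero ((decompEquiv L q).symm h))
  smul_add h x y := congrArg Loc.of (smul_add ((decompEquiv L q).symm h) _ _)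

theorem smul_of (t : E L q ≃ₐ[ℚ_[(q : ℕ)]] E L q) (x : Additive (E L q)ˣ) :
    decompEquiv L q t • Loc.of x = Loc.of (t • x) := by
  show Loc.of ((decompEquiv L q).symm (decompEquiv L q t) • x) = _
  rw [MulEquiv.symm_apply_apply]

/-- The units of the completion. -/
def units (q : Nat.Primes) : AddSubgroup (Loc L q) where
  carrier := {x | val' x ∈ unitGroup (E L q)}
  zero_mem' := by
    show val' (0 : Loc L q) ∈ unitGroup (E L q)
    exact Subgroup.one_mem _
  add_mem' {x y} hx hy := by
    show val' x * val' y ∈ unitGroup (E L q)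
    exact Subgroup.mul_mem _ hx hy
  neg_mem' {x} hx := by
    show (val' x)⁻¹ ∈ unitGroup (E L q)
    exact Subgroup.inv_mem _ hx

theorem mem_units {x : Loc L q} : x ∈ units (L := L) q ↔ val' x ∈ unitGroup (E L q) := by
  show x ∈ (units (L := L) q : AddSubgroup (Loc L q)) ↔ _
  rfl

end Loc

/-- The classes of the unit families outside `T`. -/
def unitsCls (T : Set Nat.Primes) : AddSubgroup (C L) := (unitsOff L T).map (proj L)

theorem smul_mem_unitsCls (T : Set Nat.Primes) (σ : L ≃ₐ[ℚ] L) {x : C L}
    (hx : x ∈ unitsCls L T) : σ • x ∈ unitsCls L T := by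
  obtain ⟨w, hw, rfl⟩ := hx
  exact ⟨σ • w, smul_mem_unitsOff σ hw, proj_smul L σ w⟩

/-- Idele classes modulo unit families outside `T`. -/
def Glob (T : Set Nat.Primes) : Type := C L ⧸ unitsCls L T

namespace Glob

variable {L} {T : Set Nat.Primes}

instance : AddCommGroup (Glob L T) := inferInstanceAs (AddCommGroup (C L ⧸ unitsCls L T))

/-- The projection from idele classes. -/
def of : C L →+ Glob L T := QuotientAddGroup.mk' (unitsCls L T)

theorem of_surjective : Function.Surjective (of (L := L) (T := T)) :=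
  QuotientAddGroup.mk'_surjective _

theorem of_eq_zero_iff {x : C L} : of (T := T) x = 0 ↔ x ∈ unitsCls L T :=
  QuotientAddGroup.eq_zero_iff x

/-- The action of an automorphism. -/
def act (σ : L ≃ₐ[ℚ] L) : Glob L T →+ Glob L T :=
  QuotientAddGroup.map _ _ (DistribSMul.toAddMonoidHom (C L) σ)
    fun _ hx => smul_mem_unitsCls L T σ hx

theorem act_of (σ : L ≃ₐ[ℚ] L) (x : C L) : act (T := T) σ (of x) = of (σ • x) := rfl

instance : DistribMulAction (L ≃ₐ[ℚ] L) (Glob L T) where
  smul σ := act σ
  one_smul x := by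
    obtain ⟨x, rfl⟩ := of_surjective (T := T) x
    show act 1 (of x) = of x
    rw [act_of, one_smul]
  mul_smul σ τ x := by
    obtain ⟨x, rfl⟩ := of_surjective (T := T) x
    show act (σ * τ) (of x) = act σ (act τ (of x))
    rw [act_of, act_of, act_of, mul_smul]
  smul_zero σ := map_zero (act (T := T) σ)
  smul_add σ x y := map_add (act (T := T) σ) x y

theorem smul_of (σ : L ≃ₐ[ℚ] L) (x : C L) : σ • of (T := T) x = of (σ • x) := rfl

end Glob

/-- The `T`-units of `L`, as a subgroup of `Lˣ`. -/
def tUnits (T : Set Nat.Primes) : AddSubgroup (Additive Lˣ) where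
  carrier := {x | ∀ q ∉ T, ∀ σ, val (diag L x).toMul q σ ∈ unitGroup (E L q)}
  zero_mem' q _ σ := by
    rw [map_zero, toMul_zero, val_one]
    exact one_mem _
  add_mem' {x y} hx hy q hq σ := by
    rw [map_add, toMul_add, val_mul]
    exact mul_mem (hx q hq σ) (hy q hq σ)
  neg_mem' {x} hx q hq σ := by
    rw [map_neg, toMul_neg, show val _ q σ = (val (diag L x).toMul q σ)⁻¹ from
      map_inv (valHom q σ) _]
    exact inv_mem (hx q hq σ)

theorem smul_mem_tUnits (T : Set Nat.Primes) (σ : L ≃ₐ[ℚ] L) {x : Additive Lˣ}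
    (hx : x ∈ tUnits L T) : σ • x ∈ tUnits L T := fun q hq τ => by
  rw [diag_smul, val_smul_J]
  exact hx q hq _

/-- The module of `T`-units. -/
def TU (T : Set Nat.Primes) : Type := tUnits L T

namespace TU

variable {L} {T : Set Nat.Primes}

instance : AddCommGroup (TU L T) := inferInstanceAs (AddCommGroup (tUnits L T))

/-- The inclusion into `Lˣ`. -/
def incl : TU L T →+ Additive Lˣ := (tUnits L T).subtype

theorem incl_injective : Function.Injective (incl (L := L) (T := T)) := Subtype.val_injective

theorem incl_mem (x : TU L T) : incl x ∈ tUnits L T := Subtype.property (show tUnits L T from x)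

/-- A `T`-unit from its underlying element. -/
def mk (x : Additive Lˣ) (hx : x ∈ tUnits L T) : TU L T := (⟨x, hx⟩ : tUnits L T)

theorem incl_mk (x : Additive Lˣ) (hx : x ∈ tUnits L T) : incl (mk x hx) = x := rfl

instance : DistribMulAction (L ≃ₐ[ℚ] L) (TU L T) where
  smul σ x := mk (σ • incl x) (smul_mem_tUnits L T σ (incl_mem x))
  one_smul x := incl_injective (one_smul _ (incl x))
  mul_smul σ τ x := incl_injective (mul_smul σ τ (incl x))
  smul_zero σ := incl_injective (smul_zero σ)
  smul_add σ x y := incl_injective (smul_add σ (incl x) (incl y))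

theorem incl_smul (σ : L ≃ₐ[ℚ] L) (x : TU L T) : incl (σ • x) = σ • incl x := rfl

end TU

/-- The values at `q` of a `T`-unit. -/
def iLoc (T : Set Nat.Primes) (q : Nat.Primes) : TU L T →+ CoInd (decomp L q) (Loc L q) :=
  AddMonoidHom.mk' (fun x => CoInd.mk
    (fun g => Loc.of (Additive.ofMul (val (diag L (TU.incl x)).toMul q g))) fun h g => by
      obtain ⟨t, rfl⟩ := (decompEquiv L q).surjective h
      rw [Loc.smul_of, coe_decompEquiv, val_toGlobal_mul]
      rfl)
    fun x y => CoInd.ext fun g => by
      rw [map_add CoInd.fn]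
      simp only [CoInd.fn_mk, Pi.add_apply]
      rw [map_add TU.incl, map_add (diag L), toMul_add, val_mul, ofMul_mul, map_add]

theorem fn_iLoc (T : Set Nat.Primes) (q : Nat.Primes) (x : TU L T) (g : L ≃ₐ[ℚ] L) :
    CoInd.fn (iLoc L T q x) g =
      Loc.of (Additive.ofMul (val (diag L (TU.incl x)).toMul q g)) := rfl

theorem iLoc_smul (T : Set Nat.Primes) (q : Nat.Primes) (σ : L ≃ₐ[ℚ] L) (x : TU L T) :
    iLoc L T q (σ • x) = σ • iLoc L T q x := CoInd.ext fun g => by
  rw [CoInd.fn_smul, fn_iLoc, fn_iLoc, TU.incl_smul, diag_smul, val_smul_J]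

open Classical in
/-- The ideles with prescribed values over `q`. -/
def qLoc (q : Nat.Primes) : CoInd (decomp L q) (Loc L q) →+ J L :=
  AddMonoidHom.mk'
    (fun F => Additive.ofMul (Family.toIdl (L := L)
      { toFun := fun q' g => if h : q' = q then h ▸ Loc.val' (CoInd.fn F g) else 1
        equi := fun q' t g => by
          by_cases hq : q' = q
          · subst hq
            simp only [dite_true]
            have e := CoInd.fn_equi F (decompEquiv L q' t) g
            rw [coe_decompEquiv] at e
            rw [e]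
            show Loc.val' (decompEquiv L q' t • Loc.of (Loc.of.symm (CoInd.fn F g))) = _
            rw [Loc.smul_of]
            rfl
          · simp only [dif_neg hq, smul_one]
        cofinite := ⟨{q}, fun q' hq' σ => by
          rw [dif_neg (by simpa using hq')]
          exact one_mem _⟩ }))
    fun F F' => J_ext fun q' g => by
      rw [toMul_add, val_mul]
      simp only [toMul_ofMul, Family.val_toIdl]
      by_cases hq : q' = q
      · subst hq
        simp only [dite_true, map_add, Pi.add_apply]
        rfl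
      · simp only [dif_neg hq, mul_one]

theorem val_qLoc_self (q : Nat.Primes) (F : CoInd (decomp L q) (Loc L q)) (g : L ≃ₐ[ℚ] L) :
    val (qLoc L q F).toMul q g = Loc.val' (CoInd.fn F g) := by
  classical
  exact (Family.val_toIdl _ q g).trans (dif_pos rfl)

theorem val_qLoc_of_ne {q q' : Nat.Primes} (h : q' ≠ q) (F : CoInd (decomp L q) (Loc L q))
    (g : L ≃ₐ[ℚ] L) : val (qLoc L q F).toMul q' g = 1 := by
  classical
  exact (Family.val_toIdl _ q' g).trans (dif_neg h)

theorem qLoc_smul (q : Nat.Primes) (σ : L ≃ₐ[ℚ] L) (F : CoInd (decomp L q) (Loc L q)) :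
    qLoc L q (σ • F) = σ • qLoc L q F := J_ext fun q' g => by
  rw [val_smul_J]
  by_cases hq : q' = q
  · subst hq
    rw [val_qLoc_self, val_qLoc_self, CoInd.fn_smul]
  · rw [val_qLoc_of_ne L hq, val_qLoc_of_ne L hq]

/-- The local modules at the primes of `T`. -/
abbrev Semi (T : Finset Nat.Primes) : Type := ∀ i : T, CoInd (decomp L i) (Loc L i)

/-- `U → ⊕ CoInd E`. -/
def iU (T : Finset Nat.Primes) : TU L (T : Set Nat.Primes) →+ Semi L T :=
  AddMonoidHom.pi fun i : T => iLoc L (T : Set Nat.Primes) i

theorem iU_smul (T : Finset Nat.Primes) (σ : L ≃ₐ[ℚ] L) (x : TU L (T : Set Nat.Primes)) :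
    iU L T (σ • x) = σ • iU L T x := funext fun i => iLoc_smul L _ _ σ x

/-- `⊕ CoInd E → D`. -/
def qD (T : Finset Nat.Primes) : Semi L T →+ Glob L (T : Set Nat.Primes) :=
  ∑ i : T, ((Glob.of.comp (proj L)).comp (qLoc L i)).comp
    (Pi.evalAddMonoidHom (fun j : T => CoInd (decomp L j) (Loc L j)) i)

theorem qD_apply (T : Finset Nat.Primes) (y : Semi L T) :
    qD L T y = ∑ i : T, Glob.of (proj L (qLoc L i (y i))) := by
  simp [qD]

theorem qD_smul (T : Finset Nat.Primes) (σ : L ≃ₐ[ℚ] L) (y : Semi L T) :
    qD L T (σ • y) = σ • qD L T y := by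
  rw [qD_apply, qD_apply, Finset.smul_sum]
  exact Finset.sum_congr rfl fun i _ => by
    rw [Glob.smul_of, ← proj_smul, ← qLoc_smul]
    rfl

/-- The idele classes modulo units outside `T` are generated by the places of `T`. -/
def Generates (T : Set Nat.Primes) : Prop :=
  ∀ x : J L, ∃ a : Additive Lˣ, ∀ q ∉ T, ∀ σ, val (x + diag L a).toMul q σ ∈ unitGroup (E L q)

section Adj

variable {k : Type} [Field k] {G : Type} [Group G]

/-- Trace zero matrices, with the conjugation action of a representation. -/
def Adj (_r : G →* Deform.M2 k) : Type := LinearMap.ker (Matrix.traceLinearMap (Fin 2) k k)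

namespace Adj

variable {r : G →* Deform.M2 k}

instance : AddCommGroup (Adj r) :=
  inferInstanceAs (AddCommGroup (LinearMap.ker (Matrix.traceLinearMap (Fin 2) k k)))

instance : Module k (Adj r) :=
  inferInstanceAs (Module k (LinearMap.ker (Matrix.traceLinearMap (Fin 2) k k)))

instance [Finite k] : Finite (Adj r) :=
  inferInstanceAs (Finite (LinearMap.ker (Matrix.traceLinearMap (Fin 2) k k)))

/-- The underlying matrix. -/
def mat : Adj r →ₗ[k] Deform.M2 k :=
  (LinearMap.ker (Matrix.traceLinearMap (Fin 2) k k)).subtype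

theorem mat_injective : Function.Injective (mat (r := r)) := Subtype.val_injective

theorem trace_mat (X : Adj r) : (mat X).trace = 0 :=
  LinearMap.mem_ker.mp (Subtype.property (show LinearMap.ker _ from X))

/-- An element from a matrix of trace zero. -/
def mk (X : Deform.M2 k) (hX : X.trace = 0) : Adj r :=
  (⟨X, LinearMap.mem_ker.mpr hX⟩ : LinearMap.ker (Matrix.traceLinearMap (Fin 2) k k))

theorem mat_mk (X : Deform.M2 k) (hX : X.trace = 0) : mat (mk (r := r) X hX) = X := rfl

instance : DistribMulAction G (Adj r) where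
  smul g X := mk (r g * mat X * r g⁻¹) (by rw [Tangent.trace_conj_map, trace_mat])
  one_smul X := mat_injective (by
    show r 1 * mat X * r 1⁻¹ = mat X
    rw [inv_one, map_one, one_mul, mul_one])
  mul_smul g h X := mat_injective (by
    show r (g * h) * mat X * r (g * h)⁻¹ = r g * (r h * mat X * r h⁻¹) * r g⁻¹
    simp only [map_mul, mul_inv_rev, mul_assoc])
  smul_zero g := mat_injective (by
    show r g * mat (0 : Adj r) * r g⁻¹ = mat (0 : Adj r)
    rw [map_zero, mul_zero, zero_mul])
  smul_add g X Y := mat_injective (by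
    show r g * mat (X + Y) * r g⁻¹ = mat (mk (r g * mat X * r g⁻¹) _ + mk (r g * mat Y * r g⁻¹) _)
    rw [map_add, map_add, mat_mk, mat_mk, mul_add, add_mul])

theorem mat_smul (g : G) (X : Adj r) : mat (g • X) = r g * mat X * r g⁻¹ := rfl

theorem nsmul_eq_zero (p : ℕ) [CharP k p] (X : Adj r) : p • X = 0 := by
  rw [← Nat.cast_smul_eq_nsmul k, CharP.cast_eq_zero, zero_smul]

end Adj

end Adj

end Fermat.Agent.CFT.GW
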