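import Fermat.Agent.CFT.GW.TraceDual
import Fermat.Agent.CFT.Euler.Count
import Fermat.Agent.CFT.PT.Arith.Roots
import Fermat.Agent.CFT.Tangent.Dictionary
import Fermat.Agent.CFT.Tangent.LocalPlace
import Fermat.Agent.CFT.TWPrimes.Cocycle

/-!
# The twisted adjoint class of an equivariant map into `T`-units

An equivariant `u : S → U` extends to `Ψ : P → ℚ̄ˣ`; the differences `σΨ - Ψ` take values in
`Hom(sl₂, μ_p)`, i.e. in the twisted adjoint module.  If all such classes which are unramified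
where `u` is locally a unit and trivial where `u` is locally a restriction are coboundaries, then
`u` is a restriction.
-/

set_option autoImplicit false
set_option synthInstance.maxHeartbeats 200000
set_option maxHeartbeats 1000000
set_option linter.unusedSectionVars false
set_option linter.style.haveILetI false

noncomputable section

namespace Fermat.Agent.CFT.GW

open ExtCitation Fermat.Agent.Arith IntermediateField Fermat.Agent.CFT.Local Fermat.Agent.CFT.Idele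
open Fermat.Agent.CFT.Duality Fermat.Agent.CFT.Euler Fermat.Agent.CFT.PT Module

local instance factPrimeDualClass (q : Nat.Primes) : Fact (q : ℕ).Prime := ⟨q.2⟩

section Extend

variable {p : ℕ} [hp : Fact p.Prime]

/-- Units of `ℚ̄` extend homomorphisms from subgroups of level `p`. -/
theorem exists_extend_qbar {P : Type} [AddCommGroup P] [Module.Free ℤ P] (S : AddSubgroup P)
    (hS : ∀ x : P, p • x ∈ S) (f : S →+ Additive QBarˣ) :
    ∃ Ψ : P →+ Additive QBarˣ, ∀ s : S, Ψ s = f s := by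
  let b := Module.Free.chooseBasis ℤ P
  have hroot : ∀ y : Additive QBarˣ, ∃ z : Additive QBarˣ, p • z = y := fun y => by
    obtain ⟨z, hz⟩ := IsAlgClosed.exists_pow_nat_eq ((y.toMul : QBarˣ) : QBar) hp.out.pos
    have hz0 : z ≠ 0 := fun h => (y.toMul).ne_zero (by rw [← hz, h, zero_pow hp.out.ne_zero])
    exact ⟨Additive.ofMul (Units.mk0 z hz0), Additive.toMul.injective (Units.ext (by
      rw [toMul_nsmul, Units.val_pow_eq_pow_val]; exact hz))⟩
  choose z hz using fun j => hroot (f ⟨p • b j, hS _⟩)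
  let Ψ₀ : P →+ Additive QBarˣ := (b.constr ℤ z).toAddMonoidHom
  let mulp : P →+ S := mulP hS
  have hΨ₀ : ∀ x, p • Ψ₀ x = f (mulp x) := fun x => by
    have e : (p • Ψ₀).toIntLinearMap = (f.comp mulp).toIntLinearMap := b.ext fun j => by
      show p • (b.constr ℤ z (b j)) = f (mulp (b j))
      rw [Module.Basis.constr_basis, hz]
      rfl
    exact LinearMap.congr_fun e x
  let μ : AddSubgroup (Additive QBarˣ) := (nsmulAddMonoidHom p : _ →+ Additive QBarˣ).ker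
  let d : S →+ Additive QBarˣ := f - Ψ₀.comp S.subtype
  have hd : ∀ s : S, d s ∈ μ := fun s => by
    show p • (f s - Ψ₀ s) = 0
    rw [nsmul_sub, hΨ₀, ← map_nsmul, sub_eq_zero]
    exact congrArg f (mulP_coe hS s).symm
  obtain ⟨g, hg⟩ := exists_extend_killed (p := p) (M := μ) (fun m => Subtype.ext m.2)
    (le_top : S ≤ ⊤) (fun s _ => hS s) (d.codRestrict μ hd) fun s hs => Subtype.ext (by
      show f ⟨p • s, _⟩ - Ψ₀ (p • s) = 0
      rw [map_nsmul, hΨ₀]
      exact sub_self _)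
  let top : P →+ (⊤ : AddSubgroup P) := AddMonoidHom.mk' (fun x => ⟨x, trivial⟩) fun _ _ => rfl
  refine ⟨Ψ₀ + μ.subtype.comp (g.comp top), fun s => ?_⟩
  show Ψ₀ s + (g (AddSubgroup.inclusion le_top s) : Additive QBarˣ) = f s
  rw [hg]
  show Ψ₀ s + (f s - Ψ₀ s) = f s
  rw [add_sub_cancel]

/-- `a ↦ ζ ^ a`. -/
def zetaHom {ζ : QBarˣ} (hζ : ζ ^ p = 1) : ZMod p →+ Additive QBarˣ :=
  ZMod.lift p ⟨zmultiplesHom _ (Additive.ofMul ζ), by
    show (p : ℤ) • Additive.ofMul ζ = 0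
    rw [natCast_zsmul, ← ofMul_pow, hζ, ofMul_one]⟩

theorem zetaHom_natCast {ζ : QBarˣ} (hζ : ζ ^ p = 1) (n : ℕ) :
    zetaHom hζ (n : ZMod p) = n • Additive.ofMul ζ := by
  rw [← nsmul_one, map_nsmul]
  congr 1
  rw [zetaHom, ← Int.cast_one, ZMod.lift_coe]
  exact one_zsmul _

theorem zetaHom_injective {ζ : QBarˣ} (hζ : IsPrimitiveRoot ζ p) :
    Function.Injective (zetaHom hζ.pow_eq_one) := by
  haveI : NeZero p := ⟨hp.out.ne_zero⟩
  refine (injective_iff_map_eq_zero _).mpr fun a ha => ?_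
  rw [← ZMod.natCast_zmod_val a, zetaHom_natCast, ← ofMul_pow] at ha
  have h1 : ζ ^ a.val = 1 := ha
  rw [← ZMod.natCast_zmod_val a, (ZMod.natCast_eq_zero_iff _ _).mpr (hζ.dvd_of_pow_eq_one _ h1)]

theorem exists_zetaHom_eq {ζ : QBarˣ} (hζ : IsPrimitiveRoot ζ p) {x : Additive QBarˣ}
    (hx : p • x = 0) : ∃ a, zetaHom hζ.pow_eq_one a = x := by
  haveI : NeZero p := ⟨hp.out.ne_zero⟩
  obtain ⟨i, -, hi⟩ := (IsPrimitiveRoot.coe_units_iff.mpr hζ).eq_pow_of_pow_eq_one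
    (ξ := ((x.toMul : QBarˣ) : QBar))
    (by rw [← Units.val_pow_eq_pow_val, ← toMul_nsmul, hx, toMul_zero, Units.val_one])
  have hi' : ζ ^ i = x.toMul := Units.ext (by rw [Units.val_pow_eq_pow_val]; exact hi)
  exact ⟨(i : ZMod p), by rw [zetaHom_natCast, ← ofMul_pow, hi', ofMul_toMul]⟩

theorem smul_zetaHom {ζ : QBarˣ} (hζ : ζ ^ p = 1) {σ : GQ} {n : ℕ}
    (hσ : σ (ζ : QBar) = (ζ : QBar) ^ n) (a : ZMod p) :
    σ • zetaHom hζ a = zetaHom hζ ((n : ZMod p) * a) := by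
  haveI : NeZero p := ⟨hp.out.ne_zero⟩
  rw [← ZMod.natCast_zmod_val a, ← Nat.cast_mul, zetaHom_natCast, zetaHom_natCast,
    smul_comm σ (a.val) (Additive.ofMul ζ), mul_comm n, mul_smul]
  congr 1
  rw [← ofMul_pow]
  exact congrArg Additive.ofMul (Units.ext (by rw [Units.val_pow_eq_pow_val]; exact hσ))

end Extend

section Main

variable {p : ℕ} [hp : Fact p.Prime] {k : Type} [Field k] [Finite k] [CharP k p]
  {L : IntermediateField ℚ QBar} [FiniteDimensional ℚ L] [Normal ℚ L]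
  [Fintype (L ≃ₐ[ℚ] L)] {rG : (L ≃ₐ[ℚ] L) →* Deform.M2 k}

/-- The units of a subfield, inside those of `ℚ̄`. -/
def toQ (L : IntermediateField ℚ QBar) : Additive Lˣ →+ Additive QBarˣ :=
  MonoidHom.toAdditive (Units.map L.val.toRingHom.toMonoidHom)

theorem toQ_val (x : Additive Lˣ) :
    (((toQ L x).toMul : QBarˣ) : QBar) = (((x.toMul : Lˣ) : L) : QBar) := rfl

theorem smul_toQ (σ : GQ) (x : Additive Lˣ) : σ • toQ L x = toQ L (res L σ • x) := by
  refine Additive.toMul.injective (Units.ext ?_)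
  show σ (((x.toMul : Lˣ) : L) : QBar) = ((res L σ ((x.toMul : Lˣ) : L) : L) : QBar)
  rw [res_apply]

theorem exists_toQ_eq {x : Additive QBarˣ} (hx : ∀ σ : GQ, res L σ = 1 → σ • x = x) :
    ∃ y : Additive Lˣ, toQ L y = x := by
  haveI : IsGalois ℚ QBar := ⟨⟩
  have hmem : ((x.toMul : QBarˣ) : QBar) ∈ L := by
    rw [← InfiniteGalois.fixedField_fixingSubgroup L, IntermediateField.mem_fixedField_iff]
    intro σ hσ
    exact congrArg (fun z : Additive QBarˣ => ((z.toMul : QBarˣ) : QBar))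
      (hx σ ((res_eq_one_iff L).mpr hσ))
  exact ⟨Additive.ofMul (Units.mk0 ⟨_, hmem⟩ fun h => (x.toMul).ne_zero (congrArg Subtype.val h)),
    Additive.toMul.injective (Units.ext rfl)⟩

theorem val_diag_toQ (x : Additive Lˣ) (v : Nat.Primes) :
    (((val (diag L x).toMul v 1 : (E L v)ˣ) : E L v) : Ω v) =
      emb v ((toQ L x).toMul : QBarˣ) := by
  show (((val (prinL L x.toMul) v 1 : (E L v)ˣ) : E L v) : Ω v) = _
  rw [val_prinL]
  rfl

variable (rG) in
/-- The composite with restriction to `L`. -/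
abbrev rQ : GQ →* Deform.M2 k := rG.comp (res L)

variable {X : Pres p (L ≃ₐ[ℚ] L) (Adj rG)} (hfull : ∀ x : X.P, x ∈ X.K)

theorem mem_S_of_pi {x : X.P} (h : X.π ⟨x, hfull x⟩ = 0) : x ∈ X.S :=
  (X.ker ⟨x, hfull x⟩).mp h

variable {T : Set Nat.Primes} (u : equivHom (C := TU L T) X.hS)

/-- The difference cochain of an extension. -/
def wCoc (Ψ : X.P →+ Additive QBarˣ) (σ : GQ) : X.P →+ Additive QBarˣ :=
  AddMonoidHom.mk' (fun x => σ • Ψ ((res L σ)⁻¹ • x) - Ψ x) fun x y => by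
    rw [smul_add, map_add, map_add, smul_add]; abel

theorem wCoc_mul (Ψ : X.P →+ Additive QBarˣ) (σ τ : GQ) (x : X.P) :
    wCoc Ψ (σ * τ) x = σ • wCoc Ψ τ ((res L σ)⁻¹ • x) + wCoc Ψ σ x := by
  show (σ * τ) • Ψ _ - Ψ x = σ • (τ • Ψ _ - Ψ _) + (σ • Ψ _ - Ψ x)
  rw [map_mul, mul_inv_rev, mul_smul σ τ, mul_smul (res L τ)⁻¹, smul_sub]
  abel


variable {ζ : QBar}

theorem two_ne_zero_of_char (p : ℕ) [hp : Fact p.Prime] [CharP k p] (hp2 : p ≠ 2) : (2 : k) ≠ 0 := fun h => by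
  have : ((2 : ℕ) : k) = 0 := by exact_mod_cast h
  exact hp2 ((Nat.prime_dvd_prime_iff_eq hp.out Nat.prime_two).mp
    ((CharP.cast_eq_zero_iff k p 2).mp this))

/-- A root of unity, as a unit. -/
def unitOf (hζ : IsPrimitiveRoot ζ p) : QBarˣ := (hζ.isUnit hp.out.ne_zero).unit

theorem unitOf_spec (hζ : IsPrimitiveRoot ζ p) : IsPrimitiveRoot (unitOf hζ) p :=
  IsPrimitiveRoot.coe_units_iff.mp hζ

/-- `a ↦ ζ ^ a` for a root in `ℚ̄`. -/
def zHom (hζ : IsPrimitiveRoot ζ p) : ZMod p →+ Additive QBarˣ :=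
  zetaHom (unitOf_spec hζ).pow_eq_one

theorem zHom_injective (hζ : IsPrimitiveRoot ζ p) : Function.Injective (zHom hζ) :=
  zetaHom_injective (unitOf_spec hζ)

theorem smul_zHom (hζ : IsPrimitiveRoot ζ p) {σ : GQ} {n : ℕ}
    (hn : ∀ μ : QBar, μ ^ p = 1 → σ μ = μ ^ n) (a : ZMod p) :
    σ • zHom hζ a = zHom hζ ((n : ZMod p) * a) :=
  smul_zetaHom _ (hn _ hζ.pow_eq_one) a

theorem zHom_mem (hζ : IsPrimitiveRoot ζ p) {M : IntermediateField ℚ QBar} (h : ζ ∈ M)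
    (a : ZMod p) : (((zHom hζ a).toMul : QBarˣ) : QBar) ∈ M := by
  haveI : NeZero p := ⟨hp.out.ne_zero⟩
  rw [← ZMod.natCast_zmod_val a]
  unfold zHom
  rw [zetaHom_natCast, ← ofMul_pow, toMul_ofMul, Units.val_pow_eq_pow_val]
  exact pow_mem h _

/-- The projection of the presentation. -/
def piH : X.P →+ Adj rG :=
  X.π.comp (AddMonoidHom.mk' (fun x => (⟨x, hfull x⟩ : X.K)) fun _ _ => rfl)

theorem piH_S (s : X.S) : piH hfull s = 0 := (X.ker ⟨s, hfull s⟩).mpr s.2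

theorem piH_smul (g : L ≃ₐ[ℚ] L) (x : X.P) : piH hfull (g • x) = g • piH hfull x :=
  X.equi g ⟨x, hfull x⟩

theorem piH_surjective : Function.Surjective (piH hfull) := fun a => by
  obtain ⟨x, hx⟩ := X.surj a
  exact ⟨x, hx⟩

theorem exists_traceFun_piH (h2 : (2 : k) ≠ 0) (f : X.P →+ ZMod p) (hf : ∀ s : X.S, f s = 0) :
    ∃ C : Adj rG, ∀ x, traceFun p rG C (piH hfull x) = f x := by
  have hle : (piH hfull).ker ≤ f.ker := fun x hx => hf ⟨x, mem_S_of_pi hfull hx⟩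
  let g : Adj rG →+ ZMod p := AddMonoidHom.liftOfSurjective (piH hfull) (piH_surjective hfull) ⟨f, hle⟩
  obtain ⟨C, hC⟩ := (traceFun_bijective (r := rG) p h2).2 g
  refine ⟨C, fun x => ?_⟩
  rw [hC]
  exact AddMonoidHom.liftOfRightInverse_comp_apply _ _ _ ⟨f, hle⟩ x

theorem traceFun_piH_ext (h2 : (2 : k) ≠ 0) {C C' : Adj rG}
    (h : ∀ x, traceFun p rG C (piH hfull x) = traceFun p rG C' (piH hfull x)) : C = C' :=
  (traceFun_bijective (r := rG) p h2).1 (AddMonoidHom.ext fun a => by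
    obtain ⟨x, rfl⟩ := piH_surjective hfull a
    exact h x)

theorem traceFun_twist (σ : GQ) (C : Adj rG) (x : X.P) (n : ℕ)
    (hdet : (rQ rG σ).det = (n : k)) :
    traceFun p rG ((rQ rG σ).det • (res L σ • C)) (piH hfull x) =
      (n : ZMod p) * traceFun p rG C (piH hfull ((res L σ)⁻¹ • x)) := by
  rw [traceFun_apply, traceFun_apply, hdet, map_smul, smul_mul_assoc, Matrix.trace_smul,
    smul_eq_mul, fpTr_natCast_mul, piH_smul, Adj.mat_smul, Adj.mat_smul, inv_inv]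
  congr 2
  rw [← mul_assoc (Adj.mat C), Matrix.trace_mul_comm _ (rG (res L σ))]
  simp only [mul_assoc]

theorem ad_mat (σ : GQ) (C : Adj rG) :
    TWPrimes.ad (rQ rG) σ (Adj.mat C) = Adj.mat ((rQ rG σ).det • (res L σ • C)) := by
  rw [TWPrimes.ad_apply, map_smul, Adj.mat_smul]
  simp only [MonoidHom.comp_apply, map_inv]

variable (hζ : IsPrimitiveRoot ζ p) (Ψ : X.P →+ Additive QBarˣ)
  (hΨ : ∀ s : X.S, Ψ s = toQ L (TU.incl (u.1 s)))

include hΨ in
theorem wCoc_S (σ : GQ) (s : X.S) : wCoc Ψ σ s = 0 := by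
  show σ • Ψ ((smulS X.hS (res L σ)⁻¹ s : X.S) : X.P) - Ψ s = 0
  rw [hΨ, hΨ, u.2, TU.incl_smul, smul_toQ, smul_inv_smul, sub_self]

include hfull hΨ in
theorem exists_classFun (h2 : (2 : k) ≠ 0) : ∃ Cσ : GQ → Adj rG, ∀ σ x,
    zHom hζ (traceFun p rG (Cσ σ) (piH hfull x)) = wCoc Ψ σ x := by
  have hwp : ∀ (σ : GQ) (x : X.P), p • wCoc Ψ σ x = 0 := fun σ x => by
    rw [← map_nsmul]; exact wCoc_S u Ψ hΨ σ ⟨_, X.level x⟩
  choose E' hE' using fun σ x => exists_zetaHom_eq (unitOf_spec hζ) (hwp σ x)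
  have hzinj := zHom_injective hζ
  have hE'' : ∀ σ x, zHom hζ (E' σ x) = wCoc Ψ σ x := hE'
  let eHom : GQ → X.P →+ ZMod p := fun σ => AddMonoidHom.mk' (E' σ) fun x y => hzinj (by
    rw [map_add, hE'', hE'', hE'', map_add])
  have heHom : ∀ σ x, zHom hζ (eHom σ x) = wCoc Ψ σ x := hE''
  have heS : ∀ (σ : GQ) (s : X.S), eHom σ s = 0 := fun σ s => hzinj (by
    rw [map_zero]; exact (heHom σ s).trans (wCoc_S u Ψ hΨ σ s))
  choose Cσ hCσ using fun σ => exists_traceFun_piH hfull h2 (eHom σ) (heS σ)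
  exact ⟨Cσ, fun σ x => by rw [hCσ]; exact heHom σ x⟩

variable {Cσ : GQ → Adj rG}
  (hC : ∀ σ x, zHom hζ (traceFun p rG (Cσ σ) (piH hfull x)) = wCoc Ψ σ x)

include hC in
theorem isCocycle_class (h2 : (2 : k) ≠ 0)
    (hcyc : ∀ (σ : GQ) (n : ℕ), (∀ μ : QBar, μ ^ p = 1 → σ μ = μ ^ n) →
      (rQ rG σ).det = (n : k)) :
    TWPrimes.IsCocycle (rQ rG) fun σ => Adj.mat (Cσ σ) := by
  refine ⟨fun σ => Adj.trace_mat _, fun σ τ => ?_⟩
  show Adj.mat (Cσ (σ * τ)) = TWPrimes.ad (rQ rG) σ (Adj.mat (Cσ τ)) + Adj.mat (Cσ σ)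
  rw [ad_mat, ← map_add]
  refine congrArg Adj.mat (traceFun_piH_ext hfull h2 fun x => zHom_injective hζ ?_)
  obtain ⟨n, hn⟩ := Tangent.exists_pow_eq_on_roots p σ
  rw [map_add (traceFun p rG), AddMonoidHom.add_apply, map_add,
    traceFun_twist hfull σ _ x n (hcyc σ n hn), ← smul_zHom hζ hn, hC, hC, hC, wCoc_mul]

include hC in
theorem class_eq_zero (h2 : (2 : k) ≠ 0) {σ : GQ} (h1 : res L σ = 1)
    (hfix : ∀ x, σ • Ψ x = Ψ x) : Adj.mat (Cσ σ) = 0 := by
  rw [show Cσ σ = 0 from traceFun_piH_ext hfull h2 fun x => zHom_injective hζ (by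
    rw [hC, map_zero (traceFun p rG), AddMonoidHom.zero_apply, map_zero]
    show σ • Ψ ((res L σ)⁻¹ • x) - Ψ x = 0
    rw [h1, inv_one, one_smul, hfix, sub_self]), map_zero]

theorem exists_level : ∃ M : IntermediateField ℚ QBar, FiniteDimensional ℚ M ∧
    Normal ℚ M ∧ L ≤ M ∧ ∀ x, ((Ψ x).toMul : QBar) ∈ M := by
  classical
  let bP := Module.Free.chooseBasis ℤ X.P
  let A' : IntermediateField ℚ QBar :=
    IntermediateField.adjoin ℚ (Set.range fun j => ((Ψ (bP j)).toMul : QBar))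
  haveI : Finite (Module.Free.ChooseBasisIndex ℤ X.P) := inferInstance
  haveI : FiniteDimensional ℚ A' := IntermediateField.finiteDimensional_adjoin fun y _ =>
    Algebra.IsIntegral.isIntegral y
  let M := IntermediateField.normalClosure ℚ (L ⊔ A' : IntermediateField ℚ QBar) QBar
  haveI : Normal ℚ M := normalClosure.normal ℚ _ QBar
  refine ⟨M, normalClosure.is_finiteDimensional ℚ _ QBar, inferInstance,
    le_sup_left.trans (L ⊔ A').le_normalClosure, fun x => ?_⟩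
  let MS : AddSubgroup (Additive QBarˣ) :=
    { carrier := {z | ((z.toMul : QBarˣ) : QBar) ∈ M}
      zero_mem' := by simp [one_mem]
      add_mem' := fun {a c} ha hc => by
        show ((a.toMul * c.toMul : QBarˣ) : QBar) ∈ M
        rw [Units.val_mul]; exact mul_mem ha hc
      neg_mem' := fun {a} ha => by
        show ((a.toMul⁻¹ : QBarˣ) : QBar) ∈ M
        rw [Units.val_inv_eq_inv_val]; exact inv_mem ha }
  show Ψ x ∈ MS
  rw [← bP.sum_repr x, map_sum]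
  refine sum_mem fun j _ => ?_
  rw [map_zsmul]
  refine zsmul_mem ?_ _
  exact ((le_sup_right : A' ≤ L ⊔ A').trans (L ⊔ A').le_normalClosure)
    (IntermediateField.subset_adjoin _ _ ⟨j, rfl⟩)

include hC hΨ in
theorem class_unramified (h2 : (2 : k) ≠ 0) {v : Nat.Primes} (hvp : (v : ℕ) ≠ p)
    (hvi : inertia (E L v) = ⊥)
    (hF' : ∃ F : equivHom (C := Loc L v) (IsStable.restrict X.hK (decomp L v)),
      ∀ s : X.S, CoInd.ev (iLoc L T v (u.1 s)) - F.1 (AddSubgroup.inclusion X.le s) ∈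
        Loc.units v)
    {τ : GQ} (hτ : τ ∈ (padicPlace (v : ℕ)).inertiaSubgroupIn ℚ) : Adj.mat (Cσ τ) = 0 := by
  have hfix : InertiaFixes (v : ℕ) L :=
    (PT.inertia_eq_bot_iff_inertiaFixes L _).mp hvi
  have hL : ∀ x ∈ L, τ x = x := fun x hx =>
    (PT.inertiaFixes_iff_padicPlace L (v : ℕ)).mp hfix τ hτ ⟨x, hx⟩
  refine class_eq_zero hfull hζ Ψ hC h2 ((res_eq_one_iff L).mpr ((IntermediateField.mem_fixingSubgroup_iff _ _).mpr hL))
    fun x => Additive.toMul.injective (Units.ext ?_)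
  obtain ⟨F, hF⟩ := hF'
  set s : X.S := ⟨p • x, X.level x⟩ with hs
  have hval : ((Ψ x).toMul : QBar) ^ p = ((toQ L (TU.incl (u.1 s))).toMul : QBar) := by
    rw [← hΨ, hs, map_nsmul, toMul_nsmul, Units.val_pow_eq_pow_val]
  have hu := Loc.mem_units.mp (hF s)
  have hFs : F.1 (AddSubgroup.inclusion X.le s) = p • F.1 ⟨x, hfull x⟩ := by
    rw [← map_nsmul]; exact congrArg F.1 (Subtype.ext rfl)
  rw [hFs] at hu
  have hu' : ‖(((val (diag L (TU.incl (u.1 s))).toMul v 1 : (E L v)ˣ) : E L v) : Ω v)‖ =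
      ‖((Loc.val' (F.1 ⟨x, hfull x⟩) : (E L v)ˣ) : E L v)‖ ^ p := by
    rw [mem_unitGroup] at hu
    change ‖((((val (diag L (TU.incl (u.1 s))).toMul v 1) / (Loc.val' (F.1 ⟨x, hfull x⟩)) ^ p :
      (E L v)ˣ) : E L v))‖ = 1 at hu
    rw [Units.val_div_eq_div_val, Units.val_pow_eq_pow_val, norm_div, norm_pow] at hu
    rw [← (div_eq_one_iff_eq (pow_ne_zero p (norm_ne_zero_iff.mpr
      (Units.ne_zero _)))).mp hu]
    rfl
  rw [val_diag_toQ, ← hval, map_pow, norm_pow] at hu'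
  have hnorm := (pow_left_inj₀ (norm_nonneg _) (norm_nonneg _) hp.out.ne_zero).mp hu'
  obtain ⟨m, hm⟩ := PT.exists_norm_eq_zpow L hvi (Loc.val' (F.1 ⟨x, hfull x⟩))
  refine PT.inertia_fix_root hτ (m := p) (fun hd => hvp
    ((Nat.prime_dvd_prime_iff_eq v.2 hp.out).mp hd)) ?_ (hnorm.trans hm)
  rw [hval, toQ_val]
  exact hL _ (SetLike.coe_mem _)

include hC hΨ in
theorem class_split (h2 : (2 : k) ≠ 0)
    (hcyc : ∀ (σ : GQ) (n : ℕ), (∀ μ : QBar, μ ^ p = 1 → σ μ = μ ^ n) →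
      (rQ rG σ).det = (n : k))
    {M : IntermediateField ℚ QBar} [FiniteDimensional ℚ M] [Normal ℚ M] (hML : L ≤ M)
    (hMfix : ∀ x, ((Ψ x).toMul : QBar) ∈ M) (hζL : ζ ∈ L) {v : Nat.Primes}
    (hF' : ∃ F : equivHom (C := Loc L v) (IsStable.restrict X.hK (decomp L v)),
      ∀ s : X.S, CoInd.ev (iLoc L T v (u.1 s)) = F.1 (AddSubgroup.inclusion X.le s)) :
    ∃ Z : Deform.M2 k, Z.trace = 0 ∧
      ∀ s ∈ (padicPlace (v : ℕ)).decompositionSubgroup ℚ,
        Adj.mat (Cσ s) = TWPrimes.cobd (rQ rG) Z s := by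
  haveI : NeZero p := ⟨hp.out.ne_zero⟩
  have hzinj := zHom_injective hζ
  let e : X.P →+ X.K := AddMonoidHom.mk' (fun x => ⟨x, hfull x⟩) fun _ _ => rfl
  obtain ⟨F, hF⟩ := hF'
  let embU : Additive QBarˣ →+ Additive (Ω v)ˣ :=
    MonoidHom.toAdditive (Units.map (emb v).toRingHom.toMonoidHom)
  let locU : Loc L v →+ Additive (Ω v)ˣ :=
    (MonoidHom.toAdditive (Units.map (E L v).val.toRingHom.toMonoidHom)).comp
      Loc.of.symm.toAddMonoidHom
  let φ : X.P →+ Additive (Ω v)ˣ := embU.comp Ψ - locU.comp (F.1.comp e)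
  have hφS : ∀ s : X.S, φ s = 0 := fun s => by
    show embU (Ψ s) - locU (F.1 (AddSubgroup.inclusion X.le s)) = 0
    rw [← hF, hΨ, sub_eq_zero]
    exact Additive.toMul.injective (Units.ext (val_diag_toQ _ v).symm)
  have hembinj : Function.Injective embU := fun a c h =>
    Additive.toMul.injective (Units.ext ((emb v).injective
      (congrArg (fun z : Additive (Ω v)ˣ => ((z.toMul : (Ω v)ˣ) : Ω v)) h)))
  have hζΩ : IsPrimitiveRoot (emb v ζ) p := hζ.map_of_injective (emb v).injective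
  have hex : ∀ x, ∃ a : ZMod p, embU (zHom hζ a) = φ x := fun x => by
    have h0 : p • φ x = 0 := by rw [← map_nsmul]; exact hφS ⟨_, X.level x⟩
    have h1 : (((φ x).toMul : (Ω v)ˣ) : Ω v) ^ p = 1 := by
      rw [← Units.val_pow_eq_pow_val, ← toMul_nsmul, h0]; rfl
    obtain ⟨i, -, hi⟩ := hζΩ.eq_pow_of_pow_eq_one h1
    refine ⟨(i : ZMod p), Additive.toMul.injective (Units.ext ?_)⟩
    rw [← hi, ← map_pow]
    unfold zHom
    rw [zetaHom_natCast, ← ofMul_pow]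
    rfl
  choose a ha using hex
  let aHom : X.P →+ ZMod p := AddMonoidHom.mk' a fun x y => hzinj (hembinj (by
    rw [map_add (zHom hζ), map_add embU, ha, ha, ha, map_add φ]))
  have haHom : ∀ x, embU (zHom hζ (aHom x)) = φ x := ha
  obtain ⟨Z, hZ⟩ := exists_traceFun_piH hfull h2 aHom fun s => hzinj (hembinj (by
    rw [haHom, hφS, map_zero, map_zero]))
  refine ⟨Adj.mat Z, Adj.trace_mat Z, fun s hs => ?_⟩
  obtain ⟨t, ht⟩ := (Local.mem_range_toGlobal_iff (v : ℕ) M (res M s)).mpr fun x hx => by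
    rw [res_apply]; exact map_mem_of_mem_decomposition hs hx
  obtain ⟨τ', hτ'⟩ := AlgEquiv.restrictNormalHom_surjective (K₁ := E M v) (Ω v) t
  set s' := localGaloisToGlobal (v : ℕ) τ'
  have hsM : res M s = res M s' := by
    rw [← ht, ← hτ', Local.toGlobal_restrict]
  have hsL : res L s = res L s' := by
    refine AlgEquiv.ext fun x => Subtype.ext ?_
    rw [res_apply, res_apply]
    have := congrArg (fun g : M ≃ₐ[ℚ] M => ((g ⟨(x : QBar), hML x.2⟩ : M) : QBar)) hsM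
    simpa only [res_apply] using this
  set t' := AlgEquiv.restrictNormalHom (E L v) τ'
  have ht' : toGlobal (v : ℕ) L t' = res L s := by rw [hsL, Local.toGlobal_restrict]
  -- `s` acts on the relevant elements through `τ'`
  have hembs : ∀ y : Additive QBarˣ, ((y.toMul : QBarˣ) : QBar) ∈ M →
      τ' • embU y = embU (s • y) := fun y hy => by
    refine Additive.toMul.injective (Units.ext ?_)
    show τ' (emb v (y.toMul : QBar)) = emb v (s (y.toMul : QBar))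
    rw [← padicEmbedding_localGaloisToGlobal]
    congr 1
    have := congrArg (fun g : M ≃ₐ[ℚ] M => ((g ⟨_, hy⟩ : M) : QBar)) hsM
    simp only [res_apply] at this
    exact this.symm
  have hlocs : ∀ y : Loc L v, τ' • locU y = locU (decompEquiv L v t' • y) := fun y => by
    obtain ⟨y, rfl⟩ := Loc.of.surjective y
    rw [Loc.smul_of]
    refine Additive.toMul.injective (Units.ext ?_)
    exact (AlgEquiv.restrictNormal_commutes τ' (E L v) _).symm
  obtain ⟨n, hn⟩ := Tangent.exists_pow_eq_on_roots p s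
  show Adj.mat (Cσ s) = TWPrimes.ad (rQ rG) s (Adj.mat Z) - Adj.mat Z
  rw [ad_mat, ← map_sub]
  refine congrArg Adj.mat (traceFun_piH_ext hfull h2 fun x => hzinj (hembinj ?_))
  rw [map_sub (traceFun p rG), AddMonoidHom.sub_apply, map_sub, hC,
    traceFun_twist hfull s _ x n (hcyc s n hn), hZ, hZ, ← smul_zHom hζ hn, map_sub, haHom]
  show embU (s • Ψ ((res L s)⁻¹ • x) - Ψ x) = _
  rw [map_sub, ← hembs _ (hMfix _)]
  rw [← hembs _ (zHom_mem hζ (hML hζL) _), haHom]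
  show _ = τ' • (embU (Ψ _) - locU (F.1 (e _))) - (embU (Ψ x) - locU (F.1 (e x)))
  rw [smul_sub, hlocs]
  have hFeq : decompEquiv L v t' • F.1 (e ((res L s)⁻¹ • x)) = F.1 (e x) := by
    rw [← F.2]
    refine congrArg F.1 (Subtype.ext ?_)
    show toGlobal (v : ℕ) L t' • (res L s)⁻¹ • x = x
    rw [ht', smul_inv_smul]
  rw [hFeq]
  abel

end Main

section Final

variable {p : ℕ} [hp : Fact p.Prime] {k : Type} [Field k] [Finite k] [CharP k p]
  {L : IntermediateField ℚ QBar} [FiniteDimensional ℚ L] [Normal ℚ L]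
  [Fintype (L ≃ₐ[ℚ] L)] {rG : (L ≃ₐ[ℚ] L) →* Deform.M2 k}
  {X : Pres p (L ≃ₐ[ℚ] L) (Adj rG)} (hfull : ∀ x : X.P, x ∈ X.K)
  {T : Set Nat.Primes} (u : equivHom (C := TU L T) X.hS)

variable {ζ : QBar}

include hfull in
theorem exists_res_of_coboundary (hζ : IsPrimitiveRoot ζ p) (Ψ : X.P →+ Additive QBarˣ)
    (hΨ' : ∀ s : X.S, Ψ s = toQ L (TU.incl (u.1 s))) (Cσ : GQ → Adj rG)
    (hC : ∀ σ x, zHom hζ (traceFun p rG (Cσ σ) (piH hfull x)) = wCoc Ψ σ x)
    (hcyc : ∀ (σ : GQ) (n : ℕ), (∀ μ : QBar, μ ^ p = 1 → σ μ = μ ^ n) →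
      (rQ rG σ).det = (n : k))
    (Z : Deform.M2 k) (hZt : Z.trace = 0)
    (hZ : ∀ g, Adj.mat (Cσ g) = TWPrimes.cobd (rQ rG) Z g) :
    ∃ ψ, X.res (TU L T) ψ = u := by
  let ZA : Adj rG := Adj.mk Z hZt
  let η : X.P →+ Additive QBarˣ := (zHom hζ).comp ((traceFun p rG ZA).comp (piH hfull))
  let Ψ' := Ψ - η
  have hinv : ∀ (σ : GQ) (x : X.P), σ • Ψ' ((res L σ)⁻¹ • x) = Ψ' x := fun σ x => by
    obtain ⟨n, hn⟩ := Tangent.exists_pow_eq_on_roots p σ
    have h1 : Cσ σ = (rQ rG σ).det • (res L σ • ZA) - ZA := Adj.mat_injective (by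
      rw [map_sub, ← ad_mat]; exact hZ σ)
    have h3 : wCoc Ψ σ x = σ • η ((res L σ)⁻¹ • x) - η x := by
      rw [← hC, h1, map_sub (traceFun p rG), AddMonoidHom.sub_apply, map_sub,
        traceFun_twist hfull σ _ x n (hcyc σ n hn)]
      congr 1
      exact (smul_zHom hζ hn _).symm
    show σ • (Ψ _ - η _) = Ψ x - η x
    rw [smul_sub, ← sub_eq_zero]
    rw [show wCoc Ψ σ x = σ • Ψ ((res L σ)⁻¹ • x) - Ψ x from rfl, ← sub_eq_zero] at h3
    rw [← h3]
    abel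
  have hfix : ∀ x, ∀ σ : GQ, res L σ = 1 → σ • Ψ' x = Ψ' x := fun x σ hσ => by
    have := hinv σ x
    rwa [hσ, inv_one, one_smul] at this
  choose y hy using fun x => exists_toQ_eq (hfix x)
  have htoQ : Function.Injective (toQ L) := fun a c h => Additive.toMul.injective (Units.ext
    (Subtype.ext (congrArg (fun z : Additive QBarˣ => ((z.toMul : QBarˣ) : QBar)) h)))
  have hΨ'S : ∀ s : X.S, Ψ' s = toQ L (TU.incl (u.1 s)) := fun s => by
    show Ψ s - zHom hζ (traceFun p rG ZA (piH hfull s)) = _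
    rw [piH_S, map_zero, map_zero, sub_zero, hΨ']
  have hTU : ∀ x, y x ∈ tUnits L T := fun x w hw σ => by
    have hpy : p • y x = TU.incl (u.1 ⟨p • x, X.level x⟩) := htoQ (by
      rw [map_nsmul, hy, ← map_nsmul, ← hΨ'S])
    have hmem := TU.incl_mem (u.1 ⟨p • x, X.level x⟩) w hw σ
    rw [← hpy, map_nsmul, toMul_nsmul,
      show val ((diag L (y x)).toMul ^ p) w σ = (val (diag L (y x)).toMul w σ) ^ p from
        map_pow (valHom w σ) _ p, mem_unitGroup, Units.val_pow_eq_pow_val, norm_pow] at hmem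
    rw [mem_unitGroup]
    exact (pow_eq_one_iff_of_nonneg (norm_nonneg _) hp.out.ne_zero).mp hmem
  let ψ : X.K →+ TU L T := AddMonoidHom.mk' (fun x => TU.mk (y x) (hTU x)) fun a c =>
    TU.incl_injective (htoQ (by
      rw [map_add TU.incl, map_add (toQ L)]
      simp only [TU.incl_mk, hy, AddSubgroup.coe_add, map_add]))
  refine ⟨⟨ψ, fun g x => TU.incl_injective (htoQ ?_)⟩, Subtype.ext (AddMonoidHom.ext fun s =>
    TU.incl_injective (htoQ ?_))⟩
  · obtain ⟨σ, rfl⟩ := AlgEquiv.restrictNormalHom_surjective (K₁ := L) QBar g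
    show toQ L (y (res L σ • (x : X.P))) = toQ L (res L σ • y (x : X.P))
    rw [hy, ← smul_toQ, hy, ← hinv σ (res L σ • (x : X.P)), inv_smul_smul]
  · show toQ L (y (s : X.P)) = _
    rw [hy, hΨ'S]


set_option maxHeartbeats 4000000 in
include hfull in
/-- **Dual classes**: `u` is a restriction as soon as its class is a coboundary. -/
theorem exists_res_eq_of_killing (hp2 : p ≠ 2)
    {ζ : QBar} (hζ : IsPrimitiveRoot ζ p) (hζL : ζ ∈ L)
    (hcyc : ∀ (σ : GQ) (n : ℕ), (∀ μ : QBar, μ ^ p = 1 → σ μ = μ ^ n) →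
      (rQ rG σ).det = (n : k))
    (Unr Spl : Set Nat.Primes) (hUnrp : ∀ v ∈ Unr, (v : ℕ) ≠ p)
    (hUnri : ∀ v ∈ Unr, inertia (E L v) = ⊥)
    (hUnr : ∀ v ∈ Unr, ∃ F : equivHom (C := Loc L v) (IsStable.restrict X.hK (decomp L v)),
      ∀ s : X.S, CoInd.ev (iLoc L T v (u.1 s)) - F.1 (AddSubgroup.inclusion X.le s) ∈
        Loc.units v)
    (hSpl : ∀ v ∈ Spl, ∃ F : equivHom (C := Loc L v) (IsStable.restrict X.hK (decomp L v)),
      ∀ s : X.S, CoInd.ev (iLoc L T v (u.1 s)) = F.1 (AddSubgroup.inclusion X.le s))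
    (hkill : ∀ b : GQ → Deform.M2 k, TWPrimes.IsCocycle (rQ rG) b → Tangent.IsFiniteLevel b →
      (∀ v ∈ Unr, ∀ τ ∈ (padicPlace (v : ℕ)).inertiaSubgroupIn ℚ, b τ = 0) →
      (∀ v ∈ Spl, ∃ Z : Deform.M2 k, Z.trace = 0 ∧
        ∀ s ∈ (padicPlace (v : ℕ)).decompositionSubgroup ℚ, b s = TWPrimes.cobd (rQ rG) Z s) →
      ∃ Z : Deform.M2 k, Z.trace = 0 ∧ ∀ g, b g = TWPrimes.cobd (rQ rG) Z g) :
    ∃ ψ, X.res (TU L T) ψ = u := by
  have h2 : (2 : k) ≠ 0 := two_ne_zero_of_char p hp2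
  obtain ⟨Ψ, hΨ⟩ := exists_extend_qbar X.S X.level ((toQ L).comp (TU.incl.comp u.1))
  have hΨ' : ∀ s : X.S, Ψ s = toQ L (TU.incl (u.1 s)) := hΨ
  obtain ⟨Cσ, hC⟩ := exists_classFun hfull u hζ Ψ hΨ' h2
  let b : GQ → Deform.M2 k := fun σ => Adj.mat (Cσ σ)
  obtain ⟨M, hMf, hMn, hML, hMfix⟩ := exists_level (L := L) (X := X) Ψ
  haveI := hMf
  haveI := hMn
  have hblev : Tangent.IsFiniteLevel b := ⟨M, hMf, fun σ hσ =>
    class_eq_zero hfull hζ Ψ hC h2 ((res_eq_one_iff L).mpr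
      ((IntermediateField.mem_fixingSubgroup_iff _ _).mpr fun x hx => hσ x (hML hx)))
      fun x => Additive.toMul.injective (Units.ext (hσ _ (hMfix x)))⟩
  obtain ⟨Z, hZt, hZ⟩ := hkill b (isCocycle_class hfull hζ Ψ hC h2 hcyc) hblev
    (fun v hv τ hτ => class_unramified hfull u hζ Ψ hΨ' hC h2 (hUnrp v hv) (hUnri v hv)
      (hUnr v hv) hτ)
    (fun v hv => class_split hfull u hζ Ψ hΨ' hC h2 hcyc hML hMfix hζL (hSpl v hv))
  exact exists_res_of_coboundary hfull u hζ Ψ hΨ' Cσ hC hcyc Z hZt hZ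

end Final

end Fermat.Agent.CFT.GW
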