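import Fermat.Agent.CFT.Flat.Local
import Fermat.Agent.CFT.Tangent.LocalPlace
import Fermat.Agent.CFT.TWPrimes.Mat
import Mathlib.Algebra.CharP.Lemmas

/-!
# Normal forms of a residual representation on the decomposition group at `p`

Either the decomposition group is upper triangular in some frame, or tame inertia acts by
`diag (l, l ^ p)` with wild inertia acting trivially.
-/

set_option autoImplicit false
set_option linter.style.haveILetI false
set_option linter.unusedSectionVars false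

noncomputable section

namespace Fermat.Agent.CFT.GW

open Fermat.Agent.Arith Fermat.Agent.Deform Fermat.Agent.CFT.Tangent Fermat.Agent.CFT.Flat
open Module Matrix
open scoped Pointwise

variable {k : Type} [Field k]

/-- Two nilpotent matrices with orthogonal traces annihilate each other. -/
theorem mul_eq_zero_of_nilpotent {N N' : M2 k} (h : N * N = 0) (h' : N' * N' = 0)
    (ht : (N * N').trace = 0) : N' * N = 0 := by
  have t := TWPrimes.trace_eq_zero_of_sq h
  have t' := TWPrimes.trace_eq_zero_of_sq h'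
  have d := TWPrimes.det_eq_zero_of_sq h
  have d' := TWPrimes.det_eq_zero_of_sq h'
  rw [Matrix.trace_fin_two, add_eq_zero_iff_eq_neg'] at t t'
  rw [Matrix.det_fin_two, t] at d
  rw [Matrix.det_fin_two, t'] at d'
  simp only [Matrix.trace_fin_two, Matrix.mul_apply, Fin.sum_univ_two, t, t'] at ht
  ext i j
  fin_cases i <;> fin_cases j <;>
    simp [Matrix.mul_apply, Fin.sum_univ_two, t, t'] <;>
    refine pow_eq_zero_iff (n := 2) two_ne_zero |>.mp ?_
  · linear_combination (N' 0 1 * N 1 0) * ht - (N' 0 0) ^ 2 * d + (N 0 1 * N 1 0) * d'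
  · linear_combination -(N' 0 1 * N 0 1) * ht - (N 0 1) ^ 2 * d' - (N' 0 1) ^ 2 * d
  · linear_combination -(N' 1 0 * N 1 0) * ht - (N 1 0) ^ 2 * d' - (N' 1 0) ^ 2 * d
  · linear_combination (N' 1 0 * N 0 1) * ht - (N' 0 0) ^ 2 * d + (N 0 1 * N 1 0) * d'

/-- A frame with prescribed first vector. -/
theorem exists_frame_of_ne_zero {v : Fin 2 → k} (hv : v ≠ 0) :
    ∃ Z Zi : M2 k, Z * Zi = 1 ∧ Zi * Z = 1 ∧ ∀ i, Z i 0 = v i := by
  suffices h : ∃ Z : M2 k, Z.det ≠ 0 ∧ ∀ i, Z i 0 = v i by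
    obtain ⟨Z, hd, hi⟩ := h
    have hu : IsUnit Z.det := isUnit_iff_ne_zero.mpr hd
    exact ⟨Z, Z⁻¹, Matrix.mul_nonsing_inv Z hu, Matrix.nonsing_inv_mul Z hu, hi⟩
  rcases eq_or_ne (v 0) 0 with h0 | h0
  · refine ⟨!![v 0, 1; v 1, 0], ?_, fun i => by fin_cases i <;> simp⟩
    rw [Matrix.det_fin_two_of, mul_zero, one_mul, zero_sub, neg_ne_zero]
    intro h1
    exact hv (funext fun i => by fin_cases i <;> assumption)
  · exact ⟨!![v 0, 0; v 1, 1], by simp [Matrix.det_fin_two_of, h0],
      fun i => by fin_cases i <;> simp⟩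

/-- A stable line gives an upper triangular frame. -/
theorem upper_of_eigvec {A Z Zi : M2 k} (h2 : Zi * Z = 1) {v : Fin 2 → k} (hZ : ∀ i, Z i 0 = v i)
    {c : k} (h : A *ᵥ v = c • v) : (Zi * A * Z) 1 0 = 0 := by
  have e : (Zi * A * Z) 1 0 = (Zi *ᵥ (A *ᵥ v)) 1 := by
    rw [Matrix.mulVec_mulVec]
    simp [Matrix.mul_apply, Matrix.mulVec, dotProduct, Fin.sum_univ_two, hZ]
  have e' : (Zi *ᵥ v) 1 = (Zi * Z) 1 0 := by
    simp [Matrix.mul_apply, Matrix.mulVec, dotProduct, Fin.sum_univ_two, hZ]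
  rw [e, h, Matrix.mulVec_smul, Pi.smul_apply, e', h2]
  simp

/-- An eigenvector for a root of the characteristic polynomial. -/
theorem exists_eigvec {A : M2 k} {α β : k} (ht : A.trace = α + β) (hd : A.det = α * β) :
    ∃ v : Fin 2 → k, v ≠ 0 ∧ A *ᵥ v = α • v := by
  have h : (A - α • 1).det = 0 := by
    rw [Matrix.det_fin_two] at hd ⊢
    rw [Matrix.trace_fin_two] at ht
    simp
    linear_combination hd - α * ht
  obtain ⟨v, hv, hAv⟩ := Matrix.exists_mulVec_eq_zero_iff.mpr h
  refine ⟨v, hv, sub_eq_zero.mp ?_⟩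
  rw [← hAv, Matrix.sub_mulVec, Matrix.smul_mulVec, Matrix.one_mulVec]

variable {p : ℕ} [hp : Fact p.Prime] [CharP k p] [Finite k] {r : Gal →* M2 k}

/-- The two normal forms on the decomposition group. -/
theorem exists_normal_form (hr : GaloisFactorsThroughFiniteLevel r)
    (hsplit : ∀ σ : Gal, ∃ α β : k, (r σ).trace = α + β ∧ (r σ).det = α * β)
    {τ : Gal} (hτ : τ ∈ inG p) :
    (∃ Z Zi : M2 k, Z * Zi = 1 ∧ Zi * Z = 1 ∧ ∀ g ∈ decG p, (Zi * r g * Z) 1 0 = 0) ∨
    ((∀ g ∈ tame p, r g = 1) ∧ ∃ Z Zi : M2 k, Z * Zi = 1 ∧ Zi * Z = 1 ∧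
      ∃ l : k, l ^ e₀ p = 1 ∧ Zi * r τ * Z = !![l, 0; 0, l ^ p]) := by
  classical
  by_cases hline : ∃ v : Fin 2 → k, v ≠ 0 ∧ ∀ g ∈ decG p, ∃ c : k, r g *ᵥ v = c • v
  · obtain ⟨v, hv, hgv⟩ := hline
    obtain ⟨Z, Zi, h1, h2, hZ⟩ := exists_frame_of_ne_zero hv
    exact Or.inl ⟨Z, Zi, h1, h2, fun g hg => upper_of_eigvec h2 hZ (hgv g hg).choose_spec⟩
  push Not at hline
  refine Or.inr ?_
  -- a normal level and the tame character
  obtain ⟨L, hLf, hLn, hL⟩ := exists_common_level hr (⊥ : Submodule k (Gal → M2 k))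
    fun b hb => ⟨⊥, inferInstance, fun σ _ => by rw [(Submodule.mem_bot k).mp hb]; rfl⟩
  haveI : IsGalois ℚ L := ⟨⟩
  haveI hnormal : L.fixingSubgroup.Normal := (InfiniteGalois.normal_iff_isGalois L).mpr ‹_›
  set H := inG p ⊓ L.fixingSubgroup with hHdef
  have hH : IsLevel p H := ⟨inf_le_left, L, inferInstance, le_rfl⟩
  have hnorm : ∀ g ∈ inG p, ∀ h ∈ H, g⁻¹ * h * g ∈ H := fun g hg h hh =>
    ⟨(inG p).mul_mem ((inG p).mul_mem ((inG p).inv_mem hg) hh.1) hg, by
      simpa using hnormal.conj_mem h hh.2 g⁻¹⟩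
  have hrL : ∀ g ∈ L.fixingSubgroup, r g = 1 := fun g hg =>
    (hL g ((IntermediateField.mem_fixingSubgroup_iff L g).mp hg)).1
  obtain ⟨π, z, -, hzroot, -, -, hzH, hwild, hfr⟩ := exists_tame_char p hH hnorm
  obtain ⟨φ, hφ, -, hfrob⟩ := exists_frobenius_rad p
  have hI := inG_le_decG p
  have hinvmul : ∀ g, r g⁻¹ * r g = 1 := Tangent.map_inv_mul r
  -- elements killed by `z` are unipotent
  have hunip : ∀ g : inG p, z g = 1 → (r g - 1) * (r g - 1) = 0 := by
    intro g hg
    obtain ⟨a, ha⟩ := hwild g hg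
    have h1 : r g ^ p ^ a = 1 := by
      rw [← map_pow, ← Subgroup.coe_pow]
      exact hrL _ ha.2
    have h0 : (r g - 1) ^ p ^ a = 0 := by
      rw [sub_pow_char_pow_of_commute p a (Commute.one_right _), h1, one_pow, sub_self]
    have h2 : IsNilpotent (r g - 1) := ⟨p ^ a, h0⟩
    exact TWPrimes.sq_zero_of_trace_det (Matrix.isNilpotent_trace_of_isNilpotent h2).eq_zero
      ((pow_eq_zero_iff (pow_ne_zero a hp.out.ne_zero)).mp
        (by rw [← Matrix.det_pow, h0, Matrix.det_zero]))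
  -- conjugates of such elements are killed by `z`
  have hzconj : ∀ σ ∈ decG p, ∀ g h : inG p, (h : GQ) = σ * g * σ⁻¹ → z g = 1 → z h = 1 := by
    intro σ _ g h hgh hg
    obtain ⟨a, ha⟩ := hwild g hg
    have h1 : z (h ^ p ^ a) = 1 := by
      refine hzH _ ⟨(h ^ p ^ a).2, ?_⟩
      rw [Subgroup.coe_pow, hgh, conj_pow, ← Subgroup.coe_pow]
      exact hnormal.conj_mem _ ha.2 σ
    rw [map_pow] at h1
    obtain ⟨m, -, hpm, hm⟩ := hzroot h
    refine orderOf_eq_one_iff.mp (Nat.eq_one_of_dvd_one ?_)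
    have hcop : Nat.Coprime (p ^ a) m := ((hp.out.coprime_iff_not_dvd).mpr hpm).pow_left a
    rw [← hcop.gcd_eq_one]
    exact Nat.dvd_gcd (orderOf_dvd_of_pow_eq_one h1) (orderOf_dvd_of_pow_eq_one hm)
  -- wild inertia acts trivially, having otherwise a stable line
  have hwild1 : ∀ g : inG p, z g = 1 → r g = 1 := by
    intro g hg
    by_contra hne
    set N := r g - 1 with hN
    have hN0 : N ≠ 0 := sub_ne_zero.mpr hne
    obtain ⟨i, j, hij⟩ : ∃ i j, N i j ≠ 0 := by
      by_contra hcon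
      push Not at hcon
      exact hN0 (Matrix.ext hcon)
    set v : Fin 2 → k := fun i => N i j with hvdef
    have hv : v ≠ 0 := fun h => hij (congrFun h i)
    have hNv : N *ᵥ v = 0 := funext fun a => by
      have := congrFun (congrFun (hunip g hg) a) j
      simpa [hvdef, hN, Matrix.mulVec, dotProduct, Matrix.mul_apply] using this
    obtain ⟨σ, hσ, hσv⟩ := hline v hv
    have hmem : σ⁻¹ * (g : GQ) * σ ∈ inG p := conj_mem_inG (p := p) hσ g.2
    set h : inG p := ⟨_, hmem⟩
    have hh : z h = 1 := hzconj σ⁻¹ ((decG p).inv_mem hσ) g h (by rw [inv_inv]) hg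
    have hgh : z (g * h) = 1 := by rw [map_mul, hg, hh, one_mul]
    set N' := r h - 1 with hN'
    have ht : (N * N').trace = 0 := by
      have h1 := TWPrimes.trace_eq_zero_of_sq (hunip _ hgh)
      have h2 := TWPrimes.trace_eq_zero_of_sq (hunip g hg)
      have h3 := TWPrimes.trace_eq_zero_of_sq (hunip h hh)
      rw [show r ((g * h : inG p) : GQ) - 1 = N * N' + N + N' by
        rw [hN, hN', Subgroup.coe_mul, map_mul]; noncomm_ring, Matrix.trace_add,
        Matrix.trace_add, h2, h3, add_zero, add_zero] at h1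
      exact h1
    have hprod := mul_eq_zero_of_nilpotent (hunip g hg) (hunip h hh) ht
    have hN'v : N' *ᵥ v = 0 := funext fun a => by
      have := congrFun (congrFun hprod a) j
      simpa [hvdef, hN, hN', Matrix.mulVec, dotProduct, Matrix.mul_apply] using this
    -- hence `N` kills `r σ v`
    have hN'eq : N' = r σ⁻¹ * N * r σ := by
      rw [hN', hN, mul_sub, sub_mul, mul_one, hinvmul σ, ← map_mul, ← map_mul]
    have hNσ : N *ᵥ (r σ *ᵥ v) = 0 := by
      have e := congrArg (fun x => r σ *ᵥ x) hN'v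
      simp only [Matrix.mulVec_zero, hN'eq, Matrix.mulVec_mulVec] at e
      rw [← mul_assoc (r σ), ← mul_assoc (r σ), Tangent.map_mul_inv, one_mul] at e
      rw [Matrix.mulVec_mulVec]
      exact e
    obtain ⟨Z, Zi, hZ1, hZ2, hZ⟩ := exists_frame_of_ne_zero hv
    set M := N * Z with hM
    have hM0 : ∀ a, M a 0 = 0 := fun a => by
      have := congrFun hNv a
      simpa [hM, Matrix.mulVec, dotProduct, Matrix.mul_apply, hZ] using this
    set u := Zi *ᵥ (r σ *ᵥ v) with hu
    have hMu : M *ᵥ u = 0 := by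
      rw [hM, hu, Matrix.mulVec_mulVec, mul_assoc, hZ1, mul_one, hNσ]
    have hu1 : u 1 = 0 := by
      by_contra hu1
      refine hN0 ?_
      have hMz : M = 0 := by
        ext a b
        fin_cases b
        · exact hM0 a
        · have := congrFun hMu a
          simp [Matrix.mulVec, dotProduct, hM0 a, hu1] at this
          simpa using this
      calc N = M * Zi := by rw [hM, mul_assoc, hZ1, mul_one]
        _ = 0 := by rw [hMz, zero_mul]
    refine hσv (u 0) ?_
    have : r σ *ᵥ v = Z *ᵥ u := by rw [hu, Matrix.mulVec_mulVec, hZ1, Matrix.one_mulVec]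
    rw [this]
    funext a
    simp [Matrix.mulVec, dotProduct, hu1, hZ, mul_comm]
  have hcomm : ∀ g h : inG p, r g * r h = r h * r g := by
    intro g h
    have h1 : z ((h * g)⁻¹ * (g * h)) = 1 := by
      rw [map_mul, map_mul z g, mul_comm (z g), ← map_mul z h, ← map_mul, inv_mul_cancel, map_one]
    have h2 := hwild1 _ h1
    rw [← map_mul, ← map_mul, ← Subgroup.coe_mul, ← Subgroup.coe_mul]
    calc r ((g * h : inG p) : GQ) = r ((h * g : inG p) : GQ) *
          r (((h * g)⁻¹ * (g * h) : inG p) : GQ) := by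
          rw [← map_mul, ← Subgroup.coe_mul, mul_inv_cancel_left]
      _ = _ := by rw [h2, mul_one]
  have hfrobI : ∀ g : inG p, r φ * r g = r g ^ p * r φ := by
    intro g
    have hmem : φ * (g : GQ) * φ⁻¹ ∈ inG p := by
      have := conj_mem_inG (p := p) ((decG p).inv_mem hφ) g.2
      rwa [inv_inv] at this
    have h1 : z ((g ^ p)⁻¹ * ⟨_, hmem⟩) = 1 := by
      rw [map_mul, hfr φ hφ hfrob g ⟨_, hmem⟩ rfl, ← map_pow, ← map_mul, inv_mul_cancel, map_one]
    have h2 := hwild1 _ h1
    have h3 : r (φ * (g : GQ) * φ⁻¹) = r g ^ p := by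
      calc r (φ * (g : GQ) * φ⁻¹) = r ((g ^ p : inG p) : GQ) *
            r (((g ^ p)⁻¹ * ⟨_, hmem⟩ : inG p) : GQ) := by
            rw [← map_mul, ← Subgroup.coe_mul, mul_inv_cancel_left]
        _ = _ := by rw [h2, mul_one, Subgroup.coe_pow, map_pow]
    rw [← h3, ← map_mul, ← map_mul, inv_mul_cancel_right]
  -- some inertia element has two eigenvalues
  obtain ⟨g₀, α, β, hαβ, htr₀, hdet₀⟩ : ∃ (g : inG p) (α β : k),
      α ≠ β ∧ (r g).trace = α + β ∧ (r g).det = α * β := by
    by_contra hcon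
    push Not at hcon
    have hscalar : ∀ g : inG p, ∃ a : k, r g = a • 1 := by
      intro g
      obtain ⟨α, β, ht, hd⟩ := hsplit (g : GQ)
      have hαβ : α = β := by
        by_contra hne
        exact hcon g α β hne ht hd
      subst hαβ
      obtain ⟨m, -, hpm, hm⟩ := hzroot g
      have hm1 : r g ^ m = 1 := by
        rw [← map_pow, ← Subgroup.coe_pow]
        exact hwild1 _ (by rw [map_pow, hm])
      obtain ⟨N, hN⟩ : ∃ N, N = r g - α • 1 := ⟨_, rfl⟩
      have hNN : N * N = 0 := by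
        refine TWPrimes.sq_zero_of_trace_det ?_ ?_
        · rw [hN, Matrix.trace_sub, ht, Matrix.trace_smul, Matrix.trace_one, Fintype.card_fin,
            smul_eq_mul]
          push_cast; ring
        · rw [Matrix.det_fin_two] at hd ⊢
          rw [Matrix.trace_fin_two] at ht
          simp [hN]
          linear_combination hd - α * ht
      have hgN : r g = α • 1 + N := by rw [hN]; abel
      have hpow : ∀ i : ℕ, (α • (1 : M2 k) + N) ^ (i + 1) =
          α ^ (i + 1) • 1 + ((i + 1 : ℕ) * α ^ i) • N := by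
        intro i
        induction i with
        | zero => simp
        | succ i ih =>
          rw [pow_succ, ih]
          simp only [add_mul, mul_add, smul_mul_assoc, mul_smul_comm, one_mul, mul_one, hNN,
            smul_zero, add_zero, smul_smul]
          match_scalars <;> push_cast <;> ring
      obtain ⟨i, rfl⟩ : ∃ i, m = i + 1 := ⟨m - 1, by
        have : m ≠ 0 := fun h => hpm (h ▸ dvd_zero p)
        omega⟩
      rw [hgN, hpow] at hm1
      have hα0 : α ≠ 0 := fun h => det_map_ne_zero r (g : GQ) (by rw [hd, h, mul_zero])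
      have hc : ((i + 1 : ℕ) : k) * α ^ i ≠ 0 := mul_ne_zero
        (fun h => hpm ((CharP.cast_eq_zero_iff k p _).mp h)) (pow_ne_zero _ hα0)
      set c := ((i + 1 : ℕ) : k) * α ^ i
      have hNs : N = (c⁻¹ * (1 - α ^ (i + 1))) • (1 : M2 k) := by
        have e : c • N = 1 - α ^ (i + 1) • (1 : M2 k) := eq_sub_of_add_eq' hm1
        rw [mul_smul, sub_smul, one_smul, ← e, smul_smul, inv_mul_cancel₀ hc, one_smul]
      exact ⟨α + c⁻¹ * (1 - α ^ (i + 1)), by rw [hgN, add_smul, ← hNs]⟩
    obtain ⟨α, β, ht, hd⟩ := hsplit φ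
    obtain ⟨v, hv, hφv⟩ := exists_eigvec ht hd
    obtain ⟨σ, hσ, hσv⟩ := hline v hv
    have hF : (padicPlace p).IsFrobeniusAt φ p :=
      isFrobeniusAt_iff_forall_mem.mpr ⟨MulAction.mem_stabilizer_iff.mp hφ, fun x hx =>
        (mem_nonunits_iff p).mpr (hfrob x ((mem_place_iff p).mp hx))⟩
    obtain ⟨i, t, ht', hagree⟩ := exists_frobenius_mul_inertia L hF hσ
    obtain ⟨a, ha⟩ := hscalar ⟨t, ht'⟩
    refine hσv (α ^ i * a) ?_
    have hpowv : ∀ i : ℕ, (r φ) ^ i *ᵥ v = α ^ i • v := by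
      intro i
      induction i with
      | zero => simp
      | succ i ih =>
        rw [pow_succ', ← Matrix.mulVec_mulVec, ih, Matrix.mulVec_smul, hφv, smul_smul, ← pow_succ]
    rw [map_eq_of_agree (fun σ h => (hL σ h).1) hagree, map_mul, map_pow,
      show r t = a • 1 from ha, mul_smul_comm, mul_one, Matrix.smul_mulVec, hpowv, smul_smul,
      mul_comm]
  -- the frame
  obtain ⟨v, hv, hgv⟩ := exists_eigvec htr₀ hdet₀
  obtain ⟨w, hw, hgw⟩ := exists_eigvec (htr₀.trans (add_comm _ _)) (hdet₀.trans (mul_comm _ _))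
  set Z : M2 k := !![v 0, w 0; v 1, w 1] with hZdef
  have hdetZ : IsUnit Z.det := by
    refine isUnit_iff_ne_zero.mpr fun h0 => ?_
    obtain ⟨u, hu, hZu⟩ := Matrix.exists_mulVec_eq_zero_iff.mpr h0
    have e : u 0 • v + u 1 • w = 0 := by
      rw [← hZu]; funext i
      fin_cases i <;> simp [hZdef, Matrix.mulVec, dotProduct] <;> ring
    have e' := congrArg (fun x => r g₀ *ᵥ x) e
    simp only [Matrix.mulVec_add, Matrix.mulVec_smul, hgv, hgw, Matrix.mulVec_zero, smul_smul] at e'
    have e1 : (u 0 * (α - β)) • v = 0 := by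
      funext i
      have h1 := congrFun e i
      have h1' := congrFun e' i
      simp only [Pi.add_apply, Pi.smul_apply, Pi.zero_apply, smul_eq_mul] at h1 h1' ⊢
      linear_combination h1' - β * h1
    have hu0 : u 0 = 0 := by
      simpa [sub_ne_zero.mpr hαβ, hv] using e1
    rw [hu0, zero_smul, zero_add, smul_eq_zero] at e
    exact hu (funext fun i => by fin_cases i <;> simp [hu0, e.resolve_right hw])
  set Zi := Z⁻¹
  have h1 : Z * Zi = 1 := Matrix.mul_nonsing_inv Z hdetZ
  have h2 : Zi * Z = 1 := Matrix.nonsing_inv_mul Z hdetZ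
  have hconj : ∀ a b : GQ, Zi * r a * Z * (Zi * r b * Z) = Zi * (r a * r b) * Z := fun a b => by
    calc Zi * r a * Z * (Zi * r b * Z) = Zi * r a * (Z * Zi) * r b * Z := by
          simp only [mul_assoc]
      _ = _ := by rw [h1, mul_one]; simp only [mul_assoc]
  have hD0 : Zi * r g₀ * Z = !![α, 0; 0, β] := by
    have : r g₀ * Z = Z * !![α, 0; 0, β] := by
      ext i j
      have e1 := congrFun hgv i
      have e2 := congrFun hgw i
      fin_cases i <;> fin_cases j <;>
        simp [hZdef, Matrix.mul_apply, Matrix.mulVec, dotProduct, Fin.sum_univ_two] at e1 e2 ⊢ <;>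
        first | linear_combination e1 | linear_combination e2
    rw [mul_assoc, this, ← mul_assoc, h2, one_mul]
  have hdiag : ∀ g : inG p, ∃ a d : k, Zi * r g * Z = !![a, 0; 0, d] := by
    intro g
    have e : Zi * r g * Z * (Zi * r g₀ * Z) = Zi * r g₀ * Z * (Zi * r g * Z) := by
      rw [hconj, hconj, hcomm]
    rw [hD0] at e
    refine ⟨(Zi * r g * Z) 0 0, (Zi * r g * Z) 1 1, ?_⟩
    generalize Zi * r g * Z = A at e ⊢
    have e01 := congrFun (congrFun e 0) 1
    have e10 := congrFun (congrFun e 1) 0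
    simp [Matrix.mul_apply, Fin.sum_univ_two] at e01 e10
    ext i j
    fin_cases i <;> fin_cases j <;> simp
    · refine (mul_eq_zero.mp (show (β - α) * A 0 1 = 0 by linear_combination e01)).resolve_left
        (sub_ne_zero.mpr (Ne.symm hαβ))
    · refine (mul_eq_zero.mp (show (α - β) * A 1 0 = 0 by linear_combination e10)).resolve_left
        (sub_ne_zero.mpr hαβ)
  have hpowdiag : ∀ (g : GQ) (a d : k), Zi * r g * Z = !![a, 0; 0, d] → ∀ i : ℕ,
      Zi * r g ^ i * Z = !![a ^ i, 0; 0, d ^ i] := by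
    intro g a d h i
    induction i with
    | zero => rw [pow_zero, mul_one, h2]; ext i j; fin_cases i <;> fin_cases j <;> simp
    | succ i ih =>
      rw [pow_succ, ← map_pow r, ← hconj, map_pow, ih, h]
      ext a b; fin_cases a <;> fin_cases b <;> simp [pow_succ]
  set Φ := Zi * r φ * Z with hΦ
  have hΦrel : ∀ (g : inG p) (a d : k), Zi * r g * Z = !![a, 0; 0, d] →
      Φ * !![a, 0; 0, d] = !![a ^ p, 0; 0, d ^ p] * Φ := by
    intro g a d h
    rw [← hpowdiag g a d h p, ← h, hΦ, hconj, hfrobI, ← map_pow, hconj]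
  have hF : (padicPlace p).IsFrobeniusAt φ p :=
    isFrobeniusAt_iff_forall_mem.mpr ⟨MulAction.mem_stabilizer_iff.mp hφ, fun x hx =>
      (mem_nonunits_iff p).mpr (hfrob x ((mem_place_iff p).mp hx))⟩
  have hoff : ∀ (i : Fin 2), Φ (1 - i) i ≠ 0 := by
    intro i hzero
    set e : Fin 2 → k := Pi.single i 1 with he
    have hne : Z *ᵥ e ≠ 0 := fun h => by
      have h' := congrArg (fun x => Zi *ᵥ x) h
      simp only [Matrix.mulVec_mulVec, h2, Matrix.one_mulVec, Matrix.mulVec_zero] at h'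
      simpa [he] using congrFun h' i
    obtain ⟨σ, hσ, hσv⟩ := hline _ hne
    obtain ⟨j, t, ht', hagree⟩ := exists_frobenius_mul_inertia L hF hσ
    have hst : ∀ A : M2 k, A (1 - i) i = 0 → A *ᵥ e = A i i • e := fun A hA => by
      funext a
      fin_cases i <;> fin_cases a <;> simp [he, Matrix.mulVec, dotProduct] at hA ⊢ <;> exact hA
    have hΦpow : ∀ j : ℕ, (Zi * r φ ^ j * Z) (1 - i) i = 0 := by
      intro j
      induction j with
      | zero => rw [pow_zero, mul_one, h2]; fin_cases i <;> simp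
      | succ j ih =>
        rw [pow_succ, ← map_pow, ← hconj, map_pow, ← hΦ]
        fin_cases i <;> simp [Matrix.mul_apply] at ih hzero ⊢ <;> simp [ih, hzero]
    obtain ⟨a, d, had⟩ := hdiag ⟨t, ht'⟩
    have hB : (Zi * r σ * Z) (1 - i) i = 0 := by
      rw [map_eq_of_agree (fun σ h => (hL σ h).1) hagree, map_mul, map_pow, ← map_pow, ← hconj,
        map_pow, show Zi * r t * Z = !![a, 0; 0, d] from had]
      have := hΦpow j
      fin_cases i <;> simp [Matrix.mul_apply] at this ⊢ <;> simp [this]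
    refine hσv ((Zi * r σ * Z) i i) ?_
    have e' := congrArg (fun x => Z *ᵥ x) (hst _ hB)
    simp only [Matrix.mulVec_mulVec, Matrix.mulVec_smul] at e'
    rw [← mul_assoc, ← mul_assoc, h1, one_mul] at e'
    rw [Matrix.mulVec_mulVec, e']
  have hrel : ∀ (g : inG p) (a d : k), Zi * r g * Z = !![a, 0; 0, d] →
      d = a ^ p ∧ a = d ^ p ∧ a ^ e₀ p = 1 := by
    intro g a d h
    have e := hΦrel g a d h
    have e01 := congrFun (congrFun e 0) 1
    have e10 := congrFun (congrFun e 1) 0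
    simp [Matrix.mul_apply, Fin.sum_univ_two] at e01 e10
    have n01 := hoff 1
    have n10 := hoff 0
    simp at n01 n10
    have had : d = a ^ p := mul_left_cancel₀ n01 (e01.trans (mul_comm _ _))
    have hda : a = d ^ p := mul_left_cancel₀ n10 (e10.trans (mul_comm _ _))
    have ha0 : a ≠ 0 := fun h0 => det_map_ne_zero r (g : GQ) (by
      have hdd := congrArg Matrix.det h
      rw [Matrix.det_mul, Matrix.det_mul, h0,
        show (!![(0 : k), 0; 0, d]).det = 0 by simp [Matrix.det_fin_two]] at hdd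
      have hu : Zi.det * Z.det = 1 := by rw [← Matrix.det_mul, h2, Matrix.det_one]
      linear_combination hdd - (r (g : GQ)).det * hu)
    refine ⟨had, hda, mul_left_cancel₀ ha0 ?_⟩
    rw [mul_one, ← pow_succ', show e₀ p + 1 = p * p by
      rw [e₀, pow_two]; have := Nat.mul_pos hp.out.pos hp.out.pos; omega, pow_mul, ← had, ← hda]
  have hexp : ∀ g : inG p, r g ^ e₀ p = 1 := by
    intro g
    obtain ⟨a, d, had⟩ := hdiag g
    obtain ⟨hd, -, ha⟩ := hrel g a d had
    have hd' : d ^ e₀ p = 1 := by rw [hd, ← pow_mul, mul_comm, pow_mul, ha, one_pow]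
    have e := hpowdiag g a d had (e₀ p)
    rw [ha, hd'] at e
    calc r g ^ e₀ p = Z * (Zi * r g ^ e₀ p * Z) * Zi := by
          rw [← mul_assoc Z, ← mul_assoc Z, h1, one_mul, mul_assoc, h1, mul_one]
      _ = 1 := by
          rw [e, show (!![(1 : k), 0; 0, 1]) = 1 by
            ext i j; fin_cases i <;> fin_cases j <;> simp, mul_one, h1]
  refine ⟨fun g hg => ?_, Z, Zi, h1, h2, ?_⟩
  · exact eq_one_of_mem_tame p (r.comp (inG p).subtype) hH hnorm
      (fun h hh => hrL h hh.2) hexp hg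
  · obtain ⟨a, d, had⟩ := hdiag ⟨τ, hτ⟩
    obtain ⟨hd, -, ha⟩ := hrel _ a d had
    exact ⟨a, ha, by rw [← hd]; exact had⟩

end Fermat.Agent.CFT.GW
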