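import Fermat.Agent.CFT.GW.FlatClass
import Fermat.Agent.CFT.GW.FlatFrame
import Fermat.Prelude.Def_GaloisRep_Flat

/-!
# The local bound at `p` for flat tangent classes

Classes restricted to the decomposition group together with all coboundaries of trace zero
matrices form a space of dimension at most four.
-/

set_option autoImplicit false
set_option linter.style.haveILetI false
set_option linter.unusedSectionVars false
set_option synthInstance.maxHeartbeats 200000
set_option maxHeartbeats 400000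

noncomputable section

namespace Fermat.Agent.CFT.GW

open Fermat.Agent.Arith Fermat.Agent.Deform Fermat.Agent.CFT.Tangent Fermat.Agent.CFT.Flat
open Module Matrix

variable {p : ℕ} [hp : Fact p.Prime] {k : Type} [Field k] [Finite k] [CharP k p] {r : Gal →* M2 k}

/-- An embedding of a finite field into the residue field at the place over `p`. -/
theorem nonempty_embedding_res : Nonempty (k →+* Res p) := by
  have hA := Local.padicPlace_liesOverPrime p
  haveI : CharP (Res p) p := residueField_charP hA hp.out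
  haveI : IsAlgClosed (Res p) := residueField_isAlgClosed (padicPlace p)
  letI : Algebra (ZMod p) (Res p) := ZMod.algebra _ p
  letI : Algebra (ZMod p) k := ZMod.algebra _ p
  exact ⟨(IsAlgClosed.lift : k →ₐ[ZMod p] Res p).toRingHom⟩

theorem det_frameRep {Z Zi : M2 k} (h1 : Z * Zi = 1) (h2 : Zi * Z = 1) (g : Gal) :
    (frameRep r h1 h2 g).det = (r g).det := by
  rw [frameRep_apply, Matrix.det_mul, Matrix.det_mul, mul_right_comm, ← Matrix.det_mul, h2,
    Matrix.det_one, one_mul]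

theorem finiteLevel_frameRep (hr : GaloisFactorsThroughFiniteLevel r) {Z Zi : M2 k}
    (h1 : Z * Zi = 1) (h2 : Zi * Z = 1) :
    GaloisFactorsThroughFiniteLevel (frameRep r h1 h2) := by
  obtain ⟨L, hL, h⟩ := hr
  exact ⟨L, hL, fun σ hσ => by rw [frameRep_apply, h σ hσ, mul_one, h2]⟩

/-- The determinant is not trivial at a tame generator. -/
theorem det_tame_ne_one [Algebra (ZMod p) k] (hp2 : p ≠ 2)
    (hcyc : ∀ (σ : GQ) (n : ℕ), (∀ μ : QBar, μ ^ p = 1 → σ μ = μ ^ n) → (r σ).det = (n : k))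
    (ι : k →+* Res p) {τ : GQ} (hτ : τ ∈ inG p) (hτprim : IsPrimitiveRoot (theta p τ) (e₀ p)) :
    (r τ).det ≠ 1 := fun h1 => by
  have h := iota_det hcyc ι hτ
  rw [h1, map_one] at h
  have h3 := Nat.le_of_dvd (Nat.succ_pos p)
    ((isPrimitiveRoot_thetaBar p hτprim).dvd_of_pow_eq_one _ h.symm)
  rw [e₀_eq] at h3
  have : 2 ≤ p - 1 := by have := hp.out.two_le; omega
  have := Nat.mul_le_mul_left (p + 1) this
  omega

/-- The hypothesis of the count in the exceptional case. -/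
def Special (r : Gal →* M2 k) (τ : Gal) : Prop :=
  r τ 0 0 / r τ 1 1 = (r τ).det ∧ r τ 1 1 / r τ 0 0 = (r τ).det

/-- The diagonal characters on inertia are determined by their values at a tame generator. -/
theorem diag_eq_one_of_upper [Algebra (ZMod p) k] (hr : GaloisFactorsThroughFiniteLevel r)
    (hup : ∀ g ∈ decG p, r g 1 0 = 0) {τ : GQ} (hτ : τ ∈ inG p)
    (hgen : ∀ g ∈ inG p, ∃ i : ℕ, (τ ^ i)⁻¹ * g ∈ tame p) (i : Fin 2) (h : r τ i i = 1) :
    ∀ g ∈ inG p, r g i i = 1 := by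
  obtain ⟨L, hLf, hLn, hL⟩ := exists_common_level hr (⊥ : Submodule k (Gal → M2 k))
    fun b hb => ⟨⊥, inferInstance, fun σ _ => by rw [(Submodule.mem_bot k).mp hb]; rfl⟩
  have hmul : ∀ g ∈ decG p, ∀ g' ∈ decG p, r (g * g') i i = r g i i * r g' i i := by
    intro g hg g' hg'
    fin_cases i <;> simp [Matrix.mul_apply, Fin.sum_univ_two, hup g hg, hup g' hg']
  have hone : r 1 i i = 1 := by simp
  obtain ⟨ht, -⟩ := char_tame (p := p) (χ := fun g => r g i i) hmul hone L fun g hg _ => by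
    rw [(hL g ((IntermediateField.mem_fixingSubgroup_iff L g).mp hg)).1]; simp
  intro g hg
  obtain ⟨n, hn⟩ := hgen g hg
  have hpow : ∀ n : ℕ, r (τ ^ n) i i = 1 := by
    intro n
    induction n with
    | zero => simp
    | succ n ih =>
      rw [pow_succ, hmul _ ((decG p).pow_mem (inG_le_decG p hτ) n) _ (inG_le_decG p hτ), ih, h,
        mul_one]
  calc r g i i = r (τ ^ n * ((τ ^ n)⁻¹ * g)) i i := by rw [mul_inv_cancel_left]
    _ = 1 := by
      rw [hmul _ ((decG p).pow_mem (inG_le_decG p hτ) n) _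
        (mem_decG_of_mem_tame hn), hpow, ht _ hn, one_mul]

/-- The frames in which the count is made. -/
theorem exists_count_frame [Algebra (ZMod p) k] (hp2 : p ≠ 2)
    (hr : GaloisFactorsThroughFiniteLevel r)
    (hcyc : ∀ (σ : GQ) (n : ℕ), (∀ μ : QBar, μ ^ p = 1 → σ μ = μ ^ n) → (r σ).det = (n : k))
    (hsplit : ∀ σ : Gal, ∃ α β : k, (r σ).trace = α + β ∧ (r σ).det = α * β)
    {b : Gal → M2 k} (hb : FlatData p r b)
    (ι : k →+* Res p) {τ : GQ} (hτ : τ ∈ inG p) (hτprim : IsPrimitiveRoot (theta p τ) (e₀ p))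
    (hgen : ∀ g ∈ inG p, ∃ i : ℕ, (τ ^ i)⁻¹ * g ∈ tame p) :
    ∃ (Z Zi : M2 k) (h1 : Z * Zi = 1) (h2 : Zi * Z = 1),
      ((∀ g ∈ decG p, frameRep r h1 h2 g 1 0 = 0) ∧
        (Special (frameRep r h1 h2) τ → frameRep r h1 h2 τ 1 1 = 1)) ∨
      ((∀ g ∈ tame p, frameRep r h1 h2 g = 1) ∧
        ∃ l : k, l ^ e₀ p = 1 ∧ frameRep r h1 h2 τ = !![l, 0; 0, l ^ p]) := by
  classical
  rcases exists_normal_form hr hsplit hτ with ⟨Z, Zi, h1, h2, hup⟩ | ⟨ht, Z, Zi, h1, h2, l, hl, hd⟩
  swap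
  · exact ⟨Z, Zi, h1, h2, Or.inr ⟨fun g hg => by rw [frameRep_apply, ht g hg, mul_one, h2],
      l, hl, hd⟩⟩
  set r' := frameRep r h1 h2 with hr'
  have hup' : ∀ g ∈ decG p, r' g 1 0 = 0 := hup
  by_cases hgood : Special r' τ → r' τ 1 1 = 1
  · exact ⟨Z, Zi, h1, h2, Or.inl ⟨hup', hgood⟩⟩
  push Not at hgood
  obtain ⟨⟨e1, e2⟩, hne⟩ := hgood
  have ha₁ : (r' τ).det ≠ 1 := by rw [hr', det_frameRep]; exact det_tame_ne_one hp2 hcyc ι hτ hτprim
  have hτD := inG_le_decG p hτ
  have hdd : (r' τ).det = r' τ 0 0 * r' τ 1 1 := by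
    rw [Matrix.det_fin_two, hup' τ hτD, mul_zero, sub_zero]
  have hd0 : (r' τ).det ≠ 0 := det_map_ne_zero r' τ
  rw [hdd] at e1 e2 ha₁ hd0
  have n0 : r' τ 0 0 ≠ 0 := left_ne_zero_of_mul hd0
  have n1 : r' τ 1 1 ≠ 0 := right_ne_zero_of_mul hd0
  rw [div_eq_iff n1] at e1
  rw [div_eq_iff n0] at e2
  have hψ₂ : r' τ 1 1 = -1 := by
    have : r' τ 1 1 * r' τ 1 1 = 1 := mul_left_cancel₀ n0 (by linear_combination -e1)
    exact (mul_self_eq_one_iff.mp this).resolve_left hne
  have hψ₁ : r' τ 0 0 = 1 := by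
    have : r' τ 0 0 * r' τ 0 0 = 1 := mul_left_cancel₀ n1 (by linear_combination -e2)
    refine (mul_self_eq_one_iff.mp this).resolve_right fun h => ha₁ ?_
    rw [h, hψ₂, neg_mul_neg, one_mul]
  have hsub := diag_eq_one_of_upper (finiteLevel_frameRep hr h1 h2) hup' hτ hgen 0 hψ₁
  have hline := (hb.frame h1 h2).exists_stable_image hp2 hup' hsub hτ hne
  set w : Fin 2 → k := ![r' τ 0 1, r' τ 1 1 - 1]
  have hw : w ≠ 0 := fun h => by
    have := congrFun h 1
    simp [w, sub_eq_zero] at this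
    exact hne this
  obtain ⟨Z', Zi', h1', h2', hZ'⟩ := exists_frame_of_ne_zero hw
  have a1 : Z * Z' * (Zi' * Zi) = 1 := by
    rw [mul_assoc, ← mul_assoc Z', h1', one_mul, h1]
  have a2 : Zi' * Zi * (Z * Z') = 1 := by
    rw [mul_assoc, ← mul_assoc Zi, h2, one_mul, h2']
  have heq : ∀ g, frameRep r a1 a2 g = Zi' * r' g * Z' := fun g => by
    simp only [hr', frameRep_apply, mul_assoc]
  refine ⟨_, _, a1, a2, Or.inl ⟨fun g hg => ?_, fun _ => ?_⟩⟩
  · rw [heq]
    exact upper_of_eigvec h2' hZ' (hline g hg).choose_spec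
  · have hτw : r' τ *ᵥ w = r' τ 1 1 • w := by
      funext i
      fin_cases i <;> simp [w, Matrix.mulVec, dotProduct, Fin.sum_univ_two, hup' τ hτD, hψ₁] <;>
        ring
    have h10 : (Zi' * r' τ * Z') 1 0 = 0 := upper_of_eigvec h2' hZ' hτw
    have h00 : (Zi' * r' τ * Z') 0 0 = -1 := by
      have e : (Zi' * r' τ * Z') 0 0 = (Zi' *ᵥ (r' τ *ᵥ w)) 0 := by
        rw [Matrix.mulVec_mulVec]
        simp [Matrix.mul_apply, Matrix.mulVec, dotProduct, Fin.sum_univ_two, hZ']
      have e' : (Zi' *ᵥ w) 0 = (Zi' * Z') 0 0 := by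
        simp [Matrix.mul_apply, Matrix.mulVec, dotProduct, Fin.sum_univ_two, hZ']
      rw [e, hτw, Matrix.mulVec_smul, Pi.smul_apply, e', h2', hψ₂]
      simp
    have hdet : (Zi' * r' τ * Z').det = -1 := by
      rw [← frameRep_apply (r := r') h1' h2', det_frameRep, hdd, hψ₁, hψ₂, one_mul]
    rw [heq]
    rw [Matrix.det_fin_two, h10, mul_zero, sub_zero, h00, neg_one_mul, neg_inj] at hdet
    exact hdet

/-- The local bound at `p` for flat classes. -/
theorem finrank_le_flat (hp2 : p ≠ 2) (h2 : (2 : k) ≠ 0) (hr : GaloisFactorsThroughFiniteLevel r)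
    (hcyc : ∀ (σ : Gal) (n : ℕ), (∀ μ : QBar, μ ^ p = 1 → σ μ = μ ^ n) → (r σ).det = (n : k))
    (hsplit : ∀ σ : Gal, ∃ α β : k, (r σ).trace = α + β ∧ (r σ).det = α * β)
    (V : Submodule k (Gal → M2 k)) [Module.Finite k V]
    (hcoc : ∀ b ∈ V, IsAdCocycle r b) (hlev : ∀ b ∈ V, IsFiniteLevel b)
    (hb : ∀ b ∈ V, b ≠ 0 → ∃ (ρ : GaloisRepAdic (DualNumber k))
      (B : Basis (Fin 2) (DualNumber k) ρ.V), ρ.IsFlatAt p ∧ ρ.DetIsCyclotomic p ∧
        ∀ σ, matOf ρ B σ = (1 + epsM (b σ)) * inlM (r σ)) :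
    finrank k V ≤ finrank k (V ⊓ cobdOn r ((padicPlace p).decompositionSubgroup ℚ) :
        Submodule k (Gal → M2 k)) +
      finrank k (fixedOn r ((padicPlace p).decompositionSubgroup ℚ)) + 1 := by
  classical
  rcases eq_or_ne V ⊥ with rfl | hV
  · simp [finrank_bot]
  letI : Algebra (ZMod p) k := ZMod.algebra _ p
  obtain ⟨ι⟩ := nonempty_embedding_res (p := p) (k := k)
  obtain ⟨τ, hτ, hτprim, hgen⟩ := exists_tame_generator p
  obtain ⟨L, hLf, hLn, hL⟩ := exists_common_level hr V hlev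
  have hlast : ∀ g ∈ L.fixingSubgroup, r g = 1 ∧ ∀ b ∈ V, b g = 0 := fun g hg =>
    hL g ((IntermediateField.mem_fixingSubgroup_iff L g).mp hg)
  obtain ⟨b₀, hb₀, hb₀ne⟩ := Submodule.exists_mem_ne_zero_of_ne_bot hV
  have hflat : ∀ b ∈ V, FlatData p r b := by
    intro b hbV
    rcases eq_or_ne b 0 with rfl | hne
    · obtain ⟨ρ, B, hf, -, hm⟩ := hb b₀ hb₀ hb₀ne
      exact (flatData_of_isFlatAt (hcoc b₀ hb₀) B hf hm).zero
    · obtain ⟨ρ, B, hf, -, hm⟩ := hb b hbV hne
      exact flatData_of_isFlatAt (hcoc b hbV) B hf hm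
  have htrV : ∀ b ∈ V, ∀ g, (b g).trace = 0 := by
    intro b hbV g
    rcases eq_or_ne b 0 with rfl | hne
    · simp
    · obtain ⟨ρ, B, -, hd, hm⟩ := hb b hbV hne
      exact trace_eq_zero_of_det p hd hm g
  obtain ⟨Z, Zi, h1, h2', hcase⟩ :=
    exists_count_frame hp2 hr hcyc hsplit (hflat b₀ hb₀) ι hτ hτprim hgen
  -- classes with coboundaries, in the frame
  let sl2 : Submodule k (M2 k) := LinearMap.ker (Matrix.traceLinearMap (Fin 2) k k)
  let pre : (V × sl2) →ₗ[k] (Gal → M2 k) :=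
    V.subtype.comp (LinearMap.fst k V sl2) +
      (cobdLin r).comp (sl2.subtype.comp (LinearMap.snd k V sl2))
  let Φ : (V × sl2) →ₗ[k] (Gal → M2 k) := (resDec p).comp ((frameCls Z Zi).comp pre)
  have hpre : ∀ x : V × sl2, pre x = (x.1 : Gal → M2 k) + cobdLin r (x.2 : M2 k) := fun _ => rfl
  have hfd : ∀ x, FlatData p (frameRep r h1 h2') (frameCls Z Zi (pre x)) := fun x => by
    rw [hpre]
    exact ((hflat _ x.1.2).add_cobd _).frame h1 h2'
  have hlc : ∀ c ∈ (LinearMap.range Φ).toAddSubgroup, IsLocalClass p (frameRep r h1 h2') c := by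
    rintro _ ⟨x, rfl⟩
    refine (hfd x).isLocalClass (fun g => ?_) ⟨L, hLf, hLn, fun g hg => ?_⟩
    · rw [frameCls_apply, Matrix.trace_mul_cycle, h1, one_mul, hpre, Pi.add_apply,
        Matrix.trace_add, htrV _ x.1.2, Tangent.trace_cobdLin, add_zero]
    · rw [frameCls_apply, hpre, Pi.add_apply, (hlast g hg).2 _ x.1.2, cobdLin_apply,
        (hlast g hg).1]
      have e : r g⁻¹ = 1 := (hlast _ (L.fixingSubgroup.inv_mem hg)).1
      rw [e]
      simp
  haveI : Finite V := Module.finite_of_finite k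
  haveI : Finite sl2 := inferInstance
  haveI : Module.Finite k (V × sl2) := inferInstance
  haveI : Finite (LinearMap.range Φ).toAddSubgroup :=
    Finite.of_surjective _ (LinearMap.surjective_rangeRestrict Φ)
  have hcyc' : ∀ (σ : GQ) (n : ℕ), (∀ μ : QBar, μ ^ p = 1 → σ μ = μ ^ n) →
      (frameRep r h1 h2' σ).det = (n : k) := fun σ n h => by rw [det_frameRep]; exact hcyc σ n h
  have hcard : Nat.card (LinearMap.range Φ).toAddSubgroup ≤ Nat.card k ^ 4 := by
    rcases hcase with ⟨hup, hgood⟩ | ⟨htame, l, hl, hd⟩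
    · refine natCard_le_borel hp2 (finiteLevel_frameRep hr h1 h2') hcyc' hup _ hlc ι hτ hτprim
        hgen fun s1 s2 c hc => ?_
      obtain ⟨x, rfl⟩ := hc
      have hquot := diag_eq_one_of_upper (finiteLevel_frameRep hr h1 h2') hup hτ hgen 1
        (hgood ⟨s1, s2⟩)
      have ha : frameRep r h1 h2' τ 0 0 ≠ 1 := fun h00 => by
        refine det_tame_ne_one hp2 hcyc ι hτ hτprim ?_
        rw [← det_frameRep h1 h2', Matrix.det_fin_two, hup τ (inG_le_decG p hτ), h00,
          hgood ⟨s1, s2⟩]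
        simp
      obtain ⟨y, hy⟩ := (hfd x).exists_lower_left hp2 hup hquot hτ ha
      exact ⟨y, fun g hg => by
        show resDec p (frameCls Z Zi (pre x)) g 1 0 = _
        rw [resDec_of_mem _ hg, hy g hg]⟩
    · exact natCard_le_torus hp2 hcyc' _ hlc ι hτ hτprim hgen htame hl hd
  have hrange : finrank k (LinearMap.range Φ) ≤ 4 := by
    change Nat.card (LinearMap.range Φ) ≤ Nat.card k ^ 4 at hcard
    rw [Module.natCard_eq_pow_finrank (K := k) (V := LinearMap.range Φ)] at hcard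
    exact (Nat.pow_le_pow_iff_right Finite.one_lt_card).mp hcard
  -- the kernel
  have hker : ∀ x, Φ x = 0 → ∀ g ∈ decG p,
      (x.1 : Gal → M2 k) g + cobdLin r (x.2 : M2 k) g = 0 := by
    intro x hx g hg
    have e : Zi * ((x.1 : Gal → M2 k) g + cobdLin r (x.2 : M2 k) g) * Z = 0 := by
      have := congrFun hx g
      rwa [show Φ x g = resDec p (frameCls Z Zi (pre x)) g from rfl, resDec_of_mem _ hg] at this
    have e' := congrArg (fun M => Z * M * Zi) e
    simpa [← mul_assoc, h1, mul_assoc _ Z Zi] using e'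
  let proj : LinearMap.ker Φ →ₗ[k] (Gal → M2 k) :=
    V.subtype.comp ((LinearMap.fst k V sl2).comp (LinearMap.ker Φ).subtype)
  have hproj : LinearMap.range proj ≤ V ⊓ cobdOn r (decG p) := by
    rintro _ ⟨⟨x, hx⟩, rfl⟩
    refine ⟨x.1.2, -(x.2 : M2 k), ?_, fun s hs => ?_⟩
    · rw [Matrix.trace_neg, neg_eq_zero]
      exact x.2.2
    · have := hker x (LinearMap.mem_ker.mp hx) s hs
      rw [cobdLin_apply] at this
      show (x.1 : Gal → M2 k) s = _
      rw [eq_neg_of_add_eq_zero_left this, mul_neg, neg_mul]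
      abel
  haveI : Module.Finite k (V ⊓ cobdOn r (decG p) : Submodule k (Gal → M2 k)) :=
    Module.Finite.of_injective (Submodule.inclusion inf_le_left) (Submodule.inclusion_injective _)
  let toX : LinearMap.ker proj →ₗ[k] M2 k :=
    sl2.subtype.comp ((LinearMap.snd k V sl2).comp
      ((LinearMap.ker Φ).subtype.comp (LinearMap.ker proj).subtype))
  have htoX : ∀ y : LinearMap.ker proj, toX y ∈ fixedOn r (decG p) := by
    rintro ⟨⟨x, hx⟩, hy⟩
    refine ⟨x.2.2, fun s hs => ?_⟩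
    have := hker x (LinearMap.mem_ker.mp hx) s hs
    rw [show (x.1 : Gal → M2 k) = 0 from hy, Pi.zero_apply, zero_add, cobdLin_apply,
      sub_eq_zero] at this
    exact this
  have hk1 : finrank k (LinearMap.ker proj) ≤ finrank k (fixedOn r (decG p)) := by
    refine LinearMap.finrank_le_finrank_of_injective (f := toX.codRestrict _ htoX) ?_
    intro y y' h
    have e2 : toX y = toX y' := congrArg (fun z : fixedOn r (decG p) => (z : M2 k)) h
    have e1 : proj y.1 = proj y'.1 := (LinearMap.mem_ker.mp y.2).trans (LinearMap.mem_ker.mp y'.2).symm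
    exact Subtype.ext (Subtype.ext (Prod.ext (Subtype.ext e1) (Subtype.ext e2)))
  have hk2 := Submodule.finrank_mono hproj
  have hk3 := LinearMap.finrank_range_add_finrank_ker (V := LinearMap.ker Φ) proj
  have hk4 := LinearMap.finrank_range_add_finrank_ker Φ
  have hsl : finrank k sl2 + 1 = 4 := by
    have h := LinearMap.finrank_range_add_finrank_ker (Matrix.traceLinearMap (Fin 2) k k)
    have hs : LinearMap.range (Matrix.traceLinearMap (Fin 2) k k) = ⊤ :=
      LinearMap.range_eq_top.mpr fun c => ⟨!![c, 0; 0, 0], by simp [Matrix.trace_fin_two]⟩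
    rw [hs, finrank_top, Module.finrank_self, Module.finrank_matrix, Fintype.card_fin,
      Module.finrank_self] at h
    show finrank k (LinearMap.ker (Matrix.traceLinearMap (Fin 2) k k)) + 1 = 4
    omega
  rw [Module.finrank_prod] at hk4
  change finrank k V ≤ finrank k (V ⊓ cobdOn r (decG p) : Submodule k (Gal → M2 k)) +
    finrank k (fixedOn r (decG p)) + 1
  omega

end Fermat.Agent.CFT.GW
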