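import Fermat.Agent.CFT.Flat.Local
import Fermat.Agent.CFT.Flat.Coset
import Fermat.Agent.CFT.Tangent.LocalPlace
import Fermat.Agent.CFT.Tangent.LocalBasic
import Fermat.Agent.RT.Glue.FlatDescent

/-!
# Tangent classes with a Galois order

The module `k² × k²` of a first order deformation `(1 + ε b) r`, the conversion from flatness,
stability under change of frame and of representative, and the consequences of a Galois order on
it: the ramification bound, and the two line lemmas for the connected part.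
-/

set_option autoImplicit false
set_option linter.style.haveILetI false
set_option linter.unusedSectionVars false

noncomputable section

namespace Fermat.Agent.CFT.GW

open Fermat.Agent.Arith Fermat.Agent.Deform Fermat.Agent.CFT.Tangent Fermat.Agent.CFT.Flat
open Fermat.Agent.FiniteFlat Module Matrix WithConv

variable {k : Type} [Field k] {r : Gal →* M2 k} {b b' : Gal → M2 k}

/-- The module of the deformation `(1 + ε b) r`. -/
def DefMod (_hb : IsAdCocycle r b) : Type := (Fin 2 → k) × (Fin 2 → k)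

namespace DefMod

variable {hb : IsAdCocycle r b}

instance : AddCommGroup (DefMod hb) := inferInstanceAs (AddCommGroup ((Fin 2 → k) × (Fin 2 → k)))

instance [Finite k] : Finite (DefMod hb) :=
  inferInstanceAs (Finite ((Fin 2 → k) × (Fin 2 → k)))

/-- Build an element. -/
def mk (hb : IsAdCocycle r b) (u w : Fin 2 → k) : DefMod hb := (u, w)

/-- The reduction. -/
def red (m : DefMod hb) : Fin 2 → k := Prod.fst m

/-- The infinitesimal part. -/
def inf (m : DefMod hb) : Fin 2 → k := Prod.snd m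

theorem mk_ext {m m' : DefMod hb} (h₁ : red m = red m') (h₂ : inf m = inf m') : m = m' :=
  Prod.ext h₁ h₂

@[simp] theorem red_mk (u w : Fin 2 → k) : red (mk hb u w) = u := rfl

@[simp] theorem inf_mk (u w : Fin 2 → k) : inf (mk hb u w) = w := rfl

@[simp] theorem red_add (m m' : DefMod hb) : red (m + m') = red m + red m' := rfl

@[simp] theorem inf_add (m m' : DefMod hb) : inf (m + m') = inf m + inf m' := rfl

@[simp] theorem red_sub (m m' : DefMod hb) : red (m - m') = red m - red m' := rfl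

@[simp] theorem inf_sub (m m' : DefMod hb) : inf (m - m') = inf m - inf m' := rfl

@[simp] theorem red_zero : red (0 : DefMod hb) = 0 := rfl

@[simp] theorem inf_zero : inf (0 : DefMod hb) = 0 := rfl

@[simp] theorem red_neg (m : DefMod hb) : red (-m) = -red m := rfl

@[simp] theorem inf_neg (m : DefMod hb) : inf (-m) = -inf m := rfl

instance : SMul Gal (DefMod hb) :=
  ⟨fun g m => mk hb (r g *ᵥ red m) ((b g * r g) *ᵥ red m + r g *ᵥ inf m)⟩

@[simp] theorem red_smul (g : Gal) (m : DefMod hb) : red (g • m) = r g *ᵥ red m := rfl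

@[simp] theorem inf_smul (g : Gal) (m : DefMod hb) :
    inf (g • m) = (b g * r g) *ᵥ red m + r g *ᵥ inf m := rfl

instance : DistribMulAction Gal (DefMod hb) where
  one_smul m := mk_ext (by simp) (by simp [hb.one])
  mul_smul g h m := mk_ext (by simp only [red_smul, Matrix.mulVec_mulVec, map_mul]) (by
    simp only [inf_smul, red_smul, Matrix.mulVec_add, Matrix.mulVec_mulVec, map_mul]
    rw [← add_assoc, ← Matrix.add_mulVec]
    congr 2
    rw [hb g h, add_mul, add_comm]
    congr 1
    · simp only [mul_assoc]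
    · rw [mul_assoc, mul_assoc, ← mul_assoc (r g⁻¹), Tangent.map_inv_mul, one_mul])
  smul_zero g := mk_ext (by simp) (by simp)
  smul_add g m m' := mk_ext (by simp [Matrix.mulVec_add])
    (by simp only [inf_smul, red_add, inf_add, Matrix.mulVec_add]; abel)

theorem nsmul_eq_zero (p : ℕ) [CharP k p] (m : DefMod hb) : p • m = 0 := by
  let f : DefMod hb →+ (Fin 2 → k) := AddMonoidHom.mk' red red_add
  let f' : DefMod hb →+ (Fin 2 → k) := AddMonoidHom.mk' inf inf_add
  refine mk_ext ?_ ?_
  · show f (p • m) = 0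
    rw [map_nsmul, ← Nat.cast_smul_eq_nsmul k, CharP.cast_eq_zero, zero_smul]
  · show f' (p • m) = 0
    rw [map_nsmul, ← Nat.cast_smul_eq_nsmul k, CharP.cast_eq_zero, zero_smul]

end DefMod

/-- A class whose deformation has a Galois order at `p`. -/
def FlatData (p : ℕ) (r : Gal →* M2 k) (b : Gal → M2 k) : Prop :=
  ∃ hb : IsAdCocycle r b, Nonempty (GalOrder p (DefMod hb))

variable {p : ℕ}

/-- A flat deformation over the dual numbers gives such a class. -/
theorem flatData_of_isFlatAt [Finite k] (hb : IsAdCocycle r b)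
    {ρ : GaloisRepAdic (DualNumber k)} (B : Basis (Fin 2) (DualNumber k) ρ.V)
    (hflat : ρ.IsFlatAt p) (hB : ∀ σ, matOf ρ B σ = (1 + epsM (b σ)) * inlM (r σ)) :
    FlatData p r b := by
  haveI : Finite (DualNumber k) := inferInstanceAs (Finite (k × k))
  haveI : Finite (DualNumber k ⧸ (⊥ : Ideal (DualNumber k))) :=
    Finite.of_surjective _ (Submodule.Quotient.mk_surjective _)
  obtain ⟨H, _, _, _, _, _, e, he, heσ⟩ := hflat.2 ⊥ inferInstance
  let q := Submodule.quotEquivOfEqBot ((⊥ : Ideal (DualNumber k)) • (⊤ : Submodule _ ρ.V))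
    (Submodule.bot_smul _)
  let F : ρ.V →+ DefMod hb := AddMonoidHom.mk'
    (fun v => DefMod.mk hb (fun i => TrivSqZeroExt.fst (B.repr v i))
      (fun i => TrivSqZeroExt.snd (B.repr v i)))
    fun v v' => DefMod.mk_ext (funext fun i => by simp) (funext fun i => by simp)
  have hF : Function.Bijective F := by
    refine ⟨fun v v' h => B.ext_elem fun i => TrivSqZeroExt.ext ?_ ?_,
      fun m => ⟨B.equivFun.symm fun i => TrivSqZeroExt.inl (DefMod.red m i) +
        TrivSqZeroExt.inr (DefMod.inf m i), ?_⟩⟩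
    · exact congrFun (congrArg DefMod.red h) i
    · exact congrFun (congrArg DefMod.inf h) i
    · refine DefMod.mk_ext (funext fun i => ?_) (funext fun i => ?_) <;>
        fin_cases i <;> simp [F]
  let e' : WithConv (H →ₐ[Zl p] QBar) ≃ DefMod hb :=
    e.trans (q.toAddEquiv.toEquiv.trans (Equiv.ofBijective F hF))
  refine ⟨hb, RT.Glue.nonempty_galOrder_of_hopf e' (fun f g => ?_) fun σ f g hfg => ?_⟩
  · show F (q (e (f * g))) = F (q (e f)) + F (q (e g))
    rw [he, map_add, map_add]
  · show F (q (e g)) = σ • F (q (e f))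
    rw [heσ σ f g hfg]
    obtain ⟨v, hv⟩ := Submodule.Quotient.mk_surjective _ (e f)
    rw [← hv, GaloisRepAdic.levelAction, Submodule.mapQ_apply, Submodule.quotEquivOfEqBot_apply_mk,
      Submodule.quotEquivOfEqBot_apply_mk]
    have h := (LinearMap.toMatrix_mulVec_repr B B (ρ.ρ σ) v).symm
    have h' : ∀ i, B.repr (ρ.ρ σ v) i =
        ((1 + epsM (b σ)) * inlM (r σ)) i 0 * B.repr v 0 +
          ((1 + epsM (b σ)) * inlM (r σ)) i 1 * B.repr v 1 := fun i => by
      rw [congrFun h i, ← hB σ]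
      simp [matOf, LinearMap.toMatrixAlgEquiv, Matrix.mulVec, dotProduct, Fin.sum_univ_two]
    refine DefMod.mk_ext (funext fun i => ?_) (funext fun i => ?_)
    · show TrivSqZeroExt.fst (B.repr (ρ.ρ σ v) i) =
        (r σ *ᵥ fun j => TrivSqZeroExt.fst (B.repr v j)) i
      rw [h']
      fin_cases i <;> simp [Matrix.mul_apply, Matrix.mulVec, dotProduct, Fin.sum_univ_two,
        Matrix.one_apply, inlM, epsM] <;> ring
    · show TrivSqZeroExt.snd (B.repr (ρ.ρ σ v) i) =
        ((b σ * r σ) *ᵥ fun j => TrivSqZeroExt.fst (B.repr v j)) i +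
          (r σ *ᵥ fun j => TrivSqZeroExt.snd (B.repr v j)) i
      rw [h']
      fin_cases i <;>
        simp [Matrix.mul_apply, Matrix.mulVec, dotProduct, Fin.sum_univ_two, Matrix.one_apply,
          inlM, epsM] <;> ring

/-- Change of representative by a coboundary. -/
theorem FlatData.add_cobd (h : FlatData p r b) (X : M2 k) : FlatData p r (b + cobdLin r X) := by
  obtain ⟨hb, ⟨O⟩⟩ := h
  have hb' : IsAdCocycle r (b + cobdLin r X) := hb.add (isAdCocycle_cobdLin r X)
  refine ⟨hb', ⟨O.restrict (AddMonoidHom.mk'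
    (fun m : DefMod hb' => DefMod.mk hb (DefMod.red m) (DefMod.inf m + X *ᵥ DefMod.red m))
    fun m m' => DefMod.mk_ext (by simp only [DefMod.red_mk, DefMod.red_add]) (by
      simp only [DefMod.inf_mk, DefMod.red_add, DefMod.inf_add, Matrix.mulVec_add]; abel))
    (fun m m' e => ?_) fun σ m => ?_⟩⟩
  · have h1 := congrArg (fun x : DefMod hb => DefMod.red x) e
    have h2 := congrArg (fun x : DefMod hb => DefMod.inf x) e
    simp only [AddMonoidHom.mk'_apply, DefMod.red_mk, DefMod.inf_mk] at h1 h2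
    rw [h1, add_left_inj] at h2
    exact DefMod.mk_ext h1 h2
  · refine DefMod.mk_ext (by simp) ?_
    simp only [AddMonoidHom.mk'_apply, DefMod.inf_mk, DefMod.inf_smul, DefMod.red_smul,
      DefMod.red_mk, Matrix.mulVec_add, Matrix.mulVec_mulVec]
    have e : ((b + cobdLin r X) σ * r σ) + X * r σ = b σ * r σ + r σ * X := by
      rw [Pi.add_apply, cobdLin_apply, add_mul, sub_mul, mul_assoc (r σ * X), Tangent.map_inv_mul,
        mul_one]
      abel
    rw [add_right_comm, ← Matrix.add_mulVec, e, Matrix.add_mulVec]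
    abel

/-- The representation in another frame. -/
def frameRep (r : Gal →* M2 k) {Z Zi : M2 k} (h1 : Z * Zi = 1) (h2 : Zi * Z = 1) :
    Gal →* M2 k where
  toFun g := Zi * r g * Z
  map_one' := by rw [map_one, mul_one, h2]
  map_mul' g g' := by
    rw [map_mul]
    calc Zi * (r g * r g') * Z = Zi * r g * (Z * Zi) * r g' * Z := by
          rw [h1, mul_one]; simp only [mul_assoc]
      _ = _ := by simp only [mul_assoc]

theorem frameRep_apply {Z Zi : M2 k} (h1 : Z * Zi = 1) (h2 : Zi * Z = 1) (g : Gal) :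
    frameRep r h1 h2 g = Zi * r g * Z := rfl

/-- A function of classes in another frame. -/
def frameCls (Z Zi : M2 k) : (Gal → M2 k) →ₗ[k] (Gal → M2 k) where
  toFun b g := Zi * b g * Z
  map_add' b b' := funext fun g => by simp [mul_add, add_mul]
  map_smul' c b := funext fun g => by simp

theorem frameCls_apply (Z Zi : M2 k) (b : Gal → M2 k) (g : Gal) :
    frameCls Z Zi b g = Zi * b g * Z := rfl

theorem FlatData.frame (h : FlatData p r b) {Z Zi : M2 k} (h1 : Z * Zi = 1) (h2 : Zi * Z = 1) :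
    FlatData p (frameRep r h1 h2) (frameCls Z Zi b) := by
  obtain ⟨hb, ⟨O⟩⟩ := h
  have c : ∀ X : M2 k, Z * (Zi * X) = X := fun X => by rw [← mul_assoc, h1, one_mul]
  have c' : ∀ X : M2 k, Zi * (Z * X) = X := fun X => by rw [← mul_assoc, h2, one_mul]
  have hb' : IsAdCocycle (frameRep r h1 h2) (frameCls Z Zi b) := fun g g' => by
    simp only [frameRep_apply, frameCls_apply, hb g g', mul_add, add_mul, mul_assoc, c]
  refine ⟨hb', ⟨O.restrict (AddMonoidHom.mk'
    (fun m : DefMod hb' => DefMod.mk hb (Z *ᵥ DefMod.red m) (Z *ᵥ DefMod.inf m))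
    fun m m' => DefMod.mk_ext (by simp [Matrix.mulVec_add]) (by simp [Matrix.mulVec_add]))
    (fun m m' e => ?_) fun σ m => ?_⟩⟩
  · have e1 := congrArg (fun x => Zi *ᵥ DefMod.red x) e
    have e2 := congrArg (fun x => Zi *ᵥ DefMod.inf x) e
    simp only [AddMonoidHom.mk'_apply, DefMod.red_mk, DefMod.inf_mk, Matrix.mulVec_mulVec, h2,
      Matrix.one_mulVec] at e1 e2
    exact DefMod.mk_ext e1 e2
  · refine DefMod.mk_ext ?_ ?_
    · simp only [AddMonoidHom.mk'_apply, DefMod.red_mk, DefMod.red_smul, Matrix.mulVec_mulVec,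
        frameRep_apply, mul_assoc, c]
    · simp only [AddMonoidHom.mk'_apply, DefMod.inf_mk, DefMod.inf_smul, DefMod.red_mk,
        Matrix.mulVec_add, Matrix.mulVec_mulVec, frameRep_apply, frameCls_apply, mul_assoc, c]

/-- The trivial class has a Galois order as soon as some class has one. -/
theorem FlatData.zero (h : FlatData p r b) : FlatData p r 0 := by
  obtain ⟨hb, ⟨O⟩⟩ := h
  have h0 : IsAdCocycle r (0 : Gal → M2 k) := fun g g' => by simp
  refine ⟨h0, ⟨(O.prod O).restrict (AddMonoidHom.mk'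
    (fun m : DefMod h0 => (DefMod.mk hb 0 (DefMod.red m), DefMod.mk hb 0 (DefMod.inf m)))
    fun m m' => Prod.ext (DefMod.mk_ext (by simp) (by simp)) (DefMod.mk_ext (by simp) (by simp)))
    (fun m m' e => ?_) fun σ m => ?_⟩⟩
  · exact DefMod.mk_ext (congrArg (fun x : DefMod hb × DefMod hb => DefMod.inf x.1) e)
      (congrArg (fun x : DefMod hb × DefMod hb => DefMod.inf x.2) e)
  · exact Prod.ext (DefMod.mk_ext (by simp) (by simp)) (DefMod.mk_ext (by simp) (by simp))

/-- Restriction to the decomposition group. -/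
def resDec (p : ℕ) [Fact p.Prime] : (Gal → M2 k) →ₗ[k] (Gal → M2 k) := by
  classical
  exact
    { toFun := fun b g => if g ∈ decG p then b g else 0
      map_add' := fun b b' => funext fun g => by
        simp only [Pi.add_apply]; split_ifs <;> simp
      map_smul' := fun c b => funext fun g => by
        simp only [Pi.smul_apply, RingHom.id_apply]; split_ifs <;> simp }

variable [Fact p.Prime]

theorem resDec_of_mem (b : Gal → M2 k) {g : Gal} (hg : g ∈ decG p) : resDec p b g = b g := by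
  classical
  exact if_pos hg

theorem resDec_of_not_mem (b : Gal → M2 k) {g : Gal} (hg : g ∉ decG p) : resDec p b g = 0 := by
  classical
  exact if_neg hg

theorem FlatData.vanish (h : FlatData p r b) [Finite k] [CharP k p] :
    ∃ H : Subgroup GQ, IsLevel p H ∧ H ≤ tame p ∧ IsBdd p H ∧ ∀ g ∈ H, r g = 1 ∧ b g = 0 := by
  obtain ⟨hb, ⟨O⟩⟩ := h
  refine ⟨fixM p (DefMod hb) ⊓ tame p, (isLevel_fixM O).inf (isLevel_fixer _),
    inf_le_right, isBdd_of_galOrder p O (DefMod.nsmul_eq_zero p), fun g hg => ?_⟩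
  have hfix := ((mem_fixM (p := p) (M := DefMod hb)).mp hg.1).2
  have hrv : ∀ v, r g *ᵥ v = (1 : M2 k) *ᵥ v := fun v => by
    simpa using congrArg DefMod.red (hfix (DefMod.mk hb v 0))
  have hr : r g = 1 := Matrix.ext_of_mulVec_single fun i => hrv _
  have hbv : ∀ v, b g *ᵥ v = (0 : M2 k) *ᵥ v := fun v => by
    simpa [hr] using congrArg DefMod.inf (hfix (DefMod.mk hb v 0))
  exact ⟨hr, Matrix.ext_of_mulVec_single fun i => hbv _⟩

/-- The restriction of a flat class obeys the ramification bound. -/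
theorem FlatData.isLocalClass (h : FlatData p r b) [Finite k] [CharP k p]
    (htr : ∀ g, (b g).trace = 0)
    (hlev : ∃ L : IntermediateField ℚ QBar, FiniteDimensional ℚ L ∧ Normal ℚ L ∧
      ∀ g ∈ L.fixingSubgroup, b g = 0) :
    IsLocalClass p r (resDec p b) := by
  obtain ⟨H, hH, hle, hbdd, hz⟩ := h.vanish
  obtain ⟨hb, -⟩ := h
  refine ⟨fun g hg g' hg' => ?_, fun g => ?_, fun g hg => resDec_of_not_mem b hg,
    ⟨H, hH, hle, hbdd, fun g hg => ?_⟩, ?_⟩
  · rw [resDec_of_mem b ((decG p).mul_mem hg hg'), resDec_of_mem b hg, resDec_of_mem b hg', hb]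
  · by_cases hg : g ∈ decG p
    · rw [resDec_of_mem b hg, htr]
    · rw [resDec_of_not_mem b hg, Matrix.trace_zero]
  · rw [resDec_of_mem b (inG_le_decG p (hH.le hg)), (hz g hg).2]
  · obtain ⟨L, h1, h2, h3⟩ := hlev
    exact ⟨L, h1, h2, fun g hg hgD => by rw [resDec_of_mem b hgD, h3 g hg]⟩

variable [Finite k] [CharP k p]

/-- When inertia acts by the determinant on the first line and trivially on the quotient, the
lower left entry of a flat class is a coboundary. -/
theorem FlatData.exists_lower_left (h : FlatData p r b) (hp2 : p ≠ 2)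
    (hup : ∀ g ∈ decG p, r g 1 0 = 0) (hquot : ∀ g ∈ inG p, r g 1 1 = 1) {τ : Gal}
    (hτ : τ ∈ inG p) (ha : r τ 0 0 ≠ 1) :
    ∃ x : k, ∀ g ∈ decG p, b g 1 0 = x * (1 - r g 1 1 / r g 0 0) := by
  obtain ⟨hb, ⟨O⟩⟩ := h
  haveI := Fintype.ofFinite (DefMod hb)
  let L : AddSubgroup (DefMod hb) :=
    { carrier := {m | DefMod.red m = 0 ∧ DefMod.inf m 1 = 0}
      zero_mem' := ⟨rfl, rfl⟩
      add_mem' := fun {m m'} hm hm' => ⟨by simp [hm.1, hm'.1], by simp [hm.2, hm'.2]⟩
      neg_mem' := fun {m} hm => ⟨by simp [hm.1], by simp [hm.2]⟩ }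
  have hL : ∀ σ ∈ inG p, ∀ l ∈ L, σ • l ∈ L := fun σ hσ l hl =>
    ⟨by simp [hl.1], by
      simp [hl.1, Matrix.mulVec, dotProduct, Fin.sum_univ_two, hl.2,
        hup σ (inG_le_decG p hσ)]⟩
  set A := r τ 0 0 - 1 with hA
  have hA0 : A ≠ 0 := sub_ne_zero.mpr ha
  set y := b τ 1 0 * r τ 0 0 with hy
  refine ⟨y / A, fun g hg => ?_⟩
  have hg0 : r g 0 0 ≠ 0 := fun h0 => det_map_ne_zero r g (by
    rw [Matrix.det_fin_two, h0, hup g hg]; simp)
  set f := τ • DefMod.mk hb ![1, 0] 0 - DefMod.mk hb ![1, 0] 0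
  set v := DefMod.mk hb ![r g 0 0, 0] 0
  have hτD := inG_le_decG p hτ
  set d := g • f - (τ • v - v)
  have hd : d ∈ conn O := (conn O).sub_mem (smul_mem_conn hg (smul_sub_mem_conn hτ _))
    (smul_sub_mem_conn hτ _)
  have hd0 : DefMod.red d = 0 := by
    ext i
    fin_cases i <;>
      simp [d, f, v, Matrix.mulVec, dotProduct, Fin.sum_univ_two, hup g hg, hup τ hτD] <;> ring
  have hdL : d ∈ L := by
    refine mem_of_fixed_coset O hp2 (DefMod.nsmul_eq_zero p) L hL hd fun σ hσ => ⟨?_, ?_⟩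
    · simp [hd0]
    · simp [hd0, Matrix.mulVec, dotProduct, Fin.sum_univ_two, hup σ (inG_le_decG p hσ),
        hquot σ hσ]
  have h1 : DefMod.inf d 1 = 0 := hdL.2
  simp [d, f, v, Matrix.mulVec, dotProduct, Fin.sum_univ_two, hup g hg, hup τ hτD,
    Matrix.mul_apply] at h1
  field_simp
  rw [hA, hy]
  linear_combination h1

/-- When inertia fixes the stable line, the image of `r τ - 1` is a stable line. -/
theorem FlatData.exists_stable_image (h : FlatData p r b) (hp2 : p ≠ 2)
    (hup : ∀ g ∈ decG p, r g 1 0 = 0) (hsub : ∀ g ∈ inG p, r g 0 0 = 1) {τ : Gal}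
    (hτ : τ ∈ inG p) (ha : r τ 1 1 ≠ 1) :
    ∀ g ∈ decG p, ∃ c : k, r g *ᵥ ![r τ 0 1, r τ 1 1 - 1] = c • ![r τ 0 1, r τ 1 1 - 1] := by
  obtain ⟨hb, ⟨O⟩⟩ := h
  haveI := Fintype.ofFinite (DefMod hb)
  intro g hg
  have hA0 : r τ 1 1 - 1 ≠ 0 := sub_ne_zero.mpr ha
  set w : Fin 2 → k := ![r τ 0 1, r τ 1 1 - 1] with hw
  refine ⟨(r g *ᵥ w) 1 / (r τ 1 1 - 1), ?_⟩
  set c := (r g *ᵥ w) 1 / (r τ 1 1 - 1) with hc
  set e := DefMod.mk hb 0 ![0, 1]
  set e' := DefMod.mk hb 0 ![0, c]
  set d := g • (τ • e - e) - (τ • e' - e')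
  have hd : d ∈ conn O := (conn O).sub_mem (smul_mem_conn hg (smul_sub_mem_conn hτ _))
    (smul_sub_mem_conn hτ _)
  have hτD := inG_le_decG p hτ
  have hdr : DefMod.red d = 0 := by simp [d, e, e']
  have hdi : DefMod.inf d = r g *ᵥ w - c • w := by
    ext i
    fin_cases i <;>
      simp [d, e, e', hw, Matrix.mulVec, dotProduct, Fin.sum_univ_two, hup τ hτD] <;> ring
  have hd1 : DefMod.inf d 1 = 0 := by
    rw [hdi, Pi.sub_apply, Pi.smul_apply, smul_eq_mul, hc,
      show w 1 = r τ 1 1 - 1 by simp [hw], div_mul_cancel₀ _ hA0, sub_self]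
  have hdz : d ∈ (⊥ : AddSubgroup (DefMod hb)) := by
    refine mem_of_fixed_coset O hp2 (DefMod.nsmul_eq_zero p) ⊥ (fun σ _ l hl => ?_) hd
      fun σ hσ => ?_
    · rw [AddSubgroup.mem_bot] at hl ⊢
      rw [hl, smul_zero]
    · rw [AddSubgroup.mem_bot, sub_eq_zero]
      refine DefMod.mk_ext (by simp [hdr]) (funext fun i => ?_)
      fin_cases i <;>
        simp [hdr, Matrix.mulVec, dotProduct, Fin.sum_univ_two, hd1, hsub σ hσ,
          hup σ (inG_le_decG p hσ)]
  rw [AddSubgroup.mem_bot] at hdz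
  rw [← sub_eq_zero, ← hdi, hdz]
  rfl

end Fermat.Agent.CFT.GW
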