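import Fermat.Agent.CFT.Local.Unramified
import Fermat.Agent.CFT.Coh.H2

/-!
# An unramified auxiliary extension of a local field

Restriction between finite normal subfields of `PadicAlgCl q`, the relation between inertia and the
valuation of `q`, and the unramified field generated by a root of unity of order `q ^ n - 1`.
-/

set_option autoImplicit false
set_option synthInstance.maxHeartbeats 200000
set_option maxHeartbeats 1000000
set_option linter.unusedSectionVars false
set_option linter.style.haveILetI false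

noncomputable section

namespace Fermat.Agent.CFT.GW.LocalCyclo

open Fermat.Agent.CFT.Local Module

variable {q : ℕ} [Fact q.Prime]

section Restrict

variable {E E' : IntermediateField ℚ_[q] (PadicAlgCl q)}

/-- Restriction to a normal subfield. -/
def locRes [Normal ℚ_[q] E] [Normal ℚ_[q] E'] (h : E ≤ E') :
    (E' ≃ₐ[ℚ_[q]] E') →* (E ≃ₐ[ℚ_[q]] E) :=
  MonoidHom.mk' (fun σ => AlgEquiv.restrictNormalHom E (σ.liftNormal (PadicAlgCl q))) fun σ τ => by
    refine AlgEquiv.ext fun x => Subtype.ext ?_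
    have key : ∀ (ρ : E' ≃ₐ[ℚ_[q]] E') (y : E),
        ((AlgEquiv.restrictNormalHom E (ρ.liftNormal (PadicAlgCl q)) y : E) : PadicAlgCl q) =
          ((ρ ⟨y, h y.2⟩ : E') : PadicAlgCl q) := fun ρ y =>
      (AlgEquiv.restrictNormal_commutes (ρ.liftNormal (PadicAlgCl q)) E y).trans
        (AlgEquiv.liftNormal_commutes ρ (PadicAlgCl q) ⟨y, h y.2⟩)
    rw [key, AlgEquiv.mul_apply, AlgEquiv.mul_apply, key]
    congr 2
    exact Subtype.ext (key τ x).symm

theorem coe_locRes [Normal ℚ_[q] E] [Normal ℚ_[q] E'] (h : E ≤ E') (σ : E' ≃ₐ[ℚ_[q]] E') (x : E) :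
    ((locRes h σ x : E) : PadicAlgCl q) = ((σ ⟨x, h x.2⟩ : E') : PadicAlgCl q) :=
  (AlgEquiv.restrictNormal_commutes (σ.liftNormal (PadicAlgCl q)) E x).trans
    (AlgEquiv.liftNormal_commutes σ (PadicAlgCl q) ⟨x, h x.2⟩)

theorem locRes_eq_one_iff [Normal ℚ_[q] E] [Normal ℚ_[q] E'] (h : E ≤ E')
    (σ : E' ≃ₐ[ℚ_[q]] E') :
    locRes h σ = 1 ↔ ∀ x : E', (x : PadicAlgCl q) ∈ E → σ x = x := by
  constructor
  · intro hσ x hx
    refine Subtype.ext ?_
    have e := coe_locRes h σ ⟨x, hx⟩
    rw [hσ, AlgEquiv.one_apply] at e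
    exact e.symm
  · intro hσ
    refine AlgEquiv.ext fun x => Subtype.ext ?_
    rw [coe_locRes, hσ ⟨x, h x.2⟩ x.2]
    rfl

theorem locRes_surjective [Normal ℚ_[q] E] [Normal ℚ_[q] E'] (h : E ≤ E') :
    Function.Surjective (locRes h) := fun τ => by
  refine ⟨AlgEquiv.restrictNormalHom E' (τ.liftNormal (PadicAlgCl q)),
    AlgEquiv.ext fun x => Subtype.ext ?_⟩
  rw [coe_locRes]
  exact (AlgEquiv.restrictNormal_commutes (τ.liftNormal (PadicAlgCl q)) E' ⟨x, h x.2⟩).trans
    (AlgEquiv.liftNormal_commutes τ (PadicAlgCl q) x)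

theorem locRes_mem_inertia [FiniteDimensional ℚ_[q] E] [FiniteDimensional ℚ_[q] E']
    [Normal ℚ_[q] E] [Normal ℚ_[q] E'] (h : E ≤ E') {σ : E' ≃ₐ[ℚ_[q]] E'}
    (hσ : σ ∈ inertia E') : locRes h σ ∈ inertia E :=
  mem_inertia.mpr fun x hx => by
    show ‖((locRes h σ x : E) : PadicAlgCl q) - (x : PadicAlgCl q)‖ < 1
    rw [coe_locRes]
    exact mem_inertia.mp hσ ⟨x, h x.2⟩ hx

/-- Elements fixed by the kernel of restriction come from the subfield. -/
theorem mem_of_fixed_ker [Normal ℚ_[q] E] [Normal ℚ_[q] E'] (h : E ≤ E') {y : E'}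
    (hy : ∀ σ ∈ (locRes h).ker, σ y = y) : (y : PadicAlgCl q) ∈ E := by
  haveI : IsGalois ℚ_[q] (PadicAlgCl q) := ⟨⟩
  rw [← InfiniteGalois.fixedField_fixingSubgroup E, IntermediateField.mem_fixedField_iff]
  intro τ hτ
  have hker : AlgEquiv.restrictNormalHom E' τ ∈ (locRes h).ker := by
    rw [MonoidHom.mem_ker, locRes_eq_one_iff]
    intro x hx
    exact Subtype.ext ((AlgEquiv.restrictNormal_commutes τ E' x).trans
      ((IntermediateField.mem_fixingSubgroup_iff E τ).mp hτ x hx))
  exact (AlgEquiv.restrictNormal_commutes τ E' y).symm.trans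
    (congrArg Subtype.val (hy _ hker))

end Restrict

section Basic

variable (E : IntermediateField ℚ_[q] (PadicAlgCl q)) [FiniteDimensional ℚ_[q] E]

/-- `q` as a unit of the field. -/
def qUnit : Eˣ :=
  Units.mk0 (q : E) (Nat.cast_ne_zero.mpr (Fact.out : q.Prime).ne_zero)

theorem smul_qUnit (σ : E ≃ₐ[ℚ_[q]] E) : σ • qUnit E = qUnit E := Units.ext (map_natCast σ q)

theorem resDeg_mul_ordZ_qUnit : (resDeg E : ℤ) * ordZ E (qUnit E) = finrank ℚ_[q] E := by
  have h := ordQFun_eq E (qUnit E)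
  have h' : ordQFun E (qUnit E) = (finrank ℚ_[q] E : ℤ) :=
    congrArg Multiplicative.toAdd (ordQ_natCast_self E)
  rw [h'] at h
  exact h.symm

theorem card_resAut_eq : Nat.card (ResField E ≃ₐ[ZMod q] ResField E) = resDeg E := by
  haveI : Module.Finite (ZMod q) (ResField E) := Module.Finite.of_finite
  rw [IsGalois.card_aut_eq_finrank]
  refine Nat.pow_right_injective (Fact.out : q.Prime).two_le ?_
  show q ^ finrank (ZMod q) (ResField E) = q ^ resDeg E
  rw [← card_resField, Module.natCard_eq_pow_finrank (K := ZMod q), Nat.card_zmod]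

/-- The ramification index is the order of inertia. -/
theorem ordZ_qUnit [Normal ℚ_[q] E] :
    ordZ E (qUnit E) = Nat.card (inertia E) := by
  haveI : IsGalois ℚ_[q] E := ⟨⟩
  have h1 := resDeg_mul_ordZ_qUnit E
  rw [← IsGalois.card_aut_eq_finrank] at h1
  have h2 : (Nat.card (inertia E) : ℤ) ∣ ordZ E (qUnit E) := by
    have h := card_inf_inertia_dvd_ordZ (⊤ : Subgroup (E ≃ₐ[ℚ_[q]] E)) (x := qUnit E)
      fun σ => smul_qUnit E σ
    rwa [top_inf_eq] at h
  have h3 := (resAut E).ker.card_mul_index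
  rw [Subgroup.index_ker, show (resAut E).ker = inertia E from rfl] at h3
  have h4 : Nat.card (resAut E).range ≤ resDeg E := by
    rw [← card_resAut_eq]
    exact Subgroup.card_le_card_group _
  have hpos : (0 : ℤ) < ordZ E (qUnit E) := by
    have hG : (0 : ℤ) < Nat.card (E ≃ₐ[ℚ_[q]] E) := by exact_mod_cast Nat.card_pos
    nlinarith [resDeg_pos E]
  refine le_antisymm ?_ (Int.le_of_dvd hpos h2)
  have h5 : (resDeg E : ℤ) * ordZ E (qUnit E) ≤ (resDeg E : ℤ) * Nat.card (inertia E) := by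
    rw [h1, ← h3, mul_comm (resDeg E : ℤ), Nat.cast_mul]
    exact mul_le_mul_of_nonneg_left (by exact_mod_cast h4) (Int.natCast_nonneg _)
  exact le_of_mul_le_mul_left h5 (by exact_mod_cast resDeg_pos E)

/-- Reduction is injective on the roots of unity of order prime to `q`. -/
theorem eq_of_res_pow_eq {M : ℕ} (hqM : ¬ q ∣ M) {x y : intRing E} (hx : x ^ M = 1)
    (hy : y ^ M = 1) (h : resMap E x = resMap E y) : x = y := by
  rcases Nat.eq_zero_or_pos M with rfl | hM
  · exact absurd (dvd_zero q) hqM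
  by_contra hne
  have hy' : y * y ^ (M - 1) = 1 := by rw [← pow_succ', Nat.sub_add_cancel hM, hy]
  set d := x * y ^ (M - 1) with hd
  have hdM : d ^ M = 1 := by
    rw [hd, mul_pow, hx, one_mul, ← pow_mul, mul_comm, pow_mul, hy, one_pow]
  have hd1 : d ≠ 1 := fun e => hne (by
    calc x = x * (y * y ^ (M - 1)) := by rw [hy', mul_one]
      _ = y * (x * y ^ (M - 1)) := by ring
      _ = y := by rw [← hd, e, mul_one])
  have hsum : (∑ i ∈ Finset.range M, d ^ i : intRing E) = 0 := by
    refine (mul_eq_zero.mp ?_).resolve_right (sub_ne_zero.mpr hd1)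
    rw [geom_sum_mul, hdM, sub_self]
  have hres : resMap E d = 1 := by
    rw [hd, map_mul, h, ← map_mul, hy', map_one]
  have h0 := congrArg (resMap E) hsum
  simp only [map_sum, map_pow, hres, one_pow, Finset.sum_const, Finset.card_range, nsmul_eq_mul,
    mul_one, map_zero] at h0
  exact hqM ((CharP.cast_eq_zero_iff (ResField E) q M).mp h0)

end Basic

/-- An unramified Galois field with cyclic group of the prescribed order. -/
theorem exists_unramified {n : ℕ} (hn : 0 < n) :
    ∃ (U : IntermediateField ℚ_[q] (PadicAlgCl q)) (_ : FiniteDimensional ℚ_[q] U)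
      (_ : Normal ℚ_[q] U), inertia U = ⊥ ∧ IsCyclic (U ≃ₐ[ℚ_[q]] U) ∧
        Nat.card (U ≃ₐ[ℚ_[q]] U) = n := by
  set M := q ^ n - 1 with hM
  have hq1 : 1 < q := (Fact.out : q.Prime).one_lt
  have hqn := Nat.one_lt_pow hn.ne' hq1
  have hM0 : M ≠ 0 := by omega
  have hqM : ¬ q ∣ M := fun hdvd => by
    have h1 : q ∣ q ^ n - M := Nat.dvd_sub (dvd_pow_self q hn.ne') hdvd
    rw [show q ^ n - M = 1 by omega] at h1
    exact absurd (Nat.le_of_dvd one_pos h1) (by omega)
  haveI : NeZero M := ⟨hM0⟩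
  haveI : NeZero (M : PadicAlgCl q) := ⟨Nat.cast_ne_zero.mpr hM0⟩
  obtain ⟨ζ, hζ⟩ := HasEnoughRootsOfUnity.exists_primitiveRoot (PadicAlgCl q) M
  set U := IntermediateField.adjoin ℚ_[q] ({ζ} : Set (PadicAlgCl q)) with hU
  haveI hUf : FiniteDimensional ℚ_[q] U :=
    IntermediateField.adjoin.finiteDimensional (Algebra.IsIntegral.isIntegral ζ)
  have hζU : ζ ∈ U := IntermediateField.mem_adjoin_simple_self ℚ_[q] ζ
  haveI hUn : Normal ℚ_[q] U := by
    refine IntermediateField.normal_iff_forall_map_le'.mpr fun τ => ?_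
    rw [hU, IntermediateField.adjoin_map]
    refine IntermediateField.adjoin_le_iff.mpr ?_
    rintro _ ⟨y, hy, rfl⟩
    rw [Set.mem_singleton_iff] at hy
    subst hy
    obtain ⟨i, -, hi⟩ := hζ.eq_pow_of_pow_eq_one (show (τ y) ^ M = 1 by
      rw [← map_pow, hζ.pow_eq_one, map_one])
    show τ y ∈ IntermediateField.adjoin ℚ_[q] _
    rw [← hi]
    exact pow_mem hζU i
  haveI : IsGalois ℚ_[q] U := ⟨⟩
  set z : U := ⟨ζ, hζU⟩ with hz
  have hzM : z ^ M = 1 := Subtype.ext (by simpa [hz] using hζ.pow_eq_one)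
  have hext : ∀ σ : U ≃ₐ[ℚ_[q]] U, σ z = z → σ = 1 := fun σ h => by
    refine AlgEquiv.ext fun x => Subtype.ext ?_
    have hc : ∀ y : U, σ.liftNormal (PadicAlgCl q) (y : PadicAlgCl q) = ((σ y : U) : PadicAlgCl q) :=
      fun y => AlgEquiv.liftNormal_commutes σ (PadicAlgCl q) y
    have hle : U ≤ IntermediateField.fixedField (Subgroup.zpowers (σ.liftNormal (PadicAlgCl q))) :=
      IntermediateField.adjoin_le_iff.mpr fun y hy => by
        rw [Set.mem_singleton_iff] at hy
        subst hy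
        rw [SetLike.mem_coe, IntermediateField.mem_fixedField_iff]
        intro g hg
        exact (Subgroup.zpowers_le (H := MulAction.stabilizer _ y)).mpr
          (show σ.liftNormal (PadicAlgCl q) y = y from (hc z).trans (congrArg Subtype.val h)) hg
    rw [← hc, AlgEquiv.one_apply]
    exact (IntermediateField.mem_fixedField_iff _ _).mp (hle x.2) _ (Subgroup.mem_zpowers _)
  have hzint : z ∈ intRing U := by
    rw [mem_intRing]
    refine ((pow_eq_one_iff_of_nonneg (norm_nonneg z) hM0).mp ?_).le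
    rw [← norm_pow, hzM, norm_one]
  set zi : intRing U := ⟨z, hzint⟩
  have hziM : zi ^ M = 1 := Subtype.ext (by rw [SubmonoidClass.coe_pow]; exact hzM)
  have hinj : Function.Injective (resAut U) := (injective_iff_map_eq_one _).mpr fun σ hσ => by
    refine hext σ ?_
    have h := DFunLike.congr_fun hσ (resMap U zi)
    rw [resAut_resMap, AlgEquiv.one_apply] at h
    exact congrArg Subtype.val (eq_of_res_pow_eq U hqM
      (show (galInt σ zi) ^ M = 1 by rw [← map_pow, hziM, map_one]) hziM h)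
  have hI : inertia U = ⊥ := (MonoidHom.ker_eq_bot_iff _).mpr hinj
  haveI hcyc : IsCyclic (U ≃ₐ[ℚ_[q]] U) := isCyclic_of_injective (resAut U) hinj
  -- the residue root has full order
  have hzord : orderOf (resMap U zi) = M := by
    refine (orderOf_eq_iff (Nat.pos_of_ne_zero hM0)).mpr
      ⟨by rw [← map_pow, hziM, map_one], fun j hj hj0 h => ?_⟩
    have e : zi ^ j = 1 := eq_of_res_pow_eq U hqM
      (by rw [← pow_mul, mul_comm, pow_mul, hziM, one_pow]) (one_pow M)
      (by rw [map_pow, h, map_one])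
    have e' : ζ ^ j = 1 := by
      have := congrArg (fun w : intRing U => (((w : U) : PadicAlgCl q))) e
      simpa [zi, hz] using this
    exact absurd (Nat.le_of_dvd hj0 (hζ.dvd_of_pow_eq_one j e')) (by omega)
  have hnf : n ∣ resDeg U := by
    have hne : resMap U zi ≠ 0 := fun h => by
      have := pow_orderOf_eq_one (resMap U zi)
      rw [hzord, h, zero_pow hM0] at this
      exact zero_ne_one this
    letI := Fintype.ofFinite (ResField U)
    have h1 : M ∣ q ^ resDeg U - 1 := by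
      rw [← hzord, ← card_resField, Nat.card_eq_fintype_card]
      exact orderOf_dvd_of_pow_eq_one (FiniteField.pow_card_sub_one_eq_one _ hne)
    have h2 := Nat.gcd_eq_left h1
    rw [hM, Nat.pow_sub_one_gcd_pow_sub_one] at h2
    have h3 : q ^ Nat.gcd n (resDeg U) = q ^ n := by
      have := Nat.one_le_pow (Nat.gcd n (resDeg U)) q (by omega)
      omega
    exact Nat.gcd_eq_left_iff_dvd.mp (Nat.pow_right_injective hq1 h3)
  have hfd : resDeg U ∣ Nat.card (U ≃ₐ[ℚ_[q]] U) :=
    IsGalois.card_aut_eq_finrank ℚ_[q] U ▸ resDeg_dvd_finrank U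
  have hdn : Nat.card (U ≃ₐ[ℚ_[q]] U) ∣ n := by
    rw [← IsCyclic.exponent_eq_card]
    refine Monoid.exponent_dvd_of_forall_pow_eq_one fun σ => hext _ ?_
    obtain ⟨i, hi⟩ := (FiniteField.bijective_frobeniusAlgEquivOfAlgebraic_pow (ZMod q)
      (ResField U)).surjective (resAut U σ)
    have hσz : ∀ j : ℕ, resMap U (galInt (σ ^ j) zi) = resMap U zi ^ q ^ ((i : ℕ) * j) := fun j => by
      rw [← resAut_resMap, map_pow, ← hi, ← pow_mul, AlgEquiv.coe_pow,
        FiniteField.coe_frobeniusAlgEquivOfAlgebraic_iterate]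
      simp [ZMod.card]
    have h := hσz n
    have hmod : q ^ ((i : ℕ) * n) ≡ 1 [MOD M] := by
      rw [mul_comm, pow_mul]
      have : q ^ n ≡ 1 [MOD M] := by
        rw [Nat.ModEq.comm, Nat.modEq_iff_dvd' (by omega)]
      simpa using this.pow (i : ℕ)
    rw [← map_pow, pow_eq_pow_of_modEq hmod hziM, pow_one] at h
    exact congrArg Subtype.val (eq_of_res_pow_eq U hqM
      (show (galInt (σ ^ n) zi) ^ M = 1 by rw [← map_pow, hziM, map_one]) hziM h)
  exact ⟨U, hUf, hUn, hI, hcyc, Nat.dvd_antisymm hdn (hnf.trans hfd)⟩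

end Fermat.Agent.CFT.GW.LocalCyclo
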