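import Fermat.Agent.CFT.GW.LocalAux
import Fermat.Agent.CFT.GW.Defs
import Fermat.Agent.CFT.Idele.Axioms
import Fermat.Agent.CFT.Idele.Carry

/-!
# The step axioms of a local field

Hilbert 90 and the Herbrand quotient of the units give the norm index of a step of prime index;
also the generic facts on carry cocycles used for the fundamental class.
-/

set_option autoImplicit false
set_option synthInstance.maxHeartbeats 200000
set_option maxHeartbeats 1000000
set_option linter.unusedSectionVars false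
set_option linter.style.haveILetI false

noncomputable section

namespace Fermat.Agent.CFT.GW

open groupCohomology Fermat.Agent.CFT.Local

section Abstract

variable {G A : Type*} [Group G] [AddCommGroup A] [DistribMulAction G A]

/-- A norm from a subgroup trivialises the restricted carry class. -/
theorem carryN_subgroup_mem_of_norm {n : ℕ} [NeZero n] (χ : G →* Multiplicative (ZMod n))
    (N : Subgroup G) [Fintype N] (y x : A) (hx : ∑ h : N, (h : G) • y = x) :
    IsCoboundary₂ fun ab : N × N => Idele.carryN χ x ((ab.1 : G), (ab.2 : G)) := by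
  classical
  refine ⟨fun g => ∑ h : N,
    if Idele.chiVal χ (h : G) < Idele.chiVal χ (g : G) then (h : G) • y else 0, fun a b => ?_⟩
  set P : ℕ → A := fun t => ∑ h : N, if Idele.chiVal χ (h : G) < t then (h : G) • y else 0 with hP
  show a • P (Idele.chiVal χ (b : G)) - P (Idele.chiVal χ ((a * b : N) : G)) +
      P (Idele.chiVal χ (a : G)) =
    ((Idele.chiVal χ (a : G) + Idele.chiVal χ (b : G)) / n) • x
  have e : a • P (Idele.chiVal χ (b : G)) = ∑ h : N,
      if Idele.chiVal χ ((a⁻¹ * h : N) : G) < Idele.chiVal χ (b : G) then (h : G) • y else 0 := by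
    simp only [hP, Finset.smul_sum, smul_ite, smul_zero]
    refine Fintype.sum_equiv (Equiv.mulLeft a) _ _ fun h => ?_
    simp [Subgroup.smul_def, smul_smul]
  rw [e, Subgroup.coe_mul, Idele.chiVal_mul, ← hx, Finset.smul_sum]
  simp only [hP]
  rw [← Finset.sum_sub_distrib, ← Finset.sum_add_distrib]
  refine Finset.sum_congr rfl fun h _ => ?_
  have hw : Idele.chiVal χ (h : G) =
      (Idele.chiVal χ (a : G) + Idele.chiVal χ ((a⁻¹ * h : N) : G)) % n := by
    rw [← Idele.chiVal_mul, ← Subgroup.coe_mul, mul_inv_cancel_left]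
  have ha := Idele.chiVal_lt χ (a : G)
  have hb := Idele.chiVal_lt χ (b : G)
  have hc := Idele.chiVal_lt χ ((a⁻¹ * h : N) : G)
  rw [hw]
  generalize Idele.chiVal χ (a : G) = i at *
  generalize Idele.chiVal χ (b : G) = j at *
  generalize Idele.chiVal χ ((a⁻¹ * h : N) : G) = l at *
  have hmod : ∀ u : ℕ, u < 2 * n → u % n = if u < n then u else u - n := fun u hu => by
    split_ifs with h'
    · exact Nat.mod_eq_of_lt h'
    · rw [Nat.mod_eq_sub_mod (by omega), Nat.mod_eq_of_lt (by omega)]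
  have hdiv : (i + j) / n = if i + j < n then 0 else 1 := by
    split_ifs with h'
    · exact Nat.div_eq_of_lt h'
    · exact Nat.div_eq_of_lt_le (by omega) (by omega)
  rw [hmod (i + l) (by omega), hmod (i + j) (by omega), hdiv]
  split_ifs <;> first
    | omega
    | simp

/-- The coboundaries pull back along a homomorphism and an equivariant map. -/
theorem isCoboundary₂_pullback {Q B : Type*} [Group Q] [AddCommGroup B] [DistribMulAction Q B]
    (π : G →* Q) (ι : B →+ A) (hinv : ∀ (g : G) (x : B), g • ι x = ι (π g • x)) {c : Q × Q → B}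
    (hc : IsCoboundary₂ c) : IsCoboundary₂ fun gh : G × G => ι (c (π gh.1, π gh.2)) := by
  obtain ⟨b, hb⟩ := hc
  refine ⟨fun g => ι (b (π g)), fun g h => ?_⟩
  show g • ι (b (π h)) - ι (b (π (g * h))) + ι (b (π g)) = ι (c (π g, π h))
  rw [hinv, map_mul π, ← map_sub, ← map_add, hb]

/-- A normalised representative of a class. -/
theorem exists_normCocycle {c : G × G → A} (hc : IsCocycle₂ c) :
    ∃ u : NormCocycle G A, c - u.toFun ∈ cobound₂ G A := by
  refine ⟨⟨c - dOne fun _ => c (1, 1), isCocycle₂_sub hc (isCocycle₂_dOne _), fun g => ?_⟩, ?_⟩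
  · simp only [Pi.sub_apply, dOne, one_smul, sub_self, zero_add,
      map_one_fst_of_isCocycle₂ hc g]
  · rw [sub_sub_cancel]
    exact dOne_mem _

variable {G' A' : Type*} [Group G'] [AddCommGroup A'] [DistribMulAction G' A']

/-- The step axioms transport along isomorphisms. -/
theorem stepAxioms_congr {p : ℕ} (e : G ≃* G') (φ : A ≃+ A')
    (hφ : ∀ g a, φ (g • a) = e g • φ a) (h : StepAxioms p G A) : StepAxioms p G' A' := by
  have hinv : ∀ g' a', φ.symm (g' • a') = e.symm g' • φ.symm a' := fun g' a' => φ.injective (by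
    rw [hφ, φ.apply_symm_apply, φ.apply_symm_apply, e.apply_symm_apply])
  have hstep : ∀ {H K : Subgroup G'} {g : G'}, IsStep p H K g →
      IsStep p (H.comap e.toMonoidHom) (K.comap e.toMonoidHom) (e.symm g) := by
    intro H K g hs
    exact ⟨Subgroup.comap_mono hs.le,
      by simpa [Subgroup.mem_comap] using hs.mem, by simpa [Subgroup.mem_comap] using hs.notMem,
      hs.isPGroup.comap_of_injective _ e.injective,
      by rw [Subgroup.relIndex_comap, Subgroup.map_comap_eq_self_of_surjective e.surjective]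
         exact hs.relIndex⟩
  have hfix : ∀ {S : Subgroup G'} {a' : A'},
      (∀ h ∈ S, h • a' = a') ↔ ∀ h ∈ S.comap e.toMonoidHom, h • φ.symm a' = φ.symm a' := by
    intro S a'
    constructor
    · intro ha h hh
      have := congrArg φ.symm (ha _ hh)
      rw [hinv] at this
      simpa using this
    · intro ha h hh
      have h' := ha (e.symm h) (by simpa [Subgroup.mem_comap] using hh)
      rw [← hinv] at h'
      exact φ.symm.injective h'
  have hnorm : ∀ (g : G') (a' : A'),
      φ.symm (stepNorm p g a') = stepNorm p (e.symm g) (φ.symm a') := fun g a' => by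
    simp only [stepNorm, map_sum, hinv, map_pow]
  refine ⟨fun H K g hs a ha hN => ?_, fun H K g hs => ?_⟩
  · obtain ⟨b, hb, hgb⟩ := h.h1 _ _ _ (hstep hs) (φ.symm a) (hfix.mp ha)
      (by rw [← hnorm, hN, map_zero])
    refine ⟨φ b, hfix.mpr (by simpa using hb), φ.symm.injective ?_⟩
    rw [map_sub, hinv, φ.symm_apply_apply, hgb]
  · obtain ⟨x₀, hx₀, hgen⟩ := h.index_le _ _ _ (hstep hs)
    refine ⟨φ x₀, hfix.mpr (by simpa using hx₀), fun x hx => ?_⟩
    obtain ⟨m, b, hb, hxe⟩ := hgen (φ.symm x) (hfix.mp hx)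
    refine ⟨m, φ b, hfix.mpr (by simpa using hb), φ.symm.injective ?_⟩
    rw [hxe, map_add, map_zsmul, hnorm, φ.symm_apply_apply, φ.symm_apply_apply]

end Abstract

variable {p : ℕ} [hp : Fact p.Prime] {q : ℕ} [Fact q.Prime]
  {E : IntermediateField ℚ_[q] (PadicAlgCl q)} [FiniteDimensional ℚ_[q] E] [Normal ℚ_[q] E]

theorem toMul_stepNorm (g : E ≃ₐ[ℚ_[q]] E) (a : Additive Eˣ) :
    (stepNorm p g a).toMul = ∏ i ∈ Finset.range p, g ^ i • a.toMul := by
  rw [stepNorm, toMul_sum]
  rfl

/-- Hilbert 90 for a step. -/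
theorem step_h90 {H K : Subgroup (E ≃ₐ[ℚ_[q]] E)} {g : E ≃ₐ[ℚ_[q]] E} (hs : IsStep p H K g)
    (a : Additive Eˣ) (ha : ∀ k ∈ K, k • a = a) (hN : stepNorm p g a = 0) :
    ∃ b : Additive Eˣ, (∀ k ∈ K, k • b = b) ∧ g • b - b = a := by
  obtain ⟨χ, hχ, hker, hg⟩ := hs.exists_char
  set γ : H := ⟨g, hs.mem⟩
  have ha' : ∀ k ∈ χ.ker, (k : H) • a = a := fun k hk => by
    rw [hker, Subgroup.mem_subgroupOf] at hk
    exact ha _ hk
  have hsum : (∑ i ∈ Finset.range p, γ ^ i • a) = 0 := by
    rw [← hN, stepNorm]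
    exact Finset.sum_congr rfl fun i _ => by rw [Subgroup.smul_def, SubmonoidClass.coe_pow]
  -- an explicit cocycle with value `a` at the generator
  let P : ℕ → Additive Eˣ := fun m => ∑ j ∈ Finset.range m, γ ^ j • a
  have hP : ∀ m m', P (m + m') = P m + γ ^ m • P m' := fun m m' => by
    simp only [P, Finset.sum_range_add, Finset.smul_sum, smul_smul, ← pow_add]
  have hact : ∀ (x : H) (m : ℕ), x • P m = γ ^ Idele.chiVal χ x • P m := fun x m => by
    simp only [P, Finset.smul_sum]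
    refine Finset.sum_congr rfl fun j _ => ?_
    have hk := Idele.inv_pow_chiVal_mul_mem_ker hg x
    have hk' : (γ ^ j)⁻¹ * ((γ ^ Idele.chiVal χ x)⁻¹ * x) * γ ^ j ∈ χ.ker := by
      simpa using (inferInstance : χ.ker.Normal).conj_mem _ hk (γ ^ j)⁻¹
    conv_rhs => rw [← ha' _ hk']
    simp only [smul_smul]
    congr 1
    simp [mul_assoc]
  obtain ⟨y, hy⟩ := h1Zero_units H (fun x => P (Idele.chiVal χ x)) fun x x' => by
    show P (Idele.chiVal χ (x * x')) = x • P (Idele.chiVal χ x') + P (Idele.chiVal χ x)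
    rw [hact x, Idele.chiVal_mul, add_comm (γ ^ Idele.chiVal χ x • P (Idele.chiVal χ x'))]
    have hx := Idele.chiVal_lt χ x
    have hx' := Idele.chiVal_lt χ x'
    rw [← hP]
    generalize Idele.chiVal χ x = i at *
    generalize Idele.chiVal χ x' = i' at *
    rcases Nat.lt_or_ge (i + i') p with hlt | hge
    · rw [Nat.mod_eq_of_lt hlt]
    · rw [Nat.mod_eq_sub_mod hge, Nat.mod_eq_of_lt (by omega)]
      conv_rhs => rw [show i + i' = p + (i + i' - p) by omega, hP]
      rw [show P p = 0 from hsum, zero_add]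
      simp only [P, Finset.smul_sum, smul_smul, ← pow_add]
      refine Finset.sum_congr rfl fun j _ => ?_
      rw [add_comm, pow_add, mul_smul, ha' _ (Idele.pow_mem_ker hg)]
  have hval : ∀ x : H, x • y - y = P (Idele.chiVal χ x) := hy
  refine ⟨y, fun k hk => ?_, ?_⟩
  · have h := hval ⟨k, hs.le hk⟩
    rw [Idele.chiVal_of_mem_ker χ (by rw [hker, Subgroup.mem_subgroupOf]; exact hk)] at h
    exact sub_eq_zero.mp h
  · have h := hval γ
    rw [show Idele.chiVal χ γ = 1 by
      simpa using Idele.chiVal_pow hg hp.out.one_lt] at h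
    simpa [P, γ, Subgroup.smul_def] using h

/-- The norm index of a step of a local field is at most `p`. -/
theorem exists_norm_gen {H K : Subgroup (E ≃ₐ[ℚ_[q]] E)} {g : E ≃ₐ[ℚ_[q]] E}
    (hs : IsStep p H K g) :
    ∃ x₀ : Additive Eˣ, (∀ h ∈ H, h • x₀ = x₀) ∧
      ∀ x : Additive Eˣ, (∀ h ∈ H, h • x = x) →
        ∃ (m : ℤ) (b : Additive Eˣ), (∀ k ∈ K, k • b = b) ∧ x = m • x₀ + stepNorm p g b := by
  classical
  letI : Fintype H := Fintype.ofFinite H
  letI : Fintype K := Fintype.ofFinite K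
  have st : Idele.Step p H K g :=
    Idele.Step.of_isPGroup hs.le hs.mem hs.notMem hs.isPGroup hs.relIndex
  set d := Idele.dStep Eˣ st with hd
  set N := Idele.nStep Eˣ st with hN
  have hdN : ∀ x, d (N x) = 1 := Idele.dStep_nStep st
  have hNd : ∀ x, N (d x) = 1 := Idele.nStep_dStep st
  obtain ⟨Λ⟩ := exists_normalLattice (E := E)
  set D := deepUnits Λ.good 0
  have hD : ∀ t : E ≃ₐ[ℚ_[q]] E, ∀ u ∈ D, t • u ∈ D := fun t u hu => Λ.smul_mem_deepUnits hu
  have hUU : ∀ t : E ≃ₐ[ℚ_[q]] E, ∀ u ∈ unitGroup E, t • u ∈ unitGroup E := fun t u hu =>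
    (smul_mem_unitGroup_iff t u).mpr hu
  have hok : ∀ (S : Subgroup (E ≃ₐ[ℚ_[q]] E)) [Fintype S], Idele.NormOK S D := fun S _ =>
    ⟨fun x hx hfix => Λ.exists_normHom_eq S hx hfix, fun x hx hN => Λ.exists_augHom_eq S hx hN⟩
  obtain ⟨hD1, hD2⟩ := Idele.ind0Sub_of_normOK st hD (hok H) (hok K)
  set U' := Idele.subFixed K (unitGroup E)
  set D' := Idele.subFixed K D
  have hV : D'.relIndex U' ≠ 0 := fun h => relIndex_deepUnits_ne_zero Λ.good 0 (by
    change (D.comap _).relIndex ((unitGroup E).comap _) = 0 at h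
    rw [Subgroup.relIndex_comap, Subgroup.map_comap_eq] at h
    exact Subgroup.relIndex_eq_zero_of_le_right inf_le_right h)
  obtain ⟨hU, hU0⟩ := relIndex_map_inf_ker_eq U' d N (Idele.map_dStep_le st hUU)
    (Idele.map_nStep_le st hUU) (fun x _ => hdN x) (fun x _ => hNd x) D'
    (fun x hx => deepUnits_le_unitGroup Λ.good hx) hV (Idele.map_dStep_le st hD)
    (Idele.map_nStep_le st hD) (Subgroup.relIndex_eq_one.mp hD1) (Subgroup.relIndex_eq_one.mp hD2)
  -- Hilbert 90
  have h90 : Idele.ind0 N d = 1 := Subgroup.relIndex_eq_one.mpr fun x hx => by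
    obtain ⟨b, hb, hgb⟩ := step_h90 hs (Additive.ofMul (x : Eˣ))
      (fun k hk => congrArg Additive.ofMul (x.2 k hk)) (Additive.toMul.injective (by
        rw [toMul_stepNorm, toMul_zero]
        exact congrArg Subtype.val (MonoidHom.mem_ker.mp hx)))
    exact ⟨⟨b.toMul, fun k hk => congrArg Additive.toMul (hb k hk)⟩,
      Subtype.ext (congrArg Additive.toMul hgb)⟩
  -- the value group
  set v : Idele.fixedBy K Eˣ →* Multiplicative ℤ := (ord E).comp (Idele.fixedBy K Eˣ).subtype
  have hvU : ∀ x, x ∈ U' ↔ v x = 1 := fun x => (ord_eq_one_iff E).symm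
  have hvd : ∀ x, v (d x) = 1 := fun x => by
    show ord E ((d x : Idele.fixedBy K Eˣ) : Eˣ) = 1
    rw [Idele.dStep_coe, map_div, ord_smul_unit, div_self']
  have hvN : ∀ x, v (N x) = v x ^ p := fun x => by
    show ord E ((N x : Idele.fixedBy K Eˣ) : Eˣ) = _
    rw [Idele.nStep_coe, map_prod]
    simp only [ord_smul_unit, Finset.prod_const, Finset.card_range]
    rfl
  have hQN : Idele.ind0Quot N d U' = 1 := Subgroup.relIndex_eq_one.mpr fun x hx => by
    refine le_sup_right (a := d.range) ((hvU x).mpr ?_)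
    have h := (hvU _).mp hx
    rw [hvN] at h
    exact (pow_eq_one_iff_left hp.out.ne_zero).mp h
  obtain ⟨⟨_, a, rfl⟩, ha⟩ := IsCyclic.exists_generator (α := v.range)
  have hQd : Idele.ind0Quot d N U' ≤ p := by
    refine Idele.relIndex_le_of_generator hp.out.pos (a := a) ?_ fun x _ => ?_
    · have e : a ^ p = N a * ((N a)⁻¹ * a ^ p) := (mul_inv_cancel_left _ _).symm
      rw [e]
      refine Subgroup.mul_mem_sup ⟨a, rfl⟩ ((hvU _).mpr ?_)
      rw [map_mul, map_inv, hvN, map_pow, inv_mul_cancel]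
    · obtain ⟨m, hm⟩ := ha ⟨v x, x, rfl⟩
      refine ⟨m, le_sup_right (a := N.range) ((hvU _).mpr ?_)⟩
      have hm' : v a ^ m = v x := congrArg Subtype.val hm
      rw [map_mul, map_inv, map_zpow, hm', inv_mul_cancel]
  have hle : Idele.ind0 d N ≤ p ∧ Idele.ind0 d N ≠ 0 := by
    have h := Idele.herbrand_mul d N hdN hNd U' (Idele.map_dStep_le st hUU)
      (Idele.map_nStep_le st hUU)
    rw [h90, hQN, mul_one, one_mul] at h
    have hS : Idele.ind0Sub d N U' = Idele.ind0Sub N d U' := hU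
    rw [← hS, mul_comm (Idele.ind0Sub d N U')] at h
    have h' : Idele.ind0Quot d N U' = Idele.ind0 d N := mul_right_cancel₀ hU0 h
    refine ⟨h' ▸ hQd, h' ▸ fun hz => ?_⟩
    -- the quotient is generated by the class of `a`, of order dividing `p`
    set R := N.range ⊔ U'
    have hap : a ^ p ∈ R := by
      rw [show a ^ p = N a * ((N a)⁻¹ * a ^ p) from (mul_inv_cancel_left _ _).symm]
      refine Subgroup.mul_mem_sup ⟨a, rfl⟩ ((hvU _).mpr ?_)
      rw [map_mul, map_inv, hvN, map_pow, inv_mul_cancel]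
    have hsurj : Function.Surjective (fun i : Fin p =>
        (QuotientGroup.mk (a ^ (i : ℕ)) : Idele.fixedBy K Eˣ ⧸ R)) := fun c => by
      obtain ⟨x, rfl⟩ := QuotientGroup.mk_surjective c
      obtain ⟨m, hm⟩ := ha ⟨v x, x, rfl⟩
      have hm' : v a ^ m = v x := congrArg Subtype.val hm
      have hp0 : (p : ℤ) ≠ 0 := by exact_mod_cast hp.out.ne_zero
      refine ⟨⟨(m % p).toNat, by
        have := Int.emod_lt_of_pos m (b := (p : ℤ)) (by omega)
        have := Int.emod_nonneg m hp0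
        omega⟩, QuotientGroup.eq.mpr ?_⟩
      rw [show (a ^ (m % p).toNat)⁻¹ * x =
          (a ^ p) ^ (m / p) * ((a ^ m)⁻¹ * x) by
        rw [← mul_assoc, ← zpow_natCast a p, ← zpow_mul, ← zpow_neg a m, ← zpow_add, ← zpow_natCast,
          Int.toNat_of_nonneg (Int.emod_nonneg m hp0), ← zpow_neg a (m % p)]
        congr 2
        rw [Int.emod_def]; ring]
      refine mul_mem (zpow_mem hap _) (le_sup_right (a := N.range) ((hvU _).mpr ?_))
      rw [map_mul, map_inv, map_zpow, hm', inv_mul_cancel]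
    haveI := Finite.of_surjective _ hsurj
    change R.relIndex (U'.comap d) = 0 at hz
    exact Subgroup.index_ne_zero_of_finite (Subgroup.index_eq_zero_of_relIndex_eq_zero hz)
  -- a group of order at most `p` and exponent `p` is cyclic
  have hexp : ∀ x ∈ d.ker, x ^ p ∈ N.range := fun x hx => ⟨x, Subtype.ext (by
    rw [Idele.nStep_coe]
    have hgx := (Idele.mem_ker_dStep st).mp hx
    have hi : ∀ i : ℕ, g ^ i • (x : Eˣ) = (x : Eˣ) := fun i =>
      (MulAction.stabilizer (E ≃ₐ[ℚ_[q]] E) (x : Eˣ)).pow_mem hgx i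
    simp [hi])⟩
  obtain ⟨x₀, hx₀, hgen⟩ : ∃ x₀ ∈ d.ker, ∀ x ∈ d.ker, ∃ m : ℤ, (x₀ ^ m)⁻¹ * x ∈ N.range := by
    haveI hfin : Finite (d.ker ⧸ N.range.subgroupOf d.ker) :=
      Nat.finite_of_card_ne_zero hle.2
    by_cases htriv : ∀ c : d.ker ⧸ N.range.subgroupOf d.ker, c = 1
    · refine ⟨1, one_mem _, fun x hx => ⟨0, ?_⟩⟩
      have := (QuotientGroup.eq_one_iff (⟨x, hx⟩ : d.ker)).mp (htriv _)
      simpa [Subgroup.mem_subgroupOf] using this
    push Not at htriv
    obtain ⟨c, hc⟩ := htriv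
    have hord : orderOf c = p := orderOf_eq_prime (by
      obtain ⟨⟨y, hy⟩, rfl⟩ := QuotientGroup.mk_surjective c
      rw [← QuotientGroup.mk_pow, QuotientGroup.eq_one_iff, Subgroup.mem_subgroupOf]
      exact hexp y hy) hc
    have htop : Subgroup.zpowers c = ⊤ := Subgroup.eq_top_of_le_card _ (by
      rw [Nat.card_zpowers, hord]; exact hle.1)
    obtain ⟨⟨y, hy⟩, rfl⟩ := QuotientGroup.mk_surjective c
    refine ⟨y, hy, fun x hx => ?_⟩
    obtain ⟨m, hm⟩ : (QuotientGroup.mk ⟨x, hx⟩ : d.ker ⧸ N.range.subgroupOf d.ker) ∈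
        Subgroup.zpowers (QuotientGroup.mk ⟨y, hy⟩ : d.ker ⧸ N.range.subgroupOf d.ker) := by
      rw [htop]; trivial
    change (QuotientGroup.mk ⟨y, hy⟩ : d.ker ⧸ _) ^ m = _ at hm
    rw [← QuotientGroup.mk_zpow, QuotientGroup.eq, Subgroup.mem_subgroupOf] at hm
    exact ⟨m, by simpa using hm⟩
  have hmem : ∀ {x : Idele.fixedBy K Eˣ}, x ∈ d.ker → (x : Eˣ) ∈ Idele.fixedBy H Eˣ := fun hx =>
    st.mem_fixedBy_iff.mpr ⟨Subtype.property _, (Idele.mem_ker_dStep st).mp hx⟩
  refine ⟨Additive.ofMul (x₀ : Eˣ), fun h hh => congrArg Additive.ofMul (hmem hx₀ h hh),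
    fun x hx => ?_⟩
  have hxf : x.toMul ∈ Idele.fixedBy H Eˣ := fun h hh => congrArg Additive.toMul (hx h hh)
  obtain ⟨m, b, hb⟩ := hgen ⟨x.toMul, Idele.fixedBy_anti st.le hxf⟩
    ((Idele.mem_ker_dStep st).mpr (hxf g st.mem))
  refine ⟨m, Additive.ofMul (b : Eˣ), fun k hk => congrArg Additive.ofMul (b.2 k hk),
    Additive.toMul.injective ?_⟩
  rw [toMul_add, toMul_zsmul, toMul_stepNorm, toMul_ofMul, toMul_ofMul]
  have hb' := congrArg Subtype.val hb
  rw [Idele.nStep_coe] at hb'
  rw [hb']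
  simp

/-- The class field axioms of a local field. -/
theorem stepAxioms_localUnits :
    StepAxioms p (E ≃ₐ[ℚ_[q]] E) (Additive Eˣ) :=
  ⟨fun _ _ _ hs a ha hN => step_h90 hs a ha hN, fun _ _ _ hs => exists_norm_gen hs⟩

end Fermat.Agent.CFT.GW
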