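import Fermat.Agent.CFT.GW.Defs
import Fermat.Agent.CFT.Idele.ClassFinite

/-!
# Exactness of the semilocal sequence and generation of the idele classes by finitely many places
-/

set_option autoImplicit false
set_option synthInstance.maxHeartbeats 200000
set_option maxHeartbeats 1000000
set_option linter.unusedSectionVars false

noncomputable section

namespace Fermat.Agent.CFT.GW

open ExtCitation Fermat.Agent.Arith IntermediateField Fermat.Agent.CFT.Local Fermat.Agent.CFT.Idele
open Fermat.Agent.CFT.Duality Fermat.Agent.CFT.Euler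

local instance factPrimeGWSemiloc (q : Nat.Primes) : Fact (q : ℕ).Prime := ⟨q.2⟩

variable (L : IntermediateField ℚ QBar) [FiniteDimensional ℚ L] [Normal ℚ L]

/-- An element of `Lˣ` with trivial value at one place is trivial. -/
theorem eq_zero_of_val_diag {a : Additive Lˣ} {q : Nat.Primes} {σ : L ≃ₐ[ℚ] L}
    (h : val (diag L a).toMul q σ = 1) : a = 0 := by
  have h1 : localEmb (q : ℕ) L (σ ((a.toMul : Lˣ) : L)) = 1 := by
    rw [← val_prinL]
    exact congrArg Units.val h
  refine Additive.toMul.injective (Units.ext ?_)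
  exact σ.injective (((localEmb (q : ℕ) L).injective (h1.trans (map_one _).symm)).trans
    (map_one σ).symm)

theorem val_sum_qLoc_of_mem {T : Finset Nat.Primes} (y : Semi L T) {q : Nat.Primes} (hq : q ∈ T)
    (σ : L ≃ₐ[ℚ] L) :
    val (∑ i : T, qLoc L i (y i)).toMul q σ = Loc.val' (CoInd.fn (y ⟨q, hq⟩) σ) := by
  rw [Duality.val_sum, Finset.prod_eq_single (⟨q, hq⟩ : T)]
  · exact val_qLoc_self L q _ σ
  · exact fun i _ hi => val_qLoc_of_ne L (fun e => hi (Subtype.ext e.symm)) _ σ
  · exact fun h => absurd (Finset.mem_univ _) h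

theorem val_sum_qLoc_of_notMem {T : Finset Nat.Primes} (y : Semi L T) {q : Nat.Primes} (hq : q ∉ T)
    (σ : L ≃ₐ[ℚ] L) : val (∑ i : T, qLoc L i (y i)).toMul q σ = 1 := by
  rw [Duality.val_sum]
  exact Finset.prod_eq_one fun i _ => val_qLoc_of_ne L
    (fun e : q = (i : Nat.Primes) => hq (e ▸ i.2)) _ σ

theorem qD_eq_of_proj_sum (T : Finset Nat.Primes) (y : Semi L T) :
    qD L T y = Glob.of (proj L (∑ i : T, qLoc L i (y i))) := by
  rw [qD_apply, map_sum, map_sum]

theorem val_sub_J (x y : J L) (q : Nat.Primes) (σ : L ≃ₐ[ℚ] L) :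
    val (x - y).toMul q σ = val x.toMul q σ / val y.toMul q σ :=
  map_div (valHom q σ) x.toMul y.toMul

theorem iU_injective {T : Finset Nat.Primes} (hT : T.Nonempty) :
    Function.Injective (iU L T) := by
  obtain ⟨q, hq⟩ := hT
  refine (injective_iff_map_eq_zero _).2 fun x hx => TU.incl_injective ?_
  have h : CoInd.fn (iLoc L (T : Set Nat.Primes) q x) 1 = 0 := by
    have h0 := congrFun hx (⟨q, hq⟩ : T)
    rw [show iU L T x (⟨q, hq⟩ : T) = iLoc L (T : Set Nat.Primes) q x from rfl] at h0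
    rw [h0, Pi.zero_apply, map_zero, Pi.zero_apply]
  rw [fn_iLoc] at h
  rw [map_zero]
  exact eq_zero_of_val_diag L (q := q) (σ := 1) (congrArg Loc.val' h)

theorem qD_iU (T : Finset Nat.Primes) (x : TU L (T : Set Nat.Primes)) :
    qD L T (iU L T x) = 0 := by
  rw [qD_eq_of_proj_sum, Glob.of_eq_zero_iff]
  refine ⟨(∑ i : T, qLoc L i (iU L T x i)) - diag L (TU.incl x), fun q σ => ?_, ?_⟩
  · rw [val_sub_J]
    by_cases hq : q ∈ T
    · rw [val_sum_qLoc_of_mem L _ hq,
        show iU L T x ⟨q, hq⟩ = iLoc L (T : Set Nat.Primes) q x from rfl, fn_iLoc]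
      rw [show Loc.val' (Loc.of (Additive.ofMul (val (diag L (TU.incl x)).toMul q σ))) =
        val (diag L (TU.incl x)).toMul q σ from rfl, div_self']
      exact ⟨one_mem _, fun _ => rfl⟩
    · rw [val_sum_qLoc_of_notMem L _ hq, one_div]
      exact ⟨inv_mem (TU.incl_mem x q hq σ), fun h => absurd h hq⟩
  · rw [map_sub, show proj L (diag L (TU.incl x)) = 0 from (proj_eq_zero_iff L).2 ⟨_, rfl⟩,
      sub_zero]

theorem qD_exact (T : Finset Nat.Primes) (y : Semi L T) (hy : qD L T y = 0) :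
    ∃ x, iU L T x = y := by
  rw [qD_eq_of_proj_sum, Glob.of_eq_zero_iff] at hy
  obtain ⟨w, hw, he⟩ := hy
  obtain ⟨a, ha⟩ := (proj_eq_zero_iff L).1
    (show proj L ((∑ i : T, qLoc L i (y i)) - w) = 0 by rw [map_sub, he, sub_self])
  have hv : ∀ q σ, val (diag L (Additive.ofMul a)).toMul q σ =
      val (∑ i : T, qLoc L i (y i)).toMul q σ / val w.toMul q σ := fun q σ => by
    rw [← val_sub_J, ← ha]
    rfl
  refine ⟨TU.mk (Additive.ofMul a) fun q hq σ => ?_, funext fun i => CoInd.ext fun g => ?_⟩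
  · rw [hv, val_sum_qLoc_of_notMem L _ hq, one_div]
    exact inv_mem (hw q σ).1
  · rw [show iU L T _ i = iLoc L (T : Set Nat.Primes) i _ from rfl, fn_iLoc, TU.incl_mk, hv,
      val_sum_qLoc_of_mem L _ i.2, (hw i g).2 i.2, div_one]
    rfl

/-- The values of an idele over `q`. -/
def coIndOfIdele (q : Nat.Primes) (z : J L) : CoInd (decomp L q) (Loc L q) :=
  CoInd.mk (fun g => Loc.of (Additive.ofMul (val z.toMul q g))) fun h g => by
    obtain ⟨t, rfl⟩ := (decompEquiv L q).surjective h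
    rw [Loc.smul_of, coe_decompEquiv, val_toGlobal_mul]
    rfl

theorem qD_surjective {T : Finset Nat.Primes} (hgen : Generates L (T : Set Nat.Primes)) :
    Function.Surjective (qD L T) := by
  intro z
  obtain ⟨c, rfl⟩ := Glob.of_surjective z
  obtain ⟨x, rfl⟩ := proj_surjective L c
  obtain ⟨a, ha⟩ := hgen x
  refine ⟨fun i => coIndOfIdele L i (x + diag L a), ?_⟩
  rw [qD_eq_of_proj_sum, ← sub_eq_zero, ← map_sub, Glob.of_eq_zero_iff]
  refine ⟨(∑ i : T, qLoc L i (coIndOfIdele L i (x + diag L a))) - (x + diag L a),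
    fun q σ => ?_, ?_⟩
  · rw [val_sub_J]
    by_cases hq : q ∈ T
    · rw [val_sum_qLoc_of_mem L _ hq, show Loc.val' (CoInd.fn (coIndOfIdele L q (x + diag L a)) σ) =
        val (x + diag L a).toMul q σ from rfl, div_self']
      exact ⟨one_mem _, fun _ => rfl⟩
    · rw [val_sum_qLoc_of_notMem L _ hq, one_div]
      exact ⟨inv_mem (ha q hq σ), fun h => absurd h hq⟩
  · rw [map_sub, map_add, show proj L (diag L a) = 0 from (proj_eq_zero_iff L).2 ⟨_, rfl⟩,
      add_zero]

theorem exists_generates (T₀ : Finset Nat.Primes) :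
    ∃ T : Finset Nat.Primes, T₀ ⊆ T ∧ Generates L (T : Set Nat.Primes) := by
  classical
  haveI := finite_classes_mod_units (L := L)
  letI : Fintype (idl L ⧸ (unitIdl L ⊔ (prinL L).range)) := Fintype.ofFinite _
  choose S hS using fun c : idl L ⧸ (unitIdl L ⊔ (prinL L).range) =>
    val_mem_unitGroup_cofinite c.out
  refine ⟨T₀ ∪ Finset.univ.biUnion S, Finset.subset_union_left, fun x => ?_⟩
  set c : idl L ⧸ (unitIdl L ⊔ (prinL L).range) := QuotientGroup.mk x.toMul with hc
  have hmem : x.toMul / c.out ∈ unitIdl L ⊔ (prinL L).range := by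
    rw [← QuotientGroup.eq_iff_div_mem, QuotientGroup.out_eq']
  obtain ⟨u, hu, _, ⟨b, rfl⟩, he⟩ := Subgroup.mem_sup.1 hmem
  refine ⟨-(Additive.ofMul b), fun q hq σ => ?_⟩
  have e : (x + diag L (-(Additive.ofMul b))).toMul = u * c.out := by
    show x.toMul * (prinL L b⁻¹) = u * c.out
    rw [map_inv, ← div_eq_mul_inv, div_eq_iff_eq_mul, mul_right_comm, he, div_mul_cancel]
  rw [e, val_mul]
  refine mul_mem (hu q σ) (hS c q (fun h => hq ?_) σ)
  exact Finset.mem_union_right _ (Finset.mem_biUnion.2 ⟨c, Finset.mem_univ _, h⟩)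

end Fermat.Agent.CFT.GW
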