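import Fermat.Agent.CFT.GW.Bound
import Fermat.Agent.CFT.Tangent.LocalBounds
import Fermat.Agent.CFT.Tangent.Dictionary
import Fermat.Prelude.Def_GaloisRep_LocalConditions

/-!
# The bound for a space of minimal tangent classes with Taylor–Wiles primes

A space of classes of first order deformations with cyclotomic determinant, unipotent at the primes
of `Smin` other than `p`, unramified outside `Smin` and the auxiliary primes `q₁, …, q_m`, with the
bound `h⁰ + 1` at `p`, has dimension at most `m`.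
-/

set_option autoImplicit false
set_option synthInstance.maxHeartbeats 200000
set_option linter.style.haveILetI false

noncomputable section

namespace Fermat.Agent.CFT.GW

open Fermat.Agent.Arith Module Fermat.Agent.Deform Fermat.Agent.CFT.Tangent
open scoped Pointwise

variable {k : Type} [Field k]

/-- The matrix of an element acting trivially. -/
theorem matOf_eq_one_of_map_eq_one {A : Type} [CommRing A] [IsLocalRing A] (ρ : GaloisRepAdic A)
    (B : Basis (Fin 2) A ρ.V) {σ : Gal} (h : ρ.ρ σ = 1) : matOf ρ B σ = 1 := by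
  show LinearMap.toMatrixAlgEquiv B (ρ.ρ σ) = 1
  rw [h, map_one]

variable {r : Gal →* M2 k}

/-- An unramified first order deformation: the class vanishes on inertia. -/
theorem eq_zero_of_dual_unramified {b : Gal → M2 k} {ρ : GaloisRepAdic (DualNumber k)}
    (B : Basis (Fin 2) (DualNumber k) ρ.V)
    (hB : ∀ σ, matOf ρ B σ = (1 + epsM (b σ)) * inlM (r σ)) {τ : Gal} (h : ρ.ρ τ = 1) :
    r τ = 1 ∧ b τ = 0 := by
  have e := (matOf_eq_one_of_map_eq_one ρ B h).symm.trans (hB τ)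
  have e1 := congrArg fstM e
  have e2 := congrArg sndM e
  simp only [fstM_one, fstM_mul, fstM_add, fstM_epsM, fstM_inlM, add_zero, one_mul] at e1
  simp only [sndM_one, sndM_mul, fstM_add, fstM_one, fstM_epsM, sndM_inlM, sndM_add, sndM_epsM,
    fstM_inlM, mul_zero, zero_add, add_zero] at e2
  exact ⟨e1.symm, by rw [← e1, mul_one] at e2; exact e2.symm⟩

/-- A unipotent first order deformation: the trace relation of the class. -/
theorem trace_mul_of_dual_unipotent {b : Gal → M2 k} {ρ : GaloisRepAdic (DualNumber k)}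
    (B : Basis (Fin 2) (DualNumber k) ρ.V)
    (hB : ∀ σ, matOf ρ B σ = (1 + epsM (b σ)) * inlM (r σ)) {τ : Gal}
    (h : LinearMap.charpoly (ρ.ρ τ) = (Polynomial.X - 1) ^ 2) :
    (r τ).trace = 2 ∧ (r τ).det = 1 ∧ (b τ * r τ).trace = 0 := by
  rw [← LinearMap.charpoly_toMatrix (ρ.ρ τ) B] at h
  change (matOf ρ B τ).charpoly = _ at h
  rw [Matrix.charpoly_fin_two] at h
  have htr : (matOf ρ B τ).trace = 2 := by
    have e := congrArg (fun P => Polynomial.coeff P 1) h
    simp [pow_two, mul_sub, sub_mul, Polynomial.coeff_X, Polynomial.coeff_C,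
      Polynomial.coeff_one] at e
    linear_combination -e
  have hdet : (matOf ρ B τ).det = 1 := by
    have e := congrArg (fun P => Polynomial.eval 0 P) h
    simpa using e
  rw [hB] at htr hdet
  have hf : fstM ((1 + epsM (b τ)) * inlM (r τ)) = r τ := by simp
  have hs : sndM ((1 + epsM (b τ)) * inlM (r τ)) = b τ * r τ := by simp
  have h1 := congrArg TrivSqZeroExt.fst htr
  have h2 := congrArg TrivSqZeroExt.snd htr
  have h3 := congrArg TrivSqZeroExt.fst hdet
  rw [Matrix.trace_fin_two, TrivSqZeroExt.fst_add, ← fstM_apply, ← fstM_apply, hf,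
    ← Matrix.trace_fin_two] at h1
  rw [Matrix.trace_fin_two, TrivSqZeroExt.snd_add, ← sndM_apply, ← sndM_apply, hs,
    ← Matrix.trace_fin_two] at h2
  rw [Matrix.det_fin_two, TrivSqZeroExt.fst_sub, TrivSqZeroExt.fst_mul, TrivSqZeroExt.fst_mul,
    ← fstM_apply, ← fstM_apply, ← fstM_apply, ← fstM_apply, hf, ← Matrix.det_fin_two] at h3
  exact ⟨h1.trans (by simp [← one_add_one_eq_two]), h3.trans (by simp),
    h2.trans (by simp [← one_add_one_eq_two])⟩

/-- Ramification may be read at the distinguished place. -/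
theorem exists_inertia_ne_one {q : ℕ} [Fact q.Prime] (r : Gal →* M2 k)
    (h : ∃ A : ValuationSubring QBar, A.LiesOverPrime q ∧ ∃ τ ∈ A.inertiaSubgroupIn ℚ, r τ ≠ 1) :
    ∃ τ ∈ (padicPlace q).inertiaSubgroupIn ℚ, r τ ≠ 1 := by
  obtain ⟨A, hA, τ, hτ, hne⟩ := h
  obtain ⟨g, rfl⟩ := exists_smul_eq (Local.padicPlace_liesOverPrime q) hA (Fact.out : q.Prime)
  have h1 : g⁻¹ * τ * g ∈ (padicPlace q).inertiaSubgroupIn ℚ := by
    have := (mem_inertia_smul_iff (g := g⁻¹) (σ := τ) (A := g • padicPlace q)).mpr hτ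
    rwa [inv_inv, inv_smul_smul] at this
  refine ⟨_, h1, fun e => hne ?_⟩
  rw [show τ = g * (g⁻¹ * τ * g) * g⁻¹ by group, map_mul, map_mul, e, mul_one, ← map_mul,
    mul_inv_cancel, map_one]

variable {p : ℕ} [hp : Fact p.Prime] [Finite k] [CharP k p]

/-- **The bound for minimal tangent classes.** -/
theorem finrank_classes_le (hp2 : p ≠ 2) (hr : TWPrimes.TWHyp r)
    (hfin : GaloisFactorsThroughFiniteLevel r)
    (hcyc : ∀ (σ : Gal) (n : ℕ), (∀ μ : QBar, μ ^ p = 1 → σ μ = μ ^ n) → (r σ).det = (n : k))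
    (Smin : Finset ℕ) (hpS : p ∈ Smin) (hSp : ∀ v ∈ Smin, v.Prime)
    (hunr : ∀ (v : ℕ) [Fact v.Prime], v ∉ Smin →
      ∀ τ ∈ (padicPlace v).inertiaSubgroupIn ℚ, r τ = 1)
    (hram : ∀ v ∈ Smin, v ≠ p → ∀ [Fact v.Prime],
      ∃ τ ∈ (padicPlace v).inertiaSubgroupIn ℚ, r τ ≠ 1)
    {m : ℕ} (q : Fin m → ℕ) (hq : ∀ i, (q i).Prime ∧ q i ∉ Smin)
    (hfrob : ∀ i, ∀ [Fact (q i).Prime], ∀ φ : Gal, (padicPlace (q i)).IsFrobeniusAt φ (q i) →
      (r φ).det = 1 ∧ (r φ).trace ^ 2 ≠ 4)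
    (hkill : ∀ b : Gal → M2 k, TWPrimes.IsCocycle r b → IsFiniteLevel b →
      (∀ (v : ℕ) [Fact v.Prime], v ∉ Smin → (∀ i, v ≠ q i) →
        ∀ τ ∈ (padicPlace v).inertiaSubgroupIn ℚ, b τ = 0) →
      (∀ i, ∀ [Fact (q i).Prime], ∃ X : M2 k, X.trace = 0 ∧
        ∀ s ∈ (padicPlace (q i)).decompositionSubgroup ℚ, b s = TWPrimes.cobd r X s) →
      ∃ X : M2 k, X.trace = 0 ∧ ∀ g, b g = TWPrimes.cobd r X g)
    (V : Submodule k (Gal → M2 k)) [Module.Finite k V]
    (hcoc : ∀ b ∈ V, IsAdCocycle r b) (hlev : ∀ b ∈ V, IsFiniteLevel b)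
    (hinj : ∀ b ∈ V, ∀ X : M2 k, b = cobdLin r X → b = 0)
    (hcls : ∀ b ∈ V, b ≠ 0 → ∃ (ρ : GaloisRepAdic (DualNumber k))
      (B : Basis (Fin 2) (DualNumber k) ρ.V), ρ.DetIsCyclotomic p ∧
        (∀ v : ℕ, v.Prime → v ∉ Smin → (∀ i, v ≠ q i) → ρ.IsUnramifiedAt v) ∧
        (∀ v ∈ Smin, v.Prime → v ≠ p → ρ.IsUnipotentOnInertiaAt v) ∧
        ∀ σ, matOf ρ B σ = (1 + epsM (b σ)) * inlM (r σ))
    (hbp : finrank k V ≤ finrank k (V ⊓ cobdOn r ((padicPlace p).decompositionSubgroup ℚ) :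
        Submodule k (Gal → M2 k)) +
      finrank k (fixedOn r ((padicPlace p).decompositionSubgroup ℚ)) + 1) :
    finrank k V ≤ m := by
  classical
  have htr : ∀ b ∈ V, ∀ σ, (b σ).trace = 0 := by
    intro b hb σ
    rcases eq_or_ne b 0 with rfl | hne
    · simp
    · obtain ⟨ρ, B, hd, -, -, hB⟩ := hcls b hb hne
      exact trace_eq_zero_of_det p hd hB σ
  have hur : ∀ b ∈ V, ∀ (v : ℕ) [Fact v.Prime], v ∉ Smin → (∀ i, v ≠ q i) →
      ∀ τ ∈ (padicPlace v).inertiaSubgroupIn ℚ, b τ = 0 := by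
    intro b hb v hv hvS hvq τ hτ
    rcases eq_or_ne b 0 with rfl | hne
    · rfl
    · obtain ⟨ρ, B, -, hu, -, hB⟩ := hcls b hb hne
      exact (eq_zero_of_dual_unramified B hB
        (hu v hv.out hvS hvq _ (Local.padicPlace_liesOverPrime v) τ hτ)).2
  rcases eq_or_ne V ⊥ with rfl | hV
  · simp [finrank_bot]
  obtain ⟨b₀, hb₀, hb₀ne⟩ := Submodule.exists_mem_ne_zero_of_ne_bot hV
  obtain ⟨ρ₀, B₀, -, -, hu₀, hB₀⟩ := hcls b₀ hb₀ hb₀ne
  have h := finrank_tangent_le hp2 hr hfin hcyc Smin hpS hSp hunr q hq hfrob hkill V hcoc hlev htr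
    hur hinj (fun v => if v = p then 1 else 0) fun v hv _ => ?_
  · rw [Finset.sum_ite_eq', if_pos hpS] at h
    omega
  rcases eq_or_ne v p with rfl | hvp
  · simp only [if_true]
    exact_mod_cast hbp
  simp only [if_neg hvp, add_zero]
  refine mod_cast finrank_le_unipotent p hr.two hvp hfin V hcoc hlev htr ?_ (hram v hv hvp) ?_
  · intro τ hτ
    have h := trace_mul_of_dual_unipotent B₀ hB₀
      (hu₀ v hv (hSp v hv) hvp _ (Local.padicPlace_liesOverPrime v) τ hτ)
    exact ⟨h.1, h.2.1⟩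
  · intro b hb τ hτ
    rcases eq_or_ne b 0 with rfl | hne
    · simp
    · obtain ⟨ρ, B, -, -, hu, hB⟩ := hcls b hb hne
      exact (trace_mul_of_dual_unipotent B hB
        (hu v hv (hSp v hv) hvp _ (Local.padicPlace_liesOverPrime v) τ hτ)).2.2

end Fermat.Agent.CFT.GW
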