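import Fermat.Agent.CFT.GW.Defs
import Fermat.Agent.CFT.Euler.SplitCompare
import Mathlib.FieldTheory.Finite.Trace

/-!
# Functionals on trace zero matrices over a finite field
-/

set_option autoImplicit false
set_option linter.unusedSectionVars false
set_option linter.style.haveILetI false

noncomputable section

namespace Fermat.Agent.CFT.GW

open Fermat.Agent.CFT.Euler

variable {k : Type} [Field k] [Finite k] (p : ℕ) [hp : Fact p.Prime] [CharP k p]
  {G : Type} [Group G] {r : G →* Deform.M2 k}

/-- The absolute trace. -/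
def fpTr : k →+ ZMod p :=
  letI := ZMod.algebra k p
  (Algebra.trace (ZMod p) k).toAddMonoidHom

theorem fpTr_natCast_mul (n : ℕ) (x : k) : fpTr p ((n : k) * x) = (n : ZMod p) * fpTr p x := by
  rw [← nsmul_eq_mul, map_nsmul, nsmul_eq_mul]

theorem exists_fpTr_mul_ne_zero {a : k} (ha : a ≠ 0) : ∃ t : k, fpTr p (t * a) ≠ 0 := by
  letI := ZMod.algebra k p
  haveI : Module.Finite (ZMod p) k := Module.Finite.of_finite
  by_contra hcon
  push Not at hcon
  exact ha ((traceForm_nondegenerate (ZMod p) k).1 a fun t => by
    rw [Algebra.traceForm_apply, mul_comm]; exact hcon t)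

variable (r)

/-- The functional of a trace zero matrix. -/
def traceFun : Adj r →+ (Adj r →+ ZMod p) :=
  AddMonoidHom.mk' (fun C => AddMonoidHom.mk' (fun Y => fpTr p (Adj.mat C * Adj.mat Y).trace)
      fun Y Y' => by simp only [map_add, mul_add, Matrix.trace_add])
    fun C C' => AddMonoidHom.ext fun Y => by
      simp only [map_add, add_mul, Matrix.trace_add, AddMonoidHom.mk'_apply, AddMonoidHom.add_apply]

theorem traceFun_apply (C Y : Adj r) :
    traceFun p r C Y = fpTr p (Adj.mat C * Adj.mat Y).trace := rfl

variable {r}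

theorem traceFun_injective (h2 : (2 : k) ≠ 0) : Function.Injective (traceFun p r) := by
  refine (injective_iff_map_eq_zero _).mpr fun C hC => ?_
  have hkill : ∀ Y : Deform.M2 k, Y.trace = 0 → (Adj.mat C * Y).trace = 0 := fun Y hY => by
    by_contra hne
    obtain ⟨t, ht⟩ := exists_fpTr_mul_ne_zero p hne
    have h := DFunLike.congr_fun hC (t • Adj.mk Y hY)
    rw [traceFun_apply, map_smul, Adj.mat_mk, mul_smul_comm, Matrix.trace_smul, smul_eq_mul] at h
    exact ht h
  have h01 := hkill (Matrix.single 1 0 1) (by simp [Matrix.trace_fin_two, Matrix.single])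
  have h10 := hkill (Matrix.single 0 1 1) (by simp [Matrix.trace_fin_two, Matrix.single])
  have hdd := hkill !![1, 0; 0, -1] (by simp [Matrix.trace_fin_two])
  simp [Matrix.trace_fin_two, Matrix.mul_apply, Fin.sum_univ_two, Matrix.single] at h01 h10 hdd
  have htr : Adj.mat C 0 0 + Adj.mat C 1 1 = 0 := by
    rw [← Matrix.trace_fin_two]; exact Adj.trace_mat C
  have h00 : Adj.mat C 0 0 = 0 := by
    have : (2 : k) * Adj.mat C 0 0 = 0 := by linear_combination hdd + htr
    exact (mul_eq_zero.mp this).resolve_left h2
  have h11 : Adj.mat C 1 1 = 0 := by rwa [h00, zero_add] at htr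
  refine Adj.mat_injective ?_
  ext i j
  fin_cases i <;> fin_cases j <;> simp [h00, h11, h01, h10]

theorem traceFun_bijective (h2 : (2 : k) ≠ 0) : Function.Bijective (traceFun p r) := by
  haveI := finite_dual (A := Adj r) (p := p)
  exact (Nat.bijective_iff_injective_and_card _).mpr
    ⟨traceFun_injective p h2, (card_dual fun Y => Adj.nsmul_eq_zero p Y).symm⟩

end Fermat.Agent.CFT.GW
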